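/-
S14 project (speculative), helper8, stream (B): the abstract ambiguous-class count.

Abstract version of Chevalley's bound `|Cl_L^σ| * p ≤ h_K` for an unramified cyclic extension of
prime degree `p`, given the Herbrand quotient inequality for units.  Pure group theory:
`Lx = Lˣ`, `IL` = group of fractional ideals of `L`, `dL` = principal ideal map, `σ` the generator,
`j : IK → IL` extension of ideals, `i : Kx → Lx`, `e : U → Lx` the units.
-/
import Mathlib

set_option autoImplicit false

namespace Fermat.Agent.Lib.S14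

section defs

variable {G : Type*} [CommGroup G]

/-- `x ↦ σ x / x`. -/
def h8b_del (σ : G →* G) : G →* G := σ / MonoidHom.id G

theorem h8b_del_apply (σ : G →* G) (x : G) : h8b_del σ x = σ x / x := rfl

/-- `x ↦ ∏_{k<p} σ^k x`. -/
def h8b_nu (σ : G →* G) (p : ℕ) : G →* G where
  toFun x := ∏ k ∈ Finset.range p, (σ^[k]) x
  map_one' := by simp [iterate_map_one]
  map_mul' x y := by simp [iterate_map_mul, Finset.prod_mul_distrib]

theorem h8b_nu_apply (σ : G →* G) (p : ℕ) (x : G) :
    h8b_nu σ p x = ∏ k ∈ Finset.range p, (σ^[k]) x := rfl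

/-- multiplicative version of the Herbrand index `[ker f : im g]`. -/
noncomputable def h8b_hqm (f g : G →* G) : ℕ := g.range.relIndex f.ker

theorem h8b_nu_sigma (σ : G →* G) (p : ℕ) (hp : ∀ x, (σ^[p]) x = x) (x : G) :
    h8b_nu σ p (σ x) = h8b_nu σ p x := by
  rw [h8b_nu_apply, h8b_nu_apply]
  have h1 : ∏ k ∈ Finset.range p, (σ^[k]) (σ x) = ∏ k ∈ Finset.range p, (σ^[k+1]) x := by
    refine Finset.prod_congr rfl (fun k _ => ?_)
    rw [Function.iterate_succ_apply]
  rw [h1]
  have h2 := Finset.prod_range_succ (fun k => (σ^[k]) x) p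
  have h3 := Finset.prod_range_succ' (fun k => (σ^[k]) x) p
  rw [h2] at h3
  simp only [Function.iterate_zero, id_eq] at h3
  rw [hp x] at h3
  exact (mul_right_cancel h3).symm

theorem h8b_sigma_nu (σ : G →* G) (p : ℕ) (x : G) :
    σ (h8b_nu σ p x) = h8b_nu σ p (σ x) := by
  rw [h8b_nu_apply, h8b_nu_apply, map_prod]
  refine Finset.prod_congr rfl (fun k _ => ?_)
  rw [← Function.iterate_succ_apply' σ k x, Function.iterate_succ_apply]

theorem h8b_nu_del (σ : G →* G) (p : ℕ) (hp : ∀ x, (σ^[p]) x = x) (x : G) :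
    h8b_nu σ p (h8b_del σ x) = 1 := by
  rw [h8b_del_apply, map_div, h8b_nu_sigma σ p hp, div_self']

theorem h8b_nu_of_fixed (σ : G →* G) (p : ℕ) (x : G) (hx : σ x = x) :
    h8b_nu σ p x = x ^ p := by
  rw [h8b_nu_apply]
  have : ∀ k : ℕ, (σ^[k]) x = x := fun k => Function.iterate_fixed hx k
  rw [Finset.prod_congr rfl (fun k _ => this k), Finset.prod_const, Finset.card_range]

variable {G' : Type*} [CommGroup G']

theorem h8b_iterate_equivariant (σ : G →* G) (σ' : G' →* G') (d : G →* G')
    (h : ∀ x, d (σ x) = σ' (d x)) (k : ℕ) (x : G) : d ((σ^[k]) x) = (σ'^[k]) (d x) := by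
  induction k generalizing x with
  | zero => rfl
  | succ k ih => rw [Function.iterate_succ_apply, ih, h, ← Function.iterate_succ_apply]

theorem h8b_nu_equivariant (σ : G →* G) (σ' : G' →* G') (d : G →* G')
    (h : ∀ x, d (σ x) = σ' (d x)) (p : ℕ) (x : G) : d (h8b_nu σ p x) = h8b_nu σ' p (d x) := by
  rw [h8b_nu_apply, h8b_nu_apply, map_prod]
  exact Finset.prod_congr rfl (fun k _ => h8b_iterate_equivariant σ σ' d h k x)

theorem h8b_del_equivariant (σ : G →* G) (σ' : G' →* G') (d : G →* G')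
    (h : ∀ x, d (σ x) = σ' (d x)) (x : G) : d (h8b_del σ x) = h8b_del σ' (d x) := by
  rw [h8b_del_apply, h8b_del_apply, map_div, h]

end defs

section count

variable {Lx IL Kx IK U : Type*} [CommGroup Lx] [CommGroup IL] [CommGroup Kx] [CommGroup IK]
  [CommGroup U]

variable (p : ℕ) (σL : Lx →* Lx) (σI : IL →* IL) (σU : U →* U)
  (dL : Lx →* IL) (dK : Kx →* IK) (j : IK →* IL) (i : Kx →* Lx) (e : U →* Lx)
  (hσLp : ∀ x, (σL^[p]) x = x) (hσIp : ∀ x, (σI^[p]) x = x)
  (hdσ : ∀ x, dL (σL x) = σI (dL x))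
  (hdi : ∀ a, dL (i a) = j (dK a))
  (hfixL : ∀ x, σL x = x → ∃ a, i a = x) (hfixL' : ∀ a, σL (i a) = i a)
  (hj : Function.Injective j)
  (hfixI : ∀ 𝔄, σI 𝔄 = 𝔄 → ∃ 𝔞, j 𝔞 = 𝔄) (hfixI' : ∀ 𝔞, σI (j 𝔞) = j 𝔞)
  (h90 : ∀ x, h8b_nu σL p x = 1 → ∃ y, x = σL y / y)
  (he : Function.Injective e) (heker : ∀ x, dL x = 1 ↔ ∃ u, e u = x)
  (heσ : ∀ u, e (σU u) = σL (e u))

include hfixI hfixI' in
theorem h8b_ker_delI : (h8b_del σI).ker = j.range := by
  ext x
  rw [MonoidHom.mem_ker, h8b_del_apply, div_eq_one, MonoidHom.mem_range]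
  constructor
  · intro h
    exact hfixI x h
  · rintro ⟨a, rfl⟩
    exact hfixI' a

include hfixL hfixL' in
theorem h8b_ker_delL : (h8b_del σL).ker = i.range := by
  ext x
  rw [MonoidHom.mem_ker, h8b_del_apply, div_eq_one, MonoidHom.mem_range]
  constructor
  · intro h
    exact hfixL x h
  · rintro ⟨a, rfl⟩
    exact hfixL' a

include hσLp h90 in
theorem h8b_range_delL : (h8b_del σL).range = (h8b_nu σL p).ker := by
  ext x
  rw [MonoidHom.mem_ker, MonoidHom.mem_range]
  constructor
  · rintro ⟨y, rfl⟩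
    exact h8b_nu_del σL p hσLp y
  · intro h
    obtain ⟨y, hy⟩ := h90 x h
    exact ⟨y, by rw [h8b_del_apply, hy]⟩

include heker in
theorem h8b_ker_dL : dL.ker = e.range := by
  ext x
  rw [MonoidHom.mem_ker, MonoidHom.mem_range]
  exact heker x

include hσLp hσIp hdσ hfixI hfixI' h90 he heker heσ in
/-- Step 1: `[Amb : P_L · j(I_K)] ≤ h⁰(U)`. -/
theorem h8b_step1 (hU0 : h8b_hqm (h8b_del σU) (h8b_nu σU p) ≠ 0) :
    (dL.range ⊔ j.range).relIndex (dL.range.comap (h8b_del σI)) ≤
      h8b_hqm (h8b_del σU) (h8b_nu σU p) := by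
  set δI := h8b_del σI with hδI
  set δL := h8b_del σL with hδL
  set νL := h8b_nu σL p with hνL
  set νU := h8b_nu σU p with hνU
  set δU := h8b_del σU with hδU
  have hker : δI.ker = j.range := h8b_ker_delI σI j hfixI hfixI'
  have hEU : dL.ker = e.range := h8b_ker_dL dL e heker
  have hcomm : δI.comp dL = dL.comp δL := by
    ext x
    exact (h8b_del_equivariant σL σI dL hdσ x).symm
  -- (a)
  have hPLAmb : dL.range ≤ dL.range.comap δI := by
    rintro _ ⟨β, rfl⟩
    rw [Subgroup.mem_comap]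
    exact ⟨δL β, (h8b_del_equivariant σL σI dL hdσ β)⟩
  have hjAmb : j.range ≤ dL.range.comap δI := by
    rw [← hker]
    intro x hx
    rw [Subgroup.mem_comap, MonoidHom.mem_ker.mp hx]
    exact one_mem _
  have hAmb0 : dL.range ⊔ j.range ≤ dL.range.comap δI := sup_le hPLAmb hjAmb
  -- (b)
  have hb : (dL.range ⊔ j.range).relIndex (dL.range.comap δI) =
      ((dL.range ⊔ j.range).map δI).relIndex ((dL.range.comap δI).map δI) := by
    rw [Subgroup.relIndex_map_map, hker, sup_eq_left.mpr (le_sup_right : j.range ≤ dL.range ⊔ j.range),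
      sup_eq_left.mpr hjAmb]
  -- (c)
  have hc1 : (dL.range.comap δI).map δI = (δI.range.comap dL).map dL := by
    rw [Subgroup.map_comap_eq, Subgroup.map_comap_eq, inf_comm]
  have hc2 : (dL.range ⊔ j.range).map δI = δL.range.map dL := by
    have : j.range.map δI = ⊥ := by
      rw [← hker]
      exact (Subgroup.map_eq_bot_iff _).mpr le_rfl
    rw [Subgroup.map_sup, this, sup_bot_eq, MonoidHom.map_range, hcomm, ← MonoidHom.map_range]
  -- (e)
  have hYker : dL.ker ≤ δI.range.comap dL := by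
    intro x hx
    rw [Subgroup.mem_comap, MonoidHom.mem_ker.mp hx]
    exact one_mem _
  have he' : (δL.range.map dL).relIndex ((δI.range.comap dL).map dL) =
      (δL.range ⊔ e.range).relIndex (δI.range.comap dL) := by
    rw [Subgroup.relIndex_map_map, hEU.symm, sup_eq_left.mpr hYker]
  -- (f)
  set Y := δI.range.comap dL with hY
  set W := ((νU.range).map e).comap νL with hW
  have hrange : δL.range = νL.ker := h8b_range_delL p σL hσLp h90
  have hf : W ⊓ Y ≤ δL.range ⊔ e.range := by
    rintro α ⟨hα1, -⟩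
    have hα1' : νL α ∈ (νU.range).map e := hα1
    obtain ⟨_, ⟨u, rfl⟩, hu⟩ := hα1'
    have h1 : νL (α / e u) = 1 := by
      rw [map_div, ← hu, hνL, hνU, h8b_nu_equivariant σU σL e heσ, div_self']
    have h2 : α / e u ∈ δL.range := by
      rw [hrange]
      exact h1
    have : α = (α / e u) * e u := by rw [div_mul_cancel]
    rw [this]
    exact Subgroup.mul_mem_sup h2 ⟨u, rfl⟩
  have hdvd : (δL.range ⊔ e.range).relIndex Y ∣ W.relIndex Y := by
    rw [← Subgroup.inf_relIndex_right W Y]
    exact Subgroup.relIndex_dvd_of_le_left Y hf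
  -- (g), (h)
  have hg : W.relIndex Y = ((νU.range).map e).relIndex (Y.map νL) := by
    rw [hW, Subgroup.relIndex_comap]
  have hh : Y.map νL ≤ (δU.ker).map e := by
    rintro _ ⟨α, hα, rfl⟩
    have hα' : dL α ∈ δI.range := hα
    obtain ⟨𝔄, h𝔄⟩ := hα'
    have h1 : dL (νL α) = 1 := by
      rw [hνL, h8b_nu_equivariant σL σI dL hdσ, ← h𝔄, hδI, h8b_nu_del σI p hσIp]
    obtain ⟨u, hu⟩ := (heker _).mp h1
    refine ⟨u, ?_, hu⟩
    show δU u = 1
    rw [hδU, h8b_del_apply, div_eq_one]
    apply he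
    rw [heσ, hu, hνL, h8b_sigma_nu, h8b_nu_sigma σL p hσLp]
  have hh0 : ((νU.range).map e).relIndex ((δU.ker).map e) = h8b_hqm δU νU := by
    rw [Subgroup.relIndex_map_map_of_injective _ _ he]
    rfl
  have hX0 : ((νU.range).map e).relIndex (Y.map νL) ≠ 0 := by
    intro h0
    have := Subgroup.relIndex_eq_zero_of_le_right hh h0
    rw [hh0] at this
    exact hU0 this
  have hXle : ((νU.range).map e).relIndex (Y.map νL) ≤ h8b_hqm δU νU := by
    rw [← hh0]
    refine Subgroup.relIndex_le_of_le_right hh ?_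
    rw [hh0]
    exact hU0
  rw [hb, hc1, hc2, he']
  rw [hg] at hdvd
  exact (Nat.le_of_dvd (Nat.pos_of_ne_zero hX0) hdvd).trans hXle

include hσLp hdσ hdi hfixL hfixL' hj hfixI hfixI' h90 he heker heσ in
/-- Step 3: `[P' : P_K] = h¹(U)` where `P'` = ideals of `K` becoming principal in `L`. -/
theorem h8b_step3 :
    dK.range.relIndex (dL.range.comap j) = h8b_hqm (h8b_nu σU p) (h8b_del σU) := by
  set δI := h8b_del σI with hδI
  set δL := h8b_del σL with hδL
  set νL := h8b_nu σL p with hνL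
  set νU := h8b_nu σU p with hνU
  set δU := h8b_del σU with hδU
  have hkerI : δI.ker = j.range := h8b_ker_delI σI j hfixI hfixI'
  have hkerL : δL.ker = i.range := h8b_ker_delL σL i hfixL hfixL'
  have hEU : dL.ker = e.range := h8b_ker_dL dL e heker
  have hrange : δL.range = νL.ker := h8b_range_delL p σL hσLp h90
  have hcomm : δI.comp dL = dL.comp δL := by
    ext x
    exact (h8b_del_equivariant σL σI dL hdσ x).symm
  have hcommU : δL.comp e = e.comp δU := by
    ext u
    exact (h8b_del_equivariant σU σL e heσ u).symm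
  have hcommK : j.comp dK = dL.comp i := by
    ext a
    exact (hdi a).symm
  -- (b), (c)
  have hb : dK.range.relIndex (dL.range.comap j) =
      (i.range.map dL).relIndex ((j.range.comap dL).map dL) := by
    rw [← Subgroup.relIndex_map_map_of_injective _ _ hj, Subgroup.map_comap_eq,
      Subgroup.map_comap_eq, MonoidHom.map_range, hcommK, ← MonoidHom.map_range, inf_comm]
  -- (e)
  set Z := j.range.comap dL with hZ
  have hZker : dL.ker ≤ Z := by
    intro x hx
    show dL x ∈ j.range
    rw [MonoidHom.mem_ker.mp hx]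
    exact one_mem _
  have hiZ : i.range ≤ Z := by
    rintro _ ⟨a, rfl⟩
    show dL (i a) ∈ j.range
    exact ⟨dK a, (hdi a).symm⟩
  have he' : (i.range.map dL).relIndex (Z.map dL) = (i.range ⊔ e.range).relIndex Z := by
    rw [Subgroup.relIndex_map_map, hEU.symm, sup_eq_left.mpr hZker]
  -- (f)
  have hf : (i.range ⊔ e.range).relIndex Z =
      ((i.range ⊔ e.range).map δL).relIndex (Z.map δL) := by
    rw [Subgroup.relIndex_map_map, hkerL,
      sup_eq_left.mpr (le_sup_left : i.range ≤ i.range ⊔ e.range), sup_eq_left.mpr hiZ]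
  -- (g)
  have hg : (i.range ⊔ e.range).map δL = δU.range.map e := by
    have : i.range.map δL = ⊥ := by
      rw [← hkerL]
      exact (Subgroup.map_eq_bot_iff _).mpr le_rfl
    rw [Subgroup.map_sup, this, bot_sup_eq, MonoidHom.map_range, hcommU, ← MonoidHom.map_range]
  -- (h)
  have hh : Z.map δL = νU.ker.map e := by
    have hZ' : Z = e.range.comap δL := by
      ext x
      show dL x ∈ j.range ↔ δL x ∈ e.range
      rw [← hkerI, ← hEU, MonoidHom.mem_ker, MonoidHom.mem_ker]
      have := DFunLike.congr_fun hcomm x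
      simp only [MonoidHom.comp_apply] at this
      rw [this]
    rw [hZ', Subgroup.map_comap_eq, hrange]
    ext x
    constructor
    · rintro ⟨hx1, u, rfl⟩
      refine ⟨u, ?_, rfl⟩
      show νU u = 1
      apply he
      rw [hνU, h8b_nu_equivariant σU σL e heσ, map_one]
      exact hx1
    · rintro ⟨u, hu, rfl⟩
      refine ⟨?_, u, rfl⟩
      show νL (e u) = 1
      have hu' : νU u = 1 := hu
      rw [hνL, ← h8b_nu_equivariant σU σL e heσ, ← hνU, hu', map_one]
  rw [hb, he', hf, hg, hh, Subgroup.relIndex_map_map_of_injective _ _ he]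
  rfl

include hσLp hσIp hdσ hdi hfixL hfixL' hj hfixI hfixI' h90 he heker heσ in
/-- **Abstract Chevalley bound**: `|Cl_L^σ| * p ≤ h_K`. -/
theorem h8b_ambig_count (hU0 : h8b_hqm (h8b_del σU) (h8b_nu σU p) ≠ 0)
    (hU : h8b_hqm (h8b_del σU) (h8b_nu σU p) * p ≤ h8b_hqm (h8b_nu σU p) (h8b_del σU)) :
    dL.range.relIndex (dL.range.comap (h8b_del σI)) * p ≤ dK.range.index := by
  have h1 := h8b_step1 p σL σI σU dL j e hσLp hσIp hdσ hfixI hfixI' h90 he heker heσ hU0
  have h3 := h8b_step3 p σL σI σU dL dK j i e hσLp hdσ hdi hfixL hfixL' hj hfixI hfixI' h90 he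
    heker heσ
  have hkerI : (h8b_del σI).ker = j.range := h8b_ker_delI σI j hfixI hfixI'
  -- step 2
  have h2 : dL.range.relIndex (dL.range ⊔ j.range) = (dL.range.comap j).index := by
    rw [Subgroup.relIndex_sup_left, Subgroup.index_comap]
  have hAmb0 : dL.range ⊔ j.range ≤ dL.range.comap (h8b_del σI) := by
    refine sup_le ?_ ?_
    · rintro _ ⟨β, rfl⟩
      exact ⟨h8b_del σL β, (h8b_del_equivariant σL σI dL hdσ β)⟩
    · rw [← hkerI]
      intro x hx
      show h8b_del σI x ∈ dL.range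
      rw [MonoidHom.mem_ker.mp hx]
      exact one_mem _
  have hPK : dK.range ≤ dL.range.comap j := by
    rintro _ ⟨a, rfl⟩
    exact ⟨i a, hdi a⟩
  have e1 := Subgroup.relIndex_mul_relIndex dL.range (dL.range ⊔ j.range)
    (dL.range.comap (h8b_del σI)) le_sup_left hAmb0
  have e2 := Subgroup.relIndex_mul_index hPK
  rw [h3] at e2
  rw [← e1, ← e2, h2]
  calc (dL.range.comap j).index *
        (dL.range ⊔ j.range).relIndex (dL.range.comap (h8b_del σI)) * p
      ≤ (dL.range.comap j).index * h8b_hqm (h8b_del σU) (h8b_nu σU p) * p :=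
        Nat.mul_le_mul_right _ (Nat.mul_le_mul_left _ h1)
    _ = (dL.range.comap j).index * (h8b_hqm (h8b_del σU) (h8b_nu σU p) * p) := by ring
    _ ≤ (dL.range.comap j).index * h8b_hqm (h8b_nu σU p) (h8b_del σU) :=
        Nat.mul_le_mul_left _ hU
    _ = _ := by ring

end count

section normcount

variable {CL CK : Type*} [CommGroup CL] [CommGroup CK] [Finite CL]

/-- In a finite abelian group, `[C : (σ-1)C] = |C^σ|`. -/
theorem h8b_index_range_del (σC : CL →* CL) :
    (h8b_del σC).range.index = Nat.card (h8b_del σC).ker := by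
  have h1 := Subgroup.card_mul_index (h8b_del σC).ker
  have h2 := Subgroup.card_mul_index (h8b_del σC).range
  rw [Subgroup.index_ker] at h1
  have hpos : 0 < Nat.card (h8b_del σC).range := Nat.card_pos
  have : Nat.card (h8b_del σC).range * (h8b_del σC).range.index =
      Nat.card (h8b_del σC).range * Nat.card (h8b_del σC).ker := by
    rw [h2, mul_comm, h1]
  exact Nat.eq_of_mul_eq_mul_left hpos this

/-- A `σ`-invariant homomorphism out of a finite abelian group has image of size `≤ |C^σ|`. -/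
theorem h8b_card_range_le (σC : CL →* CL) (Nm : CL →* CK) (hNm : ∀ c, Nm (σC c) = Nm c) :
    Nat.card Nm.range ≤ Nat.card (h8b_del σC).ker := by
  rw [← h8b_index_range_del, ← Subgroup.index_ker]
  have hle : (h8b_del σC).range ≤ Nm.ker := by
    rintro _ ⟨c, rfl⟩
    rw [MonoidHom.mem_ker, h8b_del_apply, map_div, hNm, div_self']
  exact Nat.le_of_dvd (Nat.pos_of_ne_zero Subgroup.index_ne_zero_of_finite)
    (Subgroup.index_dvd_of_le hle)

variable {IL : Type*} [CommGroup IL]

theorem h8b_card_ker_del_eq (σI : IL →* IL) (P : Subgroup IL) (qL : IL →* CL)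
    (hqL : Function.Surjective qL) (hker : qL.ker = P) (σC : CL →* CL)
    (hσC : ∀ x, qL (σI x) = σC (qL x)) :
    P.relIndex (P.comap (h8b_del σI)) = Nat.card (h8b_del σC).ker := by
  have h1 : P.comap (h8b_del σI) = (h8b_del σC).ker.comap qL := by
    ext x
    show h8b_del σI x ∈ P ↔ h8b_del σC (qL x) = 1
    rw [← hker, MonoidHom.mem_ker, h8b_del_equivariant σI σC qL hσC]
  rw [h1, ← hker, Subgroup.relIndex_ker, Subgroup.map_comap_eq_self_of_surjective hqL]

end normcount

end Fermat.Agent.Lib.S14
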