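/-
S14 project (speculative), piece (AM) (helper2): Frobenius elements of a Galois extension `M/F` of
number fields at (unramified) primes, on top of `Mathlib/RingTheory/Frobenius.lean`.

"`𝔓` is unramified in `M/F`" is expressed as `𝔓.inertia Gal(M/F) = ⊥`.

* `h2a_frob F M 𝔓 h𝔓 : Gal(M/F)`  -- the Frobenius element at `𝔓` (arbitrary choice if ramified)
* `h2a_frob_spec`, `h2a_frob_mk`, `h2a_frob_pow_mk`  -- congruences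
* `h2a_eq_frob_pow`  -- KEY uniqueness lemma: `σ x ≡ x ^ (N𝔭 ^ f) mod 𝔓` for all `x` forces
  `σ = Frob ^ f` (unramified `𝔓`)
* `h2a_frob_smul`  -- `Frob (τ • 𝔓) = τ * Frob 𝔓 * τ⁻¹`
* `h2a_frob_eq_of_under_eq`  -- abelian case: the Frobenius depends only on `𝔓 ∩ 𝓞 F`
* `h2a_frob_pow_eq_one_iff`, `h2a_frob_eq_one_iff`  -- `Frob ^ f = 1 ↔ N𝔓 ∣ ... `, splitting
* `h2a_frob_apply_of_pow_eq_one`  -- action on roots of unity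
-/
import Mathlib

set_option autoImplicit false
set_option linter.unusedSectionVars false

open NumberField

namespace Fermat.Agent.Lib.S14

open scoped Pointwise

section frob

variable (F M : Type*) [Field F] [Field M] [NumberField F] [NumberField M] [Algebra F M]
  [IsGalois F M]

/-- The Frobenius element at a nonzero prime `𝔓` of `𝓞 M` for the Galois extension `M/F`
(an arbitrary choice when `𝔓` is ramified). -/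
noncomputable def h2a_frob (𝔓 : Ideal (𝓞 M)) [𝔓.IsPrime] (h𝔓 : 𝔓 ≠ ⊥) : Gal(M/F) :=
  haveI : Finite (𝓞 M ⧸ 𝔓) := Ideal.finiteQuotientOfFreeOfNeBot 𝔓 h𝔓
  arithFrobAt (𝓞 F) Gal(M/F) 𝔓

variable {F M}

theorem h2a_frob_spec (𝔓 : Ideal (𝓞 M)) [𝔓.IsPrime] (h𝔓 : 𝔓 ≠ ⊥) (x : 𝓞 M) :
    h2a_frob F M 𝔓 h𝔓 • x - x ^ Nat.card (𝓞 F ⧸ 𝔓.under (𝓞 F)) ∈ 𝔓 := by
  have : Finite (𝓞 M ⧸ 𝔓) := Ideal.finiteQuotientOfFreeOfNeBot 𝔓 h𝔓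
  exact IsArithFrobAt.arithFrobAt (𝓞 F) Gal(M/F) 𝔓 x

theorem h2a_frob_isArithFrobAt (𝔓 : Ideal (𝓞 M)) [𝔓.IsPrime] (h𝔓 : 𝔓 ≠ ⊥) :
    IsArithFrobAt (𝓞 F) (h2a_frob F M 𝔓 h𝔓) 𝔓 := by
  have : Finite (𝓞 M ⧸ 𝔓) := Ideal.finiteQuotientOfFreeOfNeBot 𝔓 h𝔓
  exact IsArithFrobAt.arithFrobAt (𝓞 F) Gal(M/F) 𝔓

/-- Uniqueness of the Frobenius element at a prime with trivial inertia group. -/
theorem h2a_frob_unique (𝔓 : Ideal (𝓞 M)) [𝔓.IsPrime] (h𝔓 : 𝔓 ≠ ⊥)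
    (hI : 𝔓.inertia Gal(M/F) = ⊥) {σ : Gal(M/F)} (hσ : IsArithFrobAt (𝓞 F) σ 𝔓) :
    σ = h2a_frob F M 𝔓 h𝔓 := by
  have := hσ.mul_inv_mem_inertia (h2a_frob_isArithFrobAt 𝔓 h𝔓)
  rw [hI, Subgroup.mem_bot] at this
  exact mul_inv_eq_one.mp this

theorem h2a_smul_ne_bot (𝔓 : Ideal (𝓞 M)) (h𝔓 : 𝔓 ≠ ⊥) (τ : Gal(M/F)) : τ • 𝔓 ≠ ⊥ := by
  intro h
  apply h𝔓
  have : τ⁻¹ • (τ • 𝔓) = 𝔓 := inv_smul_smul τ 𝔓
  rw [← this, h]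
  simp [Ideal.pointwise_smul_def, Ideal.map_bot]

theorem h2a_inertia_smul (𝔓 : Ideal (𝓞 M)) (τ : Gal(M/F)) (hI : 𝔓.inertia Gal(M/F) = ⊥) :
    (τ • 𝔓).inertia Gal(M/F) = ⊥ := by
  rw [eq_bot_iff]
  intro σ hσ
  rw [Subgroup.mem_bot]
  have h1 : τ⁻¹ * σ * τ ∈ 𝔓.inertia Gal(M/F) := by
    intro x
    have := hσ (τ • x)
    change σ • τ • x - τ • x ∈ τ • 𝔓 at this
    rw [Ideal.pointwise_smul_eq_comap, Ideal.mem_comap] at this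
    change (τ⁻¹ * σ * τ) • x - x ∈ 𝔓
    simpa [mul_smul, smul_sub] using this
  rw [hI, Subgroup.mem_bot] at h1
  have : σ = τ * (τ⁻¹ * σ * τ) * τ⁻¹ := by group
  rw [this, h1]; group

/-- Conjugation: `Frob(τ𝔓) = τ Frob(𝔓) τ⁻¹`. -/
theorem h2a_frob_smul (𝔓 : Ideal (𝓞 M)) [𝔓.IsPrime] (h𝔓 : 𝔓 ≠ ⊥)
    (hI : 𝔓.inertia Gal(M/F) = ⊥) (τ : Gal(M/F)) :
    h2a_frob F M (τ • 𝔓) (h2a_smul_ne_bot 𝔓 h𝔓 τ) = τ * h2a_frob F M 𝔓 h𝔓 * τ⁻¹ :=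
  (h2a_frob_unique (τ • 𝔓) (h2a_smul_ne_bot 𝔓 h𝔓 τ) (h2a_inertia_smul 𝔓 τ hI)
    ((h2a_frob_isArithFrobAt 𝔓 h𝔓).conj τ)).symm

/-- The Frobenius congruence in the residue field. -/
theorem h2a_frob_mk (𝔓 : Ideal (𝓞 M)) [𝔓.IsPrime] (h𝔓 : 𝔓 ≠ ⊥) (x : 𝓞 M) :
    Ideal.Quotient.mk 𝔓 (h2a_frob F M 𝔓 h𝔓 • x) =
      Ideal.Quotient.mk 𝔓 x ^ Nat.card (𝓞 F ⧸ 𝔓.under (𝓞 F)) := by
  rw [← map_pow, Ideal.Quotient.eq]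
  exact h2a_frob_spec 𝔓 h𝔓 x

/-- The Frobenius element stabilises `𝔓`. -/
theorem h2a_frob_smul_mem_iff (𝔓 : Ideal (𝓞 M)) [𝔓.IsPrime] (h𝔓 : 𝔓 ≠ ⊥) (x : 𝓞 M) :
    h2a_frob F M 𝔓 h𝔓 • x ∈ 𝔓 ↔ x ∈ 𝔓 := by
  have hN : Nat.card (𝓞 F ⧸ 𝔓.under (𝓞 F)) ≠ 0 :=
    (h2a_frob_isArithFrobAt (F := F) 𝔓 h𝔓).card_pos.ne'
  rw [← Ideal.Quotient.eq_zero_iff_mem, ← Ideal.Quotient.eq_zero_iff_mem, h2a_frob_mk]
  exact pow_eq_zero_iff hN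

/-- The congruence for powers of the Frobenius element, in the residue field. -/
theorem h2a_frob_pow_mk (𝔓 : Ideal (𝓞 M)) [𝔓.IsPrime] (h𝔓 : 𝔓 ≠ ⊥) (f : ℕ) (x : 𝓞 M) :
    Ideal.Quotient.mk 𝔓 ((h2a_frob F M 𝔓 h𝔓 ^ f) • x) =
      Ideal.Quotient.mk 𝔓 x ^ (Nat.card (𝓞 F ⧸ 𝔓.under (𝓞 F)) ^ f) := by
  induction f generalizing x with
  | zero => simp
  | succ f ih =>
    rw [pow_succ, mul_smul, ih, h2a_frob_mk, ← pow_mul, pow_succ, mul_comm]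

theorem h2a_frob_pow_spec (𝔓 : Ideal (𝓞 M)) [𝔓.IsPrime] (h𝔓 : 𝔓 ≠ ⊥) (f : ℕ) (x : 𝓞 M) :
    (h2a_frob F M 𝔓 h𝔓 ^ f) • x - x ^ (Nat.card (𝓞 F ⧸ 𝔓.under (𝓞 F)) ^ f) ∈ 𝔓 := by
  rw [← Ideal.Quotient.eq, map_pow]
  exact h2a_frob_pow_mk 𝔓 h𝔓 f x

/-- KEY uniqueness lemma: at an unramified prime `𝔓`, an element `σ` of the Galois group with
`σ x ≡ x ^ (N𝔭 ^ f) mod 𝔓` for all integral `x` is the `f`-th power of the Frobenius element. -/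
theorem h2a_eq_frob_pow (𝔓 : Ideal (𝓞 M)) [𝔓.IsPrime] (h𝔓 : 𝔓 ≠ ⊥)
    (hI : 𝔓.inertia Gal(M/F) = ⊥) (σ : Gal(M/F)) (f : ℕ)
    (hσ : ∀ x : 𝓞 M, σ • x - x ^ (Nat.card (𝓞 F ⧸ 𝔓.under (𝓞 F)) ^ f) ∈ 𝔓) :
    σ = h2a_frob F M 𝔓 h𝔓 ^ f := by
  have h1 : σ * (h2a_frob F M 𝔓 h𝔓 ^ f)⁻¹ ∈ 𝔓.inertia Gal(M/F) := by
    intro x
    have h2 := sub_mem (hσ ((h2a_frob F M 𝔓 h𝔓 ^ f)⁻¹ • x))
      (h2a_frob_pow_spec (F := F) 𝔓 h𝔓 f ((h2a_frob F M 𝔓 h𝔓 ^ f)⁻¹ • x))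
    simpa [mul_smul] using h2
  rw [hI, Subgroup.mem_bot] at h1
  exact mul_inv_eq_one.mp h1

end frob

section frob3

variable {F M : Type*} [Field F] [Field M] [NumberField F] [NumberField M] [Algebra F M]
  [IsGalois F M]

/-- `Frob ^ f = 1` iff `x ^ (N𝔭 ^ f) = x` on the residue field of `𝔓` (unramified `𝔓`). -/
theorem h2a_frob_pow_eq_one_iff (𝔓 : Ideal (𝓞 M)) [𝔓.IsPrime] (h𝔓 : 𝔓 ≠ ⊥)
    (hI : 𝔓.inertia Gal(M/F) = ⊥) (f : ℕ) :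
    h2a_frob F M 𝔓 h𝔓 ^ f = 1 ↔
      ∀ x : 𝓞 M ⧸ 𝔓, x ^ (Nat.card (𝓞 F ⧸ 𝔓.under (𝓞 F)) ^ f) = x := by
  constructor
  · intro h x
    obtain ⟨x, rfl⟩ := Ideal.Quotient.mk_surjective x
    rw [← h2a_frob_pow_mk (F := F) 𝔓 h𝔓 f x, h, one_smul]
  · intro h
    symm
    apply h2a_eq_frob_pow 𝔓 h𝔓 hI 1 f
    intro x
    rw [one_smul, ← Ideal.Quotient.eq, map_pow, h]

/-- If the residue field of `𝔓` has `N𝔭 ^ f` elements then `Frob ^ f = 1` (unramified `𝔓`). -/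
theorem h2a_frob_pow_eq_one_of_card (𝔓 : Ideal (𝓞 M)) [𝔓.IsPrime] (h𝔓 : 𝔓 ≠ ⊥)
    (hI : 𝔓.inertia Gal(M/F) = ⊥) (f : ℕ)
    (hf : Nat.card (𝓞 M ⧸ 𝔓) = Nat.card (𝓞 F ⧸ 𝔓.under (𝓞 F)) ^ f) :
    h2a_frob F M 𝔓 h𝔓 ^ f = 1 := by
  rw [h2a_frob_pow_eq_one_iff 𝔓 h𝔓 hI]
  intro x
  have : 𝔓.IsMaximal := Ideal.IsPrime.isMaximal inferInstance h𝔓
  let _ := Ideal.Quotient.field 𝔓
  have : Finite (𝓞 M ⧸ 𝔓) := Ideal.finiteQuotientOfFreeOfNeBot 𝔓 h𝔓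
  let _ := Fintype.ofFinite (𝓞 M ⧸ 𝔓)
  rw [← hf, Nat.card_eq_fintype_card]
  exact FiniteField.pow_card x

/-- The Frobenius element is trivial iff the residue field does not grow (unramified `𝔓`);
together with `𝔓.inertia = ⊥` this says that `𝔓 ∩ 𝓞 F` splits completely. -/
theorem h2a_frob_eq_one_iff (𝔓 : Ideal (𝓞 M)) [𝔓.IsPrime] (h𝔓 : 𝔓 ≠ ⊥)
    (hI : 𝔓.inertia Gal(M/F) = ⊥) :
    h2a_frob F M 𝔓 h𝔓 = 1 ↔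
      Nat.card (𝓞 M ⧸ 𝔓) = Nat.card (𝓞 F ⧸ 𝔓.under (𝓞 F)) := by
  classical
  constructor
  · intro h
    have h1 := (h2a_frob_pow_eq_one_iff 𝔓 h𝔓 hI 1).1 (by rw [pow_one, h])
    rw [pow_one] at h1
    have : 𝔓.IsMaximal := Ideal.IsPrime.isMaximal inferInstance h𝔓
    let _ := Ideal.Quotient.field 𝔓
    have : Finite (𝓞 M ⧸ 𝔓) := Ideal.finiteQuotientOfFreeOfNeBot 𝔓 h𝔓
    let _ := Fintype.ofFinite (𝓞 M ⧸ 𝔓)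
    set N := Nat.card (𝓞 F ⧸ 𝔓.under (𝓞 F)) with hN
    have hfin : Finite (𝓞 F ⧸ 𝔓.under (𝓞 F)) :=
      (h2a_frob_isArithFrobAt (F := F) 𝔓 h𝔓).finite_quotient
    apply le_antisymm
    · -- all elements are roots of `X ^ N - X`
      have hN2 : 2 ≤ N := by
        have : Nontrivial (𝓞 F ⧸ 𝔓.under (𝓞 F)) :=
          Ideal.Quotient.nontrivial_iff.mpr (Ideal.IsPrime.ne_top inferInstance)
        exact Finite.one_lt_card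
      have hne : (Polynomial.X ^ N - Polynomial.X : Polynomial (𝓞 M ⧸ 𝔓)) ≠ 0 :=
        FiniteField.X_pow_card_sub_X_ne_zero _ (by omega)
      have hdeg : (Polynomial.X ^ N - Polynomial.X : Polynomial (𝓞 M ⧸ 𝔓)).natDegree = N :=
        FiniteField.X_pow_card_sub_X_natDegree_eq _ (by omega)
      have hsub : (Finset.univ : Finset (𝓞 M ⧸ 𝔓)) ⊆
          (Polynomial.X ^ N - Polynomial.X : Polynomial (𝓞 M ⧸ 𝔓)).roots.toFinset := by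
        intro x _
        rw [Multiset.mem_toFinset, Polynomial.mem_roots hne]
        simp [h1 x]
      calc Nat.card (𝓞 M ⧸ 𝔓) = (Finset.univ : Finset (𝓞 M ⧸ 𝔓)).card := by
            rw [Nat.card_eq_fintype_card, Finset.card_univ]
        _ ≤ (Polynomial.X ^ N - Polynomial.X : Polynomial (𝓞 M ⧸ 𝔓)).roots.toFinset.card :=
            Finset.card_le_card hsub
        _ ≤ Multiset.card (Polynomial.X ^ N - Polynomial.X : Polynomial (𝓞 M ⧸ 𝔓)).roots :=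
            Multiset.toFinset_card_le _
        _ ≤ (Polynomial.X ^ N - Polynomial.X : Polynomial (𝓞 M ⧸ 𝔓)).natDegree :=
            Polynomial.card_roots' _
        _ = N := hdeg
    · exact Nat.card_le_card_of_injective _
        (Ideal.algebraMap_quotient_injective (R := 𝓞 F) (A := 𝓞 M) (I := 𝔓))
  · intro h
    have := h2a_frob_pow_eq_one_of_card 𝔓 h𝔓 hI 1 (by rw [pow_one, h])
    rwa [pow_one] at this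

/-- Action of the Frobenius element on integral roots of unity of order prime to `𝔓`. -/
theorem h2a_frob_smul_of_pow_eq_one (𝔓 : Ideal (𝓞 M)) [𝔓.IsPrime] (h𝔓 : 𝔓 ≠ ⊥)
    {ζ : 𝓞 M} {m : ℕ} (hζ : ζ ^ m = 1) (hm : (m : 𝓞 M) ∉ 𝔓) :
    h2a_frob F M 𝔓 h𝔓 • ζ = ζ ^ Nat.card (𝓞 F ⧸ 𝔓.under (𝓞 F)) :=
  AlgHom.IsArithFrobAt.apply_of_pow_eq_one (h2a_frob_isArithFrobAt (F := F) 𝔓 h𝔓) hζ hm

/-- Action of the Frobenius element on roots of unity of `M` of order prime to `𝔓`. -/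
theorem h2a_frob_apply_of_pow_eq_one (𝔓 : Ideal (𝓞 M)) [𝔓.IsPrime] (h𝔓 : 𝔓 ≠ ⊥)
    {ζ : M} {m : ℕ} (hm0 : m ≠ 0) (hζ : ζ ^ m = 1) (hm : (m : 𝓞 M) ∉ 𝔓) :
    h2a_frob F M 𝔓 h𝔓 ζ = ζ ^ Nat.card (𝓞 F ⧸ 𝔓.under (𝓞 F)) := by
  have hint : IsIntegral ℤ ζ :=
    ⟨Polynomial.X ^ m - 1, Polynomial.monic_X_pow_sub_C 1 hm0, by simp [hζ]⟩
  let ζ' : 𝓞 M := ⟨ζ, hint⟩
  have h0 : algebraMap (𝓞 M) M ζ' = ζ := rfl
  have h1 : ζ' ^ m = 1 := by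
    apply RingOfIntegers.ext
    change algebraMap (𝓞 M) M (ζ' ^ m) = algebraMap (𝓞 M) M 1
    rw [map_pow, map_one, h0]
    exact hζ
  have := h2a_frob_smul_of_pow_eq_one (F := F) 𝔓 h𝔓 h1 hm
  have h2 := congrArg (algebraMap (𝓞 M) M) this
  rw [algebraMap.smul', map_pow, h0, AlgEquiv.smul_def] at h2
  exact h2

theorem h2a_natCast_not_mem (𝔓 : Ideal (𝓞 M)) [𝔓.IsPrime] {m : ℕ}
    (hm : Nat.Coprime m (Nat.card (𝓞 M ⧸ 𝔓))) : (m : 𝓞 M) ∉ 𝔓 := by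
  intro h
  have h1 : ((Nat.card (𝓞 M ⧸ 𝔓) : ℕ) : 𝓞 M) ∈ 𝔓 := by
    have := Ideal.absNorm_mem 𝔓
    rwa [Ideal.absNorm_apply, Submodule.cardQuot_apply] at this
  have h2 : ((1 : ℕ) : 𝓞 M) ∈ 𝔓 := by
    have hg : Nat.gcd m (Nat.card (𝓞 M ⧸ 𝔓)) = 1 := hm
    have hb := Nat.gcd_eq_gcd_ab m (Nat.card (𝓞 M ⧸ 𝔓))
    rw [hg] at hb
    have h3 : ((1 : ℕ) : 𝓞 M) = (m : 𝓞 M) * ((Nat.gcdA m (Nat.card (𝓞 M ⧸ 𝔓)) : ℤ) : 𝓞 M) +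
        ((Nat.card (𝓞 M ⧸ 𝔓) : ℕ) : 𝓞 M) * ((Nat.gcdB m (Nat.card (𝓞 M ⧸ 𝔓)) : ℤ) : 𝓞 M) := by
      have := congrArg (fun z : ℤ => (z : 𝓞 M)) hb
      push_cast at this
      simpa using this
    rw [h3]
    exact 𝔓.add_mem (𝔓.mul_mem_right _ h) (𝔓.mul_mem_right _ h1)
  apply Ideal.IsPrime.ne_top (inferInstance : 𝔓.IsPrime)
  rw [Ideal.eq_top_iff_one]
  simpa using h2

end frob3

section abelian

variable {F M : Type*} [Field F] [Field M] [NumberField F] [NumberField M] [Algebra F M]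
  [IsGalois F M]

/-- In an abelian extension the Frobenius element only depends on the prime below. -/
theorem h2a_frob_eq_of_under_eq [IsMulCommutative Gal(M/F)]
    (𝔓 𝔓' : Ideal (𝓞 M)) [𝔓.IsPrime] [𝔓'.IsPrime] (h𝔓 : 𝔓 ≠ ⊥) (h𝔓' : 𝔓' ≠ ⊥)
    (h : 𝔓.under (𝓞 F) = 𝔓'.under (𝓞 F)) :
    h2a_frob F M 𝔓 h𝔓 = h2a_frob F M 𝔓' h𝔓' := by
  have : Finite (𝓞 M ⧸ 𝔓) := Ideal.finiteQuotientOfFreeOfNeBot 𝔓 h𝔓
  have : Finite (𝓞 M ⧸ 𝔓') := Ideal.finiteQuotientOfFreeOfNeBot 𝔓' h𝔓'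
  have hc := isConj_arithFrobAt (R := 𝓞 F) (G := Gal(M/F)) (Q := 𝔓) 𝔓' h
  obtain ⟨c, hc⟩ := isConj_iff.mp hc
  unfold h2a_frob
  rw [← hc, mul_comm' c, mul_assoc, mul_inv_cancel, mul_one]

end abelian

end Fermat.Agent.Lib.S14
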