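/-
S14 project (speculative), piece (AM4) (helper2): the Artin map on ideals for an abelian extension
`M/F` of number fields:
`h2a_artin F M : Ideal (𝓞 F) → Gal(M/F)`, product of the Frobenius elements over the prime
factorisation (value `1` at `⊥`; arbitrary choices of Frobenius elements at ramified primes).
-/
import Mathlib
import Fermat.Agent.Lib.S14.ArtinMap

set_option autoImplicit false
set_option linter.unusedSectionVars false

open NumberField

namespace Fermat.Agent.Lib.S14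

open scoped Pointwise IsMulCommutative
open UniqueFactorizationMonoid

section artin

variable (F M : Type*) [Field F] [Field M] [NumberField F] [NumberField M] [Algebra F M]
  [IsGalois F M]

open Classical in
/-- The Frobenius element "at a prime `𝔭` of the base": the Frobenius element at a chosen prime
of `M` above `𝔭` (and `1` if `𝔭` is not a nonzero prime). -/
noncomputable def h2a_frobBelow (𝔭 : Ideal (𝓞 F)) : Gal(M/F) :=
  if h : ∃ 𝔓 : Ideal (𝓞 M), 𝔓.IsPrime ∧ 𝔓 ≠ ⊥ ∧ 𝔓.under (𝓞 F) = 𝔭 then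
    haveI := h.choose_spec.1
    h2a_frob F M h.choose h.choose_spec.2.1
  else 1

variable {F M}

theorem h2a_frobBelow_eq [IsMulCommutative Gal(M/F)] (𝔓 : Ideal (𝓞 M)) [𝔓.IsPrime]
    (h𝔓 : 𝔓 ≠ ⊥) : h2a_frobBelow F M (𝔓.under (𝓞 F)) = h2a_frob F M 𝔓 h𝔓 := by
  have h : ∃ 𝔓' : Ideal (𝓞 M), 𝔓'.IsPrime ∧ 𝔓' ≠ ⊥ ∧ 𝔓'.under (𝓞 F) = 𝔓.under (𝓞 F) :=
    ⟨𝔓, inferInstance, h𝔓, rfl⟩
  unfold h2a_frobBelow
  rw [dif_pos h]
  have := h.choose_spec.1
  exact h2a_frob_eq_of_under_eq _ _ _ _ h.choose_spec.2.2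

variable (F M)

/-- The Artin map of an abelian extension `M/F`, on (integral) ideals of `𝓞 F`. -/
noncomputable def h2a_artin [IsMulCommutative Gal(M/F)] (𝔞 : Ideal (𝓞 F)) : Gal(M/F) :=
  ((normalizedFactors 𝔞).map (h2a_frobBelow F M)).prod

variable {F M}
variable [IsMulCommutative Gal(M/F)]

theorem h2a_artin_bot : h2a_artin F M ⊥ = 1 := by
  unfold h2a_artin
  rw [← Ideal.zero_eq_bot, normalizedFactors_zero, Multiset.map_zero, Multiset.prod_zero]

theorem h2a_artin_top : h2a_artin F M ⊤ = 1 := by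
  unfold h2a_artin
  rw [← Ideal.one_eq_top, normalizedFactors_one, Multiset.map_zero, Multiset.prod_zero]

theorem h2a_artin_one : h2a_artin F M 1 = 1 := by
  rw [Ideal.one_eq_top, h2a_artin_top]

theorem h2a_artin_mul {I J : Ideal (𝓞 F)} (hI : I ≠ ⊥) (hJ : J ≠ ⊥) :
    h2a_artin F M (I * J) = h2a_artin F M I * h2a_artin F M J := by
  unfold h2a_artin
  rw [normalizedFactors_mul hI hJ, Multiset.map_add, Multiset.prod_add]

theorem h2a_artin_pow {I : Ideal (𝓞 F)} (n : ℕ) :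
    h2a_artin F M (I ^ n) = h2a_artin F M I ^ n := by
  unfold h2a_artin
  rw [normalizedFactors_pow, Multiset.map_nsmul, Multiset.prod_nsmul]

theorem h2a_artin_prod {ι : Type*} (s : Finset ι) (f : ι → Ideal (𝓞 F))
    (hf : ∀ i ∈ s, f i ≠ ⊥) :
    h2a_artin F M (∏ i ∈ s, f i) = ∏ i ∈ s, h2a_artin F M (f i) := by
  classical
  induction s using Finset.induction_on with
  | empty => rw [Finset.prod_empty, Finset.prod_empty, h2a_artin_one]
  | insert a s ha ih =>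
    rw [Finset.prod_insert ha, Finset.prod_insert ha, h2a_artin_mul, ih]
    · intro i hi; exact hf i (Finset.mem_insert_of_mem hi)
    · exact hf a (Finset.mem_insert_self a s)
    · rw [Ne, ← Ideal.zero_eq_bot, Finset.prod_eq_zero_iff]
      rintro ⟨i, hi, h0⟩
      exact hf i (Finset.mem_insert_of_mem hi) h0

/-- The Artin symbol of a nonzero prime of `F` (given as `𝔓 ∩ 𝓞 F`) is the Frobenius element of
any prime above it. -/
theorem h2a_artin_under (𝔓 : Ideal (𝓞 M)) [𝔓.IsPrime] (h𝔓 : 𝔓 ≠ ⊥) :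
    h2a_artin F M (𝔓.under (𝓞 F)) = h2a_frob F M 𝔓 h𝔓 := by
  have hne : 𝔓.under (𝓞 F) ≠ ⊥ := by
    intro h
    exact h𝔓 (Ideal.eq_bot_of_comap_eq_bot h)
  have hprime : Prime (𝔓.under (𝓞 F)) := Ideal.prime_of_isPrime hne inferInstance
  unfold h2a_artin
  rw [normalizedFactors_irreducible hprime.irreducible, normalize_eq, Multiset.map_singleton,
    Multiset.prod_singleton, h2a_frobBelow_eq 𝔓 h𝔓]

/-- The Artin symbol of a nonzero prime `𝔭` of `F` is the Frobenius element of any prime of `M`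
lying over it. -/
theorem h2a_artin_prime (𝔭 : Ideal (𝓞 F)) (𝔓 : Ideal (𝓞 M)) [𝔓.IsPrime] (h𝔓 : 𝔓 ≠ ⊥)
    [h : 𝔓.LiesOver 𝔭] : h2a_artin F M 𝔭 = h2a_frob F M 𝔓 h𝔓 := by
  rw [h.over, h2a_artin_under 𝔓 h𝔓]

/-- Every nonzero prime of `F` has a prime of `M` above it. -/
theorem h2a_exists_over (𝔭 : Ideal (𝓞 F)) [𝔭.IsPrime] (h𝔭 : 𝔭 ≠ ⊥) :
    ∃ 𝔓 : Ideal (𝓞 M), 𝔓.IsPrime ∧ 𝔓 ≠ ⊥ ∧ 𝔓.under (𝓞 F) = 𝔭 := by
  have : 𝔭.IsMaximal := Ideal.IsPrime.isMaximal inferInstance h𝔭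
  obtain ⟨𝔓, h1, h2⟩ := Ideal.exists_maximal_ideal_liesOver_of_isIntegral (S := 𝓞 M) 𝔭
  refine ⟨𝔓, h1.isPrime, ?_, h2.over.symm⟩
  intro h
  apply h𝔭
  rw [h2.over, h]
  exact Ideal.under_bot (𝓞 F) (𝓞 M)

end artin

end Fermat.Agent.Lib.S14
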