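/-
S14 project (speculative), piece (AM3) (helper2): functoriality of Frobenius elements at prime
level: general comparison `Frob_{M/F}(𝔓)|_L = Frob_{L/K}(𝔓 ∩ L) ^ f`, towers, restriction to a
Galois subextension.
-/
import Mathlib
import Fermat.Agent.Lib.S14.ArtinIdeal

set_option autoImplicit false
set_option linter.unusedSectionVars false

open NumberField

namespace Fermat.Agent.Lib.S14

open scoped Pointwise

section tower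

variable {K F L M : Type*} [Field K] [Field F] [Field L] [Field M]
  [NumberField K] [NumberField F] [NumberField L] [NumberField M]
  [Algebra K F] [Algebra K L] [Algebra K M] [Algebra F M] [Algebra L M]
  [IsScalarTower K F M] [IsScalarTower K L M]

/-- Restriction of automorphisms to a normal subextension, on rings of integers. -/
theorem h2a_algebraMap_restrictNormal_smul [Normal K L] (σ : M ≃ₐ[K] M) (x : 𝓞 L) :
    algebraMap (𝓞 L) (𝓞 M) (AlgEquiv.restrictNormalHom L σ • x) =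
      σ • algebraMap (𝓞 L) (𝓞 M) x := by
  apply RingOfIntegers.ext
  change algebraMap (𝓞 M) M (algebraMap (𝓞 L) (𝓞 M) (AlgEquiv.restrictNormalHom L σ • x)) =
    algebraMap (𝓞 M) M (σ • algebraMap (𝓞 L) (𝓞 M) x)
  have h1 : ∀ y : 𝓞 L, algebraMap (𝓞 M) M (algebraMap (𝓞 L) (𝓞 M) y) =
      algebraMap L M (algebraMap (𝓞 L) L y) := by
    intro y
    rw [← IsScalarTower.algebraMap_apply, ← IsScalarTower.algebraMap_apply]
  have h2 : algebraMap (𝓞 L) L (AlgEquiv.restrictNormalHom L σ • x) =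
      AlgEquiv.restrictNormalHom L σ (algebraMap (𝓞 L) L x) := by
    rw [algebraMap.smul' (AlgEquiv.restrictNormalHom L σ) x L, AlgEquiv.smul_def]
  have h3 : algebraMap (𝓞 M) M (σ • algebraMap (𝓞 L) (𝓞 M) x) =
      σ (algebraMap (𝓞 M) M (algebraMap (𝓞 L) (𝓞 M) x)) := by
    rw [algebraMap.smul' σ (algebraMap (𝓞 L) (𝓞 M) x) M, AlgEquiv.smul_def]
  rw [h1, h2, h3, h1]
  exact AlgEquiv.restrictNormal_commutes σ L _

theorem h2a_restrictScalars_smul (σ : M ≃ₐ[F] M) (y : 𝓞 M) :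
    (σ.restrictScalars K) • y = σ • y := by
  apply RingOfIntegers.ext
  change algebraMap (𝓞 M) M ((σ.restrictScalars K) • y) = algebraMap (𝓞 M) M (σ • y)
  rw [algebraMap.smul', algebraMap.smul', AlgEquiv.smul_def, AlgEquiv.smul_def]
  rfl

theorem h2a_under_ne_bot (𝔓 : Ideal (𝓞 M)) (h𝔓 : 𝔓 ≠ ⊥) : 𝔓.under (𝓞 L) ≠ ⊥ := by
  intro h
  exact h𝔓 (Ideal.eq_bot_of_comap_eq_bot h)

variable [IsGalois K L] [IsGalois F M]

/-- GENERAL prime-level functoriality of Frobenius elements. `K ⊆ F ⊆ M`, `K ⊆ L ⊆ M`, `L/K` and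
`M/F` Galois, `𝔓` a prime of `M` such that `𝔓 ∩ L` is unramified in `L/K`, and
`N(𝔓 ∩ F) = N(𝔓 ∩ K) ^ f`. Then `Frob_{M/F}(𝔓)|_L = Frob_{L/K}(𝔓 ∩ L) ^ f`. -/
theorem h2a_frob_restrict_general (𝔓 : Ideal (𝓞 M)) [𝔓.IsPrime] (h𝔓 : 𝔓 ≠ ⊥)
    (hI : (𝔓.under (𝓞 L)).inertia Gal(L/K) = ⊥) (f : ℕ)
    (hf : Nat.card (𝓞 F ⧸ 𝔓.under (𝓞 F)) = Nat.card (𝓞 K ⧸ 𝔓.under (𝓞 K)) ^ f) :
    AlgEquiv.restrictNormalHom L ((h2a_frob F M 𝔓 h𝔓).restrictScalars K) =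
      h2a_frob K L (𝔓.under (𝓞 L)) (h2a_under_ne_bot 𝔓 h𝔓) ^ f := by
  apply h2a_eq_frob_pow (𝔓.under (𝓞 L)) (h2a_under_ne_bot 𝔓 h𝔓) hI
  intro x
  rw [Ideal.under_under, Ideal.mem_comap, map_sub, map_pow, h2a_algebraMap_restrictNormal_smul,
    h2a_restrictScalars_smul, ← hf]
  exact h2a_frob_spec 𝔓 h𝔓 _

/-- TOWER: `K ⊆ F ⊆ M`, `M/K` Galois, `𝔓` unramified over `K`, `N(𝔓 ∩ F) = N(𝔓 ∩ K) ^ f`:
`Frob_{M/F}(𝔓) = Frob_{M/K}(𝔓) ^ f` in `Gal(M/K)`. -/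
theorem h2a_frob_tower [IsGalois K M] (𝔓 : Ideal (𝓞 M)) [𝔓.IsPrime] (h𝔓 : 𝔓 ≠ ⊥)
    (hI : 𝔓.inertia Gal(M/K) = ⊥) (f : ℕ)
    (hf : Nat.card (𝓞 F ⧸ 𝔓.under (𝓞 F)) = Nat.card (𝓞 K ⧸ 𝔓.under (𝓞 K)) ^ f) :
    (h2a_frob F M 𝔓 h𝔓).restrictScalars K = h2a_frob K M 𝔓 h𝔓 ^ f := by
  apply h2a_eq_frob_pow 𝔓 h𝔓 hI
  intro x
  rw [h2a_restrictScalars_smul, ← hf]
  exact h2a_frob_spec 𝔓 h𝔓 _

omit [IsGalois F M] in
/-- RESTRICTION: `K ⊆ L ⊆ M`, `L/K` and `M/K` Galois, `𝔓 ∩ L` unramified in `L/K`: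
`Frob_{M/K}(𝔓)|_L = Frob_{L/K}(𝔓 ∩ L)`. -/
theorem h2a_frob_restrict [IsGalois K M] (𝔓 : Ideal (𝓞 M)) [𝔓.IsPrime] (h𝔓 : 𝔓 ≠ ⊥)
    (hI : (𝔓.under (𝓞 L)).inertia Gal(L/K) = ⊥) :
    AlgEquiv.restrictNormalHom L (h2a_frob K M 𝔓 h𝔓) =
      h2a_frob K L (𝔓.under (𝓞 L)) (h2a_under_ne_bot 𝔓 h𝔓) := by
  rw [← pow_one (h2a_frob K L (𝔓.under (𝓞 L)) (h2a_under_ne_bot 𝔓 h𝔓))]
  apply h2a_eq_frob_pow (𝔓.under (𝓞 L)) (h2a_under_ne_bot 𝔓 h𝔓) hI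
  intro x
  rw [Ideal.under_under, Ideal.mem_comap, map_sub, map_pow, h2a_algebraMap_restrictNormal_smul,
    pow_one]
  exact h2a_frob_spec 𝔓 h𝔓 _

end tower
end Fermat.Agent.Lib.S14
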