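/-
S14 project (speculative), piece (AM5) (helper2): equivariance of Frobenius elements and of the
Artin map under automorphisms of the top field: for `F₀ ⊆ F ⊆ M` with `F/F₀` normal and
`τ ∈ Gal(M/F₀)`: `Frob_{M/F}(τ𝔓) = τ Frob_{M/F}(𝔓) τ⁻¹`, `Art(τ|_F • 𝔮) = τ Art(𝔮) τ⁻¹`.
-/
import Mathlib
import Fermat.Agent.Lib.S14.ArtinTower

set_option autoImplicit false
set_option linter.unusedSectionVars false

open NumberField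

namespace Fermat.Agent.Lib.S14

open scoped Pointwise

section equivariance

variable {F₀ F M : Type*} [Field F₀] [Field F] [Field M]
  [NumberField F₀] [NumberField F] [NumberField M]
  [Algebra F₀ F] [Algebra F₀ M] [Algebra F M] [IsScalarTower F₀ F M] [Normal F₀ F]

/-- Conjugation of `g ∈ Gal(M/F)` by `τ ∈ Gal(M/F₀)` for `F/F₀` normal: `τ g τ⁻¹ ∈ Gal(M/F)`. -/
noncomputable def h2a_conj (τ : M ≃ₐ[F₀] M) (g : M ≃ₐ[F] M) : M ≃ₐ[F] M :=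
  AlgEquiv.ofRingEquiv (f := (τ.symm.toRingEquiv.trans g.toRingEquiv).trans τ.toRingEquiv) (by
    intro x
    change τ (g (τ.symm (algebraMap F M x))) = algebraMap F M x
    have h1 : τ.symm (algebraMap F M x) = algebraMap F M (τ.symm.restrictNormal F x) :=
      (AlgEquiv.restrictNormal_commutes τ.symm F x).symm
    rw [h1, g.commutes, ← h1, AlgEquiv.apply_symm_apply])

theorem h2a_conj_apply (τ : M ≃ₐ[F₀] M) (g : M ≃ₐ[F] M) (x : M) :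
    h2a_conj τ g x = τ (g (τ.symm x)) := rfl

theorem h2a_conj_restrictScalars (τ : M ≃ₐ[F₀] M) (g : M ≃ₐ[F] M) :
    (h2a_conj τ g).restrictScalars F₀ = τ * g.restrictScalars F₀ * τ⁻¹ := by
  ext x
  rfl

theorem h2a_conj_one (τ : M ≃ₐ[F₀] M) : h2a_conj τ (1 : M ≃ₐ[F] M) = 1 := by
  ext x
  simp [h2a_conj_apply]

theorem h2a_conj_mul (τ : M ≃ₐ[F₀] M) (g g' : M ≃ₐ[F] M) :
    h2a_conj τ (g * g') = h2a_conj τ g * h2a_conj τ g' := by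
  ext x
  simp [h2a_conj_apply]

theorem h2a_conj_pow (τ : M ≃ₐ[F₀] M) (g : M ≃ₐ[F] M) (n : ℕ) :
    h2a_conj τ (g ^ n) = h2a_conj τ g ^ n := by
  induction n with
  | zero => simp [h2a_conj_one]
  | succ n ih => rw [pow_succ, pow_succ, h2a_conj_mul, ih]

theorem h2a_conj_symm_conj (τ : M ≃ₐ[F₀] M) (g : M ≃ₐ[F] M) :
    h2a_conj τ.symm (h2a_conj τ g) = g := by
  ext x
  simp [h2a_conj_apply]

theorem h2a_conj_conj_symm (τ : M ≃ₐ[F₀] M) (g : M ≃ₐ[F] M) :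
    h2a_conj τ (h2a_conj τ.symm g) = g := by
  ext x
  simp [h2a_conj_apply]

/-- Compatibility of the two actions on `𝓞 M`. -/
theorem h2a_conj_smul (τ : M ≃ₐ[F₀] M) (g : M ≃ₐ[F] M) (x : 𝓞 M) :
    h2a_conj τ g • x = τ • g • τ⁻¹ • x := by
  apply RingOfIntegers.ext
  change algebraMap (𝓞 M) M (h2a_conj τ g • x) = algebraMap (𝓞 M) M (τ • g • τ⁻¹ • x)
  rw [algebraMap.smul', algebraMap.smul', algebraMap.smul', algebraMap.smul',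
    AlgEquiv.smul_def, AlgEquiv.smul_def, AlgEquiv.smul_def, AlgEquiv.smul_def]
  rfl

/-- `(τ • 𝔓) ∩ 𝓞 F = τ|_F • (𝔓 ∩ 𝓞 F)`. -/
theorem h2a_under_smul (τ : M ≃ₐ[F₀] M) (𝔓 : Ideal (𝓞 M)) :
    (τ • 𝔓).under (𝓞 F) = AlgEquiv.restrictNormalHom F τ • 𝔓.under (𝓞 F) := by
  ext x
  rw [Ideal.mem_comap, Ideal.mem_pointwise_smul_iff_inv_smul_mem,
    Ideal.mem_pointwise_smul_iff_inv_smul_mem, Ideal.mem_comap, ← map_inv,
    h2a_algebraMap_restrictNormal_smul]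

theorem h2a_card_quot_smul {R : Type*} [CommRing R] {G : Type*} [Group G]
    [MulSemiringAction G R] (ρ : G) (I : Ideal R) :
    Nat.card (R ⧸ ρ • I) = Nat.card (R ⧸ I) :=
  (Nat.card_congr (Ideal.quotientEquiv I (ρ • I) (MulSemiringAction.toRingEquiv G R ρ)
    rfl).toEquiv).symm

variable [IsGalois F M]

theorem h2a_inertia_smul_tower (τ : M ≃ₐ[F₀] M) (𝔓 : Ideal (𝓞 M))
    (hI : 𝔓.inertia Gal(M/F) = ⊥) : (τ • 𝔓).inertia Gal(M/F) = ⊥ := by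
  rw [eq_bot_iff]
  intro σ hσ
  rw [Subgroup.mem_bot]
  have h1 : h2a_conj τ.symm σ ∈ 𝔓.inertia Gal(M/F) := by
    intro x
    have := hσ (τ • x)
    change σ • τ • x - τ • x ∈ τ • 𝔓 at this
    rw [Ideal.mem_pointwise_smul_iff_inv_smul_mem, smul_sub, inv_smul_smul] at this
    change h2a_conj τ.symm σ • x - x ∈ 𝔓
    rw [h2a_conj_smul]
    have e1 : (τ.symm : M ≃ₐ[F₀] M) = τ⁻¹ := rfl
    rw [e1, inv_inv]
    exact this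
  rw [hI, Subgroup.mem_bot] at h1
  have := congrArg (h2a_conj τ) h1
  rwa [h2a_conj_conj_symm, h2a_conj_one] at this

/-- EQUIVARIANCE at prime level: for `F₀ ⊆ F ⊆ M` with `F/F₀` normal, `τ ∈ Gal(M/F₀)` and `𝔓`
unramified in `M/F`: `Frob_{M/F}(τ𝔓) = τ Frob_{M/F}(𝔓) τ⁻¹`. -/
theorem h2a_frob_smul_tower (τ : M ≃ₐ[F₀] M) (𝔓 : Ideal (𝓞 M)) [𝔓.IsPrime] (h𝔓 : 𝔓 ≠ ⊥)
    (h𝔓' : τ • 𝔓 ≠ ⊥) (hI : 𝔓.inertia Gal(M/F) = ⊥) :
    h2a_frob F M (τ • 𝔓) h𝔓' = h2a_conj τ (h2a_frob F M 𝔓 h𝔓) := by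
  symm
  apply h2a_frob_unique (τ • 𝔓) h𝔓' (h2a_inertia_smul_tower τ 𝔓 hI)
  intro x
  change h2a_conj τ (h2a_frob F M 𝔓 h𝔓) • x - x ^ Nat.card (𝓞 F ⧸ (τ • 𝔓).under (𝓞 F)) ∈ τ • 𝔓
  rw [h2a_under_smul, h2a_card_quot_smul, Ideal.mem_pointwise_smul_iff_inv_smul_mem,
    h2a_conj_smul, smul_sub, inv_smul_smul, smul_pow']
  exact h2a_frob_spec 𝔓 h𝔓 _

theorem h2a_smul_ne_bot_gen {R : Type*} [CommRing R] {G : Type*} [Group G]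
    [MulSemiringAction G R] (ρ : G) (I : Ideal R) (hI : I ≠ ⊥) : ρ • I ≠ ⊥ := by
  intro h
  apply hI
  have : ρ⁻¹ • (ρ • I) = I := inv_smul_smul ρ I
  rw [← this, h]
  simp [Ideal.pointwise_smul_def, Ideal.map_bot]

variable [IsMulCommutative Gal(M/F)]

/-- EQUIVARIANCE of the Artin map at a prime `𝔮` of `F` which is unramified in `M`:
`Art(τ|_F • 𝔮) = τ Art(𝔮) τ⁻¹` for `τ ∈ Gal(M/F₀)`. -/
theorem h2a_artin_smul_prime (τ : M ≃ₐ[F₀] M) (𝔮 : Ideal (𝓞 F)) [𝔮.IsPrime] (h𝔮 : 𝔮 ≠ ⊥)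
    (hunr : ∀ 𝔓 : Ideal (𝓞 M), 𝔓.IsPrime → 𝔓.under (𝓞 F) = 𝔮 → 𝔓.inertia Gal(M/F) = ⊥) :
    h2a_artin F M (AlgEquiv.restrictNormalHom F τ • 𝔮) = h2a_conj τ (h2a_artin F M 𝔮) := by
  obtain ⟨𝔓, h1, h2, h3⟩ := h2a_exists_over (M := M) 𝔮 h𝔮
  have hI := hunr 𝔓 h1 h3
  subst h3
  rw [h2a_artin_under 𝔓 h2, ← h2a_under_smul,
    h2a_artin_under (τ • 𝔓) (h2a_smul_ne_bot_gen τ 𝔓 h2),
    h2a_frob_smul_tower τ 𝔓 h2 _ hI]

/-- The same, inside `Gal(M/F₀)`. -/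
theorem h2a_artin_smul_prime' (τ : M ≃ₐ[F₀] M) (𝔮 : Ideal (𝓞 F)) [𝔮.IsPrime] (h𝔮 : 𝔮 ≠ ⊥)
    (hunr : ∀ 𝔓 : Ideal (𝓞 M), 𝔓.IsPrime → 𝔓.under (𝓞 F) = 𝔮 → 𝔓.inertia Gal(M/F) = ⊥) :
    (h2a_artin F M (AlgEquiv.restrictNormalHom F τ • 𝔮)).restrictScalars F₀ =
      τ * (h2a_artin F M 𝔮).restrictScalars F₀ * τ⁻¹ := by
  rw [h2a_artin_smul_prime τ 𝔮 h𝔮 hunr, h2a_conj_restrictScalars]

end equivariance

end Fermat.Agent.Lib.S14
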