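/-
S14 project (speculative), piece (AM6) (helper2): norms and the Artin map.
* `h2a_card_inertia`, `h2a_inertia_eq_bot_iff`: `𝔓.inertia Gal(M/F) = ⊥ ↔ 𝔓.ramificationIdx (𝓞 F) = 1`
* `h2a_card_quot_eq_pow`, `h2a_relNorm_prime`: `N𝔓 = N𝔭 ^ f`, `relNorm 𝔓 = 𝔭 ^ f`
* `h2a_artin_relNorm`: norms from `M` are killed by the Artin map of an unramified abelian `M/F`
* `h2a_artin_relNorm_general`: `Art_{L/K}(N_{F/K} 𝔅) = Art_{M/F}(𝔅)|_L`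
-/
import Mathlib
import Fermat.Agent.Lib.S14.ArtinTower

set_option autoImplicit false
set_option linter.unusedSectionVars false

open NumberField

namespace Fermat.Agent.Lib.S14

open scoped Pointwise

section nongalois

variable {F M : Type*} [Field F] [Field M] [NumberField F] [NumberField M] [Algebra F M]

/-- `N𝔓 = N𝔭 ^ f(𝔓|𝔭)`. -/
theorem h2a_card_quot_eq_pow (𝔓 : Ideal (𝓞 M)) [𝔓.IsPrime] (h𝔓 : 𝔓 ≠ ⊥) :
    Nat.card (𝓞 M ⧸ 𝔓) = Nat.card (𝓞 F ⧸ 𝔓.under (𝓞 F)) ^ 𝔓.inertiaDeg (𝓞 F) := by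
  have hne : 𝔓.under (𝓞 F) ≠ ⊥ := h2a_under_ne_bot 𝔓 h𝔓
  have : (𝔓.under (𝓞 F)).IsMaximal := Ideal.IsPrime.isMaximal inferInstance hne
  have : 𝔓.IsMaximal := Ideal.IsPrime.isMaximal inferInstance h𝔓
  have : 𝔓.LiesOver (𝔓.under (𝓞 F)) := ⟨rfl⟩
  have h := Ideal.absNorm_eq_pow_inertiaDeg'_of_liesOver 𝔓 (𝔓.under (𝓞 F)) inferInstance hne
  rw [Ideal.inertiaDeg'_eq_inertiaDeg] at h
  simpa [Ideal.absNorm_apply, Submodule.cardQuot_apply] using h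

/-- `relNorm 𝔓 = 𝔭 ^ f`. -/
theorem h2a_relNorm_prime (𝔓 : Ideal (𝓞 M)) [𝔓.IsPrime] (h𝔓 : 𝔓 ≠ ⊥) :
    Ideal.relNorm (𝓞 F) 𝔓 = 𝔓.under (𝓞 F) ^ 𝔓.inertiaDeg (𝓞 F) := by
  have hne : 𝔓.under (𝓞 F) ≠ ⊥ := h2a_under_ne_bot 𝔓 h𝔓
  have : (𝔓.under (𝓞 F)).IsMaximal := Ideal.IsPrime.isMaximal inferInstance hne
  have : 𝔓.IsMaximal := Ideal.IsPrime.isMaximal inferInstance h𝔓
  have : 𝔓.LiesOver (𝔓.under (𝓞 F)) := ⟨rfl⟩
  exact Ideal.relNorm_eq_pow_of_isMaximal 𝔓 (𝔓.under (𝓞 F))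

end nongalois

section conv

variable {F M : Type*} [Field F] [Field M] [NumberField F] [NumberField M] [Algebra F M]
  [IsGalois F M]

/-- The order of the inertia group is the ramification index. -/
theorem h2a_card_inertia (𝔓 : Ideal (𝓞 M)) [𝔓.IsPrime] (h𝔓 : 𝔓 ≠ ⊥) :
    Nat.card (𝔓.inertia Gal(M/F)) = 𝔓.ramificationIdx (𝓞 F) := by
  have hne : 𝔓.under (𝓞 F) ≠ ⊥ := h2a_under_ne_bot 𝔓 h𝔓
  have : (𝔓.under (𝓞 F)).IsMaximal := Ideal.IsPrime.isMaximal inferInstance hne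
  have : Finite ((𝓞 F) ⧸ 𝔓.under (𝓞 F)) := Ideal.finiteQuotientOfFreeOfNeBot _ hne
  have : 𝔓.LiesOver (𝔓.under (𝓞 F)) := ⟨rfl⟩
  rw [Ideal.card_inertia_eq_ramificationIdxIn (G := Gal(M/F)) (𝔓.under (𝓞 F)) 𝔓,
    Ideal.ramificationIdxIn_eq_ramificationIdx (𝔓.under (𝓞 F)) 𝔓 Gal(M/F)]

/-- The two forms of "unramified at `𝔓`". -/
theorem h2a_inertia_eq_bot_iff (𝔓 : Ideal (𝓞 M)) [𝔓.IsPrime] (h𝔓 : 𝔓 ≠ ⊥) :
    𝔓.inertia Gal(M/F) = ⊥ ↔ 𝔓.ramificationIdx (𝓞 F) = 1 := by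
  rw [← h2a_card_inertia (F := F) 𝔓 h𝔓, Subgroup.card_eq_one]

end conv

section norm

open scoped IsMulCommutative

variable {F M : Type*} [Field F] [Field M] [NumberField F] [NumberField M] [Algebra F M]
  [IsGalois F M] [IsMulCommutative Gal(M/F)]

/-- Norms from `M` are in the kernel of the Artin map of the unramified abelian extension `M/F`
(prime case). -/
theorem h2a_artin_relNorm_prime (𝔓 : Ideal (𝓞 M)) [𝔓.IsPrime] (h𝔓 : 𝔓 ≠ ⊥)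
    (hI : 𝔓.inertia Gal(M/F) = ⊥) : h2a_artin F M (Ideal.relNorm (𝓞 F) 𝔓) = 1 := by
  rw [h2a_relNorm_prime 𝔓 h𝔓, h2a_artin_pow, h2a_artin_under 𝔓 h𝔓]
  exact h2a_frob_pow_eq_one_of_card 𝔓 h𝔓 hI _ (h2a_card_quot_eq_pow 𝔓 h𝔓)

/-- Norms from `M` are in the kernel of the Artin map of the unramified abelian extension `M/F`. -/
theorem h2a_artin_relNorm
    (hunr : ∀ 𝔓 : Ideal (𝓞 M), 𝔓.IsPrime → 𝔓 ≠ ⊥ → 𝔓.inertia Gal(M/F) = ⊥)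
    (𝔄 : Ideal (𝓞 M)) : h2a_artin F M (Ideal.relNorm (𝓞 F) 𝔄) = 1 := by
  induction 𝔄 using UniqueFactorizationMonoid.induction_on_prime with
  | h₁ => rw [Ideal.zero_eq_bot, Ideal.relNorm_bot, h2a_artin_bot]
  | h₂ I hI =>
    have hI' : I = ⊤ := Ideal.isUnit_iff.mp hI
    rw [hI', Ideal.relNorm_top, h2a_artin_top]
  | h₃ I 𝔓 hI0 h𝔓 ih =>
    have h𝔓0 : 𝔓 ≠ ⊥ := h𝔓.ne_zero
    have h𝔓p : 𝔓.IsPrime := Ideal.isPrime_of_prime h𝔓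
    have hI0' : I ≠ ⊥ := hI0
    rw [map_mul, h2a_artin_mul (by rwa [Ne, Ideal.relNorm_eq_bot_iff])
      (by rwa [Ne, Ideal.relNorm_eq_bot_iff]), ih, mul_one,
      h2a_artin_relNorm_prime 𝔓 h𝔓0 (hunr 𝔓 h𝔓p h𝔓0)]

end norm

section normgen

open scoped IsMulCommutative

variable {K F L M : Type*} [Field K] [Field F] [Field L] [Field M]
  [NumberField K] [NumberField F] [NumberField L] [NumberField M]
  [Algebra K F] [Algebra K L] [Algebra K M] [Algebra F M] [Algebra L M]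
  [IsScalarTower K F M] [IsScalarTower K L M] [IsGalois K L] [IsGalois F M]
  [IsMulCommutative Gal(L/K)] [IsMulCommutative Gal(M/F)]

/-- NORM FUNCTORIALITY of the Artin map (prime case): `K ⊆ F ⊆ M`, `K ⊆ L ⊆ M`, `L/K` and `M/F`
abelian, `L/K` unramified at `𝔓 ∩ L`: `Art_{L/K}(N_{F/K} 𝔮) = Art_{M/F}(𝔮)|_L` for `𝔮 = 𝔓 ∩ F`. -/
theorem h2a_artin_relNorm_general_prime (𝔓 : Ideal (𝓞 M)) [𝔓.IsPrime] (h𝔓 : 𝔓 ≠ ⊥)
    (hI : (𝔓.under (𝓞 L)).inertia Gal(L/K) = ⊥) :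
    h2a_artin K L (Ideal.relNorm (𝓞 K) (𝔓.under (𝓞 F))) =
      AlgEquiv.restrictNormalHom L ((h2a_artin F M (𝔓.under (𝓞 F))).restrictScalars K) := by
  have h1 := h2a_relNorm_prime (F := K) (𝔓.under (𝓞 F)) (h2a_under_ne_bot 𝔓 h𝔓)
  have h2 := h2a_card_quot_eq_pow (F := K) (𝔓.under (𝓞 F)) (h2a_under_ne_bot 𝔓 h𝔓)
  rw [Ideal.under_under] at h1 h2
  rw [h1, h2a_artin_pow, h2a_artin_under 𝔓 h𝔓,
    h2a_frob_restrict_general 𝔓 h𝔓 hI _ h2]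
  congr 1
  have h3 := h2a_artin_under (F := K) (𝔓.under (𝓞 L)) (h2a_under_ne_bot 𝔓 h𝔓)
  rw [Ideal.under_under] at h3
  exact h3

/-- NORM FUNCTORIALITY of the Artin map: `K ⊆ F ⊆ M`, `K ⊆ L ⊆ M`, `L/K` and `M/F` abelian, `L/K`
unramified: `Art_{L/K}(N_{F/K} 𝔅) = Art_{M/F}(𝔅)|_L`. -/
theorem h2a_artin_relNorm_general
    (hunr : ∀ 𝔔 : Ideal (𝓞 L), 𝔔.IsPrime → 𝔔 ≠ ⊥ → 𝔔.inertia Gal(L/K) = ⊥)
    (𝔅 : Ideal (𝓞 F)) :
    h2a_artin K L (Ideal.relNorm (𝓞 K) 𝔅) =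
      AlgEquiv.restrictNormalHom L ((h2a_artin F M 𝔅).restrictScalars K) := by
  induction 𝔅 using UniqueFactorizationMonoid.induction_on_prime with
  | h₁ =>
    rw [Ideal.zero_eq_bot, Ideal.relNorm_bot, h2a_artin_bot, h2a_artin_bot]
    exact (map_one _).symm
  | h₂ I hI =>
    have hI' : I = ⊤ := Ideal.isUnit_iff.mp hI
    rw [hI', Ideal.relNorm_top, h2a_artin_top, h2a_artin_top]
    exact (map_one _).symm
  | h₃ I 𝔮 hI0 h𝔮 ih =>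
    have h𝔮0 : 𝔮 ≠ ⊥ := h𝔮.ne_zero
    have h𝔮p : 𝔮.IsPrime := Ideal.isPrime_of_prime h𝔮
    have hI0' : I ≠ ⊥ := hI0
    obtain ⟨𝔓, hP1, hP2, hP3⟩ := h2a_exists_over (M := M) 𝔮 h𝔮0
    subst hP3
    have hrs : ∀ g g' : M ≃ₐ[F] M, (g * g').restrictScalars K =
        g.restrictScalars K * g'.restrictScalars K := fun _ _ => rfl
    rw [map_mul, h2a_artin_mul (by rwa [Ne, Ideal.relNorm_eq_bot_iff])
      (by rwa [Ne, Ideal.relNorm_eq_bot_iff]), ih, h2a_artin_mul h𝔮0 hI0', hrs, map_mul,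
      h2a_artin_relNorm_general_prime 𝔓 hP2
        (hunr _ inferInstance (h2a_under_ne_bot 𝔓 hP2))]

end normgen
end Fermat.Agent.Lib.S14
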