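/-
S14 project (speculative), piece (AM7) (helper2): further consequences.
* `h2a_frob_eq_one_iff_inertiaDeg`, `h2a_orderOf_frob` (order of Frobenius = residue degree)
* `h2a_relNorm_eq_under_of_frob_eq_one` (a prime with trivial Frobenius is a norm)
* `h2a_artin_smul` (equivariance of the Artin map on all ideals)
-/
import Mathlib
import Fermat.Agent.Lib.S14.ArtinNorm
import Fermat.Agent.Lib.S14.ArtinEquiv

set_option autoImplicit false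
set_option linter.unusedSectionVars false

open NumberField

namespace Fermat.Agent.Lib.S14

open scoped Pointwise

section split

variable {F M : Type*} [Field F] [Field M] [NumberField F] [NumberField M] [Algebra F M]
  [IsGalois F M]

theorem h2a_two_le_card_quot (𝔭 : Ideal (𝓞 F)) [𝔭.IsPrime] (h𝔭 : 𝔭 ≠ ⊥) :
    2 ≤ Nat.card (𝓞 F ⧸ 𝔭) := by
  have : Finite (𝓞 F ⧸ 𝔭) := Ideal.finiteQuotientOfFreeOfNeBot 𝔭 h𝔭
  have : Nontrivial (𝓞 F ⧸ 𝔭) :=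
    Ideal.Quotient.nontrivial_iff.mpr (Ideal.IsPrime.ne_top inferInstance)
  exact Finite.one_lt_card

/-- `Frob = 1` iff the residue degree is `1` (unramified `𝔓`). -/
theorem h2a_frob_eq_one_iff_inertiaDeg (𝔓 : Ideal (𝓞 M)) [𝔓.IsPrime] (h𝔓 : 𝔓 ≠ ⊥)
    (hI : 𝔓.inertia Gal(M/F) = ⊥) :
    h2a_frob F M 𝔓 h𝔓 = 1 ↔ 𝔓.inertiaDeg (𝓞 F) = 1 := by
  rw [h2a_frob_eq_one_iff 𝔓 h𝔓 hI, h2a_card_quot_eq_pow (F := F) 𝔓 h𝔓]
  have h2 := h2a_two_le_card_quot (𝔓.under (𝓞 F)) (h2a_under_ne_bot 𝔓 h𝔓)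
  constructor
  · intro h
    have h' : Nat.card (𝓞 F ⧸ 𝔓.under (𝓞 F)) ^ 𝔓.inertiaDeg (𝓞 F) =
        Nat.card (𝓞 F ⧸ 𝔓.under (𝓞 F)) ^ 1 := by rw [pow_one]; exact h
    exact Nat.pow_right_injective h2 h'
  · intro h
    rw [h, pow_one]

/-- A prime with trivial Frobenius is a norm: `relNorm 𝔓 = 𝔓 ∩ 𝓞 F`. -/
theorem h2a_relNorm_eq_under_of_frob_eq_one (𝔓 : Ideal (𝓞 M)) [𝔓.IsPrime] (h𝔓 : 𝔓 ≠ ⊥)
    (hI : 𝔓.inertia Gal(M/F) = ⊥) (h1 : h2a_frob F M 𝔓 h𝔓 = 1) :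
    Ideal.relNorm (𝓞 F) 𝔓 = 𝔓.under (𝓞 F) := by
  rw [h2a_relNorm_prime 𝔓 h𝔓, (h2a_frob_eq_one_iff_inertiaDeg 𝔓 h𝔓 hI).1 h1, pow_one]

/-- The order of the Frobenius element divides the residue degree... and conversely:
`Frob ^ n = 1 ↔ f(𝔓|𝔭) ∣ n` (unramified `𝔓`). -/
theorem h2a_frob_pow_inertiaDeg (𝔓 : Ideal (𝓞 M)) [𝔓.IsPrime] (h𝔓 : 𝔓 ≠ ⊥)
    (hI : 𝔓.inertia Gal(M/F) = ⊥) : h2a_frob F M 𝔓 h𝔓 ^ 𝔓.inertiaDeg (𝓞 F) = 1 :=
  h2a_frob_pow_eq_one_of_card 𝔓 h𝔓 hI _ (h2a_card_quot_eq_pow 𝔓 h𝔓)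

theorem h2a_card_le_of_forall_pow_eq {k : Type*} [Field k] [Finite k] {q : ℕ}
    (hq : 2 ≤ q) (h : ∀ x : k, x ^ q = x) : Nat.card k ≤ q := by
  classical
  let _ := Fintype.ofFinite k
  have hne : (Polynomial.X ^ q - Polynomial.X : Polynomial k) ≠ 0 :=
    FiniteField.X_pow_card_sub_X_ne_zero _ (by omega)
  have hdeg : (Polynomial.X ^ q - Polynomial.X : Polynomial k).natDegree = q :=
    FiniteField.X_pow_card_sub_X_natDegree_eq _ (by omega)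
  have hsub : (Finset.univ : Finset k) ⊆
      (Polynomial.X ^ q - Polynomial.X : Polynomial k).roots.toFinset := by
    intro x _
    rw [Multiset.mem_toFinset, Polynomial.mem_roots hne]
    simp [h x]
  calc Nat.card k = (Finset.univ : Finset k).card := by
        rw [Nat.card_eq_fintype_card, Finset.card_univ]
    _ ≤ (Polynomial.X ^ q - Polynomial.X : Polynomial k).roots.toFinset.card :=
        Finset.card_le_card hsub
    _ ≤ Multiset.card (Polynomial.X ^ q - Polynomial.X : Polynomial k).roots :=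
        Multiset.toFinset_card_le _
    _ ≤ (Polynomial.X ^ q - Polynomial.X : Polynomial k).natDegree :=
        Polynomial.card_roots' _
    _ = q := hdeg

/-- The order of the Frobenius element is the residue degree (unramified `𝔓`). -/
theorem h2a_orderOf_frob (𝔓 : Ideal (𝓞 M)) [𝔓.IsPrime] (h𝔓 : 𝔓 ≠ ⊥)
    (hI : 𝔓.inertia Gal(M/F) = ⊥) : orderOf (h2a_frob F M 𝔓 h𝔓) = 𝔓.inertiaDeg (𝓞 F) := by
  have hdvd : orderOf (h2a_frob F M 𝔓 h𝔓) ∣ 𝔓.inertiaDeg (𝓞 F) :=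
    orderOf_dvd_of_pow_eq_one (h2a_frob_pow_inertiaDeg 𝔓 h𝔓 hI)
  have hfpos : 0 < 𝔓.inertiaDeg (𝓞 F) := Ideal.inertiaDeg_pos 𝔓 (𝓞 F)
  have hnpos : 0 < orderOf (h2a_frob F M 𝔓 h𝔓) := orderOf_pos _
  apply le_antisymm (Nat.le_of_dvd hfpos hdvd)
  have h2 := h2a_two_le_card_quot (𝔓.under (𝓞 F)) (h2a_under_ne_bot 𝔓 h𝔓)
  have h3 := (h2a_frob_pow_eq_one_iff 𝔓 h𝔓 hI (orderOf (h2a_frob F M 𝔓 h𝔓))).1
    (pow_orderOf_eq_one _)
  have : 𝔓.IsMaximal := Ideal.IsPrime.isMaximal inferInstance h𝔓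
  have : Finite (𝓞 M ⧸ 𝔓) := Ideal.finiteQuotientOfFreeOfNeBot 𝔓 h𝔓
  let _ := Ideal.Quotient.field 𝔓
  have h4 := h2a_card_le_of_forall_pow_eq (k := 𝓞 M ⧸ 𝔓)
    (q := Nat.card (𝓞 F ⧸ 𝔓.under (𝓞 F)) ^ orderOf (h2a_frob F M 𝔓 h𝔓))
    (le_trans h2 (Nat.le_self_pow hnpos.ne' _)) h3
  rw [h2a_card_quot_eq_pow (F := F) 𝔓 h𝔓] at h4
  exact (Nat.pow_le_pow_iff_right (by omega)).1 h4

end split

section equivariance2

open scoped IsMulCommutative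

variable {F₀ F M : Type*} [Field F₀] [Field F] [Field M]
  [NumberField F₀] [NumberField F] [NumberField M]
  [Algebra F₀ F] [Algebra F₀ M] [Algebra F M] [IsScalarTower F₀ F M] [Normal F₀ F]
  [IsGalois F M] [IsMulCommutative Gal(M/F)]

/-- EQUIVARIANCE of the Artin map of an unramified abelian extension `M/F` under `Gal(M/F₀)`
(`F/F₀` normal): `Art(τ|_F • 𝔞) = τ Art(𝔞) τ⁻¹`. -/
theorem h2a_artin_smul (τ : M ≃ₐ[F₀] M)
    (hunr : ∀ 𝔓 : Ideal (𝓞 M), 𝔓.IsPrime → 𝔓 ≠ ⊥ → 𝔓.inertia Gal(M/F) = ⊥)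
    (𝔞 : Ideal (𝓞 F)) :
    h2a_artin F M (AlgEquiv.restrictNormalHom F τ • 𝔞) = h2a_conj τ (h2a_artin F M 𝔞) := by
  induction 𝔞 using UniqueFactorizationMonoid.induction_on_prime with
  | h₁ =>
    rw [smul_zero, Ideal.zero_eq_bot, h2a_artin_bot, h2a_conj_one]
  | h₂ I hI =>
    have hI' : I = ⊤ := Ideal.isUnit_iff.mp hI
    rw [hI', ← Ideal.one_eq_top, smul_one, h2a_artin_one, h2a_conj_one]
  | h₃ I 𝔮 hI0 h𝔮 ih =>
    have h𝔮0 : 𝔮 ≠ ⊥ := h𝔮.ne_zero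
    have h𝔮p : 𝔮.IsPrime := Ideal.isPrime_of_prime h𝔮
    have hI0' : I ≠ ⊥ := hI0
    rw [smul_mul', h2a_artin_mul (h2a_smul_ne_bot_gen _ _ h𝔮0) (h2a_smul_ne_bot_gen _ _ hI0'),
      h2a_artin_mul h𝔮0 hI0', h2a_conj_mul, ih,
      h2a_artin_smul_prime τ 𝔮 h𝔮0 (fun 𝔓 hP hu => hunr 𝔓 hP (by
        intro h0
        apply h𝔮0
        rw [← hu, h0]
        exact Ideal.under_bot (𝓞 F) (𝓞 M)))]

end equivariance2

end Fermat.Agent.Lib.S14
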