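/-
S14 project (speculative), (helper2), for stream (C): cyclotomic action of Frobenius elements and
its consequence "if `Gal(Ω'/Ω)` acts on `ζ_l` through `p`-th powers then absolute norms of ideals
of `Ω` prime to `l` are `p`-th powers mod `l`".
-/
import Mathlib
import Fermat.Agent.Lib.S14.ArtinExtra

set_option autoImplicit false
set_option linter.unusedSectionVars false

open NumberField

namespace Fermat.Agent.Lib.S14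

open scoped Pointwise

section cyclo

variable {Ω Ω' : Type*} [Field Ω] [Field Ω'] [NumberField Ω] [NumberField Ω'] [Algebra Ω Ω']
  [IsGalois Ω Ω']

/-- Every nonzero prime of `Ω` has a prime of `Ω'` above it (no Galois hypothesis). -/
theorem h2a_exists_over' {F M : Type*} [Field F] [Field M] [NumberField F] [NumberField M]
    [Algebra F M] (𝔭 : Ideal (𝓞 F)) [𝔭.IsPrime] (h𝔭 : 𝔭 ≠ ⊥) :
    ∃ 𝔓 : Ideal (𝓞 M), 𝔓.IsPrime ∧ 𝔓 ≠ ⊥ ∧ 𝔓.under (𝓞 F) = 𝔭 := by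
  have : 𝔭.IsMaximal := Ideal.IsPrime.isMaximal inferInstance h𝔭
  obtain ⟨𝔓, h1, h2⟩ := Ideal.exists_maximal_ideal_liesOver_of_isIntegral (S := 𝓞 M) 𝔭
  refine ⟨𝔓, h1.isPrime, ?_, h2.over.symm⟩
  intro h
  apply h𝔭
  rw [h2.over, h]
  exact Ideal.under_bot (𝓞 F) (𝓞 M)

theorem h2a_card_quot_eq_absNorm (𝔇 : Ideal (𝓞 Ω)) : Nat.card (𝓞 Ω ⧸ 𝔇) = Ideal.absNorm 𝔇 := by
  rw [Ideal.absNorm_apply, Submodule.cardQuot_apply]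

/-- The Frobenius element at `𝔓` of `Ω'/Ω` raises `l`-th roots of unity (`l ∉ 𝔓`) to the power
`absNorm (𝔓 ∩ Ω)`. -/
theorem h2a_frob_apply_primitiveRoot {l : ℕ} (hl0 : l ≠ 0) {ζ : Ω'} (hζ : ζ ^ l = 1)
    (𝔓 : Ideal (𝓞 Ω')) [𝔓.IsPrime] (h𝔓 : 𝔓 ≠ ⊥) (hl : (l : 𝓞 Ω') ∉ 𝔓) :
    h2a_frob Ω Ω' 𝔓 h𝔓 ζ = ζ ^ Ideal.absNorm (𝔓.under (𝓞 Ω)) := by
  rw [← h2a_card_quot_eq_absNorm]
  exact h2a_frob_apply_of_pow_eq_one 𝔓 h𝔓 hl0 hζ hl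

/-- If `Gal(Ω'/Ω)` acts on a primitive `l`-th root of unity through `p`-th powers, then the
absolute norm of every prime of `Ω` not above `l` is a `p`-th power modulo `l`. -/
theorem h2a_absNorm_prime_pow_mod {l p : ℕ} [Fact l.Prime] {ζ : Ω'} (hζ : IsPrimitiveRoot ζ l)
    (hχ : ∀ σ : Gal(Ω'/Ω), ∃ c : ℕ, σ ζ = ζ ^ (c ^ p))
    (𝔇 : Ideal (𝓞 Ω)) [𝔇.IsPrime] (h𝔇 : 𝔇 ≠ ⊥) (hl : (l : 𝓞 Ω) ∉ 𝔇) :
    ∃ y : ZMod l, ((Ideal.absNorm 𝔇 : ℕ) : ZMod l) = y ^ p := by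
  have hl0 : l ≠ 0 := (Fact.out : l.Prime).ne_zero
  obtain ⟨𝔓, hP, hP0, hPu⟩ := h2a_exists_over' (M := Ω') 𝔇 h𝔇
  have hl' : (l : 𝓞 Ω') ∉ 𝔓 := by
    intro h
    apply hl
    rw [← hPu, Ideal.mem_comap, map_natCast]
    exact h
  have h1 := h2a_frob_apply_primitiveRoot (Ω := Ω) hl0 hζ.pow_eq_one 𝔓 hP0 hl'
  obtain ⟨c, hc⟩ := hχ (h2a_frob Ω Ω' 𝔓 hP0)
  rw [hc, hPu] at h1
  refine ⟨(c : ZMod l), ?_⟩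
  have h2 : c ^ p ≡ Ideal.absNorm 𝔇 [MOD l] := by
    have hfin : IsOfFinOrder ζ :=
      isOfFinOrder_iff_pow_eq_one.mpr ⟨l, Nat.pos_of_ne_zero hl0, hζ.pow_eq_one⟩
    have := hfin.pow_eq_pow_iff_modEq.mp h1
    rwa [← hζ.eq_orderOf] at this
  have h3 := (ZMod.natCast_eq_natCast_iff _ _ _).mpr h2
  rw [← h3]
  push_cast
  rfl

/-- The same for all nonzero ideals of `Ω` prime to `l`. -/
theorem h2a_absNorm_pow_mod {l p : ℕ} [Fact l.Prime] {ζ : Ω'} (hζ : IsPrimitiveRoot ζ l)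
    (hχ : ∀ σ : Gal(Ω'/Ω), ∃ c : ℕ, σ ζ = ζ ^ (c ^ p))
    (𝔇 : Ideal (𝓞 Ω)) (h𝔇 : 𝔇 ≠ ⊥)
    (hl : ∀ 𝔔 : Ideal (𝓞 Ω), 𝔔.IsPrime → 𝔇 ≤ 𝔔 → (l : 𝓞 Ω) ∉ 𝔔) :
    ∃ y : ZMod l, ((Ideal.absNorm 𝔇 : ℕ) : ZMod l) = y ^ p := by
  induction 𝔇 using UniqueFactorizationMonoid.induction_on_prime with
  | h₁ => exact absurd rfl h𝔇
  | h₂ I hI =>
    have hI' : I = ⊤ := Ideal.isUnit_iff.mp hI
    exact ⟨1, by rw [hI', Ideal.absNorm_top, Nat.cast_one, one_pow]⟩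
  | h₃ I 𝔮 hI0 h𝔮 ih =>
    have h𝔮0 : 𝔮 ≠ ⊥ := h𝔮.ne_zero
    have h𝔮p : 𝔮.IsPrime := Ideal.isPrime_of_prime h𝔮
    have hI0' : I ≠ ⊥ := hI0
    obtain ⟨y₁, hy₁⟩ := h2a_absNorm_prime_pow_mod hζ hχ 𝔮 h𝔮0
      (hl 𝔮 h𝔮p Ideal.mul_le_left)
    obtain ⟨y₂, hy₂⟩ := ih hI0' (fun 𝔔 hQ hle => hl 𝔔 hQ (le_trans Ideal.mul_le_right hle))
    exact ⟨y₁ * y₂, by rw [map_mul, Nat.cast_mul, hy₁, hy₂, mul_pow]⟩

end cyclo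

end Fermat.Agent.Lib.S14
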