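/-
S14 project (speculative), (helper2), for stream (C): decomposition-field lemma.  If an arithmetic
Frobenius at `𝔓` in `Gal(M/K)` fixes the intermediate field `F`, then `𝔓 ∩ F` has residue degree
one over `K` and `N_{F/K}(𝔓 ∩ F) = 𝔓 ∩ K`.
-/
import Mathlib
import Fermat.Agent.Lib.S14.ArtinExtra

set_option autoImplicit false
set_option linter.unusedSectionVars false

open NumberField

namespace Fermat.Agent.Lib.S14

open scoped Pointwise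

section decomp

variable {K F M : Type*} [Field K] [Field F] [Field M]
  [NumberField K] [NumberField F] [NumberField M]
  [Algebra K F] [Algebra K M] [Algebra F M] [IsScalarTower K F M] [IsGalois K M]

/-- If some arithmetic Frobenius `σ ∈ Gal(M/K)` at `𝔓` fixes the intermediate field `F` pointwise,
then `𝔓 ∩ F` has residue degree one over `K`: `N(𝔓 ∩ F) = N(𝔓 ∩ K)`. -/
theorem h2a_card_quot_under_eq_of_frob_fixes (σ : M ≃ₐ[K] M) (𝔓 : Ideal (𝓞 M)) [𝔓.IsPrime]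
    (h𝔓 : 𝔓 ≠ ⊥) (hσ : IsArithFrobAt (𝓞 K) σ 𝔓)
    (hfix : ∀ x : F, σ (algebraMap F M x) = algebraMap F M x) :
    Nat.card (𝓞 F ⧸ 𝔓.under (𝓞 F)) = Nat.card (𝓞 K ⧸ 𝔓.under (𝓞 K)) := by
  have hneF : 𝔓.under (𝓞 F) ≠ ⊥ := h2a_under_ne_bot 𝔓 h𝔓
  have hneK : 𝔓.under (𝓞 K) ≠ ⊥ := h2a_under_ne_bot 𝔓 h𝔓
  have : (𝔓.under (𝓞 F)).IsMaximal := Ideal.IsPrime.isMaximal inferInstance hneF
  have : Finite (𝓞 F ⧸ 𝔓.under (𝓞 F)) := Ideal.finiteQuotientOfFreeOfNeBot _ hneF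
  have : Finite (𝓞 K ⧸ 𝔓.under (𝓞 K)) := Ideal.finiteQuotientOfFreeOfNeBot _ hneK
  let _ := Ideal.Quotient.field (𝔓.under (𝓞 F))
  apply le_antisymm
  · apply h2a_card_le_of_forall_pow_eq (h2a_two_le_card_quot _ hneK)
    intro x
    obtain ⟨x, rfl⟩ := Ideal.Quotient.mk_surjective x
    rw [← map_pow, Ideal.Quotient.eq, Ideal.mem_comap, map_sub, map_pow]
    have h1 := hσ (algebraMap (𝓞 F) (𝓞 M) x)
    have h2 : σ • algebraMap (𝓞 F) (𝓞 M) x = algebraMap (𝓞 F) (𝓞 M) x := by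
      apply RingOfIntegers.ext
      change algebraMap (𝓞 M) M (σ • algebraMap (𝓞 F) (𝓞 M) x) =
        algebraMap (𝓞 M) M (algebraMap (𝓞 F) (𝓞 M) x)
      rw [algebraMap.smul' σ (algebraMap (𝓞 F) (𝓞 M) x) M, AlgEquiv.smul_def,
        ← IsScalarTower.algebraMap_apply, IsScalarTower.algebraMap_apply (𝓞 F) F M, hfix]
    have h3 : (MulSemiringAction.toAlgHom (𝓞 K) (𝓞 M) σ) (algebraMap (𝓞 F) (𝓞 M) x) =
        σ • algebraMap (𝓞 F) (𝓞 M) x := rfl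
    rw [h3, h2] at h1
    have := 𝔓.neg_mem h1
    rwa [neg_sub] at this
  · have h1 : (𝔓.under (𝓞 F)).under (𝓞 K) = 𝔓.under (𝓞 K) := Ideal.under_under _
    rw [← h1]
    exact Nat.card_le_card_of_injective _
      (Ideal.algebraMap_quotient_injective (R := 𝓞 K) (A := 𝓞 F) (I := 𝔓.under (𝓞 F)))

/-- Under the same hypothesis, `𝔓 ∩ F` is the norm of... itself: `N_{F/K}(𝔓 ∩ F) = 𝔓 ∩ K`. -/
theorem h2a_relNorm_under_of_frob_fixes (σ : M ≃ₐ[K] M) (𝔓 : Ideal (𝓞 M)) [𝔓.IsPrime]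
    (h𝔓 : 𝔓 ≠ ⊥) (hσ : IsArithFrobAt (𝓞 K) σ 𝔓)
    (hfix : ∀ x : F, σ (algebraMap F M x) = algebraMap F M x) :
    Ideal.relNorm (𝓞 K) (𝔓.under (𝓞 F)) = 𝔓.under (𝓞 K) := by
  have hneF : 𝔓.under (𝓞 F) ≠ ⊥ := h2a_under_ne_bot 𝔓 h𝔓
  have hneK : 𝔓.under (𝓞 K) ≠ ⊥ := h2a_under_ne_bot 𝔓 h𝔓
  have h1 := h2a_card_quot_eq_pow (F := K) (𝔓.under (𝓞 F)) hneF
  have h2 := h2a_relNorm_prime (F := K) (𝔓.under (𝓞 F)) hneF
  rw [Ideal.under_under] at h1 h2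
  rw [h2a_card_quot_under_eq_of_frob_fixes σ 𝔓 h𝔓 hσ hfix] at h1
  have h3 : Nat.card (𝓞 K ⧸ 𝔓.under (𝓞 K)) ^ 1 =
      Nat.card (𝓞 K ⧸ 𝔓.under (𝓞 K)) ^ (𝔓.under (𝓞 F)).inertiaDeg (𝓞 K) := by
    rw [pow_one]; exact h1
  have h4 := Nat.pow_right_injective (h2a_two_le_card_quot _ hneK) h3
  rw [h2, ← h4, pow_one]

end decomp

end Fermat.Agent.Lib.S14
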