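/-
S14 project (speculative), (helper2), for stream (B): invariant ideals of an everywhere-unramified
Galois extension of number fields are extended from the base:
`h2a_invariant_extended` (`e = 1` form), `h2a_invariant_extended'` (inertia-group form).
-/
import Mathlib
import Fermat.Agent.Lib.S14.ArtinExtra

set_option autoImplicit false
set_option linter.unusedSectionVars false

open NumberField

namespace Fermat.Agent.Lib.S14

open scoped Pointwise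

section invariant

variable {F M : Type*} [Field F] [Field M] [NumberField F] [NumberField M] [Algebra F M]
  [IsGalois F M]

/-- Extended ideals are Galois-invariant. -/
theorem h2a_smul_map_algebraMap (σ : Gal(M/F)) (𝔞 : Ideal (𝓞 F)) :
    σ • 𝔞.map (algebraMap (𝓞 F) (𝓞 M)) = 𝔞.map (algebraMap (𝓞 F) (𝓞 M)) := by
  rw [Ideal.pointwise_smul_def, Ideal.map_map]
  congr 1
  ext x
  simp

/-- If all primes above `𝔭` are unramified then `𝔭 𝓞_M` divides every Galois-invariant ideal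
contained in a prime above `𝔭`. -/
theorem h2a_map_under_dvd_of_invariant
    (hunr : ∀ 𝔓 : Ideal (𝓞 M), 𝔓.IsPrime → 𝔓 ≠ ⊥ → 𝔓.ramificationIdx (𝓞 F) = 1)
    (𝔄 : Ideal (𝓞 M)) (hinv : ∀ σ : Gal(M/F), σ • 𝔄 = 𝔄)
    (𝔓 : Ideal (𝓞 M)) [𝔓.IsPrime] (h𝔓 : 𝔓 ≠ ⊥) (hle : 𝔄 ≤ 𝔓) :
    (𝔓.under (𝓞 F)).map (algebraMap (𝓞 F) (𝓞 M)) ∣ 𝔄 := by
  classical
  have hne : 𝔓.under (𝓞 F) ≠ ⊥ := h2a_under_ne_bot 𝔓 h𝔓
  have : (𝔓.under (𝓞 F)).IsMaximal := Ideal.IsPrime.isMaximal inferInstance hne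
  have : 𝔓.LiesOver (𝔓.under (𝓞 F)) := ⟨rfl⟩
  rw [Ideal.map_algebraMap_eq_finsetProd_pow (R := 𝓞 M) hne]
  have hprod : ∏ P ∈ (𝔓.under (𝓞 F)).primesOver (𝓞 M), P ^ P.ramificationIdx (𝓞 F) =
      ∏ P ∈ (𝔓.under (𝓞 F)).primesOver (𝓞 M), P := by
    apply Finset.prod_congr rfl
    intro P hP
    rw [Set.mem_toFinset] at hP
    have hPne : P ≠ ⊥ := by
      intro h0
      apply hne
      rw [hP.2.over, h0]
      exact Ideal.under_bot (𝓞 F) (𝓞 M)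
    rw [hunr P hP.1 hPne, pow_one]
  rw [hprod]
  apply Finset.prod_primes_dvd
  · intro P hP
    rw [Set.mem_toFinset] at hP
    have hPne : P ≠ ⊥ := by
      intro h0
      apply hne
      rw [hP.2.over, h0]
      exact Ideal.under_bot (𝓞 F) (𝓞 M)
    exact Ideal.prime_of_isPrime hPne hP.1
  · intro P hP
    rw [Set.mem_toFinset] at hP
    have := hP.1
    have := hP.2
    obtain ⟨σ, hσ⟩ := Ideal.exists_smul_eq_of_isGaloisGroup (𝔓.under (𝓞 F)) 𝔓 P Gal(M/F)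
    rw [Ideal.dvd_iff_le, ← hσ, ← hinv σ]
    exact Ideal.pointwise_smul_le_pointwise_smul_iff.mpr hle

/-- INVARIANT IDEALS ARE EXTENDED: in a Galois extension `M/F` of number fields unramified at all
finite primes, every `Gal(M/F)`-invariant ideal of `𝓞 M` is of the form `𝔞 𝓞_M`. -/
theorem h2a_invariant_extended
    (hunr : ∀ 𝔓 : Ideal (𝓞 M), 𝔓.IsPrime → 𝔓 ≠ ⊥ → 𝔓.ramificationIdx (𝓞 F) = 1)
    (𝔄 : Ideal (𝓞 M)) (hinv : ∀ σ : Gal(M/F), σ • 𝔄 = 𝔄) :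
    ∃ 𝔞 : Ideal (𝓞 F), 𝔞.map (algebraMap (𝓞 F) (𝓞 M)) = 𝔄 := by
  induction 𝔄 using WellFoundedGT.induction with
  | ind 𝔄 ih =>
    by_cases h0 : 𝔄 = ⊥
    · exact ⟨⊥, by rw [h0, Ideal.map_bot]⟩
    by_cases h1 : 𝔄 = ⊤
    · exact ⟨⊤, by rw [h1, Ideal.map_top]⟩
    obtain ⟨𝔓, hmax, hle⟩ := Ideal.exists_le_maximal 𝔄 h1
    have hP : 𝔓.IsPrime := hmax.isPrime
    have h𝔓 : 𝔓 ≠ ⊥ := by
      intro h
      apply h0
      rw [h] at hle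
      exact le_bot_iff.mp hle
    obtain ⟨𝔄', h𝔄'⟩ := h2a_map_under_dvd_of_invariant hunr 𝔄 hinv 𝔓 h𝔓 hle
    have h𝔍0 : (𝔓.under (𝓞 F)).map (algebraMap (𝓞 F) (𝓞 M)) ≠ ⊥ :=
      Ideal.map_ne_bot_of_ne_bot (h2a_under_ne_bot 𝔓 h𝔓)
    have h𝔄'0 : 𝔄' ≠ ⊥ := by
      intro h
      apply h0
      rw [h𝔄', h, Ideal.mul_bot]
    have hinv' : ∀ σ : Gal(M/F), σ • 𝔄' = 𝔄' := by
      intro σ
      have := hinv σ
      rw [h𝔄', smul_mul', h2a_smul_map_algebraMap] at this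
      exact mul_left_cancel₀ h𝔍0 this
    have hlt : 𝔄 < 𝔄' := by
      refine lt_of_le_of_ne ?_ ?_
      · rw [h𝔄']
        exact Ideal.mul_le_right (I := (𝔓.under (𝓞 F)).map (algebraMap (𝓞 F) (𝓞 M))) (J := 𝔄')
      · intro heq
        have h2 : (𝔓.under (𝓞 F)).map (algebraMap (𝓞 F) (𝓞 M)) * 𝔄' = 1 * 𝔄' := by
          rw [one_mul, ← h𝔄', heq]
        have h3 := mul_right_cancel₀ h𝔄'0 h2
        have h4 : (𝔓.under (𝓞 F)).map (algebraMap (𝓞 F) (𝓞 M)) ≤ 𝔓 :=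
          Ideal.map_le_iff_le_comap.mpr le_rfl
        rw [h3, Ideal.one_eq_top, top_le_iff] at h4
        exact hP.ne_top h4
    obtain ⟨𝔞', h𝔞'⟩ := ih 𝔄' hlt hinv'
    exact ⟨𝔓.under (𝓞 F) * 𝔞', by rw [Ideal.map_mul, h𝔞', h𝔄']⟩

/-- The same with unramifiedness in the inertia-group form. -/
theorem h2a_invariant_extended'
    (hunr : ∀ 𝔓 : Ideal (𝓞 M), 𝔓.IsPrime → 𝔓 ≠ ⊥ → 𝔓.inertia Gal(M/F) = ⊥)
    (𝔄 : Ideal (𝓞 M)) (hinv : ∀ σ : Gal(M/F), σ • 𝔄 = 𝔄) :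
    ∃ 𝔞 : Ideal (𝓞 F), 𝔞.map (algebraMap (𝓞 F) (𝓞 M)) = 𝔄 :=
  h2a_invariant_extended (fun 𝔓 hP h0 => by
    have := hP
    exact (h2a_inertia_eq_bot_iff 𝔓 h0).1 (hunr 𝔓 hP h0)) 𝔄 hinv

end invariant

end Fermat.Agent.Lib.S14
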