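/-
S14 project (speculative), lead: the elementary form of (Z3) consumed by `AuxPrime.lean`:
every Galois extension `M/F` of number fields of prime degree has a degree-one prime `𝔮` of `F`
(of residue characteristic outside a given finite set) with a NONTRIVIAL Frobenius in `M/F`.
-/
import Mathlib

set_option autoImplicit false

namespace Fermat.Agent.Lib.S14

open NumberField

/-- (Z3), elementary (Artin-map-free) form. -/
def Z3Statement : Prop :=
  ∀ (F M : Type) [Field F] [NumberField F] [Field M] [NumberField M] [Algebra F M] [IsGalois F M],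
    (Module.finrank F M).Prime → ∀ T : Finset ℕ,
      ∃ 𝔮 : Ideal (𝓞 F), 𝔮.IsPrime ∧ (Ideal.absNorm 𝔮).Prime ∧ Ideal.absNorm 𝔮 ∉ T ∧
        ∀ 𝔔 : Ideal (𝓞 M), 𝔔.IsPrime → 𝔔.LiesOver 𝔮 →
          ∃ σ : M ≃ₐ[F] M, σ ≠ 1 ∧ ∀ x : 𝓞 M, σ • x - x ^ Ideal.absNorm 𝔮 ∈ 𝔔

end Fermat.Agent.Lib.S14
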