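/-
S14 project (speculative), lead: (AUX) existence of the auxiliary prime `l` for the crossing.

Given odd `p` and rational primes `q₁ ≠ q₂`, an exponent `j` and a finite set `T`, there is a
prime `l ∉ T`, `l ≡ 1 mod p`, such that in `(ℤ/l)ˣ` modulo `p`-th powers `q₁ ≠ 1` and `q₂ = q₁ ^ j`.

Proof: `K = ℚ(ζ_p)`, `N = K(c^{1/p})` with `c = q₂ q₁^((p-1) j)`, `M = N(q₁^{1/p})`; Kummer theory
(`lead_aux_radical`, `lead_aux_descent`) shows `[N:K] = [M:N] = p`; (Z3) gives a degree-one prime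
`𝔮` of `N` with nontrivial Frobenius in `M/N`; its residue characteristic `l` works
(`lead_aux_local`).
-/
import Mathlib
import Fermat.Agent.Lib.S14.Z3Statement

set_option autoImplicit false

namespace Fermat.Agent.Lib.S14

open Polynomial NumberField

theorem lead_aux_radical {K : Type*} [Field K] {p : ℕ} (hp : p.Prime) {ζ : K} (hζ : IsPrimitiveRoot ζ p) {c : K}
    (H : Irreducible (X ^ p - C c)) (r : K) (y : AdjoinRoot (X ^ p - C c))
    (hy : y ^ p = AdjoinRoot.of _ r) : ∃ (k : K) (a : ℕ), a < p ∧ r = k ^ p * c ^ a := by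
  have : Fact (Irreducible (X ^ p - C c)) := ⟨H⟩
  have : NeZero p := ⟨hp.ne_zero⟩
  have hf0 : (X ^ p - C c : K[X]) ≠ 0 := H.ne_zero
  have hinj : Function.Injective (AdjoinRoot.of (X ^ p - C c)) := AdjoinRoot.coe_injective'
  by_cases hy0 : y = 0
  · refine ⟨0, 0, hp.pos, ?_⟩
    rw [hy0, zero_pow hp.ne_zero] at hy
    have : r = 0 := hinj (by rw [← hy, map_zero])
    rw [this, zero_pow hp.ne_zero, zero_mul]
  -- the automorphism `α ↦ ζ α`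
  let η : rootsOfUnity p K := hζ.toRootsOfUnity
  let σ := autAdjoinRootXPowSubC p c η
  have hσα : σ (AdjoinRoot.root _) = ζ • AdjoinRoot.root (X ^ p - C c) :=
    autAdjoinRootXPowSubC_root c η
  -- `σ y = ζ^a y`
  have hζ' : IsPrimitiveRoot (AdjoinRoot.of (X ^ p - C c) ζ) p := hζ.map_of_injective hinj
  have hσy : (σ y / y) ^ p = 1 := by
    rw [div_pow, ← map_pow, hy]
    have : σ (AdjoinRoot.of (X ^ p - C c) r) = AdjoinRoot.of (X ^ p - C c) r := by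
      rw [← AdjoinRoot.algebraMap_eq]; exact σ.commutes r
    rw [this, div_self]
    rw [← hy]; exact pow_ne_zero _ hy0
  obtain ⟨a, ha, hξ⟩ := hζ'.eq_pow_of_pow_eq_one hσy
  have hσy' : σ y = AdjoinRoot.of (X ^ p - C c) (ζ ^ a) * y := by
    rw [map_pow, hξ, div_mul_cancel₀ _ hy0]
  -- coordinates in the power basis
  let pb := AdjoinRoot.powerBasis hf0
  have hgen : pb.gen = AdjoinRoot.root (X ^ p - C c) := rfl
  have hdim : pb.dim = p := by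
    show natDegree (X ^ p - C c : K[X]) = p
    exact natDegree_X_pow_sub_C
  have h1 : σ y = ∑ i, (pb.basis.repr y i * ζ ^ (i : ℕ)) • pb.basis i := by
    conv_lhs => rw [← pb.basis.sum_repr y]
    rw [map_sum]
    refine Finset.sum_congr rfl fun i _ => ?_
    rw [map_smul, pb.coe_basis]
    simp only
    rw [map_pow, hgen, hσα, _root_.smul_pow, smul_smul]
  have h2 : AdjoinRoot.of (X ^ p - C c) (ζ ^ a) * y
      = ∑ i, (ζ ^ a * pb.basis.repr y i) • pb.basis i := by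
    conv_lhs => rw [← pb.basis.sum_repr y]
    rw [Finset.mul_sum]
    refine Finset.sum_congr rfl fun i _ => ?_
    rw [← AdjoinRoot.algebraMap_eq, ← Algebra.smul_def, smul_smul]
  have key : ∀ i : Fin pb.dim, pb.basis.repr y i * ζ ^ (i : ℕ) = ζ ^ a * pb.basis.repr y i := by
    intro i
    have h3 := hσy'
    rw [h1, h2] at h3
    have h4 := congrArg (fun z => pb.basis.repr z i) h3
    simp only [Module.Basis.repr_sum_self] at h4
    exact h4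
  have hzero : ∀ i : Fin pb.dim, (i : ℕ) ≠ a → pb.basis.repr y i = 0 := by
    intro i hia
    have hi : (i : ℕ) < p := lt_of_lt_of_eq i.2 hdim
    have hne : ζ ^ (i : ℕ) ≠ ζ ^ a := fun h => hia (hζ.pow_inj hi ha h)
    have h5 : pb.basis.repr y i * (ζ ^ (i : ℕ) - ζ ^ a) = 0 := by
      rw [mul_sub, key i]; ring
    rcases mul_eq_zero.mp h5 with h | h
    · exact h
    · exact absurd (sub_eq_zero.mp h) hne
  let a' : Fin pb.dim := ⟨a, lt_of_lt_of_eq ha hdim.symm⟩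
  have hy' : y = pb.basis.repr y a' • AdjoinRoot.root (X ^ p - C c) ^ a := by
    conv_lhs => rw [← pb.basis.sum_repr y]
    rw [Finset.sum_eq_single a']
    · rw [pb.coe_basis, hgen]
    · intro i _ hia
      rw [hzero i (fun h => hia (Fin.ext h)), zero_smul]
    · intro h; exact absurd (Finset.mem_univ _) h
  obtain ⟨k, hk⟩ : ∃ k : K, y = k • AdjoinRoot.root (X ^ p - C c) ^ a := ⟨_, hy'⟩
  refine ⟨k, a, ha, ?_⟩
  apply hinj
  rw [← hy, hk, _root_.smul_pow, ← pow_mul, mul_comm a p, pow_mul, root_X_pow_sub_C_pow,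
    Algebra.smul_def, AdjoinRoot.algebraMap_eq, ← map_pow]
  exact (map_mul _ _ _).symm

/-- If a rational number is a `p`-th power in an extension of degree prime to `p`, it is a `p`-th
power in `ℚ`. -/
theorem lead_aux_descent {K : Type*} [Field K] [Algebra ℚ K] [FiniteDimensional ℚ K] {p : ℕ} (hp : p ≠ 0) (hd : Nat.Coprime (Module.finrank ℚ K) p) (r : ℚ) (k : K)
    (h : k ^ p = algebraMap ℚ K r) : ∃ s : ℚ, s ^ p = r := by
  by_cases hr : r = 0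
  · exact ⟨0, by rw [hr, zero_pow hp]⟩
  have hN : (Algebra.norm ℚ k) ^ p = r ^ Module.finrank ℚ K := by
    rw [← map_pow, h, Algebra.norm_algebraMap]
  have hN0 : Algebra.norm ℚ k ≠ 0 := by
    intro h0
    rw [h0, zero_pow hp] at hN
    exact pow_ne_zero _ hr hN.symm
  have hbez := Nat.gcd_eq_gcd_ab (Module.finrank ℚ K) p
  rw [hd, Nat.cast_one] at hbez
  refine ⟨(Algebra.norm ℚ k) ^ (Nat.gcdA (Module.finrank ℚ K) p) * r ^ (Nat.gcdB (Module.finrank ℚ K) p), ?_⟩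
  rw [mul_pow, ← zpow_natCast, ← zpow_natCast, ← zpow_mul, ← zpow_mul, mul_comm _ (p : ℤ),
    zpow_mul, zpow_natCast, hN, ← zpow_natCast, ← zpow_mul, ← zpow_add₀ hr, mul_comm (Nat.gcdB _ _) _,
    ← hbez, zpow_one]

section vals

variable {p q₁ q₂ : ℕ} (hp : p.Prime) (hq₁ : q₁.Prime) (hq₂ : q₂.Prime) (h12 : q₁ ≠ q₂)

include hq₁ hq₂ h12 in
theorem lead_aux_val_c (m : ℕ) : padicValRat q₂ ((q₂ * q₁ ^ m : ℕ) : ℚ) = 1 := by
  have : Fact q₂.Prime := ⟨hq₂⟩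
  have : Fact q₁.Prime := ⟨hq₁⟩
  rw [padicValRat.of_nat, padicValNat.mul hq₂.ne_zero (pow_ne_zero _ hq₁.ne_zero),
    padicValNat.pow, padicValNat_self, padicValNat_primes h12.symm]
  simp

include hp hq₁ hq₂ h12 in
/-- `c = q₂ q₁^m` is not a `p`-th power in a field of degree prime to `p` over `ℚ`. -/
theorem lead_aux_c_not_pow {K : Type*} [Field K] [Algebra ℚ K] [FiniteDimensional ℚ K]
    (hd : Nat.Coprime (Module.finrank ℚ K) p) (m : ℕ) (b : K) :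
    b ^ p ≠ ((q₂ * q₁ ^ m : ℕ) : K) := by
  intro h
  have : Fact q₂.Prime := ⟨hq₂⟩
  have h' : b ^ p = algebraMap ℚ K ((q₂ * q₁ ^ m : ℕ) : ℚ) := by rw [h, map_natCast]
  obtain ⟨s, hs⟩ := lead_aux_descent hp.ne_zero hd _ b h'
  have hdvd : (p : ℤ) ∣ padicValRat q₂ ((q₂ * q₁ ^ m : ℕ) : ℚ) := by
    rw [← hs, padicValRat.pow]; exact dvd_mul_right _ _
  rw [lead_aux_val_c hq₁ hq₂ h12] at hdvd
  have : p ∣ 1 := by exact_mod_cast hdvd
  exact hp.one_lt.ne' (Nat.dvd_one.mp this)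

include hp hq₁ hq₂ h12 in
/-- `q₁` is not a `p`-th power in `K[ᵖ√c]`. -/
theorem lead_aux_q_not_pow {K : Type*} [Field K] [Algebra ℚ K] [FiniteDimensional ℚ K]
    (hd : Nat.Coprime (Module.finrank ℚ K) p) {ζ : K} (hζ : IsPrimitiveRoot ζ p) (m : ℕ)
    (H : Irreducible (X ^ p - C ((q₂ * q₁ ^ m : ℕ) : K)))
    (y : AdjoinRoot (X ^ p - C ((q₂ * q₁ ^ m : ℕ) : K))) :
    y ^ p ≠ ((q₁ : ℕ) : AdjoinRoot (X ^ p - C ((q₂ * q₁ ^ m : ℕ) : K))) := by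
  intro h
  have : Fact q₂.Prime := ⟨hq₂⟩
  have : Fact q₁.Prime := ⟨hq₁⟩
  have h' : y ^ p = AdjoinRoot.of (X ^ p - C ((q₂ * q₁ ^ m : ℕ) : K)) ((q₁ : ℕ) : K) := by
    rw [h]; exact (map_natCast (AdjoinRoot.of (X ^ p - C ((q₂ * q₁ ^ m : ℕ) : K))) q₁).symm
  obtain ⟨k, a, ha, hk⟩ := lead_aux_radical hp hζ H _ y h'
  have hc0 : ((q₂ * q₁ ^ m : ℕ) : ℚ) ≠ 0 :=
    Nat.cast_ne_zero.mpr (mul_ne_zero hq₂.ne_zero (pow_ne_zero _ hq₁.ne_zero))
  have hcK : ((q₂ * q₁ ^ m : ℕ) : K) = algebraMap ℚ K ((q₂ * q₁ ^ m : ℕ) : ℚ) := by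
    rw [map_natCast]
  have hcK0 : ((q₂ * q₁ ^ m : ℕ) : K) ≠ 0 := by
    rw [hcK]; exact (_root_.map_ne_zero _).mpr hc0
  have hk' : k ^ p = algebraMap ℚ K ((q₁ : ℚ) / ((q₂ * q₁ ^ m : ℕ) : ℚ) ^ a) := by
    rw [map_div₀, map_pow, ← hcK, map_natCast, hk, mul_div_assoc, div_self (pow_ne_zero _ hcK0),
      mul_one]
  obtain ⟨s, hs⟩ := lead_aux_descent hp.ne_zero hd _ k hk'
  have hq₁0 : (q₁ : ℚ) ≠ 0 := Nat.cast_ne_zero.mpr hq₁.ne_zero
  -- valuation at `q₂`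
  have hdvd : (p : ℤ) ∣ padicValRat q₂ ((q₁ : ℚ) / ((q₂ * q₁ ^ m : ℕ) : ℚ) ^ a) := by
    rw [← hs, padicValRat.pow]; exact dvd_mul_right _ _
  rw [padicValRat.div hq₁0 (pow_ne_zero _ hc0), padicValRat.pow, lead_aux_val_c hq₁ hq₂ h12,
    padicValRat.of_nat, padicValNat_primes h12.symm] at hdvd
  have ha0 : a = 0 := by
    have h1 : (p : ℤ) ∣ (a : ℤ) := by
      have : ((0 : ℕ) : ℤ) - (a : ℤ) * 1 = -(a : ℤ) := by simp
      rw [this] at hdvd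
      exact (dvd_neg).mp hdvd
    have h2 : p ∣ a := by exact_mod_cast h1
    exact Nat.eq_zero_of_dvd_of_lt h2 ha
  -- valuation at `q₁`
  rw [ha0, pow_zero, div_one] at hs
  have hdvd' : (p : ℤ) ∣ padicValRat q₁ (q₁ : ℚ) := by
    rw [← hs, padicValRat.pow]; exact dvd_mul_right _ _
  rw [padicValRat.self hq₁.one_lt] at hdvd'
  have : p ∣ 1 := by exact_mod_cast hdvd'
  exact hp.one_lt.ne' (Nat.dvd_one.mp this)

end vals

theorem lead_aux_pow_eq {R : Type*} [CommRing R] [IsDomain R] {p : ℕ} (hp : 0 < p) {ζ : R}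
    (hζ : IsPrimitiveRoot ζ p) {x y : R} (h : x ^ p = y ^ p) : ∃ ξ : R, ξ ^ p = 1 ∧ x = ξ * y := by
  have h1 := hζ.pow_sub_pow_eq_prod_sub_mul x y hp
  rw [h, sub_self] at h1
  obtain ⟨ξ, hξ, h0⟩ := Finset.prod_eq_zero_iff.mp h1.symm
  exact ⟨ξ, (mem_nthRootsFinset hp 1).mp hξ, sub_eq_zero.mp h0⟩

theorem lead_aux_prim_of_prime {R : Type*} [CommRing R] {p : ℕ} (hp : p.Prime) {ξ : R}
    (h1 : ξ ^ p = 1) (hne : ξ ≠ 1) : IsPrimitiveRoot ξ p := by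
  have : Fact p.Prime := ⟨hp⟩
  have h := orderOf_eq_prime h1 hne
  have h2 := IsPrimitiveRoot.orderOf ξ
  rwa [h] at h2

section local_

variable {F M : Type*} [Field F] [NumberField F] [Field M] [NumberField M] [Algebra F M]

omit [NumberField M] in
theorem lead_aux_local {p l q₁ c : ℕ} (hp : p.Prime) (hl : l.Prime) (hlp : l ≠ p) (hlq : l ≠ q₁)
    (hq₁ : q₁.Prime)
    (𝔮 : Ideal (𝓞 F)) [𝔮.IsPrime] (h𝔮 : Ideal.absNorm 𝔮 = l)
    (𝔔 : Ideal (𝓞 M)) [𝔔.IsPrime] [𝔔.LiesOver 𝔮]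
    (σ : M ≃ₐ[F] M) (hσ : ∀ x : 𝓞 M, σ • x - x ^ l ∈ 𝔔)
    (ζ α : 𝓞 F) (hζ : IsPrimitiveRoot ζ p) (hα : α ^ p = (c : 𝓞 F))
    (θ : 𝓞 M) (hθ : θ ^ p = (q₁ : 𝓞 M)) (hσθ : σ • θ ≠ θ) :
    l % p = 1 ∧ (∃ y : ZMod l, y ^ p = (c : ZMod l)) ∧ ¬ ∃ y : ZMod l, y ^ p = (q₁ : ZMod l) := by
  have : Fact l.Prime := ⟨hl⟩
  -- the residue field of `𝔮` is `ZMod l`
  have hcard : Nat.card (𝓞 F ⧸ 𝔮) = l := by
    rw [← h𝔮, Ideal.absNorm_apply, Submodule.cardQuot_apply]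
  have hfin : Finite (𝓞 F ⧸ 𝔮) := Nat.finite_of_card_ne_zero (by rw [hcard]; exact hl.ne_zero)
  let _ : Fintype (𝓞 F ⧸ 𝔮) := Fintype.ofFinite _
  have hcard' : Fintype.card (𝓞 F ⧸ 𝔮) = l := by rw [← Nat.card_eq_fintype_card, hcard]
  let e : ZMod l ≃+* (𝓞 F ⧸ 𝔮) := ZMod.ringEquivOfPrime _ hl hcard'
  -- `l ∈ 𝔮`, `l ∈ 𝔔`
  have hl𝔮 : (l : 𝓞 F) ∈ 𝔮 := h𝔮 ▸ Ideal.absNorm_mem 𝔮
  have hover : ∀ x : 𝓞 F, x ∈ 𝔮 → algebraMap (𝓞 F) (𝓞 M) x ∈ 𝔔 := by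
    intro x hx
    have := (Ideal.over_def 𝔔 𝔮)
    rw [this] at hx
    exact hx
  have hl𝔔 : (l : 𝓞 M) ∈ 𝔔 := by
    have h1 := hover _ hl𝔮
    rwa [map_natCast] at h1
  -- a natural number prime to `l` is not in `𝔔`
  have hnot : ∀ n : ℕ, Nat.Coprime n l → (n : 𝓞 M) ∉ 𝔔 := by
    intro n hn hmem
    have h1 : ((Nat.gcdA n l : ℤ) : 𝓞 M) * (n : 𝓞 M) + ((Nat.gcdB n l : ℤ) : 𝓞 M) * (l : 𝓞 M) = 1 := by
      have := Nat.gcd_eq_gcd_ab n l
      rw [hn, Nat.cast_one] at this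
      have h2 := congrArg (fun z : ℤ => (z : 𝓞 M)) this
      simp only [Int.cast_one, Int.cast_add, Int.cast_mul, Int.cast_natCast] at h2
      rw [h2]; ring
    have : (1 : 𝓞 M) ∈ 𝔔 := h1 ▸ 𝔔.add_mem (𝔔.mul_mem_left _ hmem) (𝔔.mul_mem_left _ hl𝔔)
    exact (Ideal.IsPrime.ne_top inferInstance) ((Ideal.eq_top_iff_one 𝔔).mpr this)
  have hpl : Nat.Coprime p l := (Nat.coprime_primes hp hl).mpr (Ne.symm hlp)
  have hql : Nat.Coprime q₁ l := (Nat.coprime_primes hq₁ hl).mpr (Ne.symm hlq)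
  -- the quotient `R = 𝓞 M ⧸ 𝔔`
  let π : 𝓞 M →+* (𝓞 M ⧸ 𝔔) := Ideal.Quotient.mk 𝔔
  have hπ : ∀ x : 𝓞 M, π x = 0 ↔ x ∈ 𝔔 := fun x => Ideal.Quotient.eq_zero_iff_mem
  -- a nontrivial `p`-th root of unity of `𝓞 M` is not `1` mod `𝔔`
  have key : ∀ ξ : 𝓞 M, ξ ^ p = 1 → ξ ≠ 1 → ξ - 1 ∉ 𝔔 := by
    intro ξ h1 hne hmem
    have hprim := lead_aux_prim_of_prime hp h1 hne
    have hsum := hprim.geom_sum_eq_zero hp.one_lt
    have h2 : π ξ = 1 := by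
      have := (hπ _).mpr hmem
      rwa [map_sub, map_one, sub_eq_zero] at this
    have h3 := congrArg π hsum
    rw [map_sum, map_zero] at h3
    simp only [map_pow, h2, one_pow, Finset.sum_const, Finset.card_range, nsmul_eq_mul, mul_one]
      at h3
    have h4 : π (p : 𝓞 M) = 0 := by rw [map_natCast]; exact h3
    exact hnot p hpl ((hπ _).mp h4)
  have hinj : Function.Injective (algebraMap (𝓞 F) (𝓞 M)) :=
    FaithfulSMul.algebraMap_injective _ _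
  have hζM : IsPrimitiveRoot (algebraMap (𝓞 F) (𝓞 M) ζ) p := hζ.map_of_injective hinj
  -- step 1 : `l ≡ 1 mod p`
  have hmod : l % p = 1 := by
    let z : ZMod l := e.symm (Ideal.Quotient.mk 𝔮 ζ)
    have hz1 : z ^ p = 1 := by
      simp only [z]
      rw [← map_pow, ← map_pow, hζ.pow_eq_one, map_one, map_one]
    have hzne : z ≠ 1 := by
      intro hz
      have h1 : Ideal.Quotient.mk 𝔮 ζ = 1 := by
        have := congrArg e hz
        simpa [z] using this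
      have h2 : ζ - 1 ∈ 𝔮 := by
        rw [← Ideal.Quotient.eq_zero_iff_mem, map_sub, h1, map_one, sub_self]
      have h3 := hover _ h2
      rw [map_sub, map_one] at h3
      exact key _ hζM.pow_eq_one (hζM.ne_one hp.one_lt) h3
    have hz0 : z ≠ 0 := by
      intro h0
      rw [h0, zero_pow hp.ne_zero] at hz1
      exact zero_ne_one hz1
    have hord : orderOf z = p := by
      have : Fact p.Prime := ⟨hp⟩
      exact orderOf_eq_prime hz1 hzne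
    have hdvd : p ∣ l - 1 := by
      rw [← hord]
      exact orderOf_dvd_of_pow_eq_one (ZMod.pow_card_sub_one_eq_one hz0)
    obtain ⟨k, hk⟩ := hdvd
    have hl1 : l = p * k + 1 := by have := hl.one_lt; omega
    rw [hl1, Nat.mul_add_mod, Nat.mod_eq_of_lt hp.one_lt]
  refine ⟨hmod, ?_, ?_⟩
  · -- step 2
    refine ⟨e.symm (Ideal.Quotient.mk 𝔮 α), ?_⟩
    rw [← map_pow, ← map_pow, hα, map_natCast, map_natCast]
  · -- step 3
    rintro ⟨y, hy⟩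
    have hchar : CharP (𝓞 M ⧸ 𝔔) l := by
      rw [CharP.charP_iff_prime_eq_zero hl]
      have := (hπ _).mpr hl𝔔
      rwa [map_natCast] at this
    let ι : ZMod l →+* (𝓞 M ⧸ 𝔔) := ZMod.castHom (dvd_refl l) _
    have h1 : π θ ^ p = ι y ^ p := by
      rw [← map_pow, ← map_pow, hθ, hy, map_natCast, map_natCast]
    have hζR : IsPrimitiveRoot (π (algebraMap (𝓞 F) (𝓞 M) ζ)) p := by
      apply lead_aux_prim_of_prime hp
      · rw [← map_pow, hζM.pow_eq_one, map_one]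
      · intro h
        have h2 : algebraMap (𝓞 F) (𝓞 M) ζ - 1 ∈ 𝔔 := by
          rw [← hπ, map_sub, h, map_one, sub_self]
        exact key _ hζM.pow_eq_one (hζM.ne_one hp.one_lt) h2
    obtain ⟨ξ', hξ', hθξ⟩ := lead_aux_pow_eq hp.pos hζR h1
    -- `θ ^ l ≡ θ`
    have hξl : ξ' ^ l = ξ' := by
      have hl1 : l = p * (l / p) + 1 := by
        have := Nat.div_add_mod l p
        omega
      rw [hl1, pow_succ, pow_mul, hξ', one_pow, one_mul]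
    have hyl : ι y ^ l = ι y := by
      rw [← map_pow, ZMod.pow_card]
    have hθl : π θ ^ l = π θ := by
      rw [hθξ, mul_pow, hξl, hyl]
    have hσθ' : σ • θ - θ ∈ 𝔔 := by
      have h2 := (hπ _).mpr (hσ θ)
      rw [map_sub, map_pow, hθl, ← map_sub] at h2
      exact (hπ _).mp h2
    -- `σ θ = ξ₀ θ`
    have h3 : (σ • θ) ^ p = θ ^ p := by
      rw [← smul_pow', hθ]
      exact map_natCast (MulSemiringAction.toRingHom (M ≃ₐ[F] M) (𝓞 M) σ) q₁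
    obtain ⟨ξ₀, hξ₀, hσξ⟩ := lead_aux_pow_eq hp.pos hζM h3
    have hξ₀ne : ξ₀ ≠ 1 := by
      rintro rfl
      rw [one_mul] at hσξ
      exact hσθ hσξ
    have h4 : (ξ₀ - 1) * θ ∈ 𝔔 := by
      have : (ξ₀ - 1) * θ = σ • θ - θ := by rw [hσξ]; ring
      rw [this]; exact hσθ'
    rcases (Ideal.IsPrime.mem_or_mem inferInstance h4) with h5 | h5
    · exact key _ hξ₀ hξ₀ne h5
    · have h6 : θ ^ p ∈ 𝔔 := Ideal.pow_mem_of_mem 𝔔 h5 p hp.pos
      rw [hθ] at h6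
      exact hnot q₁ hql h6

end local_

theorem lead_aux_nf_adjoinRoot {K : Type} [Field K] [NumberField K] {f : K[X]} [Fact (Irreducible f)] :
    NumberField (AdjoinRoot f) := by
  have hf0 : f ≠ 0 := (Fact.out : Irreducible f).ne_zero
  have : CharZero (AdjoinRoot f) :=
    charZero_of_injective_algebraMap (algebraMap K (AdjoinRoot f)).injective
  have : Module.Finite K (AdjoinRoot f) := (AdjoinRoot.powerBasis hf0).finite
  have : Module.Finite ℚ (AdjoinRoot f) := Module.Finite.trans K (AdjoinRoot f)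
  exact ⟨⟩

/-- the tower, abstractly: `N/K` and `M/N` Kummer of degree `p`. -/
theorem lead_aux_tower (hZ3 : Z3Statement) {p : ℕ} (hp : p.Prime) {q₁ c : ℕ} (hq₁ : q₁.Prime)
    (T : Finset ℕ)
    (N : Type) [Field N] [NumberField N] (ζ α : N) (hζ : IsPrimitiveRoot ζ p)
    (hα : α ^ p = (c : N)) (hirr : Irreducible (X ^ p - C ((q₁ : ℕ) : N))) :
    ∃ l : ℕ, l.Prime ∧ l ∉ T ∧ l ≠ p ∧ l ≠ q₁ ∧ l % p = 1 ∧
      (∃ y : ZMod l, y ^ p = (c : ZMod l)) ∧ ¬ ∃ y : ZMod l, y ^ p = (q₁ : ZMod l) := by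
  have : Fact (Irreducible (X ^ p - C ((q₁ : ℕ) : N))) := ⟨hirr⟩
  let M := AdjoinRoot (X ^ p - C ((q₁ : ℕ) : N))
  have hNF : NumberField M := lead_aux_nf_adjoinRoot
  have hprim : (primitiveRoots p N).Nonempty :=
    ⟨ζ, (mem_primitiveRoots hp.pos).mpr hζ⟩
  have hsplit : IsSplittingField N M (X ^ p - C ((q₁ : ℕ) : N)) :=
    isSplittingField_AdjoinRoot_X_pow_sub_C hprim hirr
  have hgal : IsGalois N M := isGalois_of_isSplittingField_X_pow_sub_C hprim hirr M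
  have hdeg : Module.finrank N M = p := finrank_of_isSplittingField_X_pow_sub_C hprim hirr M
  obtain ⟨𝔮, h𝔮p, hlprime, hlT, hfrob⟩ := hZ3 N M (by rw [hdeg]; exact hp) (T ∪ {p, q₁})
  set l := Ideal.absNorm 𝔮 with hl
  -- a prime above `𝔮`
  have h𝔮0 : 𝔮 ≠ ⊥ := by
    rintro rfl
    rw [hl, Ideal.absNorm_bot] at hlprime
    exact Nat.not_prime_zero hlprime
  obtain ⟨𝔔, h𝔔p, h𝔔o⟩ : ∃ 𝔔 : Ideal (𝓞 M), 𝔔.IsPrime ∧ 𝔔.LiesOver 𝔮 := by
    obtain ⟨Q, hQ1, hQ2⟩ := Ideal.exists_ideal_over_prime_of_isIntegral 𝔮 (⊥ : Ideal (𝓞 M))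
      (by simp)
    exact ⟨Q, hQ2.1, ⟨hQ2.2.symm⟩⟩
  obtain ⟨σ, hσ1, hσ⟩ := hfrob 𝔔 h𝔔p h𝔔o
  -- the integral elements
  have hζint : IsIntegral ℤ ζ := hζ.isIntegral hp.pos
  have hαint : IsIntegral ℤ α := by
    refine IsIntegral.of_pow hp.pos ?_
    rw [hα]; exact isIntegral_natCast c
  let θM : M := AdjoinRoot.root (X ^ p - C ((q₁ : ℕ) : N))
  have hθM : θM ^ p = ((q₁ : ℕ) : M) := by
    have := root_X_pow_sub_C_pow p ((q₁ : ℕ) : N)
    rw [this]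
    simp
  have hθint : IsIntegral ℤ θM := by
    refine IsIntegral.of_pow hp.pos ?_
    rw [hθM]; exact isIntegral_natCast q₁
  let ζ' : 𝓞 N := ⟨ζ, hζint⟩
  let α' : 𝓞 N := ⟨α, hαint⟩
  let θ' : 𝓞 M := ⟨θM, hθint⟩
  have hζ' : IsPrimitiveRoot ζ' p := by
    have : (algebraMap (𝓞 N) N) ζ' = ζ := rfl
    exact IsPrimitiveRoot.of_map_of_injective (f := algebraMap (𝓞 N) N) (this ▸ hζ)
      (RingOfIntegers.coe_injective)
  have hα' : α' ^ p = (c : 𝓞 N) := by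
    apply RingOfIntegers.coe_injective
    rw [map_pow]
    exact hα.trans (map_natCast (algebraMap (𝓞 N) N) c).symm
  have hθ' : θ' ^ p = (q₁ : 𝓞 M) := by
    apply RingOfIntegers.coe_injective
    rw [map_pow]
    exact hθM.trans (map_natCast (algebraMap (𝓞 M) M) q₁).symm
  have hσθ : σ • θ' ≠ θ' := by
    intro h
    apply hσ1
    have h2 : σ θM = θM := by
      have := congrArg (algebraMap (𝓞 M) M) h
      exact this
    apply AlgEquiv.coe_toAlgHom_injective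
    apply AdjoinRoot.algHom_ext
    simpa using h2
  have hlmem : l ∉ T ∧ l ≠ p ∧ l ≠ q₁ := by
    simp only [Finset.mem_union, Finset.mem_insert, Finset.mem_singleton, not_or] at hlT
    exact ⟨hlT.1, hlT.2.1, hlT.2.2⟩
  have := lead_aux_local hp hlprime hlmem.2.1 hlmem.2.2 hq₁ 𝔮 hl.symm 𝔔 σ hσ ζ' α' hζ' hα' θ' hθ' hσθ
  exact ⟨l, hlprime, hlmem.1, hlmem.2.1, hlmem.2.2, this.1, this.2.1, this.2.2⟩

/-- (AUX) over an abstract cyclotomic field. -/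
theorem lead_aux_prime_of_cyclo (hZ3 : Z3Statement) {p : ℕ} (hp : p.Prime) {q₁ q₂ : ℕ}
    (hq₁ : q₁.Prime) (hq₂ : q₂.Prime) (h12 : q₁ ≠ q₂) (j : ℕ) (T : Finset ℕ)
    (K : Type) [Field K] [NumberField K] [IsCyclotomicExtension {p} ℚ K] :
    ∃ l : ℕ, l.Prime ∧ l ∉ T ∧ l ≠ p ∧ l ≠ q₁ ∧ l ≠ q₂ ∧ l % p = 1 ∧
      (∃ y : ZMod l, (q₂ : ZMod l) = y ^ p * (q₁ : ZMod l) ^ j) ∧
      ¬ ∃ y : ZMod l, (q₁ : ZMod l) = y ^ p := by
  have : NeZero p := ⟨hp.ne_zero⟩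
  have hKfin : Module.finrank ℚ K = p - 1 := by
    rw [IsCyclotomicExtension.finrank (n := p) K (cyclotomic.irreducible_rat hp.pos),
      Nat.totient_prime hp]
  have hd : Nat.Coprime (Module.finrank ℚ K) p := by
    rw [hKfin]
    refine Nat.Coprime.symm ((Nat.Prime.coprime_iff_not_dvd hp).mpr ?_)
    have := hp.two_le
    exact Nat.not_dvd_of_pos_of_lt (by omega) (by omega)
  let ζK : K := IsCyclotomicExtension.zeta p ℚ K
  have hζK : IsPrimitiveRoot ζK p := IsCyclotomicExtension.zeta_spec p ℚ K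
  let m : ℕ := (p - 1) * j
  have hirrN : Irreducible (X ^ p - C ((q₂ * q₁ ^ m : ℕ) : K)) :=
    (X_pow_sub_C_irreducible_iff_of_prime hp).mpr (lead_aux_c_not_pow hp hq₁ hq₂ h12 hd m)
  have : Fact (Irreducible (X ^ p - C ((q₂ * q₁ ^ m : ℕ) : K))) := ⟨hirrN⟩
  let N := AdjoinRoot (X ^ p - C ((q₂ * q₁ ^ m : ℕ) : K))
  have hNF : NumberField N := lead_aux_nf_adjoinRoot
  let ζN : N := AdjoinRoot.of _ ζK
  have hζN : IsPrimitiveRoot ζN p := hζK.map_of_injective AdjoinRoot.coe_injective'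
  let αN : N := AdjoinRoot.root _
  have hαN : αN ^ p = ((q₂ * q₁ ^ m : ℕ) : N) := by
    have h1 := root_X_pow_sub_C_pow p ((q₂ * q₁ ^ m : ℕ) : K)
    exact h1.trans (map_natCast (AdjoinRoot.of (X ^ p - C ((q₂ * q₁ ^ m : ℕ) : K))) _)
  have hirrM : Irreducible (X ^ p - C ((q₁ : ℕ) : N)) :=
    (X_pow_sub_C_irreducible_iff_of_prime hp).mpr
      (fun y => lead_aux_q_not_pow hp hq₁ hq₂ h12 hd hζK m hirrN y)
  obtain ⟨l, hl, hlT, hlp, hlq₁, hmod, ⟨y₀, hy₀⟩, hnot⟩ :=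
    lead_aux_tower hZ3 hp hq₁ (T ∪ {q₂}) N ζN αN hζN hαN hirrM
  have hlT' : l ∉ T ∧ l ≠ q₂ := by
    simp only [Finset.mem_union, Finset.mem_singleton, not_or] at hlT
    exact hlT
  refine ⟨l, hl, hlT'.1, hlp, hlq₁, hlT'.2, hmod, ?_, ?_⟩
  · have : Fact l.Prime := ⟨hl⟩
    have hQ : (q₁ : ZMod l) ≠ 0 := by
      intro h0
      rw [ZMod.natCast_eq_zero_iff] at h0
      exact hlq₁ ((Nat.prime_dvd_prime_iff_eq hl hq₁).mp h0)
    refine ⟨y₀ * ((q₁ : ZMod l)⁻¹) ^ j, ?_⟩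
    obtain ⟨k, rfl⟩ : ∃ k, p = k + 1 := ⟨p - 1, by have := hp.pos; omega⟩
    have hm : m = k * j := by simp [m]
    rw [hm] at hy₀
    push_cast at hy₀
    rw [mul_pow, hy₀, ← pow_mul, inv_pow]
    have h1 : (q₁ : ZMod l) ^ (j * (k + 1)) ≠ 0 := pow_ne_zero _ hQ
    field_simp
    ring
  · rintro ⟨y, hy⟩
    exact hnot ⟨y, hy.symm⟩

/-- **(AUX)** the auxiliary prime. -/
theorem lead_aux_prime (hZ3 : Z3Statement) {p : ℕ} (hp : p.Prime) (_hp2 : p ≠ 2) {q₁ q₂ : ℕ}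
    (hq₁ : q₁.Prime) (hq₂ : q₂.Prime) (h12 : q₁ ≠ q₂) (_h1p : q₁ ≠ p) (_h2p : q₂ ≠ p) (j : ℕ)
    (T : Finset ℕ) :
    ∃ l : ℕ, l.Prime ∧ l ∉ T ∧ l ≠ p ∧ l ≠ q₁ ∧ l ≠ q₂ ∧ l % p = 1 ∧
      (∃ y : ZMod l, (q₂ : ZMod l) = y ^ p * (q₁ : ZMod l) ^ j) ∧
      ¬ ∃ y : ZMod l, (q₁ : ZMod l) = y ^ p := by
  have : NeZero p := ⟨hp.ne_zero⟩
  have : IsCyclotomicExtension {p} ℚ (CyclotomicField p ℚ) :=
    CyclotomicField.isCyclotomicExtension p ℚ
  exact lead_aux_prime_of_cyclo hZ3 hp hq₁ hq₂ h12 j T (CyclotomicField p ℚ)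

end Fermat.Agent.Lib.S14
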