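/-
S14 project (speculative), helper4: the norm class subgroup.

For number fields `K ⊂ L`, `h4c_normSubgroup K L` is the subgroup of the class group of `K`
generated by the classes of the relative norms of the nonzero ideals of `L`
(`= P_K · N_{L/K}(I_L) / P_K`).  Shared by the streams (B) (`≠ ⊤`), (A1)/(C) (crossing) and (D).

Also: `h4c_cl`, the class of a (possibly zero) integral ideal, as a total function.
-/
import Mathlib

set_option autoImplicit false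

namespace Fermat.Agent.Lib.S14

open NumberField

section cl

variable {R : Type*} [CommRing R] [IsDedekindDomain R]

theorem h4c_mem_nzd {I : Ideal R} (h : I ≠ ⊥) : I ∈ nonZeroDivisors (Ideal R) := by
  rw [mem_nonZeroDivisors_iff_ne_zero, Ne, Ideal.zero_eq_bot]
  exact h

open Classical in
/-- The class of an integral ideal (`1` for the zero ideal). -/
noncomputable def h4c_cl (I : Ideal R) : ClassGroup R :=
  if h : I ≠ ⊥ then ClassGroup.mk0 ⟨I, h4c_mem_nzd h⟩ else 1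

theorem h4c_cl_of_ne {I : Ideal R} (h : I ≠ ⊥) :
    h4c_cl I = ClassGroup.mk0 ⟨I, h4c_mem_nzd h⟩ := by
  unfold h4c_cl
  rw [dif_pos h]

theorem h4c_cl_mul {I J : Ideal R} (hI : I ≠ ⊥) (hJ : J ≠ ⊥) :
    h4c_cl (I * J) = h4c_cl I * h4c_cl J := by
  have hIJ : I * J ≠ ⊥ := mul_ne_zero hI hJ
  rw [h4c_cl_of_ne hI, h4c_cl_of_ne hJ, h4c_cl_of_ne hIJ, ← map_mul]
  rfl

theorem h4c_cl_top : h4c_cl (⊤ : Ideal R) = 1 := by
  rw [h4c_cl_of_ne (by simp)]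
  rw [ClassGroup.mk0_eq_one_iff]
  exact ⟨⟨1, by simp⟩⟩

theorem h4c_cl_span {x : R} (hx : x ≠ 0) : h4c_cl (Ideal.span {x}) = 1 := by
  have h : Ideal.span {x} ≠ (⊥ : Ideal R) := by
    rw [Ne, Ideal.span_singleton_eq_bot]; exact hx
  rw [h4c_cl_of_ne h, ClassGroup.mk0_eq_one_iff]
  exact ⟨⟨x, rfl⟩⟩

theorem h4c_cl_pow {I : Ideal R} (hI : I ≠ ⊥) (n : ℕ) : h4c_cl (I ^ n) = h4c_cl I ^ n := by
  induction n with
  | zero => rw [pow_zero, pow_zero, Ideal.one_eq_top, h4c_cl_top]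
  | succ n ih => rw [pow_succ, pow_succ, h4c_cl_mul (pow_ne_zero n hI) hI, ih]

theorem h4c_cl_surjective (c : ClassGroup R) : ∃ I : Ideal R, I ≠ ⊥ ∧ h4c_cl I = c := by
  obtain ⟨I, rfl⟩ := ClassGroup.mk0_surjective c
  have h : (I : Ideal R) ≠ ⊥ := by
    have := I.2
    rw [mem_nonZeroDivisors_iff_ne_zero, Ne, Ideal.zero_eq_bot] at this
    exact this
  exact ⟨I, h, by rw [h4c_cl_of_ne h]⟩

end cl

section norm

variable (K L : Type*) [Field K] [NumberField K] [Field L] [NumberField L] [Algebra K L]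

theorem h4c_relNorm_ne_bot {𝔇 : Ideal (𝓞 L)} (h : 𝔇 ≠ ⊥) : Ideal.relNorm (𝓞 K) 𝔇 ≠ ⊥ := by
  rw [Ne, Ideal.relNorm_eq_bot_iff]
  exact h

/-- The subgroup of the class group of `K` generated by the classes of the relative norms of the
nonzero ideals of `L`. -/
noncomputable def h4c_normSubgroup : Subgroup (ClassGroup (𝓞 K)) :=
  Subgroup.closure {c | ∃ 𝔇 : Ideal (𝓞 L), 𝔇 ≠ ⊥ ∧ c = h4c_cl (Ideal.relNorm (𝓞 K) 𝔇)}

theorem h4c_cl_relNorm_mem {𝔇 : Ideal (𝓞 L)} (h : 𝔇 ≠ ⊥) :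
    h4c_cl (Ideal.relNorm (𝓞 K) 𝔇) ∈ h4c_normSubgroup K L :=
  Subgroup.subset_closure ⟨𝔇, h, rfl⟩

/-- `[𝔞]^[L:K]` is a norm class: `𝔞^[L:K] = N_{L/K}(𝔞 𝓞_L)`. -/
theorem h4c_cl_pow_finrank_mem {𝔞 : Ideal (𝓞 K)} (h : 𝔞 ≠ ⊥) :
    h4c_cl 𝔞 ^ Module.finrank (𝓞 K) (𝓞 L) ∈ h4c_normSubgroup K L := by
  rw [← h4c_cl_pow h, ← Ideal.relNorm_algebraMap (𝓞 L) 𝔞]
  apply h4c_cl_relNorm_mem
  intro hbot
  have := (Ideal.relNorm_eq_bot_iff (R := 𝓞 K) (I := 𝔞.map (algebraMap (𝓞 K) (𝓞 L)))).mpr hbot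
  rw [Ideal.relNorm_algebraMap] at this
  exact pow_ne_zero _ h this

end norm

end Fermat.Agent.Lib.S14
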