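/-
S14 project (speculative), helper4: set-up lemmas for the final NT assembly.

* `h4n_exists_above`, `h4n_mem_normSubgroup_iff`, `h4n_normSubgroup_ne_top` ((B) bridge),
  `h4n_Z3_bridge` ((Z3) bridge)
* `h4n_relNorm_eq_of_frob_eq_one`, `h4n_cl_mem_of_frob_eq_one` (split primes are norms)
* NT setting `K = ℚ(ζ) ⊂ L`: `h4n_res : Gal(L/K) → Gal(L/ℚ)`, `h4n_unr` (unramifiedness in
  helper2's form), `h4n_frob_eq_one_of_mem` (primes over `p`).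
-/
import Mathlib
import Fermat.Agent.Lib.S14.ArtinMap
import Fermat.Agent.Lib.S14.NormClass

set_option autoImplicit false
set_option linter.unusedSectionVars false

open NumberField
open scoped Pointwise

namespace Fermat.Agent.Lib.S14

section above

variable {K L : Type*} [Field K] [NumberField K] [Field L] [NumberField L] [Algebra K L]

/-- every nonzero prime of `𝓞 K` has a (nonzero) prime of `𝓞 L` above it -/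
theorem h4n_exists_above (𝔮 : Ideal (𝓞 K)) [𝔮.IsPrime] (h𝔮 : 𝔮 ≠ ⊥) :
    ∃ (𝔓 : Ideal (𝓞 L)) (_ : 𝔓.IsPrime) (_ : 𝔓 ≠ ⊥), 𝔓.under (𝓞 K) = 𝔮 := by
  obtain ⟨𝔓, -, h𝔓, hu⟩ := Ideal.exists_ideal_over_prime_of_isIntegral 𝔮 (⊥ : Ideal (𝓞 L))
    (by
      rw [Ideal.comap_bot_of_injective _ (FaithfulSMul.algebraMap_injective (𝓞 K) (𝓞 L))]
      exact bot_le)
  refine ⟨𝔓, h𝔓, ?_, hu⟩
  rintro rfl
  apply h𝔮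
  rw [← hu]
  exact Ideal.comap_bot_of_injective _ (FaithfulSMul.algebraMap_injective (𝓞 K) (𝓞 L))

/-- the norm classes already form a subgroup -/
theorem h4n_mem_normSubgroup_iff (c : ClassGroup (𝓞 K)) :
    c ∈ h4c_normSubgroup K L ↔
      ∃ 𝔅 : Ideal (𝓞 L), 𝔅 ≠ ⊥ ∧ c = h4c_cl (Ideal.relNorm (𝓞 K) 𝔅) := by
  constructor
  · intro hc
    unfold h4c_normSubgroup at hc
    have hmul : ∀ c₁ c₂ : ClassGroup (𝓞 K),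
        (∃ 𝔅 : Ideal (𝓞 L), 𝔅 ≠ ⊥ ∧ c₁ = h4c_cl (Ideal.relNorm (𝓞 K) 𝔅)) →
        (∃ 𝔅 : Ideal (𝓞 L), 𝔅 ≠ ⊥ ∧ c₂ = h4c_cl (Ideal.relNorm (𝓞 K) 𝔅)) →
        ∃ 𝔅 : Ideal (𝓞 L), 𝔅 ≠ ⊥ ∧ c₁ * c₂ = h4c_cl (Ideal.relNorm (𝓞 K) 𝔅) := by
      rintro _ _ ⟨𝔅₁, h₁, rfl⟩ ⟨𝔅₂, h₂, rfl⟩
      refine ⟨𝔅₁ * 𝔅₂, mul_ne_zero h₁ h₂, ?_⟩
      rw [map_mul, h4c_cl_mul (h4c_relNorm_ne_bot K L h₁) (h4c_relNorm_ne_bot K L h₂)]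
    have hone : ∃ 𝔅 : Ideal (𝓞 L), 𝔅 ≠ ⊥ ∧ (1 : ClassGroup (𝓞 K)) =
        h4c_cl (Ideal.relNorm (𝓞 K) 𝔅) := by
      refine ⟨⊤, by simp, ?_⟩
      rw [Ideal.relNorm_top, h4c_cl_top]
    have hpow : ∀ (n : ℕ) (c₁ : ClassGroup (𝓞 K)),
        (∃ 𝔅 : Ideal (𝓞 L), 𝔅 ≠ ⊥ ∧ c₁ = h4c_cl (Ideal.relNorm (𝓞 K) 𝔅)) →
        ∃ 𝔅 : Ideal (𝓞 L), 𝔅 ≠ ⊥ ∧ c₁ ^ n = h4c_cl (Ideal.relNorm (𝓞 K) 𝔅) := by
      intro n c₁ h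
      induction n with
      | zero => rw [pow_zero]; exact hone
      | succ n ih => rw [pow_succ]; exact hmul _ _ ih h
    induction hc using Subgroup.closure_induction with
    | mem x hx => exact hx
    | one => exact hone
    | mul x y _ _ hx hy => exact hmul x y hx hy
    | inv x _ hx =>
      have : x⁻¹ = x ^ (Nat.card (ClassGroup (𝓞 K)) - 1) := by
        rw [eq_comm, ← mul_eq_one_iff_eq_inv, ← pow_succ]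
        have hpos : 0 < Nat.card (ClassGroup (𝓞 K)) := Nat.card_pos
        rw [Nat.sub_add_cancel hpos]
        exact pow_card_eq_one'
      rw [this]
      exact hpow _ x hx
  · rintro ⟨𝔅, h𝔅, rfl⟩
    exact h4c_cl_relNorm_mem K L h𝔅

/-- (B) in helper8's ideal form gives `normSubgroup ≠ ⊤`. -/
theorem h4n_normSubgroup_ne_top
    (hB : ∃ 𝔞 : Ideal (𝓞 K), 𝔞 ≠ ⊥ ∧ ∀ (𝔅 : Ideal (𝓞 L)) (x y : 𝓞 K), 𝔅 ≠ ⊥ → x ≠ 0 → y ≠ 0 →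
      Ideal.span {x} * 𝔞 ≠ Ideal.span {y} * Ideal.relNorm (𝓞 K) 𝔅) :
    h4c_normSubgroup K L ≠ ⊤ := by
  obtain ⟨𝔞, h𝔞, hB⟩ := hB
  intro htop
  have hmem : h4c_cl 𝔞 ∈ h4c_normSubgroup K L := by rw [htop]; trivial
  obtain ⟨𝔅, h𝔅, he⟩ := (h4n_mem_normSubgroup_iff _).mp hmem
  rw [h4c_cl_of_ne h𝔞, h4c_cl_of_ne (h4c_relNorm_ne_bot K L h𝔅), ClassGroup.mk0_eq_mk0_iff] at he
  obtain ⟨x, y, hx, hy, hxy⟩ := he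
  exact hB 𝔅 x y h𝔅 hx hy hxy

end above

section z3

variable {K L : Type*} [Field K] [NumberField K] [Field L] [NumberField L] [Algebra K L]
  [IsGalois K L]

/-- bridge from the elementary form of (Z3) to the `h2a_frob` form. -/
theorem h4n_Z3_bridge
    (hunr : ∀ (𝔓 : Ideal (𝓞 L)) [𝔓.IsPrime], 𝔓 ≠ ⊥ → 𝔓.inertia Gal(L/K) = ⊥)
    (T : Finset ℕ)
    (hZ3 : ∃ 𝔮 : Ideal (𝓞 K), 𝔮.IsPrime ∧ (Ideal.absNorm 𝔮).Prime ∧ Ideal.absNorm 𝔮 ∉ T ∧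
      ∀ 𝔔 : Ideal (𝓞 L), 𝔔.IsPrime → 𝔔.LiesOver 𝔮 →
        ∃ σ : L ≃ₐ[K] L, σ ≠ 1 ∧ ∀ x : 𝓞 L, σ • x - x ^ Ideal.absNorm 𝔮 ∈ 𝔔) :
    ∃ (𝔓 : Ideal (𝓞 L)) (_ : 𝔓.IsPrime) (h𝔓 : 𝔓 ≠ ⊥),
        (Ideal.absNorm (𝔓.under (𝓞 K))).Prime ∧ Ideal.absNorm (𝔓.under (𝓞 K)) ∉ T ∧
          h2a_frob K L 𝔓 h𝔓 ≠ 1 := by
  obtain ⟨𝔮, h𝔮p, hq, hqT, hfrob⟩ := hZ3
  have h𝔮0 : 𝔮 ≠ ⊥ := by
    intro h; rw [h, Ideal.absNorm_bot] at hq; exact Nat.not_prime_zero hq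
  obtain ⟨𝔓, h𝔓p, h𝔓0, hu⟩ := h4n_exists_above (L := L) 𝔮 h𝔮0
  obtain ⟨σ, hσ1, hσ⟩ := hfrob 𝔓 h𝔓p ⟨hu.symm⟩
  refine ⟨𝔓, h𝔓p, h𝔓0, by rw [hu]; exact hq, by rw [hu]; exact hqT, ?_⟩
  have hσF : IsArithFrobAt (𝓞 K) σ 𝔓 := by
    intro x
    have := hσ x
    rw [hu]
    have hc : Nat.card (𝓞 K ⧸ 𝔮) = Ideal.absNorm 𝔮 := by
      rw [Ideal.absNorm_apply, Submodule.cardQuot_apply]
    rw [hc]
    exact this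
  rw [← h2a_frob_unique 𝔓 h𝔓0 (hunr 𝔓 h𝔓0) hσF]
  exact hσ1

end z3

section split

variable {K L : Type*} [Field K] [NumberField K] [Field L] [NumberField L] [Algebra K L]
  [IsGalois K L]

theorem h4n_under_ne_bot (𝔓 : Ideal (𝓞 L)) [𝔓.IsPrime] (h𝔓 : 𝔓 ≠ ⊥) :
    𝔓.under (𝓞 K) ≠ ⊥ := by
  intro h
  apply h𝔓
  exact Ideal.eq_bot_of_comap_eq_bot h

/-- trivial Frobenius at an unramified prime ⇒ the prime below is the relative norm. -/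
theorem h4n_relNorm_eq_of_frob_eq_one (𝔓 : Ideal (𝓞 L)) [𝔓.IsPrime] (h𝔓 : 𝔓 ≠ ⊥)
    (hI : 𝔓.inertia Gal(L/K) = ⊥) (h1 : h2a_frob K L 𝔓 h𝔓 = 1) :
    Ideal.relNorm (𝓞 K) 𝔓 = 𝔓.under (𝓞 K) := by
  have hcard := (h2a_frob_eq_one_iff 𝔓 h𝔓 hI).mp h1
  have h𝔮 : 𝔓.under (𝓞 K) ≠ ⊥ := h4n_under_ne_bot 𝔓 h𝔓
  have hPm : 𝔓.IsMaximal := Ideal.IsPrime.isMaximal inferInstance h𝔓
  have hqm : (𝔓.under (𝓞 K)).IsMaximal := Ideal.IsPrime.isMaximal inferInstance h𝔮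
  rw [Ideal.relNorm_eq_pow_of_isMaximal 𝔓 (𝔓.under (𝓞 K)),
    Ideal.inertiaDeg_eq_of_isMaximal (𝔓.under (𝓞 K)) 𝔓]
  suffices h : Module.finrank (𝓞 K ⧸ 𝔓.under (𝓞 K)) (𝓞 L ⧸ 𝔓) = 1 by rw [h, pow_one]
  let _ := Ideal.Quotient.field (𝔓.under (𝓞 K))
  have hfin : Finite (𝓞 K ⧸ 𝔓.under (𝓞 K)) := Ideal.finiteQuotientOfFreeOfNeBot _ h𝔮
  have hfin' : Finite (𝓞 L ⧸ 𝔓) := Ideal.finiteQuotientOfFreeOfNeBot _ h𝔓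
  have h2 := Module.natCard_eq_pow_finrank (K := 𝓞 K ⧸ 𝔓.under (𝓞 K)) (V := 𝓞 L ⧸ 𝔓)
  rw [hcard] at h2
  have hN2 : 2 ≤ Nat.card (𝓞 K ⧸ 𝔓.under (𝓞 K)) := Finite.one_lt_card
  have := Nat.pow_right_injective hN2 (a₁ := 1) (a₂ := Module.finrank (𝓞 K ⧸ 𝔓.under (𝓞 K)) (𝓞 L ⧸ 𝔓))
    (by simpa using h2)
  exact this.symm

theorem h4n_cl_mem_of_frob_eq_one (𝔓 : Ideal (𝓞 L)) [𝔓.IsPrime] (h𝔓 : 𝔓 ≠ ⊥)
    (hI : 𝔓.inertia Gal(L/K) = ⊥) (h1 : h2a_frob K L 𝔓 h𝔓 = 1) :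
    h4c_cl (𝔓.under (𝓞 K)) ∈ h4c_normSubgroup K L := by
  rw [← h4n_relNorm_eq_of_frob_eq_one 𝔓 h𝔓 hI h1]
  exact h4c_cl_relNorm_mem K L h𝔓

end split

section setup
variable {p : ℕ} [Fact p.Prime] {L : Type} [Field L] [NumberField L] [IsGalois ℚ L]
  (ζ : L)

/-- restriction of scalars `Gal(L/K) → Gal(L/ℚ)` -/
noncomputable def h4n_res (g : L ≃ₐ[IntermediateField.adjoin ℚ {ζ}] L) : L ≃ₐ[ℚ] L :=
  g.restrictScalars ℚ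

theorem h4n_res_apply (g : L ≃ₐ[IntermediateField.adjoin ℚ {ζ}] L) (x : L) :
    h4n_res ζ g x = g x := rfl

theorem h4n_res_zeta (g : L ≃ₐ[IntermediateField.adjoin ℚ {ζ}] L) : h4n_res ζ g ζ = ζ := by
  rw [h4n_res_apply]
  exact g.commutes ⟨ζ, IntermediateField.mem_adjoin_simple_self ℚ ζ⟩

theorem h4n_res_injective : Function.Injective (h4n_res ζ) := by
  intro g h hgh
  ext x
  have := congrArg (fun f : L ≃ₐ[ℚ] L => f x) hgh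
  simpa [h4n_res_apply] using this

theorem h4n_res_smul (g : L ≃ₐ[IntermediateField.adjoin ℚ {ζ}] L) (x : 𝓞 L) :
    h4n_res ζ g • x = g • x := by
  apply RingOfIntegers.ext
  rfl

/-- an element of `Gal(L/ℚ)` fixing `ζ` comes from `Gal(L/K)` -/
theorem h4n_exists_of_fix (g : L ≃ₐ[ℚ] L) (hg : g ζ = ζ) :
    ∃ g' : L ≃ₐ[IntermediateField.adjoin ℚ {ζ}] L, h4n_res ζ g' = g := by
  have hfix : ∀ x ∈ IntermediateField.adjoin ℚ {ζ}, g x = x := by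
    intro x hx
    induction hx using IntermediateField.adjoin_induction with
    | mem x hx => rw [Set.mem_singleton_iff.mp hx]; exact hg
    | algebraMap x => exact g.commutes x
    | add x y _ _ hx hy => rw [map_add, hx, hy]
    | inv x _ hx => rw [map_inv₀, hx]
    | mul x y _ _ hx hy => rw [map_mul, hx, hy]
  refine ⟨{ g with commutes' := fun x => hfix x x.2 }, ?_⟩
  ext x
  rfl

/-- NT's inertia hypothesis gives helper2's unramifiedness form for `L/K`. -/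
theorem h4n_unr
    (hin : ∀ (𝔔 : Ideal (𝓞 L)) [𝔔.IsPrime], 𝔔 ≠ ⊥ →
      ∀ g ∈ 𝔔.inertia (L ≃ₐ[ℚ] L), g ζ = ζ → g = 1)
    (𝔓 : Ideal (𝓞 L)) [𝔓.IsPrime] (h𝔓 : 𝔓 ≠ ⊥) :
    𝔓.inertia (L ≃ₐ[IntermediateField.adjoin ℚ {ζ}] L) = ⊥ := by
  rw [eq_bot_iff]
  intro g hg
  rw [Subgroup.mem_bot]
  apply h4n_res_injective ζ
  have h1 : h4n_res ζ g ∈ 𝔓.inertia (L ≃ₐ[ℚ] L) := by
    intro x
    rw [h4n_res_smul]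
    exact hg x
  rw [hin 𝔓 h𝔓 _ h1 (h4n_res_zeta ζ g)]
  rfl

theorem h4n_res_one : h4n_res ζ 1 = 1 := rfl

/-- primes over `p`: helper5's extra hypothesis gives trivial Frobenius in `L/K`. -/
theorem h4n_frob_eq_one_of_mem
    (hsp : ∀ (𝔔 : Ideal (𝓞 L)) [𝔔.IsPrime], (p : 𝓞 L) ∈ 𝔔 →
      ∀ g : L ≃ₐ[ℚ] L, g • 𝔔 = 𝔔 → g ζ = ζ → g = 1)
    (𝔓 : Ideal (𝓞 L)) [𝔓.IsPrime] (h𝔓 : 𝔓 ≠ ⊥) (hp𝔓 : (p : 𝓞 L) ∈ 𝔓) :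
    h2a_frob (IntermediateField.adjoin ℚ {ζ}) L 𝔓 h𝔓 = 1 := by
  apply h4n_res_injective ζ
  rw [h4n_res_one]
  apply hsp 𝔓 hp𝔓 _ _ (h4n_res_zeta ζ _)
  ext x
  rw [Ideal.mem_pointwise_smul_iff_inv_smul_mem]
  set g := h2a_frob (IntermediateField.adjoin ℚ {ζ}) L 𝔓 h𝔓
  have h1 := h2a_frob_smul_mem_iff (F := IntermediateField.adjoin ℚ {ζ}) 𝔓 h𝔓
    ((h4n_res ζ g)⁻¹ • x)
  rw [← h4n_res_smul, smul_inv_smul] at h1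
  exact h1.symm

end setup

end Fermat.Agent.Lib.S14
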