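/-
S14 project (speculative), helper7, stream (B), piece (I-class): the class-group side of the
Chevalley count.  Norm map and `σ`-action on `ClassGroup (𝓞 L)` via integral ideals, the finite
count "(B-fin)", and the bridge to the fractional-ideal objects of `ChevalleyDefs`/`AmbigCount`.
-/
import Mathlib
import Fermat.Agent.Lib.S14.NormClass
import Fermat.Agent.Lib.S14.NTSetup
import Fermat.Agent.Lib.S14.AmbigCount
import Fermat.Agent.Lib.S14.ChevalleyBasic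

set_option autoImplicit false

namespace Fermat.Agent.Lib.S14

open NumberField Ideal
open scoped nonZeroDivisors Pointwise

section Lift

variable {R : Type*} [CommRing R] [IsDedekindDomain R] {G : Type*} [Group G]

theorem h7b_span_mem_nzd {x : R} (hx : x ≠ 0) : Ideal.span {x} ∈ (Ideal R)⁰ :=
  h4c_mem_nzd (by rwa [Ne, Ideal.span_singleton_eq_bot])

theorem h7b_lift_wd (f : (Ideal R)⁰ →* G)
    (hf : ∀ (x : R) (hx : x ≠ 0), f ⟨Ideal.span {x}, h7b_span_mem_nzd hx⟩ = 1)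
    {I J : (Ideal R)⁰} (h : ClassGroup.mk0 I = ClassGroup.mk0 J) : f I = f J := by
  rw [ClassGroup.mk0_eq_mk0_iff] at h
  obtain ⟨x, y, hx, hy, hxy⟩ := h
  have e : (⟨Ideal.span {x}, h7b_span_mem_nzd hx⟩ : (Ideal R)⁰) * I =
      ⟨Ideal.span {y}, h7b_span_mem_nzd hy⟩ * J := Subtype.ext hxy
  have := congrArg f e
  rwa [map_mul, map_mul, hf x hx, hf y hy, one_mul, one_mul] at this

/-- Lift to the class group of a monoid hom on nonzero ideals that kills principal ideals. -/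
noncomputable def h7b_classLift (f : (Ideal R)⁰ →* G)
    (hf : ∀ (x : R) (hx : x ≠ 0), f ⟨Ideal.span {x}, h7b_span_mem_nzd hx⟩ = 1) :
    ClassGroup R →* G where
  toFun c := f (Classical.choose (ClassGroup.mk0_surjective c))
  map_one' := by
    have h := Classical.choose_spec (ClassGroup.mk0_surjective (1 : ClassGroup R))
    have : ClassGroup.mk0 (Classical.choose (ClassGroup.mk0_surjective (1 : ClassGroup R))) =
        ClassGroup.mk0 (1 : (Ideal R)⁰) := by rw [h, map_one]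
    rw [h7b_lift_wd f hf this, map_one]
  map_mul' c d := by
    have hc := Classical.choose_spec (ClassGroup.mk0_surjective c)
    have hd := Classical.choose_spec (ClassGroup.mk0_surjective d)
    have hcd := Classical.choose_spec (ClassGroup.mk0_surjective (c * d))
    have : ClassGroup.mk0 (Classical.choose (ClassGroup.mk0_surjective (c * d))) =
        ClassGroup.mk0 (Classical.choose (ClassGroup.mk0_surjective c) *
          Classical.choose (ClassGroup.mk0_surjective d)) := by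
      rw [hcd, map_mul, hc, hd]
    rw [h7b_lift_wd f hf this, map_mul]

theorem h7b_classLift_mk0 (f : (Ideal R)⁰ →* G)
    (hf : ∀ (x : R) (hx : x ≠ 0), f ⟨Ideal.span {x}, h7b_span_mem_nzd hx⟩ = 1)
    (I : (Ideal R)⁰) : h7b_classLift f hf (ClassGroup.mk0 I) = f I :=
  h7b_lift_wd f hf (Classical.choose_spec (ClassGroup.mk0_surjective (ClassGroup.mk0 I)))

end Lift

section Norm

variable (K L : Type*) [Field K] [NumberField K] [Field L] [NumberField L] [Algebra K L]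

/-- relative norm on nonzero ideals -/
noncomputable def h7b_relNorm0 : (Ideal (𝓞 L))⁰ →* (Ideal (𝓞 K))⁰ where
  toFun I := ⟨relNorm (𝓞 K) (I : Ideal (𝓞 L)),
    h4c_mem_nzd (h4c_relNorm_ne_bot K L (mem_nonZeroDivisors_iff_ne_zero.mp I.2))⟩
  map_one' := by
    apply Subtype.ext
    simp
  map_mul' I J := by
    apply Subtype.ext
    simp

/-- The norm homomorphism on class groups. -/
noncomputable def h7b_Nm : ClassGroup (𝓞 L) →* ClassGroup (𝓞 K) :=
  h7b_classLift (ClassGroup.mk0.comp (h7b_relNorm0 K L)) (by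
    intro x hx
    rw [MonoidHom.comp_apply, ClassGroup.mk0_eq_one_iff]
    show (relNorm (𝓞 K) (Ideal.span {x})).IsPrincipal
    rw [relNorm_singleton]
    exact ⟨⟨_, rfl⟩⟩)

theorem h7b_Nm_mk0 (I : (Ideal (𝓞 L))⁰) :
    h7b_Nm K L (ClassGroup.mk0 I) = ClassGroup.mk0 (h7b_relNorm0 K L I) :=
  h7b_classLift_mk0 _ _ I

theorem h7b_Nm_cl {I : Ideal (𝓞 L)} (hI : I ≠ ⊥) :
    h7b_Nm K L (h4c_cl I) = h4c_cl (relNorm (𝓞 K) I) := by
  rw [h4c_cl_of_ne hI, h7b_Nm_mk0, h4c_cl_of_ne (h4c_relNorm_ne_bot K L hI)]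
  rfl

theorem h7b_Nm_range : (h7b_Nm K L).range = h4c_normSubgroup K L := by
  ext c
  rw [h4n_mem_normSubgroup_iff, MonoidHom.mem_range]
  constructor
  · rintro ⟨d, rfl⟩
    obtain ⟨I, hI, rfl⟩ := h4c_cl_surjective d
    exact ⟨I, hI, h7b_Nm_cl K L hI⟩
  · rintro ⟨𝔅, h𝔅, rfl⟩
    exact ⟨h4c_cl 𝔅, h7b_Nm_cl K L h𝔅⟩

end Norm

section Sigma

variable {K L : Type*} [Field K] [NumberField K] [Field L] [NumberField L] [Algebra K L]

omit [NumberField K] [NumberField L] in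
theorem h7b_smulComm : SMulCommClass Gal(L/K) (𝓞 K) (𝓞 L) where
  smul_comm σ r x := by
    apply Subtype.ext
    show σ ((r • x : 𝓞 L) : L) = ((r • (σ • x) : 𝓞 L) : L)
    rw [Algebra.smul_def, Algebra.smul_def]
    simp only [map_mul]
    congr 1
    have : (algebraMap (𝓞 L) L) ((algebraMap (𝓞 K) (𝓞 L)) r) = algebraMap K L (r : K) := rfl
    rw [this, AlgEquiv.commutes]

theorem h7b_relNorm_smul (σ : Gal(L/K)) (I : Ideal (𝓞 L)) :
    relNorm (𝓞 K) (σ • I) = relNorm (𝓞 K) I := by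
  have := h7b_smulComm (K := K) (L := L)
  exact relNorm_smul (𝓞 K) σ I

omit [NumberField K] [NumberField L] in
theorem h7b_smul_ne_bot (σ : Gal(L/K)) {I : Ideal (𝓞 L)} (hI : I ≠ ⊥) : σ • I ≠ ⊥ := by
  intro h
  apply hI
  have := congrArg (fun J => σ⁻¹ • J) h
  simpa using this

/-- the action of `σ` on nonzero ideals -/
noncomputable def h7b_smul0 (σ : Gal(L/K)) : (Ideal (𝓞 L))⁰ →* (Ideal (𝓞 L))⁰ where
  toFun I := ⟨σ • (I : Ideal (𝓞 L)),
    h4c_mem_nzd (h7b_smul_ne_bot σ (mem_nonZeroDivisors_iff_ne_zero.mp I.2))⟩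
  map_one' := by
    apply Subtype.ext
    show σ • (1 : Ideal (𝓞 L)) = 1
    rw [Ideal.one_eq_top, Ideal.pointwise_smul_def, Ideal.map_top]
  map_mul' I J := by
    apply Subtype.ext
    show σ • ((I : Ideal (𝓞 L)) * (J : Ideal (𝓞 L))) = σ • (I : Ideal (𝓞 L)) * σ • (J : Ideal (𝓞 L))
    rw [smul_mul']

/-- The action of `σ` on the class group. -/
noncomputable def h7b_sigmaC (σ : Gal(L/K)) : ClassGroup (𝓞 L) →* ClassGroup (𝓞 L) :=
  h7b_classLift (ClassGroup.mk0.comp (h7b_smul0 σ)) (by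
    intro x hx
    rw [MonoidHom.comp_apply, ClassGroup.mk0_eq_one_iff]
    show (σ • (Ideal.span {x} : Ideal (𝓞 L))).IsPrincipal
    rw [Ideal.pointwise_smul_def, Ideal.map_span, Set.image_singleton]
    exact ⟨⟨_, rfl⟩⟩)

omit [NumberField K] in
theorem h7b_sigmaC_mk0 (σ : Gal(L/K)) (I : (Ideal (𝓞 L))⁰) :
    h7b_sigmaC σ (ClassGroup.mk0 I) = ClassGroup.mk0 (h7b_smul0 σ I) :=
  h7b_classLift_mk0 _ _ I

omit [NumberField K] in
theorem h7b_sigmaC_cl (σ : Gal(L/K)) {I : Ideal (𝓞 L)} (hI : I ≠ ⊥) :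
    h7b_sigmaC σ (h4c_cl I) = h4c_cl (σ • I) := by
  rw [h4c_cl_of_ne hI, h7b_sigmaC_mk0, h4c_cl_of_ne (h7b_smul_ne_bot σ hI)]
  rfl

theorem h7b_Nm_sigmaC (σ : Gal(L/K)) (c : ClassGroup (𝓞 L)) :
    h7b_Nm K L (h7b_sigmaC σ c) = h7b_Nm K L c := by
  obtain ⟨I, hI, rfl⟩ := h4c_cl_surjective c
  rw [h7b_sigmaC_cl σ hI, h7b_Nm_cl K L hI, h7b_Nm_cl K L (h7b_smul_ne_bot σ hI), h7b_relNorm_smul]

/-- **(B-fin)**: the ambiguous class count implies that the norm classes are a proper subgroup. -/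
theorem h7b_B_of_count (σ : Gal(L/K)) (p : ℕ) (hp : 2 ≤ p)
    (h : Nat.card (h8b_del (h7b_sigmaC σ)).ker * p ≤ Nat.card (ClassGroup (𝓞 K))) :
    h4c_normSubgroup K L ≠ ⊤ := by
  intro htop
  have h1 := h8b_card_range_le (h7b_sigmaC σ) (h7b_Nm K L) (h7b_Nm_sigmaC σ)
  rw [h7b_Nm_range, htop] at h1
  have h2 : Nat.card (⊤ : Subgroup (ClassGroup (𝓞 K))) = Nat.card (ClassGroup (𝓞 K)) :=
    Subgroup.card_top
  rw [h2] at h1
  have hpos : 0 < Nat.card (ClassGroup (𝓞 K)) := Nat.card_pos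
  nlinarith

/-- (B) in the ideal form consumed by the NT assembly. -/
theorem h7b_B_ideal_of_count (σ : Gal(L/K)) (p : ℕ) (hp : 2 ≤ p)
    (h : Nat.card (h8b_del (h7b_sigmaC σ)).ker * p ≤ Nat.card (ClassGroup (𝓞 K))) :
    ∃ 𝔞 : Ideal (𝓞 K), 𝔞 ≠ ⊥ ∧ ∀ (𝔅 : Ideal (𝓞 L)) (x y : 𝓞 K), 𝔅 ≠ ⊥ → x ≠ 0 → y ≠ 0 →
      Ideal.span {x} * 𝔞 ≠ Ideal.span {y} * Ideal.relNorm (𝓞 K) 𝔅 := by
  have hne := h7b_B_of_count σ p hp h
  obtain ⟨c, hc⟩ : ∃ c : ClassGroup (𝓞 K), c ∉ h4c_normSubgroup K L := by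
    by_contra hcon
    push Not at hcon
    exact hne (Subgroup.eq_top_iff' _ |>.mpr hcon)
  obtain ⟨𝔞, h𝔞, rfl⟩ := h4c_cl_surjective c
  refine ⟨𝔞, h𝔞, ?_⟩
  intro 𝔅 x y h𝔅 hx hy hxy
  apply hc
  rw [h4n_mem_normSubgroup_iff]
  refine ⟨𝔅, h𝔅, ?_⟩
  rw [h4c_cl_of_ne h𝔞, h4c_cl_of_ne (h4c_relNorm_ne_bot K L h𝔅), ClassGroup.mk0_eq_mk0_iff]
  exact ⟨x, y, hx, hy, hxy⟩

end Sigma

section Bridge

variable {R : Type*} [CommRing R] [IsDedekindDomain R] (F : Type*) [Field F] [Algebra R F]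
  [IsFractionRing R F]

/-- the kernel of `ClassGroup.mk` is the group of principal fractional ideals -/
theorem h7b_ker_mk : (ClassGroup.mk F : (FractionalIdeal R⁰ F)ˣ →* ClassGroup R).ker =
    (toPrincipalIdeal R F).range := by
  ext I
  rw [MonoidHom.mem_ker, ClassGroup.mk_eq_one_iff, mem_principal_ideals_iff,
    FractionalIdeal.isPrincipal_iff]
  constructor
  · rintro ⟨x, hx⟩
    exact ⟨x, hx.symm⟩
  · rintro ⟨x, hx⟩
    exact ⟨x, hx.symm⟩

theorem h7b_mk_surjective :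
    Function.Surjective (ClassGroup.mk F : (FractionalIdeal R⁰ F)ˣ →* ClassGroup R) := by
  intro c
  obtain ⟨I, rfl⟩ := ClassGroup.mk0_surjective c
  exact ⟨FractionalIdeal.mk0 F I, ClassGroup.mk_mk0 F I⟩

/-- `[I_K : P_K] = h_K` -/
theorem h7b_index_principal :
    (toPrincipalIdeal R F).range.index = Nat.card (ClassGroup R) := by
  rw [← h7b_ker_mk F, Subgroup.index_ker, MonoidHom.range_eq_top.mpr (h7b_mk_surjective F),
    Subgroup.card_top]

/-- every invertible fractional ideal is an integral ideal divided by a principal ideal -/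
theorem h7b_unit_decomp (x : (FractionalIdeal R⁰ F)ˣ) :
    ∃ (u : Fˣ) (I : (Ideal R)⁰), x = (toPrincipalIdeal R F u)⁻¹ * FractionalIdeal.mk0 F I := by
  obtain ⟨a, aI, ha, hx⟩ := FractionalIdeal.exists_eq_spanSingleton_mul (x : FractionalIdeal R⁰ F)
  have ha' : algebraMap R F a ≠ 0 := by
    rwa [Ne, map_eq_zero_iff _ (IsFractionRing.injective R F)]
  have haI : aI ≠ ⊥ := by
    rintro rfl
    apply Units.ne_zero x
    rw [hx]
    simp
  refine ⟨Units.mk0 _ ha', ⟨aI, mem_nonZeroDivisors_iff_ne_zero.mpr haI⟩, ?_⟩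
  apply Units.ext
  rw [Units.val_mul, Units.val_inv_eq_inv_val, coe_toPrincipalIdeal, FractionalIdeal.coe_mk0,
    FractionalIdeal.spanSingleton_inv]
  exact hx

theorem h7b_mk_toPrincipal (u : Fˣ) :
    (ClassGroup.mk F : (FractionalIdeal R⁰ F)ˣ →* ClassGroup R) (toPrincipalIdeal R F u) = 1 := by
  rw [← MonoidHom.mem_ker, h7b_ker_mk]
  exact ⟨u, rfl⟩

end Bridge

section Bridge2

variable {K L : Type*} [Field K] [NumberField K] [Field L] [NumberField L] [Algebra K L]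

omit [NumberField K] [NumberField L] in
theorem h7b_mem_sigI_coeIdeal (σ : Gal(L/K)) (I : Ideal (𝓞 L)) (y : L) :
    σ.symm y ∈ (I : FractionalIdeal (𝓞 L)⁰ L) ↔
      y ∈ ((σ • I : Ideal (𝓞 L)) : FractionalIdeal (𝓞 L)⁰ L) := by
  rw [FractionalIdeal.mem_coeIdeal, FractionalIdeal.mem_coeIdeal]
  constructor
  · rintro ⟨x', hx', hx⟩
    refine ⟨σ • x', Ideal.smul_mem_pointwise_smul σ x' I hx', ?_⟩
    show σ (algebraMap (𝓞 L) L x') = y
    rw [hx, AlgEquiv.apply_symm_apply]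
  · rintro ⟨y', hy', rfl⟩
    rw [Ideal.mem_pointwise_smul_iff_inv_smul_mem] at hy'
    exact ⟨σ⁻¹ • y', hy', rfl⟩

/-- `σ` on fractional ideals restricts to `σ • ·` on integral ideals -/
theorem h7b_sigI_mk0 (σ : Gal(L/K)) (I : (Ideal (𝓞 L))⁰) :
    h8b_sigI σ (FractionalIdeal.mk0 L I) = FractionalIdeal.mk0 L (h7b_smul0 σ I) := by
  apply Units.ext
  ext y
  rw [h8b_mem_sigI, FractionalIdeal.coe_mk0, FractionalIdeal.coe_mk0]
  exact h7b_mem_sigI_coeIdeal σ I y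

/-- `hσC` : the class map intertwines `h8b_sigI σ` and `h7b_sigmaC σ` -/
theorem h7b_mk_sigI (σ : Gal(L/K)) (x : (FractionalIdeal (𝓞 L)⁰ L)ˣ) :
    ClassGroup.mk L (h8b_sigI σ x) = h7b_sigmaC σ (ClassGroup.mk L x) := by
  obtain ⟨u, I, rfl⟩ := h7b_unit_decomp L x
  rw [map_mul, map_inv, map_mul, map_inv, ← h8b_hdsigma, map_mul, map_inv, map_mul, map_inv,
    h7b_mk_toPrincipal, h7b_mk_toPrincipal, h7b_sigI_mk0, ClassGroup.mk_mk0, ClassGroup.mk_mk0,
    h7b_sigmaC_mk0, map_one, inv_one, one_mul]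

/-- `[Amb : P_L] = |Cl_L^σ|` for the concrete objects. -/
theorem h7b_relIndex_amb (σ : Gal(L/K)) :
    (toPrincipalIdeal (𝓞 L) L).range.relIndex
      ((toPrincipalIdeal (𝓞 L) L).range.comap (h8b_del (h8b_sigI σ))) =
      Nat.card (h8b_del (h7b_sigmaC σ)).ker :=
  h8b_card_ker_del_eq (h8b_sigI σ) (toPrincipalIdeal (𝓞 L) L).range (ClassGroup.mk L)
    (h7b_mk_surjective L) (h7b_ker_mk L) (h7b_sigmaC σ) (h7b_mk_sigI σ)

/-- **(B) from the conclusion of `h8b_ambig_count`** (class group form). -/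
theorem h7b_B_of_ambig (σ : Gal(L/K)) (p : ℕ) (hp : 2 ≤ p)
    (h : (toPrincipalIdeal (𝓞 L) L).range.relIndex
      ((toPrincipalIdeal (𝓞 L) L).range.comap (h8b_del (h8b_sigI σ))) * p ≤
      (toPrincipalIdeal (𝓞 K) K).range.index) :
    h4c_normSubgroup K L ≠ ⊤ := by
  rw [h7b_relIndex_amb, h7b_index_principal] at h
  exact h7b_B_of_count σ p hp h

/-- **(B) from the conclusion of `h8b_ambig_count`** (ideal form of `h4n_BStatement`). -/
theorem h7b_B_ideal_of_ambig (σ : Gal(L/K)) (p : ℕ) (hp : 2 ≤ p)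
    (h : (toPrincipalIdeal (𝓞 L) L).range.relIndex
      ((toPrincipalIdeal (𝓞 L) L).range.comap (h8b_del (h8b_sigI σ))) * p ≤
      (toPrincipalIdeal (𝓞 K) K).range.index) :
    ∃ 𝔞 : Ideal (𝓞 K), 𝔞 ≠ ⊥ ∧ ∀ (𝔅 : Ideal (𝓞 L)) (x y : 𝓞 K), 𝔅 ≠ ⊥ → x ≠ 0 → y ≠ 0 →
      Ideal.span {x} * 𝔞 ≠ Ideal.span {y} * Ideal.relNorm (𝓞 K) 𝔅 := by
  rw [h7b_relIndex_amb, h7b_index_principal] at h
  exact h7b_B_ideal_of_count σ p hp h

end Bridge2

end Fermat.Agent.Lib.S14
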