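/-
S14 project (speculative), helper8, stream (B): the concrete objects fed to `h8b_ambig_count`.
-/
import Mathlib
import Fermat.Agent.Lib.S14.AmbigCount

set_option autoImplicit false

open NumberField nonZeroDivisors

namespace Fermat.Agent.Lib.S14

section defs

variable {K L : Type*} [Field K] [Field L] [NumberField K] [NumberField L] [Algebra K L]

/-- `σ` restricted to `𝓞 L`. -/
noncomputable def h8b_sigO (σ : L ≃ₐ[K] L) : 𝓞 L ≃+* 𝓞 L :=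
  MulSemiringAction.toRingEquiv (L ≃ₐ[K] L) (𝓞 L) σ

theorem h8b_sigO_apply (σ : L ≃ₐ[K] L) (x : 𝓞 L) : h8b_sigO σ x = σ • x := rfl

theorem h8b_sigO_coe (σ : L ≃ₐ[K] L) (x : 𝓞 L) : ((h8b_sigO σ x : 𝓞 L) : L) = σ (x : L) := rfl

/-- `σ` on the units of `𝓞 L`. -/
noncomputable def h8b_sigU (σ : L ≃ₐ[K] L) : (𝓞 L)ˣ →* (𝓞 L)ˣ :=
  Units.map (h8b_sigO σ : 𝓞 L →* 𝓞 L)

/-- `σ` on `Lˣ`. -/
noncomputable def h8b_sigL (σ : L ≃ₐ[K] L) : Lˣ →* Lˣ :=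
  Units.map (σ : L →* L)

/-- `σ` on the group of fractional ideals of `L`. -/
noncomputable def h8b_sigI (σ : L ≃ₐ[K] L) :
    (FractionalIdeal (𝓞 L)⁰ L)ˣ →* (FractionalIdeal (𝓞 L)⁰ L)ˣ :=
  Units.map ((FractionalIdeal.ringEquivOfRingEquiv L L (h8b_sigO σ) :
    FractionalIdeal (𝓞 L)⁰ L ≃+* FractionalIdeal (𝓞 L)⁰ L) :
    FractionalIdeal (𝓞 L)⁰ L →* FractionalIdeal (𝓞 L)⁰ L)

variable (K L) in
/-- extension of fractional ideals from `K` to `L`. -/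
noncomputable def h8b_jI : (FractionalIdeal (𝓞 K)⁰ K)ˣ →* (FractionalIdeal (𝓞 L)⁰ L)ˣ :=
  Units.map ((FractionalIdeal.extendedHom L (𝓞 L) :
    FractionalIdeal (𝓞 K)⁰ K →+* FractionalIdeal (𝓞 L)⁰ L) :
    FractionalIdeal (𝓞 K)⁰ K →* FractionalIdeal (𝓞 L)⁰ L)

variable (K L) in
/-- `Kˣ → Lˣ`. -/
noncomputable def h8b_iL : Kˣ →* Lˣ := Units.map (algebraMap K L : K →* L)

variable (L) in
/-- `(𝓞 L)ˣ → Lˣ`. -/
noncomputable def h8b_eU : (𝓞 L)ˣ →* Lˣ := Units.map (algebraMap (𝓞 L) L : 𝓞 L →* L)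

end defs

end Fermat.Agent.Lib.S14
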