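/-
S14 project (speculative), helper8, stream (B): basic compatibilities of the concrete objects of
`ChevalleyDefs` (hypotheses `hdσ`, `hdi`, `heker`, `hσLp`, `hσIp`, `hfixL`, `hj` of
`h8b_ambig_count`).
-/
import Mathlib
import Fermat.Agent.Lib.S14.ChevalleyDefs

set_option autoImplicit false

open NumberField nonZeroDivisors

namespace Fermat.Agent.Lib.S14

section basic

local instance h8b_invPair {R S : Type*} [CommRing R] [CommRing S] (f : R ≃+* S) :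
    RingHomInvPair (f : R →+* S) f.symm :=
  RingHomInvPair.of_ringEquiv f

variable {K L : Type*} [Field K] [Field L] [NumberField K] [NumberField L] [Algebra K L]

/-- The extension of `σ|𝓞 L` to the fraction field `L` is `σ`. -/
theorem h8b_fracEquiv_apply (σ : L ≃ₐ[K] L) (x : L) :
    IsFractionRing.ringEquivOfRingEquiv (K := L) (L := L) (h8b_sigO σ) x = σ x := by
  have h : ((IsFractionRing.ringEquivOfRingEquiv (K := L) (L := L) (h8b_sigO σ) : L ≃+* L) :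
      L →+* L) = (σ : L →+* L) := by
    apply IsLocalization.ringHom_ext (𝓞 L)⁰
    ext a
    simp only [RingHom.comp_apply, RingHom.coe_coe]
    rw [IsFractionRing.ringEquivOfRingEquiv_algebraMap]
    rfl
  exact DFunLike.congr_fun h x

theorem h8b_mem_sigI (σ : L ≃ₐ[K] L) (𝔄 : (FractionalIdeal (𝓞 L)⁰ L)ˣ) (x : L) :
    x ∈ ((h8b_sigI σ 𝔄 : (FractionalIdeal (𝓞 L)⁰ L)ˣ) : FractionalIdeal (𝓞 L)⁰ L) ↔
      σ.symm x ∈ (𝔄 : FractionalIdeal (𝓞 L)⁰ L) := by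
  have h1 : ((h8b_sigI σ 𝔄 : (FractionalIdeal (𝓞 L)⁰ L)ˣ) : FractionalIdeal (𝓞 L)⁰ L) =
      FractionalIdeal.ringEquivOfRingEquiv L L (h8b_sigO σ) (𝔄 : FractionalIdeal (𝓞 L)⁰ L) := rfl
  rw [h1, ← FractionalIdeal.mem_coe, ← FractionalIdeal.val_eq_coe,
    FractionalIdeal.ringEquivOfRingEquiv_apply_val]
  constructor
  · rintro ⟨y, hy, rfl⟩
    have : σ.symm ((IsFractionRing.semilinearEquivOfRingEquiv L L (h8b_sigO σ)).toLinearMap y)
        = y := by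
      show σ.symm (IsFractionRing.ringEquivOfRingEquiv (h8b_sigO σ) y) = y
      rw [h8b_fracEquiv_apply, AlgEquiv.symm_apply_apply]
    rw [this]
    exact hy
  · intro hx
    refine ⟨σ.symm x, hx, ?_⟩
    show IsFractionRing.ringEquivOfRingEquiv (h8b_sigO σ) (σ.symm x) = x
    rw [h8b_fracEquiv_apply, AlgEquiv.apply_symm_apply]

/-- `hdσ`. -/
theorem h8b_hdsigma (σ : L ≃ₐ[K] L) (x : Lˣ) :
    toPrincipalIdeal (𝓞 L) L (h8b_sigL σ x) = h8b_sigI σ (toPrincipalIdeal (𝓞 L) L x) := by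
  apply Units.ext
  have h1 : ((h8b_sigI σ (toPrincipalIdeal (𝓞 L) L x) : (FractionalIdeal (𝓞 L)⁰ L)ˣ) :
      FractionalIdeal (𝓞 L)⁰ L) =
      FractionalIdeal.ringEquivOfRingEquiv L L (h8b_sigO σ)
        ((toPrincipalIdeal (𝓞 L) L x : (FractionalIdeal (𝓞 L)⁰ L)ˣ) :
          FractionalIdeal (𝓞 L)⁰ L) := rfl
  rw [h1, coe_toPrincipalIdeal, coe_toPrincipalIdeal,
    FractionalIdeal.ringEquivOfRingEquiv_spanSingleton, h8b_fracEquiv_apply]
  rfl

/-- `hdi`. -/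
theorem h8b_hdi (a : Kˣ) :
    toPrincipalIdeal (𝓞 L) L (h8b_iL K L a) = h8b_jI K L (toPrincipalIdeal (𝓞 K) K a) := by
  apply Units.ext
  have h1 : ((h8b_jI K L (toPrincipalIdeal (𝓞 K) K a) : (FractionalIdeal (𝓞 L)⁰ L)ˣ) :
      FractionalIdeal (𝓞 L)⁰ L) =
      FractionalIdeal.extendedHom L (𝓞 L)
        ((toPrincipalIdeal (𝓞 K) K a : (FractionalIdeal (𝓞 K)⁰ K)ˣ) :
          FractionalIdeal (𝓞 K)⁰ K) := rfl
  rw [h1, coe_toPrincipalIdeal, coe_toPrincipalIdeal, FractionalIdeal.extendedHom_spanSingleton]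
  congr 1
  have h : (IsFractionRing.map (FaithfulSMul.algebraMap_injective (𝓞 K) (𝓞 L)) : K →+* L) =
      algebraMap K L := by
    apply IsLocalization.ringHom_ext (𝓞 K)⁰
    ext b
    simp only [RingHom.comp_apply]
    rw [IsFractionRing.map, IsLocalization.map_eq]
    rfl
  exact (DFunLike.congr_fun h (a : K)).symm

/-- `heker`. -/
theorem h8b_heker (x : Lˣ) :
    toPrincipalIdeal (𝓞 L) L x = 1 ↔ ∃ u : (𝓞 L)ˣ, h8b_eU L u = x := by
  rw [← Units.val_inj, coe_toPrincipalIdeal, Units.val_one, ← FractionalIdeal.spanSingleton_one,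
    FractionalIdeal.spanSingleton_eq_spanSingleton]
  constructor
  · rintro ⟨z, hz⟩
    refine ⟨z⁻¹, ?_⟩
    apply Units.ext
    show algebraMap (𝓞 L) L ((z⁻¹ : (𝓞 L)ˣ) : 𝓞 L) = (x : L)
    have h1 : algebraMap (𝓞 L) L (z : 𝓞 L) * (x : L) = 1 := by
      rw [← Algebra.smul_def]
      exact hz
    have h2 : algebraMap (𝓞 L) L ((z⁻¹ : (𝓞 L)ˣ) : 𝓞 L) * algebraMap (𝓞 L) L (z : 𝓞 L) = 1 := by
      rw [← map_mul, Units.inv_mul, map_one]
    calc algebraMap (𝓞 L) L ((z⁻¹ : (𝓞 L)ˣ) : 𝓞 L)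
        = algebraMap (𝓞 L) L ((z⁻¹ : (𝓞 L)ˣ) : 𝓞 L) * (algebraMap (𝓞 L) L (z : 𝓞 L) * (x : L)) := by
          rw [h1, mul_one]
      _ = (x : L) := by rw [← mul_assoc, h2, one_mul]
  · rintro ⟨u, rfl⟩
    refine ⟨u⁻¹, ?_⟩
    show (u⁻¹ : (𝓞 L)ˣ) • algebraMap (𝓞 L) L (u : 𝓞 L) = 1
    rw [Units.smul_def, Algebra.smul_def, ← map_mul, Units.inv_mul, map_one]

end basic

end Fermat.Agent.Lib.S14
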