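/-
S14 project (speculative), helper3, stream (B), piece (I-a)/(I-ideal): the ideal-side hypotheses
`hσIp`, `hj`, `hfixI'`, `hfixI` of helper8's `h8b_ambig_count` / `h8b_count_nf`, for EXACTLY the
concrete maps of `ChevalleyDefs` (`σI := h8b_sigI σ`, `j := h8b_jI K L`).

* `h3f_hsigIp`  : `(h8b_sigI σ)^[p] = id` when `[L : K] = p`;
* `h3f_hj`      : `h8b_jI K L` is injective;
* `h3f_hfixI'`  : extended fractional ideals are `σ`-fixed;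
* `h3f_hfixI`   : in an everywhere unramified cyclic extension, a `σ`-fixed (invertible) fractional
  ideal is extended from `K` (clear denominators by a norm from `𝓞 K`, then helper2's
  `h2a_invariant_extended`).
-/
import Mathlib
import Fermat.Agent.Lib.S14.ChevalleyBasic
import Fermat.Agent.Lib.S14.ArtinInvariant

set_option autoImplicit false
set_option linter.unusedSectionVars false
set_option linter.unusedVariables false

open NumberField nonZeroDivisors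

namespace Fermat.Agent.Lib.S14

open scoped Pointwise

section fix

variable {K L : Type*} [Field K] [Field L] [NumberField K] [NumberField L] [Algebra K L]

/-- coercion of `h8b_jI`. -/
theorem h3f_jI_coe (𝔞 : (FractionalIdeal (𝓞 K)⁰ K)ˣ) :
    ((h8b_jI K L 𝔞 : (FractionalIdeal (𝓞 L)⁰ L)ˣ) : FractionalIdeal (𝓞 L)⁰ L) =
      FractionalIdeal.extendedHom L (𝓞 L) (𝔞 : FractionalIdeal (𝓞 K)⁰ K) := rfl

/-- elements of an extended fractional ideal stay inside under `K`-automorphisms. -/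
theorem h3f_mem_jI_of_mem (τ : L ≃ₐ[K] L) (𝔞 : (FractionalIdeal (𝓞 K)⁰ K)ˣ) (x : L)
    (hx : x ∈ ((h8b_jI K L 𝔞 : (FractionalIdeal (𝓞 L)⁰ L)ˣ) : FractionalIdeal (𝓞 L)⁰ L)) :
    τ x ∈ ((h8b_jI K L 𝔞 : (FractionalIdeal (𝓞 L)⁰ L)ˣ) : FractionalIdeal (𝓞 L)⁰ L) := by
  rw [h3f_jI_coe, ← FractionalIdeal.mem_coe, FractionalIdeal.coe_extendedHom_eq_span] at hx ⊢
  induction hx using Submodule.span_induction with
  | mem y hy =>
    obtain ⟨a, ha, rfl⟩ := hy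
    rw [τ.commutes]
    exact Submodule.subset_span ⟨a, ha, rfl⟩
  | zero => rw [map_zero]; exact Submodule.zero_mem _
  | add y z _ _ hy hz => rw [map_add]; exact Submodule.add_mem _ hy hz
  | smul r y _ hy =>
    have h1 : τ (r • y) = (τ • r : 𝓞 L) • τ y := by
      rw [Algebra.smul_def, Algebra.smul_def, map_mul]
      rfl
    rw [h1]
    exact Submodule.smul_mem _ _ hy

/-- **`hfixI'`**: extended fractional ideals are fixed. -/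
theorem h3f_hfixI' (σ : L ≃ₐ[K] L) :
    ∀ 𝔞 : (FractionalIdeal (𝓞 K)⁰ K)ˣ, h8b_sigI σ (h8b_jI K L 𝔞) = h8b_jI K L 𝔞 := by
  intro 𝔞
  apply Units.ext
  apply FractionalIdeal.ext
  intro x
  rw [h8b_mem_sigI]
  constructor
  · intro h
    have := h3f_mem_jI_of_mem σ 𝔞 _ h
    rwa [AlgEquiv.apply_symm_apply] at this
  · intro h
    exact h3f_mem_jI_of_mem σ.symm 𝔞 _ h

/-- **`hj`**: extension of fractional ideals is injective. -/
theorem h3f_hj : Function.Injective (h8b_jI K L) := by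
  intro a b h
  apply Units.ext
  apply FractionalIdeal.extendedHom_injective (𝓞 K) K L (𝓞 L)
  have := congrArg (fun u : (FractionalIdeal (𝓞 L)⁰ L)ˣ => (u : FractionalIdeal (𝓞 L)⁰ L)) h
  exact this

theorem h3f_mem_sigI_iterate (σ : L ≃ₐ[K] L) (k : ℕ) (𝔄 : (FractionalIdeal (𝓞 L)⁰ L)ˣ) (x : L) :
    x ∈ ((((h8b_sigI σ)^[k]) 𝔄 : (FractionalIdeal (𝓞 L)⁰ L)ˣ) : FractionalIdeal (𝓞 L)⁰ L) ↔
      ((σ⁻¹ ^ k : L ≃ₐ[K] L) x) ∈ (𝔄 : FractionalIdeal (𝓞 L)⁰ L) := by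
  induction k generalizing x with
  | zero => simp
  | succ k ih =>
    rw [Function.iterate_succ_apply', h8b_mem_sigI, ih, pow_succ, AlgEquiv.mul_apply]
    rfl

/-- **`hσIp`**. -/
theorem h3f_hsigIp [IsGalois K L] {p : ℕ} (hdeg : Module.finrank K L = p) (σ : L ≃ₐ[K] L) :
    ∀ 𝔄 : (FractionalIdeal (𝓞 L)⁰ L)ˣ, ((h8b_sigI σ)^[p]) 𝔄 = 𝔄 := by
  intro 𝔄
  apply Units.ext
  apply FractionalIdeal.ext
  intro x
  rw [h3f_mem_sigI_iterate]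
  have h1 : (σ⁻¹ ^ p : L ≃ₐ[K] L) = 1 := by
    rw [← hdeg, ← IsGalois.card_aut_eq_finrank]
    exact pow_card_eq_one'
  rw [h1, AlgEquiv.one_apply]

theorem h3f_coe_mem_coeIdeal (I : Ideal (𝓞 L)) (y : 𝓞 L) :
    algebraMap (𝓞 L) L y ∈ (I : FractionalIdeal (𝓞 L)⁰ L) ↔ y ∈ I := by
  rw [FractionalIdeal.mem_coeIdeal]
  constructor
  · rintro ⟨x', hx', h⟩
    have := RingOfIntegers.coe_injective h
    rwa [← this]
  · intro h
    exact ⟨y, h, rfl⟩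

theorem h3f_invariant_of_generator (σ : L ≃ₐ[K] L) (hσ : ∀ τ, τ ∈ Subgroup.zpowers σ)
    (𝔅 : Ideal (𝓞 L)) (h : σ • 𝔅 = 𝔅) (τ : L ≃ₐ[K] L) : τ • 𝔅 = 𝔅 := by
  have h1 : σ ∈ MulAction.stabilizer (L ≃ₐ[K] L) 𝔅 := h
  have h2 : τ ∈ MulAction.stabilizer (L ≃ₐ[K] L) 𝔅 := (Subgroup.zpowers_le.mpr h1) (hσ τ)
  exact h2

/-- an integral ideal whose associated fractional ideal is `σI`-fixed is `σ`-invariant. -/
theorem h3f_smul_eq_of_fixed (σ : L ≃ₐ[K] L) (𝔅 : (FractionalIdeal (𝓞 L)⁰ L)ˣ)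
    (h : h8b_sigI σ 𝔅 = 𝔅) (I : Ideal (𝓞 L))
    (hI : (𝔅 : FractionalIdeal (𝓞 L)⁰ L) = (I : FractionalIdeal (𝓞 L)⁰ L)) :
    σ • I = I := by
  ext y
  rw [Ideal.mem_pointwise_smul_iff_inv_smul_mem, ← h3f_coe_mem_coeIdeal, ← h3f_coe_mem_coeIdeal I,
    ← hI]
  have h1 : algebraMap (𝓞 L) L (σ⁻¹ • y) = σ.symm (algebraMap (𝓞 L) L y) := rfl
  rw [h1, ← h8b_mem_sigI, h]

/-- **`hfixI`**: in an everywhere unramified extension with `Gal(L/K) = ⟨σ⟩`, every `σ`-fixed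
invertible fractional ideal of `L` is extended from `K`. -/
theorem h3f_hfixI [IsGalois K L] (σ : L ≃ₐ[K] L) (hσ : ∀ τ, τ ∈ Subgroup.zpowers σ)
    (hunr : ∀ 𝔓 : Ideal (𝓞 L), 𝔓.IsPrime → 𝔓 ≠ ⊥ → 𝔓.ramificationIdx (𝓞 K) = 1) :
    ∀ 𝔄 : (FractionalIdeal (𝓞 L)⁰ L)ˣ, h8b_sigI σ 𝔄 = 𝔄 →
      ∃ 𝔞 : (FractionalIdeal (𝓞 K)⁰ K)ˣ, h8b_jI K L 𝔞 = 𝔄 := by
  classical
  intro 𝔄 h
  -- clear denominators
  obtain ⟨a, aI, ha0, haI⟩ :=
    FractionalIdeal.exists_eq_spanSingleton_mul (𝔄 : FractionalIdeal (𝓞 L)⁰ L)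
  set n : 𝓞 K := Algebra.intNorm (𝓞 K) (𝓞 L) a with hn
  have hn0 : n ≠ 0 := Algebra.intNorm_ne_zero.mpr ha0
  obtain ⟨a', ha'⟩ := Algebra.dvd_algebraMap_intNorm_self (𝓞 K) (𝓞 L) a
  have hnK : algebraMap (𝓞 K) K n ≠ 0 := by
    rw [Ne, map_eq_zero_iff _ (IsFractionRing.injective (𝓞 K) K)]
    exact hn0
  set nK : Kˣ := Units.mk0 (algebraMap (𝓞 K) K n) hnK with hnKdef
  set nL : Lˣ := h8b_iL K L nK with hnLdef
  have hnLcoe : (nL : L) = algebraMap (𝓞 L) L a * algebraMap (𝓞 L) L a' := by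
    show algebraMap K L (algebraMap (𝓞 K) K n) = _
    rw [← map_mul, ← ha', ← IsScalarTower.algebraMap_apply, ← IsScalarTower.algebraMap_apply]
  set N : (FractionalIdeal (𝓞 L)⁰ L)ˣ := toPrincipalIdeal (𝓞 L) L nL with hNdef
  set 𝔅 : (FractionalIdeal (𝓞 L)⁰ L)ˣ := N * 𝔄 with h𝔅def
  set I' : Ideal (𝓞 L) := Ideal.span {a'} * aI with hI'def
  have haL : algebraMap (𝓞 L) L a ≠ 0 := by
    rw [Ne, map_eq_zero_iff _ (IsFractionRing.injective (𝓞 L) L)]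
    exact ha0
  -- `𝔅 = I'`
  have h𝔅I' : (𝔅 : FractionalIdeal (𝓞 L)⁰ L) = (I' : FractionalIdeal (𝓞 L)⁰ L) := by
    have hAA : FractionalIdeal.spanSingleton (𝓞 L)⁰ (algebraMap (𝓞 L) L a) *
        FractionalIdeal.spanSingleton (𝓞 L)⁰ (algebraMap (𝓞 L) L a)⁻¹ = 1 := by
      rw [FractionalIdeal.spanSingleton_mul_spanSingleton, mul_inv_cancel₀ haL,
        FractionalIdeal.spanSingleton_one]
    rw [h𝔅def, Units.val_mul, hNdef, coe_toPrincipalIdeal, haI, hnLcoe, hI'def,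
      FractionalIdeal.coeIdeal_mul, FractionalIdeal.coeIdeal_span_singleton,
      ← FractionalIdeal.spanSingleton_mul_spanSingleton]
    calc FractionalIdeal.spanSingleton (𝓞 L)⁰ (algebraMap (𝓞 L) L a) *
          FractionalIdeal.spanSingleton (𝓞 L)⁰ (algebraMap (𝓞 L) L a') *
          (FractionalIdeal.spanSingleton (𝓞 L)⁰ (algebraMap (𝓞 L) L a)⁻¹ *
            (aI : FractionalIdeal (𝓞 L)⁰ L))
        = (FractionalIdeal.spanSingleton (𝓞 L)⁰ (algebraMap (𝓞 L) L a) *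
          FractionalIdeal.spanSingleton (𝓞 L)⁰ (algebraMap (𝓞 L) L a)⁻¹) *
          (FractionalIdeal.spanSingleton (𝓞 L)⁰ (algebraMap (𝓞 L) L a') *
            (aI : FractionalIdeal (𝓞 L)⁰ L)) := by ring
      _ = _ := by rw [hAA, one_mul]
  -- `N` is fixed
  have hNfix : h8b_sigI σ N = N := by
    rw [hNdef, hnLdef, h8b_hdi, h3f_hfixI']
  have h𝔅fix : h8b_sigI σ 𝔅 = 𝔅 := by
    rw [h𝔅def, map_mul, hNfix, h]
  -- `I'` is Galois invariant, hence extended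
  have hinvσ : σ • I' = I' := h3f_smul_eq_of_fixed σ 𝔅 h𝔅fix I' h𝔅I'
  obtain ⟨𝔞₀, h𝔞₀⟩ := h2a_invariant_extended hunr I' (h3f_invariant_of_generator σ hσ I' hinvσ)
  have hI'0 : I' ≠ ⊥ := by
    rw [← FractionalIdeal.coeIdeal_ne_zero (K := L), ← h𝔅I']
    exact 𝔅.ne_zero
  have h𝔞₀0 : 𝔞₀ ≠ ⊥ := by
    rintro rfl
    rw [Ideal.map_bot] at h𝔞₀
    exact hI'0 h𝔞₀.symm
  have h𝔞₀mem : 𝔞₀ ∈ (Ideal (𝓞 K))⁰ := mem_nonZeroDivisors_iff_ne_zero.mpr h𝔞₀0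
  refine ⟨(toPrincipalIdeal (𝓞 K) K nK)⁻¹ * FractionalIdeal.mk0 K ⟨𝔞₀, h𝔞₀mem⟩, ?_⟩
  have h1 : h8b_jI K L (FractionalIdeal.mk0 K ⟨𝔞₀, h𝔞₀mem⟩) = 𝔅 := by
    apply Units.ext
    rw [h3f_jI_coe, FractionalIdeal.coe_mk0, FractionalIdeal.extendedHom_coeIdeal_eq_map, h𝔅I']
    show ((𝔞₀.map (algebraMap (𝓞 K) (𝓞 L)) : Ideal (𝓞 L)) : FractionalIdeal (𝓞 L)⁰ L) = _
    rw [h𝔞₀]
  rw [map_mul, map_inv, ← h8b_hdi, ← hnLdef, ← hNdef, h1, h𝔅def, inv_mul_cancel_left]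

end fix

end Fermat.Agent.Lib.S14
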