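/-
S14 project (speculative), helper5, sub-slab (B3) for helper8's (B): infinite places and unit ranks in
an extension `L/K` of number fields with `K` totally complex:
`#(infinite places of L) = [L:K] · #(infinite places of K)` and
`rank E_L + 1 = [L:K] · (rank E_K + 1)`.
-/
import Mathlib

set_option autoImplicit false

namespace Fermat.Agent.Lib.S14

open NumberField NumberField.InfinitePlace Module

/-- An extension of a totally complex field is totally complex. -/
theorem h5u_isTotallyComplex (K L : Type*) [Field K] [Field L] [Algebra K L]
    [IsTotallyComplex K] : IsTotallyComplex L := isTotallyComplex_of_algebra K L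

variable (K L : Type*) [Field K] [NumberField K] [Field L] [NumberField L] [Algebra K L]
  [IsTotallyComplex K]

/-- Number of infinite places of a totally complex number field. -/
theorem h5u_two_mul_card_infinitePlace (F : Type*) [Field F] [NumberField F] [IsTotallyComplex F] :
    2 * Fintype.card (InfinitePlace F) = finrank ℚ F := by
  rw [card_eq_nrRealPlaces_add_nrComplexPlaces, IsTotallyComplex.nrRealPlaces_eq_zero, zero_add,
    ← IsTotallyComplex.finrank]

/-- `#(infinite places of L) = [L:K] · #(infinite places of K)` for `K` totally complex. -/
theorem h5u_card_infinitePlace :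
    Fintype.card (InfinitePlace L) = finrank K L * Fintype.card (InfinitePlace K) := by
  have hL : IsTotallyComplex L := h5u_isTotallyComplex K L
  have h1 := h5u_two_mul_card_infinitePlace L
  have h2 := h5u_two_mul_card_infinitePlace K
  have h3 : finrank ℚ K * finrank K L = finrank ℚ L := Module.finrank_mul_finrank ℚ K L
  have h4 : 2 * Fintype.card (InfinitePlace L)
      = 2 * (finrank K L * Fintype.card (InfinitePlace K)) := by
    rw [h1, ← h3, ← h2]; ring
  exact Nat.eq_of_mul_eq_mul_left (by norm_num) h4

/-- `rank E_L + 1 = [L:K] · (rank E_K + 1)` for `K` totally complex. -/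
theorem h5u_rank : Units.rank L + 1 = finrank K L * (Units.rank K + 1) := by
  have hposL : 0 < Fintype.card (InfinitePlace L) := Fintype.card_pos
  have hposK : 0 < Fintype.card (InfinitePlace K) := Fintype.card_pos
  unfold Units.rank
  rw [Nat.sub_add_cancel hposL, Nat.sub_add_cancel hposK]
  exact h5u_card_infinitePlace K L

/-- The same with the degree as a parameter. -/
theorem h5u_rank_of_finrank {n : ℕ} (hn : finrank K L = n) :
    Units.rank L + 1 = n * (Units.rank K + 1) := by
  rw [← hn]; exact h5u_rank K L

end Fermat.Agent.Lib.S14
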