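/-
S14 project (speculative), helper5, sub-slab (B-units) of (B) (Chevalley / Herbrand): the Herbrand
inequality for the units of a cyclic extension `L/K` of prime degree `p`, `K` totally complex:
`p · [E_K : N_{L/K} E_L] ≤ [ker N_{L/K} : (σ - 1) E_L]`,
deduced from helper9's abstract inequality (`h9b_herbrand_ineq`, taken here as the hypothesis
`h5u_HerbrandIneq (Additive (𝓞 L)ˣ) p`) and the rank formula of `H5Units.lean`.

Objects (all inside `(𝓞 L)ˣ`, for `σ : Gal(L/K)`):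
* `h5u_act g : (𝓞 L)ˣ →* (𝓞 L)ˣ` the Galois action; `h5u_fix σ` the `σ`-fixed units
  (`h5u_fix_eq_range`: `= range (h5u_j K L)`, the units of `𝓞 K`, if `σ` generates);
* `h5u_nu σ n u = ∏_{i<n} σ^i u` (`h5u_j_norm`: `= j (N_{L/K} u)` for `n = p`);
  `h5u_D σ u = σ u / u`.
-/
import Mathlib
import Fermat.Agent.Lib.S14.H5Units

set_option autoImplicit false
set_option linter.unusedSectionVars false

namespace Fermat.Agent.Lib.S14

open NumberField Module

section lin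

variable {G H : Type*} [CommGroup G] [CommGroup H]

/-- Additive (ℤ-linear) version of a monoid hom between commutative groups. -/
def h5u_lin (f : G →* H) : Additive G →ₗ[ℤ] Additive H := (MonoidHom.toAdditive f).toIntLinearMap

theorem h5u_lin_apply (f : G →* H) (a : Additive G) :
    h5u_lin f a = Additive.ofMul (f (Additive.toMul a)) := rfl

theorem h5u_lin_id : h5u_lin (MonoidHom.id G) = LinearMap.id := rfl

theorem h5u_lin_comp {I : Type*} [CommGroup I] (f : H →* I) (g : G →* H) :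
    h5u_lin (f.comp g) = (h5u_lin f).comp (h5u_lin g) := rfl

theorem h5u_lin_mul (f g : G →* H) : h5u_lin (f * g) = h5u_lin f + h5u_lin g := rfl

theorem h5u_lin_div (f g : G →* H) : h5u_lin (f / g) = h5u_lin f - h5u_lin g := by
  ext a
  rfl

theorem h5u_lin_one : h5u_lin (1 : G →* H) = 0 := rfl

theorem h5u_lin_prod {ι : Type*} (s : Finset ι) (f : ι → (G →* H)) :
    h5u_lin (∏ i ∈ s, f i) = ∑ i ∈ s, h5u_lin (f i) := by
  classical
  induction s using Finset.induction_on with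
  | empty => simp [h5u_lin_one]
  | insert i s hi ih => rw [Finset.prod_insert hi, Finset.sum_insert hi, h5u_lin_mul, ih]

theorem h5u_range_lin (f : G →* H) :
    (LinearMap.range (h5u_lin f)).toAddSubgroup = Subgroup.toAddSubgroup f.range := by
  ext a
  constructor
  · rintro ⟨b, rfl⟩
    exact ⟨Additive.toMul b, rfl⟩
  · rintro ⟨u, hu⟩
    exact ⟨Additive.ofMul u, congrArg Additive.ofMul hu⟩

theorem h5u_ker_lin (f : G →* H) :
    (LinearMap.ker (h5u_lin f)).toAddSubgroup = Subgroup.toAddSubgroup f.ker := by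
  ext a
  constructor
  · intro ha
    have h1 : h5u_lin f a = 0 := ha
    show f (Additive.toMul a) = 1
    rw [h5u_lin_apply] at h1
    exact h1
  · intro ha
    have h1 : f (Additive.toMul a) = 1 := ha
    show h5u_lin f a = 0
    rw [h5u_lin_apply, h1]
    rfl

theorem h5u_lin_injective {f : G →* H} (hf : Function.Injective f) :
    Function.Injective (h5u_lin f) := by
  intro a b h
  have := hf (congrArg Additive.toMul h)
  exact this

end lin

variable {K L : Type*} [Field K] [NumberField K] [Field L] [NumberField L] [Algebra K L]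

/-- The action of `g ∈ Gal(L/K)` on the units of `𝓞 L`. -/
noncomputable def h5u_act (g : L ≃ₐ[K] L) : (𝓞 L)ˣ →* (𝓞 L)ˣ :=
  Units.map ((MulSemiringAction.toRingHom (L ≃ₐ[K] L) (𝓞 L) g : 𝓞 L →+* 𝓞 L) : 𝓞 L →* 𝓞 L)

theorem h5u_act_one : h5u_act (1 : L ≃ₐ[K] L) = MonoidHom.id _ := by
  ext u
  show (((1 : L ≃ₐ[K] L) • (u : 𝓞 L) : 𝓞 L) : L) = _
  rw [one_smul]
  rfl

theorem h5u_act_mul (g h : L ≃ₐ[K] L) : h5u_act (g * h) = (h5u_act g).comp (h5u_act h) := by
  ext u
  show ((((g * h : L ≃ₐ[K] L)) • (u : 𝓞 L) : 𝓞 L) : L) = ((g • (h • (u : 𝓞 L)) : 𝓞 L) : L)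
  rw [mul_smul]

theorem h5u_act_coe (g : L ≃ₐ[K] L) (u : (𝓞 L)ˣ) :
    ((h5u_act g u : (𝓞 L)ˣ) : 𝓞 L) = g • (u : 𝓞 L) := rfl

theorem h5u_act_coe' (g : L ≃ₐ[K] L) (u : (𝓞 L)ˣ) :
    (((h5u_act g u : (𝓞 L)ˣ) : 𝓞 L) : L) = g ((u : 𝓞 L) : L) := rfl

/-- The units fixed by `σ`. -/
def h5u_fix (σ : L ≃ₐ[K] L) : Subgroup (𝓞 L)ˣ where
  carrier := {u | h5u_act σ u = u}
  mul_mem' := by
    intro a b ha hb
    show h5u_act σ (a * b) = a * b
    rw [map_mul, ha, hb]
  one_mem' := map_one _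
  inv_mem' := by
    intro a ha
    show h5u_act σ a⁻¹ = a⁻¹
    rw [map_inv, ha]

theorem h5u_mem_fix {σ : L ≃ₐ[K] L} {u : (𝓞 L)ˣ} : u ∈ h5u_fix σ ↔ h5u_act σ u = u := Iff.rfl

/-- The "norm" `u ↦ ∏_{i<n} σ^i u`. -/
noncomputable def h5u_nu (σ : L ≃ₐ[K] L) (n : ℕ) : (𝓞 L)ˣ →* (𝓞 L)ˣ :=
  ∏ i ∈ Finset.range n, h5u_act (σ ^ i)

theorem h5u_nu_apply (σ : L ≃ₐ[K] L) (n : ℕ) (u : (𝓞 L)ˣ) :
    h5u_nu σ n u = ∏ i ∈ Finset.range n, h5u_act (σ ^ i) u := by
  unfold h5u_nu
  rw [MonoidHom.finsetProd_apply]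

/-- `u ↦ σ u / u`. -/
noncomputable def h5u_D (σ : L ≃ₐ[K] L) : (𝓞 L)ˣ →* (𝓞 L)ˣ :=
  h5u_act σ / MonoidHom.id _

theorem h5u_D_apply (σ : L ≃ₐ[K] L) (u : (𝓞 L)ˣ) : h5u_D σ u = h5u_act σ u / u := rfl

/-- The inclusion of the units of `𝓞 K`. -/
noncomputable def h5u_j (K L : Type*) [Field K] [NumberField K] [Field L] [NumberField L]
    [Algebra K L] : (𝓞 K)ˣ →* (𝓞 L)ˣ :=
  Units.map (algebraMap (𝓞 K) (𝓞 L) : 𝓞 K →* 𝓞 L)

theorem h5u_j_coe (v : (𝓞 K)ˣ) :
    (((h5u_j K L v : (𝓞 L)ˣ) : 𝓞 L) : L) = algebraMap K L ((v : 𝓞 K) : K) := rfl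

theorem h5u_j_injective : Function.Injective (h5u_j K L) := by
  intro a b h
  apply Units.ext
  apply RingOfIntegers.ext
  have := congrArg (fun u : (𝓞 L)ˣ => ((u : 𝓞 L) : L)) h
  simp only [h5u_j_coe] at this
  exact (algebraMap K L).injective this

theorem h5u_act_j (g : L ≃ₐ[K] L) (v : (𝓞 K)ˣ) : h5u_act g (h5u_j K L v) = h5u_j K L v := by
  apply Units.ext
  apply RingOfIntegers.ext
  rw [h5u_act_coe', h5u_j_coe, AlgEquiv.commutes]

/-- A unit of `𝓞 L` fixed by all of `Gal(L/K)` comes from `𝓞 K`. -/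
theorem h5u_mem_range_j_of_fixed [IsGalois K L] (u : (𝓞 L)ˣ)
    (hu : ∀ g : L ≃ₐ[K] L, h5u_act g u = u) : u ∈ (h5u_j K L).range := by
  have key : ∀ w : (𝓞 L)ˣ, (∀ g : L ≃ₐ[K] L, h5u_act g w = w) →
      ∃ x : 𝓞 K, algebraMap K L (x : K) = ((w : 𝓞 L) : L) := by
    intro w hw
    have h1 : ((w : 𝓞 L) : L) ∈ (⊥ : IntermediateField K L) := by
      rw [IsGalois.mem_bot_iff_fixed]
      intro g
      have := congrArg (fun t : (𝓞 L)ˣ => ((t : 𝓞 L) : L)) (hw g)
      simpa only [h5u_act_coe'] using this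
    rw [IntermediateField.mem_bot] at h1
    obtain ⟨x, hx⟩ := h1
    have hint : IsIntegral ℤ x := by
      have h2 : IsIntegral ℤ (algebraMap K L x) := by
        rw [hx]; exact RingOfIntegers.isIntegral_coe _
      exact (isIntegral_algebraMap_iff (algebraMap K L).injective).mp h2
    exact ⟨⟨x, hint⟩, hx⟩
  obtain ⟨x, hx⟩ := key u hu
  obtain ⟨y, hy⟩ := key u⁻¹ (fun g => by rw [map_inv, hu g])
  have hxy : x * y = 1 := by
    apply RingOfIntegers.ext
    apply (algebraMap K L).injective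
    show algebraMap K L ((x : K) * (y : K)) = algebraMap K L 1
    rw [map_mul, hx, hy, map_one]
    have : ((u : 𝓞 L) * ((u⁻¹ : (𝓞 L)ˣ) : 𝓞 L)) = 1 := Units.mul_inv u
    have h3 := congrArg (fun t : 𝓞 L => (t : L)) this
    simp only [map_mul, map_one] at h3
    exact h3
  refine ⟨⟨x, y, hxy, by rw [mul_comm]; exact hxy⟩, ?_⟩
  apply Units.ext
  apply RingOfIntegers.ext
  rw [h5u_j_coe]
  exact hx

/-- If `σ` generates `Gal(L/K)`, the `σ`-fixed units are the units of `𝓞 K`. -/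
theorem h5u_fix_eq_range [IsGalois K L] (σ : L ≃ₐ[K] L)
    (hσ : ∀ g : L ≃ₐ[K] L, g ∈ Subgroup.zpowers σ) : h5u_fix σ = (h5u_j K L).range := by
  ext u
  constructor
  · intro hu
    apply h5u_mem_range_j_of_fixed
    -- the stabiliser of `u` is a subgroup containing `σ`
    let S : Subgroup (L ≃ₐ[K] L) :=
      { carrier := {g | h5u_act g u = u}
        mul_mem' := by
          intro a b ha hb
          show h5u_act (a * b) u = u
          rw [h5u_act_mul, MonoidHom.comp_apply, hb, ha]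
        one_mem' := by
          show h5u_act 1 u = u
          rw [h5u_act_one]; rfl
        inv_mem' := by
          intro a ha
          show h5u_act a⁻¹ u = u
          have h1 : h5u_act a⁻¹ (h5u_act a u) = u := by
            rw [← MonoidHom.comp_apply, ← h5u_act_mul, inv_mul_cancel, h5u_act_one]; rfl
          rw [ha] at h1
          exact h1 }
    have hσS : σ ∈ S := hu
    intro g
    exact (Subgroup.zpowers_le.mpr hσS) (hσ g)
  · rintro ⟨v, rfl⟩
    exact h5u_act_j σ v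


section norm

variable [IsGalois K L] {p : ℕ} (hdeg : Module.finrank K L = p) (σ : L ≃ₐ[K] L)
  (hσ : ∀ g : L ≃ₐ[K] L, g ∈ Subgroup.zpowers σ)

include hdeg hσ in
/-- A product over the cyclic group `Gal(L/K) = ⟨σ⟩` as a product over `i < p`. -/
theorem h5u_prod_gal_eq {M : Type*} [CommMonoid M] (f : (L ≃ₐ[K] L) → M) :
    ∏ g : L ≃ₐ[K] L, f g = ∏ i ∈ Finset.range p, f (σ ^ i) := by
  classical
  have hcard : Nat.card (L ≃ₐ[K] L) = p := by rw [IsGalois.card_aut_eq_finrank, hdeg]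
  have hord : orderOf σ = p := by rw [orderOf_eq_card_of_forall_mem_zpowers hσ, hcard]
  have hinj : Set.InjOn (fun i : ℕ => σ ^ i) (Finset.range p : Set ℕ) := by
    intro a ha b hb hab
    have ha' : a < orderOf σ := by rw [hord]; exact Finset.mem_range.mp ha
    have hb' : b < orderOf σ := by rw [hord]; exact Finset.mem_range.mp hb
    exact pow_injOn_Iio_orderOf ha' hb' hab
  have himage : (Finset.range p).image (fun i : ℕ => σ ^ i) = Finset.univ := by
    apply Finset.eq_univ_of_card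
    rw [Finset.card_image_of_injOn hinj, Finset.card_range, ← Nat.card_eq_fintype_card, hcard]
  rw [← himage, Finset.prod_image hinj]

include hdeg hσ in
/-- The unit-level norm followed by the inclusion is `ν = ∏_{i<p} σ^i`. -/
theorem h5u_j_norm (u : (𝓞 L)ˣ) :
    h5u_j K L (Units.map (RingOfIntegers.norm K : 𝓞 L →* 𝓞 K) u) = h5u_nu σ p u := by
  apply Units.ext
  apply RingOfIntegers.ext
  rw [h5u_j_coe, h5u_nu_apply]
  show algebraMap K L (Algebra.norm K ((u : 𝓞 L) : L)) = _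
  rw [Algebra.norm_eq_prod_automorphisms, h5u_prod_gal_eq hdeg σ hσ]
  rw [Units.coe_prod]
  have hcoe : ∀ (s : Finset ℕ) (f : ℕ → 𝓞 L), ((∏ i ∈ s, f i : 𝓞 L) : L) = ∏ i ∈ s, (f i : L) :=
    fun s f => map_prod (algebraMap (𝓞 L) L) f s
  rw [hcoe]
  rfl

end norm

/-- helper9's abstract Herbrand inequality (`h9b_herbrand_ineq`), as a hypothesis on one module. -/
def h5u_HerbrandIneq (A : Type*) [AddCommGroup A] [Module.Finite ℤ A] (p : ℕ) : Prop :=
  ∀ (σ : Module.End ℤ A), σ ^ p = 1 → ∀ r : ℕ, Module.finrank ℤ A + 1 = p * r →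
    Module.finrank ℤ (LinearMap.ker (σ - 1)) + 1 = r →
    (LinearMap.range (∑ i ∈ Finset.range p, σ ^ i)).toAddSubgroup.relIndex
        (LinearMap.ker (σ - 1)).toAddSubgroup ≠ 0 ∧
    (LinearMap.range (σ - 1)).toAddSubgroup.relIndex
        (LinearMap.ker (∑ i ∈ Finset.range p, σ ^ i)).toAddSubgroup ≠ 0 ∧
    p * (LinearMap.range (∑ i ∈ Finset.range p, σ ^ i)).toAddSubgroup.relIndex
        (LinearMap.ker (σ - 1)).toAddSubgroup ≤
      (LinearMap.range (σ - 1)).toAddSubgroup.relIndex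
        (LinearMap.ker (∑ i ∈ Finset.range p, σ ^ i)).toAddSubgroup

theorem h5u_lin_act_pow (σ : L ≃ₐ[K] L) (i : ℕ) :
    (h5u_lin (h5u_act σ) : Module.End ℤ (Additive (𝓞 L)ˣ)) ^ i = h5u_lin (h5u_act (σ ^ i)) := by
  induction i with
  | zero => rw [pow_zero, pow_zero, h5u_act_one, h5u_lin_id]; rfl
  | succ i ih =>
    rw [pow_succ, pow_succ, ih, h5u_act_mul, h5u_lin_comp]
    rfl

/-- **(B-units)**: the unit Herbrand inequality `p · [E_K : N E_L] ≤ [E_L^{N=1} : (σ-1) E_L]` for a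
cyclic extension `L/K` of prime degree `p` with `K` totally complex, from the abstract Herbrand
inequality. Everything takes place inside `(𝓞 L)ˣ`. -/
theorem h5u_units_herbrand [IsGalois K L] [IsTotallyComplex K] {p : ℕ} [Fact p.Prime]
    (hdeg : Module.finrank K L = p) (σ : L ≃ₐ[K] L)
    (hσ : ∀ g : L ≃ₐ[K] L, g ∈ Subgroup.zpowers σ)
    (hHerb : h5u_HerbrandIneq (Additive (𝓞 L)ˣ) p) :
    (h5u_nu σ p).range.relIndex (h5u_fix σ) ≠ 0 ∧
    (h5u_D σ).range.relIndex (h5u_nu σ p).ker ≠ 0 ∧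
    p * (h5u_nu σ p).range.relIndex (h5u_fix σ) ≤ (h5u_D σ).range.relIndex (h5u_nu σ p).ker := by
  have hσp : σ ^ p = 1 := by
    have h1 : Nat.card (L ≃ₐ[K] L) = p := by rw [IsGalois.card_aut_eq_finrank, hdeg]
    rw [← h1]
    exact pow_card_eq_one'
  have hτp : (h5u_lin (h5u_act σ) : Module.End ℤ (Additive (𝓞 L)ˣ)) ^ p = 1 := by
    rw [h5u_lin_act_pow, hσp, h5u_act_one, h5u_lin_id]; rfl
  have hν : (∑ i ∈ Finset.range p, (h5u_lin (h5u_act σ) : Module.End ℤ (Additive (𝓞 L)ˣ)) ^ i)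
      = h5u_lin (h5u_nu σ p) := by
    unfold h5u_nu
    rw [h5u_lin_prod]
    exact Finset.sum_congr rfl (fun i _ => h5u_lin_act_pow σ i)
  have hD : (h5u_lin (h5u_act σ) : Module.End ℤ (Additive (𝓞 L)ˣ)) - 1 = h5u_lin (h5u_D σ) := by
    unfold h5u_D
    rw [h5u_lin_div, h5u_lin_id]; rfl
  have hA : Module.finrank ℤ (Additive (𝓞 L)ˣ) + 1 = p * (Units.rank K + 1) := by
    rw [Units.finrank_eq]
    exact h5u_rank_of_finrank K L hdeg
  -- the kernel of `σ - 1` is the image of the units of `K`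
  have hker : LinearMap.ker ((h5u_lin (h5u_act σ) : Module.End ℤ (Additive (𝓞 L)ˣ)) - 1)
      = LinearMap.range (h5u_lin (h5u_j K L)) := by
    rw [hD]
    apply Submodule.toAddSubgroup_injective
    rw [h5u_ker_lin, h5u_range_lin]
    congr 1
    rw [← h5u_fix_eq_range σ hσ]
    ext u
    rw [MonoidHom.mem_ker, h5u_D_apply, div_eq_one, h5u_mem_fix]
  have hA0 : Module.finrank ℤ
      (LinearMap.ker ((h5u_lin (h5u_act σ) : Module.End ℤ (Additive (𝓞 L)ˣ)) - 1)) + 1
      = Units.rank K + 1 := by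
    rw [hker, LinearMap.finrank_range_of_inj (h5u_lin_injective h5u_j_injective), Units.finrank_eq]
  have key := hHerb _ hτp _ hA hA0
  rw [hν, hD, h5u_range_lin, h5u_range_lin, h5u_ker_lin, h5u_ker_lin,
    Subgroup.relIndex_toAddSubgroup, Subgroup.relIndex_toAddSubgroup] at key
  have hfix : (h5u_D σ).ker = h5u_fix σ := by
    ext u
    rw [MonoidHom.mem_ker, h5u_D_apply, div_eq_one, h5u_mem_fix]
  rw [hfix] at key
  exact key

/-- **(B-units)**, `(𝓞 K)ˣ`-level form: `p · [E_K : N_{L/K} E_L] ≤ [ker N_{L/K} : (σ-1) E_L]`. -/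
theorem h5u_units_herbrand_norm [IsGalois K L] [IsTotallyComplex K] {p : ℕ} [Fact p.Prime]
    (hdeg : Module.finrank K L = p) (σ : L ≃ₐ[K] L)
    (hσ : ∀ g : L ≃ₐ[K] L, g ∈ Subgroup.zpowers σ)
    (hHerb : h5u_HerbrandIneq (Additive (𝓞 L)ˣ) p) :
    (Units.map (RingOfIntegers.norm K : 𝓞 L →* 𝓞 K)).range.index ≠ 0 ∧
    (h5u_D σ).range.relIndex (Units.map (RingOfIntegers.norm K : 𝓞 L →* 𝓞 K)).ker ≠ 0 ∧
    p * (Units.map (RingOfIntegers.norm K : 𝓞 L →* 𝓞 K)).range.index ≤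
      (h5u_D σ).range.relIndex (Units.map (RingOfIntegers.norm K : 𝓞 L →* 𝓞 K)).ker := by
  have hcomp : (h5u_j K L).comp (Units.map (RingOfIntegers.norm K : 𝓞 L →* 𝓞 K)) = h5u_nu σ p := by
    ext1 u
    exact h5u_j_norm hdeg σ hσ u
  have hker : (Units.map (RingOfIntegers.norm K : 𝓞 L →* 𝓞 K)).ker = (h5u_nu σ p).ker := by
    rw [← hcomp]
    ext u
    rw [MonoidHom.mem_ker, MonoidHom.mem_ker, MonoidHom.comp_apply]
    constructor
    · intro h; rw [h, map_one]
    · intro h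
      apply h5u_j_injective (K := K) (L := L)
      rw [h, map_one]
  have hrange : (Units.map (RingOfIntegers.norm K : 𝓞 L →* 𝓞 K)).range.index
      = (h5u_nu σ p).range.relIndex (h5u_fix σ) := by
    rw [← Subgroup.relIndex_top_right,
      ← Subgroup.relIndex_map_map_of_injective _ _ (h5u_j_injective (K := K) (L := L)),
      MonoidHom.map_range, hcomp, ← MonoidHom.range_eq_map, h5u_fix_eq_range σ hσ]
  rw [hker, hrange]
  exact h5u_units_herbrand hdeg σ hσ hHerb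

end Fermat.Agent.Lib.S14
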