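/-
S14 project (speculative), helper8, stream (B): the Herbrand quotient machine.

For commuting endomorphism pairs `(f, g)` with `f ∘ g = 0 = g ∘ f` of an abelian group `A`,
`h8b_hq f g = [ker f : im g]`.  Multiplicativity in short exact sequences (in product form, valid
in `ℕ` with the convention that an infinite index is `0`), and triviality on finite groups.
-/
import Mathlib

set_option autoImplicit false

namespace Fermat.Agent.Lib.S14

section index

variable {G : Type*} [AddCommGroup G]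

/-- Index lemma: for `H ≤ K` and any `N`: `[K : H] = [K + N : H + N] * [K ∩ N : H ∩ N]`. -/
theorem h8b_relIndex_sup_mul_inf (H K N : AddSubgroup G) (hHK : H ≤ K) :
    (H ⊔ N).relIndex (K ⊔ N) * (H ⊓ N).relIndex (K ⊓ N) = H.relIndex K := by
  have e1 : (H ⊔ N).relIndex (K ⊔ N) = (H ⊔ (N ⊓ K)).relIndex K := by
    have : K ⊔ N = (H ⊔ N) ⊔ K :=
      le_antisymm (sup_le le_sup_right (le_sup_of_le_left le_sup_right))
        (sup_le (sup_le (hHK.trans le_sup_left) le_sup_right) le_sup_left)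
    rw [this, AddSubgroup.relIndex_sup_left, ← AddSubgroup.inf_relIndex_right,
      sup_inf_assoc_of_le N hHK]
  have e2 : (H ⊓ N).relIndex (K ⊓ N) = H.relIndex (H ⊔ (N ⊓ K)) := by
    rw [AddSubgroup.relIndex_sup_left, inf_comm N K, ← AddSubgroup.inf_relIndex_right H (K ⊓ N)]
    congr 1
    rw [← inf_assoc, inf_eq_left.mpr hHK]
  rw [e1, e2, mul_comm]
  exact AddSubgroup.relIndex_mul_relIndex _ _ _ le_sup_left
    (sup_le hHK inf_le_right)

end index

section hq

/-- `h8b_hq f g = [ker f : im g]` (`0` if infinite). -/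
noncomputable def h8b_hq {A : Type*} [AddCommGroup A] (f g : A →+ A) : ℕ :=
  g.range.relIndex f.ker

variable {A' A A'' : Type*} [AddCommGroup A'] [AddCommGroup A] [AddCommGroup A'']

/-- the "connecting" index `[f⁻¹(N) : ker f + N]`. -/
noncomputable def h8b_conn (N : AddSubgroup A) (f : A →+ A) : ℕ :=
  (f.ker ⊔ N).relIndex (N.comap f)

variable (ι : A' →+ A) (π : A →+ A'') (hι : Function.Injective ι)
  (hπ : Function.Surjective π) (hex : ι.range = π.ker)
  (f' g' : A' →+ A') (f g : A →+ A) (f'' g'' : A'' →+ A'')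
  (hfι : ∀ x, f (ι x) = ι (f' x)) (hgι : ∀ x, g (ι x) = ι (g' x))
  (hfπ : ∀ x, f'' (π x) = π (f x)) (hgπ : ∀ x, g'' (π x) = π (g x))

include hι hπ hex hfι hgι hfπ hgπ in
theorem h8b_hq_aux (hfg : ∀ x, f (g x) = 0) :
    h8b_hq f'' g'' * h8b_hq f' g' = h8b_hq f g * h8b_conn π.ker f * h8b_conn π.ker g := by
  set N : AddSubgroup A := π.ker with hN
  have hle : g.range ≤ f.ker := by
    rintro _ ⟨x, rfl⟩
    exact hfg x
  -- h(f'', g'')
  have e1 : h8b_hq f'' g'' = (g.range ⊔ N).relIndex (N.comap f) := by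
    unfold h8b_hq
    have hk : f''.ker = (N.comap f).map π := by
      ext y
      constructor
      · intro hy
        obtain ⟨x, rfl⟩ := hπ y
        refine ⟨x, ?_, rfl⟩
        show π (f x) = 0
        rw [← hfπ]
        exact hy
      · rintro ⟨x, hx, rfl⟩
        rw [AddMonoidHom.mem_ker, hfπ]
        exact hx
    have hr : (g''.range).comap π = g.range ⊔ N := by
      ext x
      rw [AddSubgroup.mem_comap, AddSubgroup.mem_sup]
      constructor
      · rintro ⟨y'', hy''⟩
        obtain ⟨y, rfl⟩ := hπ y''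
        refine ⟨g y, ⟨y, rfl⟩, x - g y, ?_, by abel⟩
        rw [hN, AddMonoidHom.mem_ker, map_sub, ← hgπ, hy'', sub_self]
      · rintro ⟨_, ⟨y, rfl⟩, n, hn, rfl⟩
        refine ⟨π y, ?_⟩
        rw [map_add, hgπ, (AddMonoidHom.mem_ker).mp hn, add_zero]
    rw [hk, ← AddSubgroup.relIndex_comap, hr]
  have e1' : h8b_hq f'' g'' =
      (g.range ⊔ N).relIndex (f.ker ⊔ N) * h8b_conn N f := by
    rw [e1]
    unfold h8b_conn
    refine (AddSubgroup.relIndex_mul_relIndex _ _ _ (sup_le_sup_right hle N) ?_).symm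
    refine sup_le ?_ ?_
    · intro x hx
      rw [AddSubgroup.mem_comap, (AddMonoidHom.mem_ker).mp hx]
      exact N.zero_mem
    · intro x hx
      rw [AddSubgroup.mem_comap, hN, AddMonoidHom.mem_ker, ← hfπ, (AddMonoidHom.mem_ker).mp hx,
        map_zero]
  -- h(f', g')
  have hNι : N = ι.range := hex.symm
  have e2 : h8b_hq f' g' = (N.map g).relIndex (f.ker ⊓ N) := by
    unfold h8b_hq
    rw [← AddSubgroup.relIndex_map_map_of_injective _ _ hι]
    congr 1
    · ext y
      constructor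
      · rintro ⟨_, ⟨x, rfl⟩, rfl⟩
        exact ⟨ι x, by rw [hNι]; exact ⟨x, rfl⟩, by rw [hgι]⟩
      · rintro ⟨n, hn, rfl⟩
        rw [hNι] at hn
        obtain ⟨x, rfl⟩ := hn
        exact ⟨g' x, ⟨x, rfl⟩, by rw [hgι]⟩
    · ext y
      constructor
      · rintro ⟨x, hx, rfl⟩
        refine ⟨?_, by rw [hNι]; exact ⟨x, rfl⟩⟩
        show f (ι x) = 0
        rw [hfι, (AddMonoidHom.mem_ker).mp hx, map_zero]
      · rintro ⟨hy1, hy2⟩
        rw [hNι] at hy2
        obtain ⟨x, rfl⟩ := hy2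
        refine ⟨x, ?_, rfl⟩
        show f' x = 0
        apply hι
        rw [← hfι, map_zero]
        exact hy1
  have e2' : h8b_hq f' g' = h8b_conn N g * (g.range ⊓ N).relIndex (f.ker ⊓ N) := by
    rw [e2]
    have hb : h8b_conn N g = (N.map g).relIndex (g.range ⊓ N) := by
      unfold h8b_conn
      rw [← AddSubgroup.map_comap_eq, AddSubgroup.relIndex_map_map, sup_comm N g.ker]
      congr 1
      refine (sup_eq_left.mpr ?_).symm
      intro x hx
      rw [AddSubgroup.mem_comap, (AddMonoidHom.mem_ker).mp hx]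
      exact N.zero_mem
    rw [hb]
    refine (AddSubgroup.relIndex_mul_relIndex _ _ _ ?_ (inf_le_inf_right N hle)).symm
    rintro _ ⟨n, hn, rfl⟩
    refine ⟨⟨n, rfl⟩, ?_⟩
    show π (g n) = 0
    rw [← hgπ, (AddMonoidHom.mem_ker).mp hn, map_zero]
  have e3 : h8b_hq f g =
      (g.range ⊔ N).relIndex (f.ker ⊔ N) * (g.range ⊓ N).relIndex (f.ker ⊓ N) :=
    (h8b_relIndex_sup_mul_inf _ _ N hle).symm
  rw [e1', e2', e3]
  ring

include hι hπ hex hfι hgι hfπ hgπ in
/-- **Multiplicativity of the Herbrand quotient** in product form: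
`h⁰(A) h¹(A') h¹(A'') = h¹(A) h⁰(A') h⁰(A'')`. -/
theorem h8b_hq_mul (hfg : ∀ x, f (g x) = 0) (hgf : ∀ x, g (f x) = 0) :
    h8b_hq f g * (h8b_hq g'' f'' * h8b_hq g' f') =
      h8b_hq g f * (h8b_hq f'' g'' * h8b_hq f' g') := by
  rw [h8b_hq_aux ι π hι hπ hex f' g' f g f'' g'' hfι hgι hfπ hgπ hfg,
    h8b_hq_aux ι π hι hπ hex g' f' g f g'' f'' hgι hfι hgπ hfπ hgf]
  ring

include hι hπ hex hfι hgι hfπ hgπ in
theorem h8b_hq_ne_zero (hfg : ∀ x, f (g x) = 0)
    (h1 : h8b_hq f'' g'' ≠ 0) (h2 : h8b_hq f' g' ≠ 0) : h8b_hq f g ≠ 0 := by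
  intro h
  have := h8b_hq_aux ι π hι hπ hex f' g' f g f'' g'' hfι hgι hfπ hgπ hfg
  rw [h, zero_mul, zero_mul] at this
  exact mul_ne_zero h1 h2 this

end hq

section finite

variable {A : Type*} [AddCommGroup A]

theorem h8b_card_mul_relIndex {H K : AddSubgroup A} (h : H ≤ K) :
    Nat.card H * H.relIndex K = Nat.card K := by
  have := AddSubgroup.relIndex_mul_relIndex (⊥ : AddSubgroup A) H K bot_le h
  rwa [AddSubgroup.relIndex_bot_left, AddSubgroup.relIndex_bot_left] at this

theorem h8b_hq_mul_card (f g : A →+ A) (hfg : ∀ x, f (g x) = 0) :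
    h8b_hq f g * Nat.card g.range * Nat.card f.range = Nat.card A := by
  have hle : g.range ≤ f.ker := by
    rintro _ ⟨x, rfl⟩
    exact hfg x
  unfold h8b_hq
  rw [mul_comm (g.range.relIndex f.ker), h8b_card_mul_relIndex hle, ← AddSubgroup.index_ker,
    AddSubgroup.card_mul_index]

/-- On a finite group the Herbrand quotient is `1`. -/
theorem h8b_hq_finite [Finite A] (f g : A →+ A) (hfg : ∀ x, f (g x) = 0)
    (hgf : ∀ x, g (f x) = 0) : h8b_hq f g = h8b_hq g f ∧ h8b_hq f g ≠ 0 := by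
  have h1 := h8b_hq_mul_card f g hfg
  have h2 := h8b_hq_mul_card g f hgf
  have hA : Nat.card A ≠ 0 := Nat.card_pos.ne'
  have hf : Nat.card f.range ≠ 0 := Nat.card_pos.ne'
  have hg : Nat.card g.range ≠ 0 := Nat.card_pos.ne'
  refine ⟨?_, ?_⟩
  · have : h8b_hq f g * (Nat.card g.range * Nat.card f.range) =
        h8b_hq g f * (Nat.card g.range * Nat.card f.range) := by
      rw [← mul_assoc, h1, mul_comm (Nat.card g.range), ← mul_assoc, h2]
    exact Nat.eq_of_mul_eq_mul_right (Nat.pos_of_ne_zero (mul_ne_zero hg hf)) this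
  · intro h
    rw [h, zero_mul, zero_mul] at h1
    exact hA h1.symm

end finite

end Fermat.Agent.Lib.S14
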