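/-
S14 project (speculative), helper8, stream (B): Herbrand quotient of a finitely generated abelian
group with an automorphism of prime order, bounded through ranks only.
-/
import Fermat.Agent.Lib.S14.HerbrandQ

set_option autoImplicit false

namespace Fermat.Agent.Lib.S14

open Polynomial in
/-- `(T - 1)^(p-1) ≡ 1 + T + ... + T^(p-1) mod p`. -/
theorem h8b_poly_identity (p : ℕ) [hp : Fact p.Prime] :
    ∃ h : Polynomial ℤ, (X - 1 : Polynomial ℤ) ^ (p - 1) =
      (∑ i ∈ Finset.range p, (X : Polynomial ℤ) ^ i) + C (p : ℤ) * h := by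
  have key : ((X - 1 : Polynomial ℤ) ^ (p - 1) - ∑ i ∈ Finset.range p, (X : Polynomial ℤ) ^ i).map
      (Int.castRingHom (ZMod p)) = 0 := by
    have h1 : ((X : Polynomial (ZMod p)) - 1) * (X - 1) ^ (p - 1) =
        (X - 1) * ∑ i ∈ Finset.range p, (X : Polynomial (ZMod p)) ^ i := by
      rw [mul_geom_sum, ← pow_succ', Nat.sub_add_cancel hp.out.one_le, sub_pow_char, one_pow]
    have h2 : ((X : Polynomial (ZMod p)) - 1) ≠ 0 := by
      have := Polynomial.X_sub_C_ne_zero (1 : ZMod p)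
      simpa using this
    have h3 := mul_left_cancel₀ h2 h1
    simp only [Polynomial.map_sub, Polynomial.map_pow, Polynomial.map_X, Polynomial.map_one,
      Polynomial.map_sum]
    rw [h3, sub_self]
  have hdvd : C (p : ℤ) ∣
      ((X - 1 : Polynomial ℤ) ^ (p - 1) - ∑ i ∈ Finset.range p, (X : Polynomial ℤ) ^ i) := by
    rw [Polynomial.C_dvd_iff_dvd_coeff]
    intro i
    have := congrArg (fun q => Polynomial.coeff q i) key
    simp only [Polynomial.coeff_map, Polynomial.coeff_zero] at this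
    exact (ZMod.intCast_zmod_eq_zero_iff_dvd _ _).mp this
  obtain ⟨h, hh⟩ := hdvd
  exact ⟨h, by rw [← hh]; ring⟩

section indexpow

variable {X : Type*} [AddCommGroup X]

theorem h8b_index_comp_dvd (φ ψ : X →+ X) :
    (φ.comp ψ).range.index ∣ φ.range.index * ψ.range.index := by
  have h1 : (φ.comp ψ).range = ψ.range.map φ := (AddMonoidHom.map_range φ ψ).symm
  have hle : ψ.range.map φ ≤ φ.range := by
    rintro _ ⟨x, _, rfl⟩
    exact ⟨x, rfl⟩
  rw [h1, ← AddSubgroup.relIndex_mul_index hle, mul_comm]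
  refine mul_dvd_mul_left _ ?_
  have h2 : φ.range = (⊤ : AddSubgroup X).map φ := AddMonoidHom.range_eq_map φ
  rw [h2, AddSubgroup.relIndex_map_map, top_sup_eq, AddSubgroup.relIndex_top_right]
  exact AddSubgroup.index_dvd_of_le le_sup_left

theorem h8b_index_mul_dvd (φ ψ : Module.End ℤ X) :
    (LinearMap.range (φ * ψ)).toAddSubgroup.index ∣
      (LinearMap.range φ).toAddSubgroup.index * (LinearMap.range ψ).toAddSubgroup.index := by
  have := h8b_index_comp_dvd φ.toAddMonoidHom ψ.toAddMonoidHom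
  rw [LinearMap.range_toAddSubgroup, LinearMap.range_toAddSubgroup,
    LinearMap.range_toAddSubgroup]
  exact this

theorem h8b_index_pow_dvd (φ : Module.End ℤ X) (k : ℕ) :
    (LinearMap.range (φ ^ k)).toAddSubgroup.index ∣
      (LinearMap.range φ).toAddSubgroup.index ^ k := by
  induction k with
  | zero =>
    have : LinearMap.range (1 : Module.End ℤ X) = ⊤ := LinearMap.range_id
    simp [this]
  | succ k ih =>
    rw [pow_succ, pow_succ]
    exact (h8b_index_mul_dvd _ _).trans (mul_dvd_mul_right ih _)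

end indexpow

section cyclo

variable {X : Type*} [AddCommGroup X]

theorem h8b_natCast_eq_mul (p : ℕ) (s : Module.End ℤ X)
    (hν : ∑ i ∈ Finset.range p, s ^ i = 0) :
    ∃ K : Module.End ℤ X, (p : Module.End ℤ X) = (s - 1) * K := by
  refine ⟨-∑ j ∈ Finset.range p, ∑ i ∈ Finset.range j, s ^ i, ?_⟩
  have h1 : ∀ j : ℕ, s ^ j = 1 + (s - 1) * ∑ i ∈ Finset.range j, s ^ i := by
    intro j
    rw [mul_geom_sum]
    abel
  have h2 : ∑ j ∈ Finset.range p, s ^ j =
      (p : Module.End ℤ X) + (s - 1) * ∑ j ∈ Finset.range p, ∑ i ∈ Finset.range j, s ^ i := by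
    calc ∑ j ∈ Finset.range p, s ^ j
        = ∑ j ∈ Finset.range p, (1 + (s - 1) * ∑ i ∈ Finset.range j, s ^ i) :=
          Finset.sum_congr rfl (fun j _ => h1 j)
      _ = _ := by
          rw [Finset.sum_add_distrib, Finset.mul_sum, Finset.sum_const, Finset.card_range,
            nsmul_one]
  rw [hν] at h2
  rw [mul_neg]
  exact eq_neg_of_add_eq_zero_left h2.symm

theorem h8b_pow_pred_eq_mul (p : ℕ) [Fact p.Prime] (s : Module.End ℤ X)
    (hν : ∑ i ∈ Finset.range p, s ^ i = 0) :
    ∃ H : Module.End ℤ X, (s - 1) ^ (p - 1) = (p : Module.End ℤ X) * H := by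
  obtain ⟨h, hh⟩ := h8b_poly_identity p
  refine ⟨Polynomial.aeval s h, ?_⟩
  have := congrArg (Polynomial.aeval s) hh
  simp only [map_sub, map_pow, Polynomial.aeval_X, map_one, map_add, map_sum, map_mul,
    Polynomial.aeval_C, hν, zero_add] at this
  rw [this]
  congr 1
  simp

variable [Module.Free ℤ X] [Module.Finite ℤ X]

theorem h8b_cyclo_index (p : ℕ) [hp : Fact p.Prime] (s : Module.End ℤ X)
    (hν : ∑ i ∈ Finset.range p, s ^ i = 0) :
    (LinearMap.range (s - 1)).toAddSubgroup.index ≠ 0 ∧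
      p ^ Module.finrank ℤ X ∣ (LinearMap.range (s - 1)).toAddSubgroup.index ^ (p - 1) := by
  have hidx := AddSubgroup.index_range_nsmul X p
  obtain ⟨K, hK⟩ := h8b_natCast_eq_mul p s hν
  obtain ⟨H, hH⟩ := h8b_pow_pred_eq_mul p s hν
  have hle1 : (nsmulAddMonoidHom (α := X) p).range ≤ (LinearMap.range (s - 1)).toAddSubgroup := by
    rintro _ ⟨x, rfl⟩
    refine ⟨K x, ?_⟩
    have := congrArg (fun φ : Module.End ℤ X => φ x) hK
    simp only [Module.End.mul_apply] at this
    rw [← this]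
    simp
  have hle2 : (LinearMap.range ((s - 1) ^ (p - 1))).toAddSubgroup ≤
      (nsmulAddMonoidHom (α := X) p).range := by
    rintro _ ⟨x, rfl⟩
    refine ⟨H x, ?_⟩
    have := congrArg (fun φ : Module.End ℤ X => φ x) hH
    simp only [Module.End.mul_apply] at this
    rw [this]
    simp
  have hne : (nsmulAddMonoidHom (α := X) p).range.index ≠ 0 := by
    rw [hidx]
    exact pow_ne_zero _ hp.out.ne_zero
  constructor
  · intro h0
    have := AddSubgroup.index_dvd_of_le hle1
    rw [h0, zero_dvd_iff] at this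
    exact hne this
  · rw [← hidx]
    exact (AddSubgroup.index_dvd_of_le hle2).trans (h8b_index_pow_dvd _ _)

end cyclo

section hqbasic

variable {X : Type*} [AddCommGroup X]

theorem h8b_hq_zero_left (g : X →+ X) : h8b_hq (0 : X →+ X) g = g.range.index := by
  unfold h8b_hq
  rw [AddMonoidHom.ker_zero, AddSubgroup.relIndex_top_right]

theorem h8b_hq_zero_right (f : X →+ X) : h8b_hq f (0 : X →+ X) = Nat.card f.ker := by
  unfold h8b_hq
  rw [AddMonoidHom.range_zero, AddSubgroup.relIndex_bot_left]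

end hqbasic

section tors

variable {X : Type*} [AddCommGroup X]

theorem h8b_torsion_le_comap (φ : Module.End ℤ X) :
    Submodule.torsion ℤ X ≤ (Submodule.torsion ℤ X).comap φ := by
  intro x hx
  rw [Submodule.mem_comap]
  rw [Submodule.mem_torsion_iff] at hx ⊢
  obtain ⟨a, ha⟩ := hx
  refine ⟨a, ?_⟩
  rw [Submonoid.smul_def] at ha ⊢
  rw [← map_smul, ha, map_zero]

/-- The endomorphism induced on the torsion-free quotient. -/
noncomputable def h8b_modTors (φ : Module.End ℤ X) : Module.End ℤ (X ⧸ Submodule.torsion ℤ X) :=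
  (Submodule.torsion ℤ X).mapQ _ φ (h8b_torsion_le_comap φ)

theorem h8b_modTors_mk (φ : Module.End ℤ X) (x : X) :
    h8b_modTors φ (Submodule.Quotient.mk x) = Submodule.Quotient.mk (φ x) := rfl

theorem h8b_modTors_pow_mk (φ : Module.End ℤ X) (k : ℕ) (x : X) :
    (h8b_modTors φ ^ k) (Submodule.Quotient.mk x) = Submodule.Quotient.mk ((φ ^ k) x) := by
  induction k generalizing x with
  | zero => simp
  | succ k ih =>
    rw [pow_succ, pow_succ, Module.End.mul_apply, Module.End.mul_apply, h8b_modTors_mk, ih]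

theorem h8b_modTors_sub_one (φ : Module.End ℤ X) :
    h8b_modTors (φ - 1) = h8b_modTors φ - 1 := by
  apply LinearMap.ext
  intro y
  induction y using Submodule.Quotient.induction_on with
  | H x =>
    rw [h8b_modTors_mk, LinearMap.sub_apply, LinearMap.sub_apply, h8b_modTors_mk,
      Module.End.one_apply, Module.End.one_apply, Submodule.Quotient.mk_sub]

theorem h8b_modTors_geom (φ : Module.End ℤ X) (p : ℕ)
    (h : ∑ i ∈ Finset.range p, φ ^ i = 0) :
    ∑ i ∈ Finset.range p, h8b_modTors φ ^ i = 0 := by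
  apply LinearMap.ext
  intro y
  induction y using Submodule.Quotient.induction_on with
  | H x =>
    rw [LinearMap.sum_apply]
    simp only [h8b_modTors_pow_mk]
    have : ∑ i ∈ Finset.range p, (Submodule.Quotient.mk ((φ ^ i) x) : X ⧸ Submodule.torsion ℤ X)
        = (Submodule.torsion ℤ X).mkQ (∑ i ∈ Finset.range p, (φ ^ i) x) := by
      rw [map_sum]
      rfl
    rw [this, ← LinearMap.sum_apply, h]
    simp

variable [Module.Finite ℤ X]

instance h8b_finite_torsion : Finite (Submodule.torsion ℤ X) :=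
  Module.finite_of_fg_torsion _ (Submodule.torsion_isTorsion)

theorem h8b_tors (φ : Module.End ℤ X)
    (hinj : ∀ x : X, φ x ∈ Submodule.torsion ℤ X → x ∈ Submodule.torsion ℤ X) :
    Nat.card (LinearMap.ker φ) ≠ 0 ∧
      (LinearMap.range φ).toAddSubgroup.index =
        Nat.card (LinearMap.ker φ) * (LinearMap.range (h8b_modTors φ)).toAddSubgroup.index := by
  set T := Submodule.torsion ℤ X with hT
  have hker : LinearMap.ker φ ≤ T := by
    intro x hx
    apply hinj
    rw [LinearMap.mem_ker.mp hx]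
    exact T.zero_mem
  have hfin : Finite (LinearMap.ker φ) :=
    Finite.of_injective (fun x : LinearMap.ker φ => (⟨x.1, hker x.2⟩ : T))
      (fun a b h => Subtype.ext (by simpa using congrArg Subtype.val h))
  refine ⟨Nat.card_pos.ne', ?_⟩
  have hstab : ∀ x ∈ T, φ x ∈ T := fun x hx => h8b_torsion_le_comap φ hx
  have hm := h8b_hq_mul T.subtype.toAddMonoidHom T.mkQ.toAddMonoidHom
    (fun a b h => Subtype.ext h) (Submodule.mkQ_surjective T)
    (by
      ext x
      simp)
    (0 : T →+ T) (φ.restrict hstab).toAddMonoidHom (0 : X →+ X) φ.toAddMonoidHom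
    (0 : (X ⧸ T) →+ (X ⧸ T)) (h8b_modTors φ).toAddMonoidHom
    (fun x => by simp) (fun x => rfl) (fun x => by simp) (fun x => rfl)
    (fun x => rfl) (fun x => by simp)
  rw [h8b_hq_zero_left, h8b_hq_zero_right, h8b_hq_zero_right, h8b_hq_zero_right,
    h8b_hq_zero_left, h8b_hq_zero_left] at hm
  have hfinT := h8b_hq_finite (0 : T →+ T) (φ.restrict hstab).toAddMonoidHom (fun x => rfl)
    (fun x => by simp)
  rw [h8b_hq_zero_left, h8b_hq_zero_right] at hfinT
  have hinj' : Nat.card (h8b_modTors φ).toAddMonoidHom.ker = 1 := by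
    rw [AddSubgroup.card_eq_one, AddSubgroup.eq_bot_iff_forall]
    intro y hy
    induction y using Submodule.Quotient.induction_on with
    | H x =>
      have h1 : h8b_modTors φ (Submodule.Quotient.mk x) = 0 := hy
      rw [h8b_modTors_mk, Submodule.Quotient.mk_eq_zero] at h1
      exact (Submodule.Quotient.mk_eq_zero _).mpr (hinj x h1)
  rw [hinj', one_mul, ← hfinT.1] at hm
  have hc := hfinT.2
  have e1 : (LinearMap.toAddMonoidHom φ).range = (LinearMap.range φ).toAddSubgroup :=
    (LinearMap.range_toAddSubgroup φ).symm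
  have e2 : (LinearMap.toAddMonoidHom (h8b_modTors φ)).range =
      (LinearMap.range (h8b_modTors φ)).toAddSubgroup :=
    (LinearMap.range_toAddSubgroup _).symm
  have e3 : Nat.card (LinearMap.toAddMonoidHom φ).ker = Nat.card (LinearMap.ker φ) := rfl
  rw [e1, e2, e3, ← mul_assoc] at hm
  exact Nat.eq_of_mul_eq_mul_right (Nat.pos_of_ne_zero hc) hm

theorem h8b_finrank_modTors : Module.finrank ℤ (X ⧸ Submodule.torsion ℤ X) = Module.finrank ℤ X := by
  have h := (Submodule.torsion ℤ X).finrank_quotient_add_finrank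
  have h0 : Module.finrank ℤ (Submodule.torsion ℤ X) = 0 :=
    Module.finrank_eq_zero_iff_isTorsion.mpr Submodule.torsion_isTorsion
  rw [h0, add_zero] at h
  exact h

end tors

section main

variable {A : Type*} [AddCommGroup A] [Module.Finite ℤ A]

/-- The trivial-action part: `[X : pX] = |X[p]| * p ^ rank X` for a f.g. abelian group. -/
theorem h8b_trivial_part {X : Type*} [AddCommGroup X] [Module.Finite ℤ X] (p : ℕ)
    [hp : Fact p.Prime] :
    Nat.card (LinearMap.ker (p : Module.End ℤ X)) ≠ 0 ∧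
      (LinearMap.range (p : Module.End ℤ X)).toAddSubgroup.index =
        Nat.card (LinearMap.ker (p : Module.End ℤ X)) * p ^ Module.finrank ℤ X := by
  have hinj : ∀ x : X, (p : Module.End ℤ X) x ∈ Submodule.torsion ℤ X →
      x ∈ Submodule.torsion ℤ X := by
    intro x hx
    rw [Submodule.mem_torsion_iff] at hx ⊢
    obtain ⟨a, ha⟩ := hx
    have hp0 : (p : ℤ) ∈ nonZeroDivisors ℤ :=
      mem_nonZeroDivisors_of_ne_zero (by exact_mod_cast hp.out.ne_zero)
    refine ⟨a * ⟨(p : ℤ), hp0⟩, ?_⟩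
    rw [Submonoid.smul_def] at ha ⊢
    rw [Submonoid.coe_mul, mul_smul]
    simpa using ha
  obtain ⟨h1, h2⟩ := h8b_tors (p : Module.End ℤ X) hinj
  refine ⟨h1, ?_⟩
  rw [h2]
  congr 1
  have e : h8b_modTors (p : Module.End ℤ X) =
      (p : Module.End ℤ (X ⧸ Submodule.torsion ℤ X)) := by
    apply LinearMap.ext
    intro y
    induction y using Submodule.Quotient.induction_on with
    | H x =>
      rw [h8b_modTors_mk]
      simp
  rw [e, ← h8b_finrank_modTors (X := X), ← AddSubgroup.index_range_nsmul]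
  congr 1

/-- **Herbrand quotient bound from ranks.**  `A` a f.g. abelian group, `s` an automorphism with
`s ^ p = 1`, `D = s - 1`, `ν = 1 + s + ... + s^(p-1)`, `a = rank ker D`, `n = rank A`.  Then
`h⁰ = [ker D : im ν]` and `h¹ = [ker ν : im D]` are finite and
`(h⁰)^(p-1) * p^(n-a) ≤ (h¹)^(p-1) * p^((p-1) a)`. -/
theorem h8b_lattice (p : ℕ) [hp : Fact p.Prime] (s : Module.End ℤ A) (hs : s ^ p = 1) :
    h8b_hq (s - 1).toAddMonoidHom (∑ i ∈ Finset.range p, s ^ i).toAddMonoidHom ≠ 0 ∧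
    h8b_hq (∑ i ∈ Finset.range p, s ^ i).toAddMonoidHom (s - 1).toAddMonoidHom ≠ 0 ∧
    h8b_hq (s - 1).toAddMonoidHom (∑ i ∈ Finset.range p, s ^ i).toAddMonoidHom ^ (p - 1) *
        p ^ (Module.finrank ℤ A - Module.finrank ℤ (LinearMap.ker (s - 1))) ≤
      h8b_hq (∑ i ∈ Finset.range p, s ^ i).toAddMonoidHom (s - 1).toAddMonoidHom ^ (p - 1) *
        p ^ ((p - 1) * Module.finrank ℤ (LinearMap.ker (s - 1))) := by
  set D : Module.End ℤ A := s - 1 with hD
  set ν : Module.End ℤ A := ∑ i ∈ Finset.range p, s ^ i with hν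
  have hDν : D * ν = 0 := by rw [hD, hν, mul_geom_sum, hs, sub_self]
  have hνD : ν * D = 0 := by rw [hD, hν, geom_sum_mul, hs, sub_self]
  have hDν' : ∀ x, D (ν x) = 0 := fun x => by
    rw [← Module.End.mul_apply, hDν]; rfl
  have hνD' : ∀ x, ν (D x) = 0 := fun x => by
    rw [← Module.End.mul_apply, hνD]; rfl
  set A₀ := LinearMap.ker D with hA₀
  set C := LinearMap.range D with hC
  -- fixed points
  have hfix : ∀ x ∈ A₀, s x = x := by
    intro x hx
    have : D x = 0 := LinearMap.mem_ker.mp hx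
    rw [hD, LinearMap.sub_apply, Module.End.one_apply, sub_eq_zero] at this
    exact this
  have hfixpow : ∀ x ∈ A₀, ∀ i : ℕ, (s ^ i) x = x := by
    intro x hx i
    induction i with
    | zero => simp
    | succ i ih => rw [pow_succ, Module.End.mul_apply, hfix x hx, ih]
  have hνfix : ∀ x ∈ A₀, ν x = p • x := by
    intro x hx
    rw [hν, LinearMap.sum_apply]
    rw [Finset.sum_congr rfl (fun i _ => hfixpow x hx i), Finset.sum_const, Finset.card_range]
  -- stability of C
  have hsD : s * D = D * s := by rw [hD, mul_sub, sub_mul, mul_one, one_mul]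
  have hCs : ∀ c ∈ C, s c ∈ C := by
    rintro _ ⟨x, rfl⟩
    refine ⟨s x, ?_⟩
    rw [← Module.End.mul_apply, ← hsD, Module.End.mul_apply]
  have hCD : ∀ c ∈ C, D c ∈ C := fun c _ => ⟨c, rfl⟩
  set sC : Module.End ℤ C := s.restrict hCs with hsC
  have hsCpow : ∀ (i : ℕ) (c : C), (((sC ^ i) c : C) : A) = (s ^ i) c := by
    intro i
    induction i with
    | zero => intro c; simp
    | succ i ih =>
      intro c
      rw [pow_succ, Module.End.mul_apply, ih, pow_succ, Module.End.mul_apply]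
      rfl
  have hνC : ∑ i ∈ Finset.range p, sC ^ i = 0 := by
    apply LinearMap.ext
    intro c
    apply Subtype.ext
    rw [LinearMap.sum_apply, Submodule.coe_sum]
    simp only [hsCpow]
    obtain ⟨c, x, rfl⟩ := c
    have := hνD' x
    rw [hν, LinearMap.sum_apply] at this
    simpa using this
  have hDC : D.restrict hCD = sC - 1 := by
    apply LinearMap.ext
    intro c
    apply Subtype.ext
    simp [hD, hsC, LinearMap.restrict_apply]
  -- the machine
  have hπs : Function.Surjective D.rangeRestrict.toAddMonoidHom := by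
    rintro ⟨_, x, rfl⟩
    exact ⟨x, rfl⟩
  have hex : A₀.subtype.toAddMonoidHom.range = D.rangeRestrict.toAddMonoidHom.ker := by
    ext x
    simp only [AddMonoidHom.mem_range, AddMonoidHom.mem_ker]
    constructor
    · rintro ⟨y, rfl⟩
      apply Subtype.ext
      exact LinearMap.mem_ker.mp y.2
    · intro h
      refine ⟨⟨x, ?_⟩, rfl⟩
      have := congrArg Subtype.val h
      exact LinearMap.mem_ker.mpr this
  have hfι : ∀ x : A₀, D.toAddMonoidHom (A₀.subtype.toAddMonoidHom x) =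
      A₀.subtype.toAddMonoidHom ((0 : A₀ →+ A₀) x) := by
    intro x
    simp only [AddMonoidHom.zero_apply, map_zero]
    exact LinearMap.mem_ker.mp x.2
  have hgι : ∀ x : A₀, ν.toAddMonoidHom (A₀.subtype.toAddMonoidHom x) =
      A₀.subtype.toAddMonoidHom ((p : Module.End ℤ A₀).toAddMonoidHom x) := by
    intro x
    have := hνfix x.1 x.2
    simpa using this
  have hfπ : ∀ x : A, (D.restrict hCD).toAddMonoidHom (D.rangeRestrict.toAddMonoidHom x) =
      D.rangeRestrict.toAddMonoidHom (D.toAddMonoidHom x) := fun x => rfl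
  have hgπ : ∀ x : A, (0 : C →+ C) (D.rangeRestrict.toAddMonoidHom x) =
      D.rangeRestrict.toAddMonoidHom (ν.toAddMonoidHom x) := by
    intro x
    apply Subtype.ext
    simp only [AddMonoidHom.zero_apply]
    exact (hDν' x).symm
  have hm := h8b_hq_mul A₀.subtype.toAddMonoidHom D.rangeRestrict.toAddMonoidHom
    (fun a b h => Subtype.ext h) hπs hex
    (0 : A₀ →+ A₀) (p : Module.End ℤ A₀).toAddMonoidHom D.toAddMonoidHom ν.toAddMonoidHom
    (D.restrict hCD).toAddMonoidHom (0 : C →+ C) hfι hgι hfπ hgπ hDν' hνD'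
  have hne0 := h8b_hq_ne_zero A₀.subtype.toAddMonoidHom D.rangeRestrict.toAddMonoidHom
    (fun a b h => Subtype.ext h) hπs hex
    (0 : A₀ →+ A₀) (p : Module.End ℤ A₀).toAddMonoidHom D.toAddMonoidHom ν.toAddMonoidHom
    (D.restrict hCD).toAddMonoidHom (0 : C →+ C) hfι hgι hfπ hgπ hDν'
  have hne1 := h8b_hq_ne_zero A₀.subtype.toAddMonoidHom D.rangeRestrict.toAddMonoidHom
    (fun a b h => Subtype.ext h) hπs hex
    (p : Module.End ℤ A₀).toAddMonoidHom (0 : A₀ →+ A₀) ν.toAddMonoidHom D.toAddMonoidHom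
    (0 : C →+ C) (D.restrict hCD).toAddMonoidHom hgι hfι hgπ hfπ hνD'
  rw [h8b_hq_zero_left, h8b_hq_zero_right, h8b_hq_zero_right, h8b_hq_zero_left] at hm
  rw [h8b_hq_zero_right, h8b_hq_zero_left] at hne0
  rw [h8b_hq_zero_left, h8b_hq_zero_right] at hne1
  -- trivial part
  obtain ⟨ht1, ht2⟩ := h8b_trivial_part (X := A₀) p
  -- cyclotomic part
  have hinjC : ∀ c : C, (D.restrict hCD) c ∈ Submodule.torsion ℤ C → c ∈ Submodule.torsion ℤ C := by
    intro c hc
    rw [Submodule.mem_torsion_iff] at hc ⊢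
    obtain ⟨a, ha⟩ := hc
    have hp0 : (p : ℤ) ∈ nonZeroDivisors ℤ :=
      mem_nonZeroDivisors_of_ne_zero (by exact_mod_cast hp.out.ne_zero)
    refine ⟨⟨(p : ℤ), hp0⟩ * a, ?_⟩
    rw [Submonoid.smul_def] at ha ⊢
    rw [Submonoid.coe_mul, mul_smul]
    -- `a • c` is fixed by `s`, lies in `C`, hence killed by `p`
    have h1 : D ((a : ℤ) • (c : A)) = 0 := by
      have := congrArg Subtype.val ha
      simpa [LinearMap.restrict_apply] using this
    have h2 : ((a : ℤ) • (c : A)) ∈ A₀ := LinearMap.mem_ker.mpr h1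
    have h3 := hνfix _ h2
    obtain ⟨c, x, rfl⟩ := c
    have h4 : ν ((a : ℤ) • D x) = 0 := by rw [map_smul, hνD', smul_zero]
    apply Subtype.ext
    simp only [Submodule.coe_smul, Submodule.coe_zero]
    rw [h4] at h3
    rw [Nat.cast_smul_eq_nsmul ℤ]
    exact h3.symm
  obtain ⟨hc1, hc2⟩ := h8b_tors (D.restrict hCD) hinjC
  have hcyc := h8b_cyclo_index (X := C ⧸ Submodule.torsion ℤ C) p (h8b_modTors sC)
    (h8b_modTors_geom sC p hνC)
  rw [← h8b_modTors_sub_one, ← hDC] at hcyc
  obtain ⟨hJ0, hJ1⟩ := hcyc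
  set J := (LinearMap.range (h8b_modTors (D.restrict hCD))).toAddSubgroup.index with hJ
  set k := Nat.card (LinearMap.ker (D.restrict hCD)) with hk
  set t := Nat.card (LinearMap.ker (p : Module.End ℤ A₀)) with ht
  set h0 := h8b_hq D.toAddMonoidHom ν.toAddMonoidHom with hh0
  set h1 := h8b_hq ν.toAddMonoidHom D.toAddMonoidHom with hh1
  set a := Module.finrank ℤ A₀ with ha
  have e1 : (LinearMap.toAddMonoidHom (D.restrict hCD)).range.index = k * J := by
    rw [← LinearMap.range_toAddSubgroup, hc2]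
  have e2 : Nat.card (LinearMap.toAddMonoidHom (p : Module.End ℤ A₀)).ker = t := rfl
  have e3 : Nat.card (LinearMap.toAddMonoidHom (D.restrict hCD)).ker = k := rfl
  have e4 : (LinearMap.toAddMonoidHom (p : Module.End ℤ A₀)).range.index = t * p ^ a := by
    rw [← LinearMap.range_toAddSubgroup, ht2]
  rw [e1, e2, e3, e4] at hm
  rw [e3, e4] at hne0
  rw [e1, e2] at hne1
  have hp0 : p ^ a ≠ 0 := pow_ne_zero _ hp.out.ne_zero
  have hh0ne : h0 ≠ 0 := hne0 hc1 (mul_ne_zero ht1 hp0)
  have hh1ne : h1 ≠ 0 := hne1 (mul_ne_zero hc1 hJ0) ht1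
  have hkey : h0 * J = h1 * p ^ a := by
    have : (h0 * J) * (k * t) = (h1 * p ^ a) * (k * t) := by
      calc (h0 * J) * (k * t) = h0 * (k * J * t) := by ring
        _ = h1 * (k * (t * p ^ a)) := hm
        _ = _ := by ring
    exact Nat.eq_of_mul_eq_mul_right (Nat.pos_of_ne_zero (mul_ne_zero hc1 ht1)) this
  have hrank : Module.finrank ℤ (C ⧸ Submodule.torsion ℤ C) = Module.finrank ℤ A - a := by
    rw [h8b_finrank_modTors]
    have r1 : Module.finrank ℤ (A ⧸ A₀) + a = Module.finrank ℤ A :=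
      A₀.finrank_quotient_add_finrank
    have r2 : Module.finrank ℤ (A ⧸ A₀) = Module.finrank ℤ C :=
      LinearEquiv.finrank_eq D.quotKerEquivRange
    omega
  rw [hrank] at hJ1
  have hle : p ^ (Module.finrank ℤ A - a) ≤ J ^ (p - 1) :=
    Nat.le_of_dvd (Nat.pos_of_ne_zero (pow_ne_zero _ hJ0)) hJ1
  refine ⟨hh0ne, hh1ne, ?_⟩
  calc h0 ^ (p - 1) * p ^ (Module.finrank ℤ A - a)
      ≤ h0 ^ (p - 1) * J ^ (p - 1) := Nat.mul_le_mul_left _ hle
    _ = (h0 * J) ^ (p - 1) := (mul_pow _ _ _).symm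
    _ = (h1 * p ^ a) ^ (p - 1) := by rw [hkey]
    _ = h1 ^ (p - 1) * p ^ ((p - 1) * a) := by rw [mul_pow, ← pow_mul, mul_comm a]

/-- Corollary in the shape needed for units: `rank A = p r - 1`, `rank A^σ = r - 1`
give `h⁰ * p ≤ h¹`. -/
theorem h8b_lattice_cor (p : ℕ) [hp : Fact p.Prime] (s : Module.End ℤ A) (hs : s ^ p = 1)
    (r : ℕ) (hr : 1 ≤ r) (hn : Module.finrank ℤ A = p * r - 1)
    (ha : Module.finrank ℤ (LinearMap.ker (s - 1)) = r - 1) :
    h8b_hq (s - 1).toAddMonoidHom (∑ i ∈ Finset.range p, s ^ i).toAddMonoidHom ≠ 0 ∧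
    h8b_hq (s - 1).toAddMonoidHom (∑ i ∈ Finset.range p, s ^ i).toAddMonoidHom * p ≤
      h8b_hq (∑ i ∈ Finset.range p, s ^ i).toAddMonoidHom (s - 1).toAddMonoidHom := by
  obtain ⟨h0, -, h2⟩ := h8b_lattice p s hs
  refine ⟨h0, ?_⟩
  rw [hn, ha] at h2
  set x := h8b_hq (s - 1).toAddMonoidHom (∑ i ∈ Finset.range p, s ^ i).toAddMonoidHom
  set y := h8b_hq (∑ i ∈ Finset.range p, s ^ i).toAddMonoidHom (s - 1).toAddMonoidHom
  have hp1 : 1 ≤ p := hp.out.one_le
  have e1 : p * r - 1 - (r - 1) = (p - 1) * r := by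
    obtain ⟨q, rfl⟩ : ∃ q, p = q + 1 := ⟨p - 1, by omega⟩
    obtain ⟨t, rfl⟩ : ∃ t, r = t + 1 := ⟨r - 1, by omega⟩
    simp only [Nat.add_sub_cancel]
    have : (q + 1) * (t + 1) - 1 = q * (t + 1) + t := by ring_nf; omega
    rw [this, Nat.add_sub_cancel]
  rw [e1, pow_mul', pow_mul', ← mul_pow, ← mul_pow] at h2
  have hp2 : p - 1 ≠ 0 := by have := hp.out.two_le; omega
  have h3 : x * p ^ r ≤ y * p ^ (r - 1) := (Nat.pow_le_pow_iff_left hp2).mp h2
  have e2 : p ^ r = p * p ^ (r - 1) := by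
    rw [← pow_succ', Nat.sub_add_cancel hr]
  rw [e2, ← mul_assoc] at h3
  exact Nat.le_of_mul_le_mul_right h3 (pow_pos hp.out.pos _)

end main

end Fermat.Agent.Lib.S14
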