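/-
S14 project, stream (B), piece (B-herb) (helper9): the Herbrand-quotient inequality from ranks, in
the `Submodule`/`relIndex` shape announced in msg 470 (consumed by helper5's (B-units)).  It is a
repackaging of helper8's `h8b_lattice_cor` (file `HerbrandLattice`).
-/
import Mathlib
import Fermat.Agent.Lib.S14.HerbrandLattice

set_option autoImplicit false

namespace Fermat.Agent.Lib.S14

/-- **Herbrand-quotient inequality from ranks.**  `A` a finitely generated abelian group, `σ` an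
endomorphism with `σ ^ p = 1` (`p` prime), `ν = 1 + σ + ⋯ + σ^(p-1)`.  If `rank A = p r - 1` and
`rank A^σ = r - 1`, then `Ĥ⁰ = A^σ / νA` and `H¹ = ker ν / (σ-1)A` are finite and
`p * |Ĥ⁰| ≤ |H¹|`. -/
theorem h9b_herbrand_ineq {A : Type*} [AddCommGroup A] [Module.Finite ℤ A] (p : ℕ) [Fact p.Prime]
    (σ : Module.End ℤ A) (hσ : σ ^ p = 1) (r : ℕ)
    (hA : Module.finrank ℤ A + 1 = p * r)
    (hA0 : Module.finrank ℤ (LinearMap.ker (σ - 1)) + 1 = r) :
    let ν : Module.End ℤ A := ∑ i ∈ Finset.range p, σ ^ i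
    (LinearMap.range ν).toAddSubgroup.relIndex (LinearMap.ker (σ - 1)).toAddSubgroup ≠ 0 ∧
    (LinearMap.range (σ - 1)).toAddSubgroup.relIndex (LinearMap.ker ν).toAddSubgroup ≠ 0 ∧
    p * (LinearMap.range ν).toAddSubgroup.relIndex (LinearMap.ker (σ - 1)).toAddSubgroup ≤
      (LinearMap.range (σ - 1)).toAddSubgroup.relIndex (LinearMap.ker ν).toAddSubgroup := by
  intro ν
  have hp : 0 < p := (Fact.out : p.Prime).pos
  obtain ⟨h0, hle⟩ := h8b_lattice_cor p σ hσ r (by omega) (by omega) (by omega)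
  have e0 : h8b_hq (σ - 1).toAddMonoidHom (∑ i ∈ Finset.range p, σ ^ i).toAddMonoidHom =
      (LinearMap.range ν).toAddSubgroup.relIndex (LinearMap.ker (σ - 1)).toAddSubgroup := rfl
  have e1 : h8b_hq (∑ i ∈ Finset.range p, σ ^ i).toAddMonoidHom (σ - 1).toAddMonoidHom =
      (LinearMap.range (σ - 1)).toAddSubgroup.relIndex (LinearMap.ker ν).toAddSubgroup := rfl
  rw [e0] at h0
  rw [e0, e1] at hle
  refine ⟨h0, fun h => ?_, by rw [mul_comm]; exact hle⟩
  rw [h] at hle
  exact h0 ((mul_eq_zero.mp (Nat.le_zero.mp hle)).resolve_right hp.ne')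

end Fermat.Agent.Lib.S14
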