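/-
S14 project (speculative), helper5, (I-units) of (B): the unit Herbrand inequality in helper8's exact
notation (`AmbigCount.lean` / `ChevalleyDefs.lean`), unconditional:
for `L/K` Galois of prime degree `p` with `Gal(L/K) = ⟨σ⟩` and `K` totally complex,
`h8b_hqm (h8b_del σU) (h8b_nu σU p) ≠ 0` and
`h8b_hqm (h8b_del σU) (h8b_nu σU p) * p ≤ h8b_hqm (h8b_nu σU p) (h8b_del σU)` for `σU = h8b_sigU σ`,
i.e. `p · [E_K : N E_L] ≤ [E_L^{N=1} : (σ-1) E_L]`.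
-/
import Mathlib
import Fermat.Agent.Lib.S14.H5UnitsGal
import Fermat.Agent.Lib.S14.Herbrand9
import Fermat.Agent.Lib.S14.ChevalleyDefs

set_option autoImplicit false
set_option linter.unusedSectionVars false

namespace Fermat.Agent.Lib.S14

open NumberField Module

variable {K L : Type*} [Field K] [NumberField K] [Field L] [NumberField L] [Algebra K L]

theorem h5u_sigU_eq_act (σ : L ≃ₐ[K] L) : h8b_sigU σ = h5u_act σ := by
  ext u
  rfl

theorem h5u_act_iterate (σ : L ≃ₐ[K] L) (k : ℕ) (u : (𝓞 L)ˣ) :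
    ((h5u_act σ)^[k]) u = h5u_act (σ ^ k) u := by
  induction k generalizing u with
  | zero => rw [Function.iterate_zero, id_eq, pow_zero, h5u_act_one]; rfl
  | succ k ih =>
    rw [Function.iterate_succ_apply, ih, pow_succ, h5u_act_mul]
    rfl

theorem h5u_nu_eq (σ : L ≃ₐ[K] L) (p : ℕ) : h8b_nu (h5u_act σ) p = h5u_nu σ p := by
  ext1 u
  rw [h8b_nu_apply, h5u_nu_apply]
  exact Finset.prod_congr rfl (fun k _ => h5u_act_iterate σ k u)

theorem h5u_del_eq (σ : L ≃ₐ[K] L) : h8b_del (h5u_act σ) = h5u_D σ := rfl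

theorem h5u_ker_D (σ : L ≃ₐ[K] L) : (h5u_D σ).ker = h5u_fix σ := by
  ext u
  rw [MonoidHom.mem_ker, h5u_D_apply, div_eq_one, h5u_mem_fix]

/-- The abstract Herbrand inequality holds (helper9's `h9b_herbrand_ineq`). -/
theorem h5u_herbrandIneq (A : Type*) [AddCommGroup A] [Module.Finite ℤ A] (p : ℕ)
    [Fact p.Prime] : h5u_HerbrandIneq A p :=
  fun σ hσ r hA hA0 => h9b_herbrand_ineq p σ hσ r hA hA0

/-- **(I-units)**, helper8's shape, unconditional. -/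
theorem h5u_units_hq [IsGalois K L] [IsTotallyComplex K] {p : ℕ} [Fact p.Prime]
    (hdeg : Module.finrank K L = p) (σ : L ≃ₐ[K] L)
    (hσ : ∀ g : L ≃ₐ[K] L, g ∈ Subgroup.zpowers σ) :
    h8b_hqm (h8b_del (h8b_sigU σ)) (h8b_nu (h8b_sigU σ) p) ≠ 0 ∧
    h8b_hqm (h8b_del (h8b_sigU σ)) (h8b_nu (h8b_sigU σ) p) * p ≤
      h8b_hqm (h8b_nu (h8b_sigU σ) p) (h8b_del (h8b_sigU σ)) := by
  obtain ⟨h0, -, hle⟩ := h5u_units_herbrand hdeg σ hσ (h5u_herbrandIneq _ p)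
  rw [h5u_sigU_eq_act, h5u_nu_eq, h5u_del_eq]
  unfold h8b_hqm
  rw [h5u_ker_D]
  exact ⟨h0, by rw [mul_comm]; exact hle⟩

/-- Unconditional forms of `h5u_units_herbrand` / `h5u_units_herbrand_norm`. -/
theorem h5u_units_herbrand' [IsGalois K L] [IsTotallyComplex K] {p : ℕ} [Fact p.Prime]
    (hdeg : Module.finrank K L = p) (σ : L ≃ₐ[K] L)
    (hσ : ∀ g : L ≃ₐ[K] L, g ∈ Subgroup.zpowers σ) :
    (h5u_nu σ p).range.relIndex (h5u_fix σ) ≠ 0 ∧
    (h5u_D σ).range.relIndex (h5u_nu σ p).ker ≠ 0 ∧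
    p * (h5u_nu σ p).range.relIndex (h5u_fix σ) ≤ (h5u_D σ).range.relIndex (h5u_nu σ p).ker :=
  h5u_units_herbrand hdeg σ hσ (h5u_herbrandIneq _ p)

theorem h5u_units_herbrand_norm' [IsGalois K L] [IsTotallyComplex K] {p : ℕ} [Fact p.Prime]
    (hdeg : Module.finrank K L = p) (σ : L ≃ₐ[K] L)
    (hσ : ∀ g : L ≃ₐ[K] L, g ∈ Subgroup.zpowers σ) :
    (Units.map (RingOfIntegers.norm K : 𝓞 L →* 𝓞 K)).range.index ≠ 0 ∧
    (h5u_D σ).range.relIndex (Units.map (RingOfIntegers.norm K : 𝓞 L →* 𝓞 K)).ker ≠ 0 ∧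
    p * (Units.map (RingOfIntegers.norm K : 𝓞 L →* 𝓞 K)).range.index ≤
      (h5u_D σ).range.relIndex (Units.map (RingOfIntegers.norm K : 𝓞 L →* 𝓞 K)).ker :=
  h5u_units_herbrand_norm hdeg σ hσ (h5u_herbrandIneq _ p)

end Fermat.Agent.Lib.S14
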