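/-
S14 project (speculative), helper8, stream (B): the number-field instance of `h8b_ambig_count`,
with the not-yet-landed inputs as hypotheses.
-/
import Mathlib
import Fermat.Agent.Lib.S14.ChevalleyBasic
import Fermat.Agent.Lib.S14.H5UnitsHQ

set_option autoImplicit false

open NumberField nonZeroDivisors

namespace Fermat.Agent.Lib.S14

section count

variable {K L : Type*} [Field K] [Field L] [NumberField K] [NumberField L] [Algebra K L]
  [IsGalois K L] [IsTotallyComplex K]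

/-- `|Cl_L^σ| * p ≤ h_K` in index form, from the field/ideal inputs. -/
theorem h8b_count_nf {p : ℕ} [Fact p.Prime] (hdeg : Module.finrank K L = p) (σ : L ≃ₐ[K] L)
    (hσ : ∀ g : L ≃ₐ[K] L, g ∈ Subgroup.zpowers σ)
    (hσLp : ∀ x, ((h8b_sigL σ)^[p]) x = x) (hσIp : ∀ x, ((h8b_sigI σ)^[p]) x = x)
    (hfixL : ∀ x, h8b_sigL σ x = x → ∃ a, h8b_iL K L a = x)
    (hfixL' : ∀ a, h8b_sigL σ (h8b_iL K L a) = h8b_iL K L a)
    (hj : Function.Injective (h8b_jI K L))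
    (hfixI : ∀ 𝔄, h8b_sigI σ 𝔄 = 𝔄 → ∃ 𝔞, h8b_jI K L 𝔞 = 𝔄)
    (hfixI' : ∀ 𝔞, h8b_sigI σ (h8b_jI K L 𝔞) = h8b_jI K L 𝔞)
    (h90 : ∀ x, h8b_nu (h8b_sigL σ) p x = 1 → ∃ y, x = h8b_sigL σ y / y)
    (he : Function.Injective (h8b_eU L))
    (heσ : ∀ u, h8b_eU L (h8b_sigU σ u) = h8b_sigL σ (h8b_eU L u)) :
    (toPrincipalIdeal (𝓞 L) L).range.relIndex
        ((toPrincipalIdeal (𝓞 L) L).range.comap (h8b_del (h8b_sigI σ))) * p ≤
      (toPrincipalIdeal (𝓞 K) K).range.index := by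
  obtain ⟨hU0, hU⟩ := h5u_units_hq hdeg σ hσ
  exact h8b_ambig_count p (h8b_sigL σ) (h8b_sigI σ) (h8b_sigU σ) (toPrincipalIdeal (𝓞 L) L)
    (toPrincipalIdeal (𝓞 K) K) (h8b_jI K L) (h8b_iL K L) (h8b_eU L) hσLp hσIp
    (h8b_hdsigma σ) h8b_hdi hfixL hfixL' hj hfixI hfixI' h90 he h8b_heker heσ hU0 hU

end count

end Fermat.Agent.Lib.S14
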