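/-
S14 project (speculative), helper3, stream (B): glue.  All hypotheses of helper8's
`h8b_count_nf` (number-field instance of `h8b_ambig_count`) discharged:
field side = helper9's `ChevField9b`, ideal side = `ChevFix3`, units = helper5 (inside
`h8b_count_nf`).  Result: `|Cl_L^σ| * p ≤ h_K` in helper8's index form, unconditionally, for an
everywhere unramified cyclic extension `L/K` of prime degree `p` with `K` totally complex.
-/
import Mathlib
import Fermat.Agent.Lib.S14.ChevalleyCount
import Fermat.Agent.Lib.S14.ChevField9b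
import Fermat.Agent.Lib.S14.ChevFix3

set_option autoImplicit false
set_option linter.unusedSectionVars false

open NumberField nonZeroDivisors

namespace Fermat.Agent.Lib.S14

section glue

variable {K L : Type} [Field K] [Field L] [NumberField K] [NumberField L] [Algebra K L]
  [IsGalois K L] [IsTotallyComplex K]

/-- `|Cl_L^σ| * p ≤ h_K` (helper8's index form), all inputs discharged. -/
theorem h3f_count_nf {p : ℕ} [Fact p.Prime] (hdeg : Module.finrank K L = p) (σ : L ≃ₐ[K] L)
    (hσ : ∀ g : L ≃ₐ[K] L, g ∈ Subgroup.zpowers σ)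
    (hunr : ∀ 𝔓 : Ideal (𝓞 L), 𝔓.IsPrime → 𝔓 ≠ ⊥ → 𝔓.ramificationIdx (𝓞 K) = 1) :
    (toPrincipalIdeal (𝓞 L) L).range.relIndex
        ((toPrincipalIdeal (𝓞 L) L).range.comap (h8b_del (h8b_sigI σ))) * p ≤
      (toPrincipalIdeal (𝓞 K) K).range.index :=
  h8b_count_nf hdeg σ hσ (h9f_hsigLp hdeg σ) (h3f_hsigIp hdeg σ) (h9f_hfixL σ hσ) (h9f_hfixL' σ)
    h3f_hj (h3f_hfixI σ hσ hunr) (h3f_hfixI' σ) (h9f_hh90 hdeg σ hσ) h9f_he (h9f_hesig σ)

end glue

end Fermat.Agent.Lib.S14
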