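/-
S14 project (speculative), helper8, stream (B): output conversions
(`h4c_normSubgroup K L ≠ ⊤` to the ideal form of `h4n_BStatement`) and the cyclic generator.
-/
import Mathlib
import Fermat.Agent.Lib.S14.NormClass
import Fermat.Agent.Lib.S14.NTSetup

set_option autoImplicit false

open NumberField

namespace Fermat.Agent.Lib.S14

section out

variable {K L : Type*} [Field K] [Field L] [NumberField K] [NumberField L] [Algebra K L]

/-- From `normSubgroup ≠ ⊤` to the ideal form of (B). -/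
theorem h8b_exists_of_ne_top (h : h4c_normSubgroup K L ≠ ⊤) :
    ∃ 𝔞 : Ideal (𝓞 K), 𝔞 ≠ ⊥ ∧ ∀ (𝔅 : Ideal (𝓞 L)) (x y : 𝓞 K), 𝔅 ≠ ⊥ → x ≠ 0 → y ≠ 0 →
      Ideal.span {x} * 𝔞 ≠ Ideal.span {y} * Ideal.relNorm (𝓞 K) 𝔅 := by
  have hex : ∃ c : ClassGroup (𝓞 K), c ∉ h4c_normSubgroup K L := by
    by_contra hcon
    push_neg at hcon
    exact h (eq_top_iff.mpr fun c _ => hcon c)
  obtain ⟨c, hc⟩ := hex
  obtain ⟨𝔞, h𝔞, rfl⟩ := h4c_cl_surjective c
  refine ⟨𝔞, h𝔞, fun 𝔅 x y h𝔅 hx hy heq => hc ?_⟩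
  rw [h4n_mem_normSubgroup_iff]
  refine ⟨𝔅, h𝔅, ?_⟩
  rw [h4c_cl_of_ne h𝔞, h4c_cl_of_ne (h4c_relNorm_ne_bot K L h𝔅), ClassGroup.mk0_eq_mk0_iff]
  exact ⟨x, y, hx, hy, heq⟩

/-- A Galois extension of prime degree has cyclic Galois group: a generator. -/
theorem h8b_exists_generator [IsGalois K L] {p : ℕ} [hp : Fact p.Prime]
    (hdeg : Module.finrank K L = p) :
    ∃ σ : L ≃ₐ[K] L, ∀ g : L ≃ₐ[K] L, g ∈ Subgroup.zpowers σ := by
  have hcard : Nat.card (L ≃ₐ[K] L) = p := by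
    rw [IsGalois.card_aut_eq_finrank, hdeg]
  haveI : IsCyclic (L ≃ₐ[K] L) := isCyclic_of_prime_card hcard
  exact IsCyclic.exists_generator

end out

end Fermat.Agent.Lib.S14
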