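/-
S14 project (speculative), helper4: the abstract (group-theoretic) core of the reduction
"crossing + (B) ⇒ reciprocity".

`R` a Dedekind domain, `art : Ideal R → G` multiplicative on nonzero ideals, `G` generated by `σ`
of prime order `p`, `N` a subgroup of the class group with `r ^ p ∈ N`.  If for every nonzero
prime `𝔮` and every `j` with `art 𝔮 = σ ^ j` one has `[𝔮] / r ^ j ∈ N` (crossing lemma), then the
same holds for all nonzero ideals; hence, if `N ≠ ⊤`, `art` kills the principal ideals.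
-/
import Mathlib
import Fermat.Agent.Lib.S14.NormClass

set_option autoImplicit false

namespace Fermat.Agent.Lib.S14

section core

variable {R : Type*} [CommRing R] [IsDedekindDomain R] {G : Type*} [Group G]
  (art : Ideal R → G) (N : Subgroup (ClassGroup R)) {p : ℕ} (σ : G) (r : ClassGroup R)

theorem h4c_pow_mem_of_modEq (hp : p.Prime) (hr : r ^ p ∈ N) {a b : ℕ} (hab : a ≡ b [MOD p])
    (c : ClassGroup R) (h : c / r ^ a ∈ N) : c / r ^ b ∈ N := by
  -- r^a / r^b ∈ N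
  have key : ∀ {a b : ℕ}, a ≤ b → a ≡ b [MOD p] → ∀ c : ClassGroup R,
      (c / r ^ a ∈ N ↔ c / r ^ b ∈ N) := by
    intro a b hle hab c
    obtain ⟨k, hk⟩ : ∃ k, b = a + p * k := by
      have := (Nat.modEq_iff_dvd' hle).mp hab
      obtain ⟨k, hk⟩ := this
      exact ⟨k, by omega⟩
    have hrk : r ^ (p * k) ∈ N := by
      rw [pow_mul]; exact Subgroup.pow_mem N hr k
    have e : c / r ^ b = c / r ^ a * (r ^ (p * k))⁻¹ := by
      rw [hk, pow_add, div_mul_eq_div_div, div_eq_mul_inv (c / r ^ a)]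
    rw [e]
    constructor
    · intro h; exact N.mul_mem h (N.inv_mem hrk)
    · intro h
      have := N.mul_mem h hrk
      simpa using this
  rcases le_total a b with hle | hle
  · exact (key hle hab c).mp h
  · exact (key hle hab.symm c).mpr h

variable (hmul : ∀ I J : Ideal R, I ≠ ⊥ → J ≠ ⊥ → art (I * J) = art I * art J)
  (htop : art ⊤ = 1)

include hmul htop in
/-- multiplicative extension of the crossing relation from primes to all nonzero ideals -/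
theorem h4c_core_ideal (hp : p.Prime) (hσ : orderOf σ = p)
    (hgen : ∀ g : G, ∃ j : ℕ, g = σ ^ j) (hr : r ^ p ∈ N)
    (hprime : ∀ 𝔮 : Ideal R, 𝔮.IsPrime → 𝔮 ≠ ⊥ → ∀ j : ℕ, art 𝔮 = σ ^ j →
      h4c_cl 𝔮 / r ^ j ∈ N)
    (𝔞 : Ideal R) (h𝔞 : 𝔞 ≠ ⊥) (j : ℕ) (hj : art 𝔞 = σ ^ j) : h4c_cl 𝔞 / r ^ j ∈ N := by
  induction 𝔞 using UniqueFactorizationMonoid.induction_on_prime generalizing j with
  | h₁ => exact absurd rfl h𝔞
  | h₂ I hI =>
    have hI' : I = ⊤ := Ideal.isUnit_iff.mp hI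
    subst hI'
    rw [htop] at hj
    have hdvd : p ∣ j := by
      rw [← hσ]; exact orderOf_dvd_of_pow_eq_one hj.symm
    rw [h4c_cl_top]
    have h0 : (0 : ℕ) ≡ j [MOD p] := (Nat.modEq_zero_iff_dvd.mpr hdvd).symm
    apply h4c_pow_mem_of_modEq N r hp hr h0
    simp
  | h₃ I 𝔮 hI0 h𝔮 ih =>
    have h𝔮0 : 𝔮 ≠ ⊥ := h𝔮.ne_zero
    have h𝔮p : 𝔮.IsPrime := Ideal.isPrime_of_prime h𝔮
    have hI0' : I ≠ ⊥ := hI0
    obtain ⟨j₁, hj₁⟩ := hgen (art 𝔮)
    obtain ⟨j₂, hj₂⟩ := hgen (art I)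
    have h1 := hprime 𝔮 h𝔮p h𝔮0 j₁ hj₁
    have h2 := ih hI0' j₂ hj₂
    rw [hmul 𝔮 I h𝔮0 hI0', hj₁, hj₂, ← pow_add] at hj
    have hmod : j₁ + j₂ ≡ j [MOD p] := by
      rw [← hσ]; exact pow_eq_pow_iff_modEq.mp hj
    apply h4c_pow_mem_of_modEq N r hp hr hmod
    rw [h4c_cl_mul h𝔮0 hI0', pow_add]
    have e : h4c_cl 𝔮 * h4c_cl I / (r ^ j₁ * r ^ j₂)
        = (h4c_cl 𝔮 / r ^ j₁) * (h4c_cl I / r ^ j₂) := by
      rw [div_mul_div_comm]
    rw [e]
    exact N.mul_mem h1 h2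

include hmul htop in
/-- **Reciprocity from the crossing lemma and the inequality `N ≠ ⊤`.** -/
theorem h4c_core_rec (hp : p.Prime) (hσ : orderOf σ = p)
    (hgen : ∀ g : G, ∃ j : ℕ, g = σ ^ j) (hr : r ^ p ∈ N) (hN : N ≠ ⊤)
    (hprime : ∀ 𝔮 : Ideal R, 𝔮.IsPrime → 𝔮 ≠ ⊥ → ∀ j : ℕ, art 𝔮 = σ ^ j →
      h4c_cl 𝔮 / r ^ j ∈ N)
    (x : R) (hx : x ≠ 0) : art (Ideal.span {x}) = 1 := by
  have hxI : Ideal.span {x} ≠ (⊥ : Ideal R) := by
    rw [Ne, Ideal.span_singleton_eq_bot]; exact hx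
  obtain ⟨j, hj⟩ := hgen (art (Ideal.span {x}))
  have h1 := h4c_core_ideal art N σ r hmul htop hp hσ hgen hr hprime _ hxI j hj
  rw [h4c_cl_span hx, one_div, N.inv_mem_iff] at h1
  by_cases hdvd : p ∣ j
  · rw [hj, ← hσ] at *
    exact pow_eq_one_iff_modEq.mpr (Nat.modEq_zero_iff_dvd.mpr hdvd)
  · exfalso
    -- r ∈ N
    have hcop : Nat.Coprime j p := (Nat.Coprime.symm ((Nat.Prime.coprime_iff_not_dvd hp).mpr hdvd))
    have hrN : r ∈ N := by
      have hz : ((j : ℤ).gcd (p : ℤ)) = 1 := by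
        rw [Int.gcd_natCast_natCast]; exact hcop
      have hb := Int.gcd_eq_gcd_ab (j : ℤ) (p : ℤ)
      rw [hz] at hb
      have e : r = (r ^ j) ^ (Int.gcdA j p) * (r ^ p) ^ (Int.gcdB j p) := by
        rw [← zpow_natCast r j, ← zpow_natCast r p, ← zpow_mul, ← zpow_mul, ← zpow_add]
        have : (j : ℤ) * Int.gcdA j p + (p : ℤ) * Int.gcdB j p = 1 := by
          rw [← hb]; rfl
        rw [this, zpow_one]
      rw [e]
      exact N.mul_mem (N.zpow_mem h1 _) (N.zpow_mem hr _)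
    apply hN
    rw [eq_top_iff]
    intro c _
    obtain ⟨I, hI, rfl⟩ := h4c_cl_surjective c
    obtain ⟨j', hj'⟩ := hgen (art I)
    have h2 := h4c_core_ideal art N σ r hmul htop hp hσ hgen hr hprime I hI j' hj'
    have := N.mul_mem h2 (N.pow_mem hrN j')
    simpa using this

end core

end Fermat.Agent.Lib.S14
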