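/-
S14 project (speculative), piece (E) (helper3): Stickelberger's theorem for DEGREE ONE primes of
`K = ℚ(ζ_p)`, via Jacobi sums (no Gauss sums, no Stickelberger congruence).

For a prime `𝔮` of `𝓞 K` of absolute norm a prime `ℓ ≠ p`, let `k = 𝓞 K ⧸ 𝔮 = 𝔽_ℓ`,
`m = (ℓ - 1)/p` and `χ : k → 𝓞 K` the character of order `p` with `χ x ≡ x^m mod 𝔮`.  Then
`J = J(χ,χ)` and `J' = J(χ⁻¹,χ⁻¹)` satisfy `J J' = ℓ`, and for `σ_a : ζ ↦ ζ^a`:
`σ_a J = J(χ^a,χ^a) ≡ ∑_x x^(am) (1-x)^(am) mod 𝔮`, which vanishes iff `2a < p` (power sums over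
`𝔽_ℓ`).  Hence `(J) = ∏_{2a<p} σ_a⁻¹ 𝔮` and `(J') = ∏_{2a>p} σ_a⁻¹ 𝔮`.
-/
import Mathlib

set_option autoImplicit false

namespace Fermat.Agent.Lib.S14

open NumberField Ideal IsCyclotomicExtension.Rat
open scoped Pointwise

section powersum

variable {k : Type*} [Field k] [Fintype k]

theorem h3s_sum_pow (i : ℕ) (hi : 0 < i) :
    ∑ x : k, x ^ i = if (Fintype.card k - 1) ∣ i then -1 else 0 := by
  classical
  have h := FiniteField.sum_pow_units k i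
  rw [← h]
  rw [← Fintype.sum_subtype_add_sum_subtype (fun x : k => x ≠ 0) (fun x => x ^ i)]
  have h2 : ∑ x : {x : k // ¬ x ≠ 0}, (x : k) ^ i = 0 := by
    apply Finset.sum_eq_zero
    rintro ⟨x, hx⟩ -
    have : x = 0 := not_not.mp hx
    simp [this, hi.ne']
  rw [h2, add_zero]
  exact (Fintype.sum_equiv unitsEquivNeZero _ _ (fun x => by simp [unitsEquivNeZero])).symm

/-- `∑_x x^N (1-x)^N = ∑_j (-1)^j C(N,j) ∑_x x^(N+j)`. -/
theorem h3s_sum_expand (N : ℕ) :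
    ∑ x : k, x ^ N * (1 - x) ^ N =
      ∑ j ∈ Finset.range (N + 1), ((-1 : k) ^ j * (N.choose j : k)) * ∑ x : k, x ^ (N + j) := by
  have h1 : ∀ x : k, x ^ N * (1 - x) ^ N =
      ∑ j ∈ Finset.range (N + 1), ((-1 : k) ^ j * (N.choose j : k)) * x ^ (N + j) := by
    intro x
    have : (1 - x) ^ N = ∑ j ∈ Finset.range (N + 1), (-x) ^ j * 1 ^ (N - j) * (N.choose j : k) := by
      rw [← add_pow, neg_add_eq_sub]
    rw [this, Finset.mul_sum]
    apply Finset.sum_congr rfl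
    intro j _
    rw [neg_pow, pow_add]
    ring
  simp_rw [h1]
  rw [Finset.sum_comm]
  apply Finset.sum_congr rfl
  intro j _
  rw [Finset.mul_sum]

/-- If `2N < q - 1` then `∑_x x^N (1-x)^N = 0`. -/
theorem h3s_sum_zero (N : ℕ) (hN : 0 < N) (h : 2 * N < Fintype.card k - 1) :
    ∑ x : k, x ^ N * (1 - x) ^ N = 0 := by
  rw [h3s_sum_expand]
  apply Finset.sum_eq_zero
  intro j hj
  rw [Finset.mem_range] at hj
  rw [h3s_sum_pow (N + j) (by omega), if_neg, mul_zero]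
  intro hd
  have := Nat.le_of_dvd (by omega) hd
  omega

/-- If `q - 1 ≤ 2N`, `N < q - 1`, then `∑_x x^N (1-x)^N = -(-1)^(q-1-N) C(N, q-1-N)`. -/
theorem h3s_sum_nonzero (N : ℕ) (h1 : Fintype.card k - 1 ≤ 2 * N) (h2 : N < Fintype.card k - 1) :
    ∑ x : k, x ^ N * (1 - x) ^ N =
      -((-1 : k) ^ (Fintype.card k - 1 - N) * (N.choose (Fintype.card k - 1 - N) : k)) := by
  rw [h3s_sum_expand]
  rw [Finset.sum_eq_single (Fintype.card k - 1 - N)]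
  · rw [h3s_sum_pow _ (by omega), if_pos (by rw [Nat.add_sub_cancel' h2.le]), mul_neg, mul_one]
  · intro j hj hne
    rw [Finset.mem_range] at hj
    rw [h3s_sum_pow (N + j) (by omega), if_neg, mul_zero]
    rintro ⟨c, hc⟩
    have hc1 : c ≠ 0 := by rintro rfl; omega
    have hc2 : c < 2 := by
      by_contra hcon
      rw [not_lt] at hcon
      have : (Fintype.card k - 1) * 2 ≤ (Fintype.card k - 1) * c := Nat.mul_le_mul_left _ hcon
      omega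
    have : c = 1 := by omega
    subst this
    omega
  · intro hnm
    exfalso
    apply hnm
    rw [Finset.mem_range]
    omega

/-- In a finite field of prime cardinality `ℓ`, binomial coefficients `C(N,j)`, `N < ℓ`, are
nonzero. -/
theorem h3s_choose_ne_zero {ℓ : ℕ} (hℓ : ℓ.Prime) (hcard : Fintype.card k = ℓ) (N j : ℕ)
    (hN : N < ℓ) (hj : j ≤ N) : (N.choose j : k) ≠ 0 := by
  intro h0
  have h1 : (ℓ : k) = 0 := by rw [← hcard]; exact Nat.cast_card_eq_zero k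
  have hcop : Nat.Coprime (N.choose j) ℓ := by
    rw [Nat.coprime_comm, Nat.Prime.coprime_iff_not_dvd hℓ]
    intro hd
    have h2 : ℓ ∣ N.factorial := by
      rw [← Nat.choose_mul_factorial_mul_factorial hj]
      exact Dvd.dvd.mul_right (Dvd.dvd.mul_right hd _) _
    rw [hℓ.dvd_factorial] at h2
    omega
  obtain ⟨u, v, huv⟩ := Nat.isCoprime_iff_coprime.mpr hcop
  have := congrArg (Int.cast : ℤ → k) huv
  push_cast at this
  rw [h0, h1, mul_zero, mul_zero, add_zero] at this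
  exact zero_ne_one this

theorem h3s_sum_ne_zero {ℓ : ℕ} (hℓ : ℓ.Prime) (hcard : Fintype.card k = ℓ) (N : ℕ)
    (h1 : ℓ - 1 ≤ 2 * N) (h2 : N < ℓ - 1) :
    ∑ x : k, x ^ N * (1 - x) ^ N ≠ 0 := by
  rw [h3s_sum_nonzero N (by rw [hcard]; exact h1) (by rw [hcard]; exact h2)]
  rw [neg_ne_zero]
  apply mul_ne_zero
  · exact pow_ne_zero _ (neg_ne_zero.mpr one_ne_zero)
  · apply h3s_choose_ne_zero hℓ hcard
    · omega
    · rw [hcard]; omega

end powersum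

section character

variable {R : Type*} [CommRing R] [IsDomain R] (𝔮 : Ideal R) [h𝔮 : 𝔮.IsMaximal]
  [Fintype (R ⧸ 𝔮)] (p m : ℕ) [NeZero p]

attribute [local instance] Ideal.Quotient.field

/-- the `m`-th power map `kˣ → μ_p(k)` when `#k = p m + 1`. -/
noncomputable def h3s_pw (hcard : Fintype.card (R ⧸ 𝔮) = p * m + 1) :
    (R ⧸ 𝔮)ˣ →* rootsOfUnity p (R ⧸ 𝔮) :=
  MonoidHom.codRestrict (powMonoidHom m) (rootsOfUnity p (R ⧸ 𝔮)) (fun x => by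
    classical
    rw [mem_rootsOfUnity, powMonoidHom_apply, ← pow_mul, mul_comm]
    have h1 : Fintype.card (R ⧸ 𝔮)ˣ = p * m := by
      rw [Fintype.card_units, hcard, Nat.add_sub_cancel]
    rw [← h1]
    exact pow_card_eq_one)

theorem h3s_red_bijective {ζ : R} (hζ : IsPrimitiveRoot ζ p)
    (hζ' : IsPrimitiveRoot (Ideal.Quotient.mk 𝔮 ζ) p) :
    Function.Bijective (restrictRootsOfUnity (Ideal.Quotient.mk 𝔮) p) := by
  have hc1 : Nat.card (rootsOfUnity p R) = p := hζ.card_rootsOfUnity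
  have hc2 : Nat.card (rootsOfUnity p (R ⧸ 𝔮)) = p := hζ'.card_rootsOfUnity
  haveI : Finite (rootsOfUnity p R) :=
    Nat.finite_of_card_ne_zero (by rw [hc1]; exact NeZero.ne p)
  refine Function.Surjective.bijective_of_nat_card_le ?_ (by rw [hc1, hc2])
  intro y
  -- y = ζ'^j
  have hy : ((y : (R ⧸ 𝔮)ˣ) : R ⧸ 𝔮) ^ p = 1 := by
    have := y.2
    rw [mem_rootsOfUnity] at this
    rw [← Units.val_pow_eq_pow_val, this, Units.val_one]
  obtain ⟨j, -, hj⟩ := hζ'.eq_pow_of_pow_eq_one hy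
  have hζu : ζ ^ p = 1 := hζ.pow_eq_one
  let u : Rˣ := (hζ.isUnit (NeZero.ne p)).unit
  have hu : u ^ p = 1 := by
    apply Units.ext
    rw [Units.val_pow_eq_pow_val, IsUnit.unit_spec, hζu, Units.val_one]
  refine ⟨⟨u ^ j, ?_⟩, ?_⟩
  · rw [mem_rootsOfUnity, ← pow_mul, mul_comm, pow_mul, hu, one_pow]
  · apply Subtype.ext
    apply Units.ext
    rw [restrictRootsOfUnity_coe_apply]
    simp only [Units.val_pow_eq_pow_val, IsUnit.unit_spec, map_pow, u]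
    exact hj

/-- the reduction iso `μ_p(R) ≃ μ_p(k)`. -/
noncomputable def h3s_red {ζ : R} (hζ : IsPrimitiveRoot ζ p)
    (hζ' : IsPrimitiveRoot (Ideal.Quotient.mk 𝔮 ζ) p) :
    rootsOfUnity p R ≃* rootsOfUnity p (R ⧸ 𝔮) :=
  MulEquiv.ofBijective _ (h3s_red_bijective 𝔮 p hζ hζ')

/-- The character `χ₁ : k → R` with `χ₁ x ≡ x^m mod 𝔮`. -/
noncomputable def h3s_chi (hcard : Fintype.card (R ⧸ 𝔮) = p * m + 1) {ζ : R}
    (hζ : IsPrimitiveRoot ζ p) (hζ' : IsPrimitiveRoot (Ideal.Quotient.mk 𝔮 ζ) p) :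
    MulChar (R ⧸ 𝔮) R :=
  MulChar.ofUnitHom ((rootsOfUnity p R).subtype.comp
    ((h3s_red 𝔮 p hζ hζ').symm.toMonoidHom.comp (h3s_pw 𝔮 p m hcard)))

theorem h3s_chi_unit (hcard : Fintype.card (R ⧸ 𝔮) = p * m + 1) {ζ : R}
    (hζ : IsPrimitiveRoot ζ p) (hζ' : IsPrimitiveRoot (Ideal.Quotient.mk 𝔮 ζ) p)
    (x : (R ⧸ 𝔮)ˣ) :
    Ideal.Quotient.mk 𝔮 (h3s_chi 𝔮 p m hcard hζ hζ' x) = (x : R ⧸ 𝔮) ^ m := by
  unfold h3s_chi
  rw [MulChar.ofUnitHom_coe]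
  simp only [MonoidHom.coe_comp, Subgroup.coe_subtype, Function.comp_apply,
    MulEquiv.toMonoidHom_eq_coe, MonoidHom.coe_coe]
  have h1 := restrictRootsOfUnity_coe_apply (Ideal.Quotient.mk 𝔮) (k := p)
    ((h3s_red 𝔮 p hζ hζ').symm (h3s_pw 𝔮 p m hcard x))
  rw [← h1]
  have h2 : restrictRootsOfUnity (Ideal.Quotient.mk 𝔮) p
      ((h3s_red 𝔮 p hζ hζ').symm (h3s_pw 𝔮 p m hcard x)) = h3s_pw 𝔮 p m hcard x :=
    (h3s_red 𝔮 p hζ hζ').apply_symm_apply _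
  rw [h2]
  simp [h3s_pw]

theorem h3s_chi_pow_unit (hcard : Fintype.card (R ⧸ 𝔮) = p * m + 1) {ζ : R}
    (hζ : IsPrimitiveRoot ζ p) (hζ' : IsPrimitiveRoot (Ideal.Quotient.mk 𝔮 ζ) p)
    (x : (R ⧸ 𝔮)ˣ) : (h3s_chi 𝔮 p m hcard hζ hζ' x) ^ p = 1 := by
  unfold h3s_chi
  rw [MulChar.ofUnitHom_coe]
  simp only [MonoidHom.coe_comp, Subgroup.coe_subtype, Function.comp_apply,
    MulEquiv.toMonoidHom_eq_coe, MonoidHom.coe_coe]
  have := ((h3s_red 𝔮 p hζ hζ').symm (h3s_pw 𝔮 p m hcard x)).2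
  rw [mem_rootsOfUnity] at this
  rw [← Units.val_pow_eq_pow_val, this, Units.val_one]

end character

section reduction

variable {R : Type*} [CommRing R] (𝔮 : Ideal R) [h𝔮 : 𝔮.IsMaximal]
  [Fintype (R ⧸ 𝔮)]

attribute [local instance] Ideal.Quotient.field

/-- If `χ x ≡ x^m mod 𝔮` on units then `J(χ^b,χ^b) ≡ ∑ x^(mb) (1-x)^(mb)`. -/
theorem h3s_jacobi_mk (χ : MulChar (R ⧸ 𝔮) R) (m : ℕ) (hm : 0 < m)
    (hχ : ∀ x : (R ⧸ 𝔮)ˣ, Ideal.Quotient.mk 𝔮 (χ x) = (x : R ⧸ 𝔮) ^ m) (b : ℕ) (hb : 0 < b) :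
    Ideal.Quotient.mk 𝔮 (jacobiSum (χ ^ b) (χ ^ b)) =
      ∑ x : R ⧸ 𝔮, x ^ (m * b) * (1 - x) ^ (m * b) := by
  have key : ∀ x : R ⧸ 𝔮, Ideal.Quotient.mk 𝔮 ((χ ^ b) x) = x ^ (m * b) := by
    intro x
    by_cases hx : IsUnit x
    · obtain ⟨u, rfl⟩ := hx
      rw [MulChar.pow_apply_coe, map_pow, hχ, pow_mul]
    · rw [MulChar.map_nonunit _ hx, map_zero]
      have : x = 0 := by
        by_contra h
        exact hx (isUnit_iff_ne_zero.mpr h)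
      rw [this, zero_pow (Nat.mul_ne_zero hm.ne' hb.ne')]
  unfold jacobiSum
  rw [map_sum]
  apply Finset.sum_congr rfl
  intro x _
  rw [map_mul, key, key]

/-- membership criterion. -/
theorem h3s_jacobi_mem_iff (χ : MulChar (R ⧸ 𝔮) R) (p m ℓ : ℕ) (hℓ : ℓ.Prime) (hm : 0 < m)
    (hcard : Fintype.card (R ⧸ 𝔮) = ℓ) (hℓm : ℓ = p * m + 1)
    (hχ : ∀ x : (R ⧸ 𝔮)ˣ, Ideal.Quotient.mk 𝔮 (χ x) = (x : R ⧸ 𝔮) ^ m) (b : ℕ) (hb : 0 < b)
    (hbp : b < p) :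
    jacobiSum (χ ^ b) (χ ^ b) ∈ 𝔮 ↔ 2 * b < p := by
  rw [← Ideal.Quotient.eq_zero_iff_mem, h3s_jacobi_mk 𝔮 χ m hm hχ b hb]
  constructor
  · intro h0
    by_contra hcon
    rw [not_lt] at hcon
    refine h3s_sum_ne_zero hℓ hcard (m * b) ?_ ?_ h0
    · rw [hℓm, Nat.add_sub_cancel]
      calc p * m ≤ (2 * b) * m := Nat.mul_le_mul_right _ hcon
        _ = 2 * (m * b) := by ring
    · rw [hℓm, Nat.add_sub_cancel, mul_comm]
      exact Nat.mul_lt_mul_of_pos_right hbp hm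
  · intro h
    apply h3s_sum_zero (m * b) (Nat.mul_pos hm hb)
    rw [hcard, hℓm, Nat.add_sub_cancel]
    calc 2 * (m * b) = (2 * b) * m := by ring
      _ < p * m := Nat.mul_lt_mul_of_pos_right h hm

/-- `χ^b ≠ 1` for `0 < b < p`. -/
theorem h3s_chi_pow_ne_one (χ : MulChar (R ⧸ 𝔮) R) (p m : ℕ) (hm : 0 < m)
    (hcard : Fintype.card (R ⧸ 𝔮) = p * m + 1)
    (hχ : ∀ x : (R ⧸ 𝔮)ˣ, Ideal.Quotient.mk 𝔮 (χ x) = (x : R ⧸ 𝔮) ^ m) (b : ℕ) (hb : 0 < b)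
    (hbp : b < p) : χ ^ b ≠ 1 := by
  classical
  intro h1
  obtain ⟨g, hg⟩ := IsCyclic.exists_generator (α := (R ⧸ 𝔮)ˣ)
  have hord : orderOf g = p * m := by
    rw [orderOf_eq_card_of_forall_mem_zpowers hg, Nat.card_eq_fintype_card, Fintype.card_units,
      hcard, Nat.add_sub_cancel]
  have h2 : (χ ^ b) (g : R ⧸ 𝔮) = 1 := by rw [h1, MulChar.one_apply_coe]
  rw [MulChar.pow_apply_coe] at h2
  have h3 := congrArg (Ideal.Quotient.mk 𝔮) h2
  rw [map_pow, hχ, map_one, ← pow_mul, ← Units.val_pow_eq_pow_val, Units.val_eq_one] at h3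
  have h4 := orderOf_dvd_of_pow_eq_one h3
  rw [hord] at h4
  have h5 : p ∣ b := by
    rw [mul_comm p m] at h4
    exact Nat.dvd_of_mul_dvd_mul_left hm h4
  have := Nat.le_of_dvd hb h5
  omega

end reduction

section galois

variable (p : ℕ) [hp : Fact p.Prime] (K : Type*) [Field K] [NumberField K]
  [hK : IsCyclotomicExtension {p} ℚ K]

variable {k : Type*} [CommMonoid k]

/-- Galois acts on characters with values in `μ_p` by powers. -/
theorem h3s_ringHomComp_eq_pow (χ : MulChar k (𝓞 K)) (hχ : ∀ x : kˣ, (χ x) ^ p = 1)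
    (σ : Gal(K/ℚ)) :
    haveI : NeZero p := ⟨hp.out.ne_zero⟩
    χ.ringHomComp (MulSemiringAction.toRingHom Gal(K/ℚ) (𝓞 K) σ) =
      χ ^ (galEquivZMod p K σ).val.val := by
  haveI : NeZero p := ⟨hp.out.ne_zero⟩
  apply MulChar.ext
  intro x
  rw [MulChar.ringHomComp_apply, MulChar.pow_apply_coe]
  exact galEquivZMod_smul_of_pow_eq p K σ (hχ x)

theorem h3s_smul_jacobiSum {k : Type*} [CommRing k] [Fintype k] (χ ψ : MulChar k (𝓞 K)) (σ : Gal(K/ℚ)) :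
    σ • jacobiSum χ ψ =
      jacobiSum (χ.ringHomComp (MulSemiringAction.toRingHom Gal(K/ℚ) (𝓞 K) σ))
        (ψ.ringHomComp (MulSemiringAction.toRingHom Gal(K/ℚ) (𝓞 K) σ)) := by
  rw [jacobiSum_ringHomComp]
  rfl

end galois

section product

variable (K : Type*) [Field K] [NumberField K]

theorem h3s_jacobi_mul {k : Type*} [Field k] [Fintype k] (χ : MulChar k (𝓞 K)) (h1 : χ ≠ 1)
    (h2 : χ * χ ≠ 1) :
    jacobiSum χ χ * jacobiSum χ⁻¹ χ⁻¹ = (Fintype.card k : 𝓞 K) := by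
  have hinj : Function.Injective (algebraMap (𝓞 K) K) := RingOfIntegers.coe_injective
  apply hinj
  rw [map_mul, ← jacobiSum_ringHomComp, ← jacobiSum_ringHomComp, map_natCast,
    ← MulChar.ringHomComp_inv]
  apply jacobiSum_mul_jacobiSum_inv
  · rw [ringChar.eq_zero]
    intro h
    have : CharP k 0 := by rw [h]; exact ringChar.charP k
    have : CharZero k := CharP.charP_to_charZero k
    exact not_finite k
  · exact (MulChar.ringHomComp_ne_one_iff hinj).mpr h1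
  · exact (MulChar.ringHomComp_ne_one_iff hinj).mpr h1
  · rw [← MulChar.ringHomComp_mul]
    exact (MulChar.ringHomComp_ne_one_iff hinj).mpr h2

end product

section fact

variable (K : Type*) [Field K] [NumberField K] [IsGalois ℚ K]

/-- Galois invariance of the absolute norm. -/
theorem h3s_absNorm_smul (σ : Gal(K/ℚ)) (I : Ideal (𝓞 K)) : absNorm (σ • I) = absNorm I := by
  rw [Ideal.absNorm_apply, Ideal.absNorm_apply, Submodule.cardQuot_apply, Submodule.cardQuot_apply]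
  let e : 𝓞 K ≃+* 𝓞 K := MulSemiringAction.toRingEquiv Gal(K/ℚ) (𝓞 K) σ
  have h : σ • I = I.map e := by
    ext x
    rw [Ideal.mem_pointwise_smul_iff_inv_smul_mem]
    rw [Ideal.mem_map_of_equiv e]
    constructor
    · intro hx
      exact ⟨σ⁻¹ • x, hx, by simp [e]⟩
    · rintro ⟨y, hy, rfl⟩
      simpa [e] using hy
  exact (Nat.card_congr (Ideal.quotientEquiv I (σ • I) e h).toEquiv).symm

/-- Abstract factorisation lemma: if `x * y = ℓ`, and the Galois conjugates of a degree one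
prime `𝔮` (pairwise distinct) are split into those containing `x` and those containing `y`,
then `(x)` and `(y)` are the corresponding products. -/
theorem h3s_factor (𝔮 : Ideal (𝓞 K)) [𝔮.IsPrime] {ℓ : ℕ} (hℓ : ℓ.Prime)
    (hN : absNorm 𝔮 = ℓ) (hstab : ∀ σ : Gal(K/ℚ), σ • 𝔮 = 𝔮 → σ = 1)
    (x y : 𝓞 K) (hxy : x * y = (ℓ : 𝓞 K))
    (S₁ S₂ : Finset Gal(K/ℚ)) (hS : ∀ σ, σ ∈ S₁ ∨ σ ∈ S₂)
    (h1 : ∀ σ ∈ S₁, x ∈ σ • 𝔮) (h2 : ∀ σ ∈ S₂, y ∈ σ • 𝔮) :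
    Ideal.span {x} = ∏ σ ∈ S₁, σ • 𝔮 ∧ Ideal.span {y} = ∏ σ ∈ S₂, σ • 𝔮 := by
  classical
  have hmax : 𝔮.IsMaximal := by
    apply Ring.DimensionLEOne.maximalOfPrime _ inferInstance
    rintro rfl
    rw [Ideal.absNorm_bot] at hN
    exact hℓ.ne_zero hN.symm
  have hmaxσ : ∀ σ : Gal(K/ℚ), (σ • 𝔮).IsMaximal := by
    intro σ
    apply Ring.DimensionLEOne.maximalOfPrime _ inferInstance
    intro h
    have := h3s_absNorm_smul K σ 𝔮
    rw [h, Ideal.absNorm_bot, hN] at this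
    exact hℓ.ne_zero this.symm
  have hinj : ∀ σ τ : Gal(K/ℚ), σ ≠ τ → σ • 𝔮 ≠ τ • 𝔮 := by
    intro σ τ hne h
    apply hne
    have : (τ⁻¹ * σ) • 𝔮 = 𝔮 := by rw [mul_smul, h, inv_smul_smul]
    have := hstab _ this
    rw [inv_mul_eq_one] at this
    exact this.symm
  have hcop : ∀ σ τ : Gal(K/ℚ), σ ≠ τ → IsCoprime (σ • 𝔮) (τ • 𝔮) := by
    intro σ τ hne
    rw [Ideal.isCoprime_iff_sup_eq]
    exact Ideal.IsMaximal.coprime_of_ne (hmaxσ σ) (hmaxσ τ) (hinj σ τ hne)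
  have hA : ∏ σ ∈ S₁, σ • 𝔮 ∣ Ideal.span {x} := by
    apply Finset.prod_dvd_of_coprime
    · intro σ _ τ _ hne
      exact hcop σ τ hne
    · intro σ hσ
      rw [Ideal.dvd_span_singleton]
      exact h1 σ hσ
  have hB : ∏ σ ∈ S₂, σ • 𝔮 ∣ Ideal.span {y} := by
    apply Finset.prod_dvd_of_coprime
    · intro σ _ τ _ hne
      exact hcop σ τ hne
    · intro σ hσ
      rw [Ideal.dvd_span_singleton]
      exact h2 σ hσ
  obtain ⟨C, hC⟩ := hA
  obtain ⟨D, hD⟩ := hB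
  have hNA : absNorm (∏ σ ∈ S₁, σ • 𝔮) = ℓ ^ S₁.card := by
    rw [map_prod, Finset.prod_congr rfl (fun σ _ => (h3s_absNorm_smul K σ 𝔮).trans hN),
      Finset.prod_const]
  have hNB : absNorm (∏ σ ∈ S₂, σ • 𝔮) = ℓ ^ S₂.card := by
    rw [map_prod, Finset.prod_congr rfl (fun σ _ => (h3s_absNorm_smul K σ 𝔮).trans hN),
      Finset.prod_const]
  have hNℓ : absNorm (Ideal.span {(ℓ : 𝓞 K)}) = ℓ ^ Fintype.card Gal(K/ℚ) := by
    rw [Ideal.absNorm_span_singleton]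
    have : (ℓ : 𝓞 K) = algebraMap ℤ (𝓞 K) (ℓ : ℤ) := by simp
    rw [this, Algebra.norm_algebraMap, RingOfIntegers.rank, Int.natAbs_pow, Int.natAbs_natCast,
      ← Nat.card_eq_fintype_card, IsGalois.card_aut_eq_finrank]
  have hcard : Fintype.card Gal(K/ℚ) ≤ S₁.card + S₂.card := by
    rw [← Finset.card_univ]
    calc Finset.univ.card ≤ (S₁ ∪ S₂).card := by
          apply Finset.card_le_card
          intro σ _
          rw [Finset.mem_union]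
          exact hS σ
      _ ≤ S₁.card + S₂.card := Finset.card_union_le _ _
  have hprod : Ideal.span {x} * Ideal.span {y} = Ideal.span {(ℓ : 𝓞 K)} := by
    rw [Ideal.span_singleton_mul_span_singleton, hxy]
  have hnorm := congrArg absNorm hprod
  rw [hC, hD, map_mul, map_mul, map_mul, hNA, hNB, hNℓ] at hnorm
  have hℓpos : 0 < ℓ := hℓ.pos
  -- ℓ^a * NC * (ℓ^b * ND) = ℓ^g with g ≤ a + b
  have hCD : absNorm C * absNorm D = 1 ∧ Fintype.card Gal(K/ℚ) = S₁.card + S₂.card := by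
    have h3 : ℓ ^ (S₁.card + S₂.card) * (absNorm C * absNorm D) = ℓ ^ Fintype.card Gal(K/ℚ) := by
      rw [← hnorm, pow_add]; ring
    have hCDpos : 0 < absNorm C * absNorm D := by
      rcases Nat.eq_zero_or_pos (absNorm C * absNorm D) with h0 | h0
      · rw [h0, mul_zero] at h3
        exact absurd h3.symm (pow_pos hℓpos _).ne'
      · exact h0
    have h4 : ℓ ^ (S₁.card + S₂.card) ≤ ℓ ^ Fintype.card Gal(K/ℚ) := by
      rw [← h3]
      exact Nat.le_mul_of_pos_right _ hCDpos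
    have h5 : S₁.card + S₂.card ≤ Fintype.card Gal(K/ℚ) :=
      (Nat.pow_le_pow_iff_right hℓ.one_lt).mp h4
    have h6 : Fintype.card Gal(K/ℚ) = S₁.card + S₂.card := le_antisymm hcard h5
    refine ⟨?_, h6⟩
    rw [h6] at h3
    exact Nat.eq_of_mul_eq_mul_left (pow_pos hℓpos _) (by rw [h3, mul_one])
  have hC1 : absNorm C = 1 := Nat.eq_one_of_mul_eq_one_right hCD.1
  have hD1 : absNorm D = 1 := Nat.eq_one_of_mul_eq_one_left hCD.1
  rw [Ideal.absNorm_eq_one_iff] at hC1 hD1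
  rw [hC, hD, hC1, hD1, Ideal.mul_top, Ideal.mul_top]
  exact ⟨rfl, rfl⟩

end fact

section nf

variable (p : ℕ) [hp : Fact p.Prime] (K : Type*) [Field K] [NumberField K]
  [hK : IsCyclotomicExtension {p} ℚ K]

/-- the canonical primitive `p`-th root of unity in `𝓞 K`. -/
noncomputable def h3s_zeta : 𝓞 K :=
  haveI : NeZero p := ⟨hp.out.ne_zero⟩
  (IsCyclotomicExtension.zeta_spec p ℚ K).toInteger

theorem h3s_zeta_spec : IsPrimitiveRoot (h3s_zeta p K) p :=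
  haveI : NeZero p := ⟨hp.out.ne_zero⟩
  (IsCyclotomicExtension.zeta_spec p ℚ K).toInteger_isPrimitiveRoot

variable {K} in
theorem h3s_isMaximal (𝔮 : Ideal (𝓞 K)) [𝔮.IsPrime] {ℓ : ℕ} (hℓ : ℓ.Prime)
    (hN : absNorm 𝔮 = ℓ) : 𝔮.IsMaximal := by
  apply Ring.DimensionLEOne.maximalOfPrime _ inferInstance
  rintro rfl
  rw [Ideal.absNorm_bot] at hN
  exact hℓ.ne_zero hN.symm

variable {K} in
theorem h3s_card_quot (𝔮 : Ideal (𝓞 K)) {ℓ : ℕ} (hN : absNorm 𝔮 = ℓ) :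
    Nat.card (𝓞 K ⧸ 𝔮) = ℓ := by
  rw [← hN, Ideal.absNorm_apply, Submodule.cardQuot_apply]

variable {K} in
theorem h3s_zeta_mk (𝔮 : Ideal (𝓞 K)) {ℓ : ℕ} (hℓ : ℓ.Prime) (hℓp : ℓ ≠ p)
    (hN : absNorm 𝔮 = ℓ) :
    IsPrimitiveRoot (Ideal.Quotient.mk 𝔮 (h3s_zeta p K)) p := by
  haveI : NeZero p := ⟨hp.out.ne_zero⟩
  apply (h3s_zeta_spec p K).idealQuotient_mk
  · rw [hN]; exact hℓ.one_lt.ne'
  · rw [hN]; exact (Nat.coprime_primes hℓ hp.out).mpr hℓp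

variable {K} in
theorem h3s_dvd_sub_one (𝔮 : Ideal (𝓞 K)) [𝔮.IsPrime] {ℓ : ℕ} (hℓ : ℓ.Prime) (hℓp : ℓ ≠ p)
    (hN : absNorm 𝔮 = ℓ) : p ∣ ℓ - 1 := by
  haveI := h3s_isMaximal 𝔮 hℓ hN
  letI := Ideal.Quotient.field 𝔮
  have hfin : Finite (𝓞 K ⧸ 𝔮) := Nat.finite_of_card_ne_zero (by
    rw [h3s_card_quot 𝔮 hN]; exact hℓ.ne_zero)
  letI : Fintype (𝓞 K ⧸ 𝔮) := Fintype.ofFinite _
  have h1 := h3s_zeta_mk p 𝔮 hℓ hℓp hN
  apply h1.dvd_of_pow_eq_one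
  have hc : Fintype.card (𝓞 K ⧸ 𝔮) = ℓ := by
    rw [← Nat.card_eq_fintype_card]; exact h3s_card_quot 𝔮 hN
  rw [← hc]
  apply FiniteField.pow_card_sub_one_eq_one
  exact h1.ne_zero hp.out.ne_zero

end nf

section stab

variable (p : ℕ) [hp : Fact p.Prime] (K : Type*) [Field K] [NumberField K]
  [hK : IsCyclotomicExtension {p} ℚ K]

variable {K} in
theorem h3s_liesOver (𝔮 : Ideal (𝓞 K)) [𝔮.IsPrime] {ℓ : ℕ} (hℓ : ℓ.Prime)
    (hN : absNorm 𝔮 = ℓ) : 𝔮.LiesOver (Ideal.span {(ℓ : ℤ)}) := by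
  have h1 : absNorm (under ℤ 𝔮) ∣ ℓ := hN ▸ Int.absNorm_under_dvd_absNorm 𝔮
  have h2 : absNorm (under ℤ 𝔮) ≠ 1 := by
    intro h
    rw [Ideal.absNorm_eq_one_iff] at h
    have : (1 : ℤ) ∈ under ℤ 𝔮 := by rw [h]; trivial
    rw [Ideal.under_def, Ideal.mem_comap, map_one] at this
    exact (Ideal.IsPrime.ne_top inferInstance) ((Ideal.eq_top_iff_one 𝔮).mpr this)
  have h3 : absNorm (under ℤ 𝔮) = ℓ := (Nat.dvd_prime hℓ).mp h1 |>.resolve_left h2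
  rw [← h3]
  exact Int.liesOver_span_absNorm 𝔮

variable {K} in
/-- the stabilizer of a degree one prime is trivial. -/
theorem h3s_stab_trivial (𝔮 : Ideal (𝓞 K)) [𝔮.IsPrime] {ℓ : ℕ} (hℓ : ℓ.Prime) (hℓp : ℓ ≠ p)
    (hN : absNorm 𝔮 = ℓ) (hdvd : p ∣ ℓ - 1) (σ : Gal(K/ℚ)) (hσ : σ • 𝔮 = 𝔮) : σ = 1 := by
  haveI : NeZero p := ⟨hp.out.ne_zero⟩
  haveI : Fact ℓ.Prime := ⟨hℓ⟩
  haveI : 𝔮.IsMaximal := by
    apply Ring.DimensionLEOne.maximalOfPrime _ inferInstance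
    rintro rfl
    rw [Ideal.absNorm_bot] at hN
    exact hℓ.ne_zero hN.symm
  haveI := h3s_liesOver 𝔮 hℓ hN
  have hn : ℓ.Coprime p := (Nat.coprime_primes hℓ hp.out).mpr hℓp
  have h1 := mem_zpowers_galEquivZMod_of_mem_stabilizer p K ℓ 𝔮 hn
    (σ := σ) (MulAction.mem_stabilizer_iff.mpr hσ)
  have h2 : ZMod.unitOfCoprime ℓ hn = 1 := by
    apply Units.ext
    rw [ZMod.coe_unitOfCoprime, Units.val_one]
    have : ℓ = (ℓ - 1) + 1 := by have := hℓ.pos; omega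
    rw [this, Nat.cast_add, Nat.cast_one, (ZMod.natCast_eq_zero_iff _ _).mpr hdvd, zero_add]
  rw [h2, Subgroup.zpowers_one_eq_bot, Subgroup.mem_bot] at h1
  exact (galEquivZMod p K).injective (by rw [h1, map_one])

end stab

/-- `2 ∑_{n < t ≤ 2n} t = n (3n+1)`. -/
theorem h3s_sum_upper_half (n : ℕ) : 2 * ∑ t ∈ Finset.Ioc n (2 * n), t = n * (3 * n + 1) := by
  have h1 : Finset.Ioc n (2 * n) = Finset.Ico (n + 1) (2 * n + 1) := by
    ext t
    simp only [Finset.mem_Ioc, Finset.mem_Ico]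
    omega
  have h2 := Finset.sum_range_add_sum_Ico (fun t : ℕ => t) (show n + 1 ≤ 2 * n + 1 by omega)
  have h3 := Finset.sum_range_id_mul_two (2 * n + 1)
  have h4 := Finset.sum_range_id_mul_two (n + 1)
  rw [h1]
  simp only [Nat.add_sub_cancel] at h3 h4
  nlinarith [h2, h3, h4]

/-- for an odd prime `p`, `8 ∑_{p/2 < t < p} t = (p-1)(3p-1) ≡ 1 mod p`. -/
theorem h3s_sum_filter (p : ℕ) (hp : p.Prime) (hp3 : 3 ≤ p) :
    8 * ∑ t ∈ (Finset.Ioo 0 p).filter (fun t => p < 2 * t), t + 4 * p = 3 * p * p + 1 := by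
  obtain ⟨n, hn⟩ : ∃ n, p = 2 * n + 1 := by
    rcases hp.eq_two_or_odd with h | h
    · omega
    · exact ⟨p / 2, by omega⟩
  have h1 : (Finset.Ioo 0 p).filter (fun t => p < 2 * t) = Finset.Ioc n (2 * n) := by
    ext t
    simp only [Finset.mem_filter, Finset.mem_Ioo, Finset.mem_Ioc]
    omega
  rw [h1]
  have h2 := h3s_sum_upper_half n
  subst hn
  nlinarith [h2]

theorem h3s_sum_coprime (p : ℕ) (hp : p.Prime) (hp3 : 3 ≤ p) :
    Nat.Coprime (∑ t ∈ (Finset.Ioo 0 p).filter (fun t => p < 2 * t), t) p := by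
  rw [Nat.coprime_comm, Nat.Prime.coprime_iff_not_dvd hp]
  intro hd
  have h := h3s_sum_filter p hp hp3
  have h1 : p ∣ 3 * p * p + 1 := by
    rw [← h]
    exact Dvd.dvd.add (Dvd.dvd.mul_left hd 8) (Dvd.intro_left 4 rfl)
  have h2 : p ∣ 1 := by
    have h3 : p ∣ 3 * p * p := Dvd.intro_left (3 * p) rfl
    exact (Nat.dvd_add_right h3).mp h1
  have := Nat.le_of_dvd one_pos h2
  omega


section reindex

variable (p : ℕ) [hp : Fact p.Prime] (K : Type*) [Field K] [NumberField K]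
  [hK : IsCyclotomicExtension {p} ℚ K]

noncomputable def h3s_val (σ : Gal(K/ℚ)) : ℕ :=
  haveI : NeZero p := ⟨hp.out.ne_zero⟩
  (galEquivZMod p K σ).val.val

theorem h3s_val_pos (σ : Gal(K/ℚ)) : 0 < h3s_val p K σ := by
  haveI : NeZero p := ⟨hp.out.ne_zero⟩
  unfold h3s_val
  rw [ZMod.val_pos]
  exact Units.ne_zero _

theorem h3s_val_lt (σ : Gal(K/ℚ)) : h3s_val p K σ < p := by
  haveI : NeZero p := ⟨hp.out.ne_zero⟩
  unfold h3s_val
  exact ZMod.val_lt _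

theorem h3s_val_injective : Function.Injective (h3s_val p K) := by
  haveI : NeZero p := ⟨hp.out.ne_zero⟩
  intro σ τ h
  unfold h3s_val at h
  exact (galEquivZMod p K).injective (Units.ext (ZMod.val_injective p h))

theorem h3s_card_gal : Fintype.card Gal(K/ℚ) = p - 1 := by
  haveI : NeZero p := ⟨hp.out.ne_zero⟩
  rw [Fintype.card_congr (galEquivZMod p K).toEquiv, ZMod.card_units_eq_totient,
    Nat.totient_prime hp.out]

theorem h3s_image_val [DecidableEq Gal(K/ℚ)] :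
    Finset.univ.image (fun σ : Gal(K/ℚ) => h3s_val p K σ⁻¹) = Finset.Ioo 0 p := by
  apply Finset.eq_of_subset_of_card_le
  · intro t ht
    rw [Finset.mem_image] at ht
    obtain ⟨σ, -, rfl⟩ := ht
    rw [Finset.mem_Ioo]
    exact ⟨h3s_val_pos p K _, h3s_val_lt p K _⟩
  · rw [Finset.card_image_of_injective _ (fun σ τ h => inv_injective (h3s_val_injective p K h)),
      Finset.card_univ, h3s_card_gal p K, Nat.card_Ioo]
    omega

/-- reindexing sums over `Gal(K/ℚ)` by `t = val σ⁻¹ ∈ (0,p)`. -/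
theorem h3s_sum_reindex (P : ℕ → Prop) [DecidablePred P] (g : ℕ → ℕ) :
    ∑ σ ∈ Finset.univ.filter (fun σ : Gal(K/ℚ) => P (h3s_val p K σ⁻¹)), g (h3s_val p K σ⁻¹) =
      ∑ t ∈ (Finset.Ioo 0 p).filter P, g t := by
  classical
  rw [← h3s_image_val p K, Finset.filter_image,
    Finset.sum_image (fun σ _ τ _ h => inv_injective (h3s_val_injective p K h))]

end reindex

section main

variable (p : ℕ) [hp : Fact p.Prime] (K : Type*) [Field K] [NumberField K]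
  [hK : IsCyclotomicExtension {p} ℚ K]

attribute [local instance] Ideal.Quotient.field

variable {K} in
/-- **Stickelberger for degree one primes** (Jacobi sum form). -/
theorem h3s_stickelberger_both (hp3 : 3 ≤ p) (𝔮 : Ideal (𝓞 K)) [𝔮.IsPrime] {ℓ : ℕ} (hℓ : ℓ.Prime)
    (hℓp : ℓ ≠ p) (hN : absNorm 𝔮 = ℓ) :
    ∃ J J' : 𝓞 K, J * J' = (ℓ : 𝓞 K) ∧
      Ideal.span {J} = ∏ σ ∈ Finset.univ.filter (fun σ : Gal(K/ℚ) => 2 * h3s_val p K σ⁻¹ < p),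
        σ • 𝔮 ∧
      Ideal.span {J'} = ∏ σ ∈ Finset.univ.filter (fun σ : Gal(K/ℚ) => p < 2 * h3s_val p K σ⁻¹),
        σ • 𝔮 := by
  classical
  haveI : NeZero p := ⟨hp.out.ne_zero⟩
  haveI : IsGalois ℚ K := IsCyclotomicExtension.isGalois {p} ℚ K
  haveI hmax := h3s_isMaximal 𝔮 hℓ hN
  have hfin : Finite (𝓞 K ⧸ 𝔮) := Nat.finite_of_card_ne_zero (by
    rw [h3s_card_quot 𝔮 hN]; exact hℓ.ne_zero)
  letI : Fintype (𝓞 K ⧸ 𝔮) := Fintype.ofFinite _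
  have hc : Fintype.card (𝓞 K ⧸ 𝔮) = ℓ := by
    rw [← Nat.card_eq_fintype_card]; exact h3s_card_quot 𝔮 hN
  have hdvd := h3s_dvd_sub_one p 𝔮 hℓ hℓp hN
  obtain ⟨m, hm⟩ := hdvd
  have hℓm : ℓ = p * m + 1 := by have := hℓ.pos; omega
  have hmpos : 0 < m := by
    rcases Nat.eq_zero_or_pos m with h0 | h0
    · rw [h0, mul_zero] at hm
      have := hℓ.two_le
      omega
    · exact h0
  have hcard : Fintype.card (𝓞 K ⧸ 𝔮) = p * m + 1 := hc.trans hℓm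
  have hζ := h3s_zeta_spec p K
  have hζ' := h3s_zeta_mk p 𝔮 hℓ hℓp hN
  set χ := h3s_chi 𝔮 p m hcard hζ hζ' with hχdef
  have hχ1 : ∀ x : (𝓞 K ⧸ 𝔮)ˣ, Ideal.Quotient.mk 𝔮 (χ x) = (x : 𝓞 K ⧸ 𝔮) ^ m :=
    h3s_chi_unit 𝔮 p m hcard hζ hζ'
  have hχp : ∀ x : (𝓞 K ⧸ 𝔮)ˣ, (χ x) ^ p = 1 := h3s_chi_pow_unit 𝔮 p m hcard hζ hζ'
  have hχpow : χ ^ p = 1 := by
    apply MulChar.ext
    intro x
    rw [MulChar.pow_apply_coe, hχp, MulChar.one_apply_coe]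
  -- membership for general exponent
  have hmem : ∀ b : ℕ, 0 < b → b < p → (jacobiSum (χ ^ b) (χ ^ b) ∈ 𝔮 ↔ 2 * b < p) :=
    fun b hb hbp => h3s_jacobi_mem_iff 𝔮 χ p m ℓ hℓ hmpos hc hℓm hχ1 b hb hbp
  have hne : ∀ b : ℕ, 0 < b → b < p → χ ^ b ≠ 1 :=
    fun b hb hbp => h3s_chi_pow_ne_one 𝔮 χ p m hmpos hcard hχ1 b hb hbp
  -- the two Jacobi sums
  refine ⟨jacobiSum χ χ, jacobiSum χ⁻¹ χ⁻¹, ?_, ?_⟩
  · have h1 : χ ≠ 1 := by simpa using hne 1 one_pos (by omega)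
    have h2 : χ * χ ≠ 1 := by
      have := hne 2 (by norm_num) (by omega)
      rwa [pow_two] at this
    rw [h3s_jacobi_mul K χ h1 h2, hc]
  -- Galois action
  have hact : ∀ σ : Gal(K/ℚ), σ • jacobiSum χ χ =
      jacobiSum (χ ^ h3s_val p K σ) (χ ^ h3s_val p K σ) := by
    intro σ
    rw [h3s_smul_jacobiSum, h3s_ringHomComp_eq_pow p K χ hχp σ]
    rfl
  have hχinv : ∀ x : (𝓞 K ⧸ 𝔮)ˣ, (χ⁻¹ x) ^ p = 1 := by
    intro x
    rw [← MulChar.pow_apply_coe, inv_pow, hχpow, inv_one, MulChar.one_apply_coe]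
  have hinvpow : ∀ a : ℕ, a < p → χ⁻¹ ^ a = χ ^ (p - a) := by
    intro a ha
    rw [inv_pow]
    apply inv_eq_of_mul_eq_one_left
    rw [← pow_add, Nat.sub_add_cancel ha.le, hχpow]
  have hact' : ∀ σ : Gal(K/ℚ), σ • jacobiSum χ⁻¹ χ⁻¹ =
      jacobiSum (χ ^ (p - h3s_val p K σ)) (χ ^ (p - h3s_val p K σ)) := by
    intro σ
    rw [h3s_smul_jacobiSum, h3s_ringHomComp_eq_pow p K χ⁻¹ hχinv σ]
    change jacobiSum (χ⁻¹ ^ h3s_val p K σ) (χ⁻¹ ^ h3s_val p K σ) = _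
    rw [hinvpow _ (h3s_val_lt p K σ)]
  have hpodd : ∀ a : ℕ, 2 * a ≠ p := by
    intro a h
    have h2 : 2 ∣ p := ⟨a, h.symm⟩
    rw [Nat.prime_dvd_prime_iff_eq Nat.prime_two hp.out] at h2
    omega
  have hstab := fun σ hσ => h3s_stab_trivial p 𝔮 hℓ hℓp hN ⟨m, hm⟩ σ hσ
  apply h3s_factor K 𝔮 hℓ hN hstab _ _ ?_ _ _ ?_ ?_ ?_
  · have h1 : χ ≠ 1 := by simpa using hne 1 one_pos (by omega)
    have h2 : χ * χ ≠ 1 := by
      have := hne 2 (by norm_num) (by omega)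
      rwa [pow_two] at this
    rw [h3s_jacobi_mul K χ h1 h2, hc]
  · intro σ
    simp only [Finset.mem_filter, Finset.mem_univ, true_and]
    have := hpodd (h3s_val p K σ⁻¹)
    omega
  · intro σ hσ
    simp only [Finset.mem_filter, Finset.mem_univ, true_and] at hσ
    rw [Ideal.mem_pointwise_smul_iff_inv_smul_mem, hact, hmem _ (h3s_val_pos p K _)
      (h3s_val_lt p K _)]
    exact hσ
  · intro σ hσ
    simp only [Finset.mem_filter, Finset.mem_univ, true_and] at hσ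
    have h1 := h3s_val_pos p K σ⁻¹
    have h2 := h3s_val_lt p K σ⁻¹
    rw [Ideal.mem_pointwise_smul_iff_inv_smul_mem, hact', hmem _ (by omega) (by omega)]
    omega

end main

section final

variable (p : ℕ) [hp : Fact p.Prime] {K : Type*} [Field K] [NumberField K]
  [hK : IsCyclotomicExtension {p} ℚ K]

/-- **Stickelberger for degree one primes**: `∏_{t > p/2} σ_t⁻¹ 𝔮` is principal
(`σ = σ_t⁻¹`, `t = h3s_val p K σ⁻¹`). -/
theorem h3s_stickelberger (hp3 : 3 ≤ p) (𝔮 : Ideal (𝓞 K)) [𝔮.IsPrime] {ℓ : ℕ} (hℓ : ℓ.Prime)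
    (hℓp : ℓ ≠ p) (hN : absNorm 𝔮 = ℓ) :
    ∃ J : 𝓞 K, J ≠ 0 ∧ Ideal.span {J} =
      ∏ σ ∈ Finset.univ.filter (fun σ : Gal(K/ℚ) => p < 2 * h3s_val p K σ⁻¹), σ • 𝔮 := by
  obtain ⟨J, J', hJJ', -, h2⟩ := h3s_stickelberger_both p hp3 𝔮 hℓ hℓp hN
  refine ⟨J', ?_, h2⟩
  rintro rfl
  rw [mul_zero] at hJJ'
  exact (Nat.cast_ne_zero.mpr hℓ.ne_zero) hJJ'.symm

/-- the exponent `∑_{t > p/2} t` of the Stickelberger element on `𝔽_p(ω⁻¹)` is prime to `p`. -/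
theorem h3s_exponent_coprime (hp3 : 3 ≤ p) :
    Nat.Coprime (∑ σ ∈ Finset.univ.filter (fun σ : Gal(K/ℚ) => p < 2 * h3s_val p K σ⁻¹),
      h3s_val p K σ⁻¹) p := by
  rw [h3s_sum_reindex p K (fun t => p < 2 * t) (fun t => t)]
  exact h3s_sum_coprime p hp.out hp3

/-- Consumer form: a map `art` from ideals to a commutative group of exponent dividing `p` at
`𝔮`, multiplicative on products of conjugates of `𝔮`, trivial on nonzero principal ideals, and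
twisting by `ω⁻¹` (`art (σ • 𝔮) = art 𝔮 ^ (val σ⁻¹)`), is trivial at `𝔮`. -/
theorem h3s_artin_trivial (hp3 : 3 ≤ p) (𝔮 : Ideal (𝓞 K)) [𝔮.IsPrime] {ℓ : ℕ} (hℓ : ℓ.Prime)
    (hℓp : ℓ ≠ p) (hN : absNorm 𝔮 = ℓ) {Γ : Type*} [CommGroup Γ] (art : Ideal (𝓞 K) → Γ)
    (hmul : ∀ s : Finset Gal(K/ℚ), art (∏ σ ∈ s, σ • 𝔮) = ∏ σ ∈ s, art (σ • 𝔮))
    (hequiv : ∀ σ : Gal(K/ℚ), art (σ • 𝔮) = art 𝔮 ^ h3s_val p K σ⁻¹)
    (hprinc : ∀ x : 𝓞 K, x ≠ 0 → art (Ideal.span {x}) = 1) (hpow : art 𝔮 ^ p = 1) :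
    art 𝔮 = 1 := by
  obtain ⟨J, hJ0, hJ⟩ := h3s_stickelberger p hp3 𝔮 hℓ hℓp hN
  have h1 := hprinc J hJ0
  rw [hJ, hmul, Finset.prod_congr rfl (fun σ _ => hequiv σ), Finset.prod_pow_eq_pow_sum] at h1
  have hcop := h3s_exponent_coprime p (K := K) hp3
  have h2 : orderOf (art 𝔮) ∣ 1 := by
    rw [← Nat.Coprime.gcd_eq_one hcop]
    exact Nat.dvd_gcd (orderOf_dvd_of_pow_eq_one h1) (orderOf_dvd_of_pow_eq_one hpow)
  exact orderOf_eq_one_iff.mp (Nat.dvd_one.mp h2)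

end final

end Fermat.Agent.Lib.S14
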