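/-
S14 project (speculative), helper4: the core of the final NT assembly, for abstract `K ⊂ L`
(`K = ℚ(ζ_p)`, `L/K` cyclic unramified of degree `p`):

(Z3) a degree-one prime with nontrivial Frobenius, (B) `normSubgroup ≠ ⊤`, the crossing relation
between degree-one primes, "nontrivial Frobenius ⇒ degree one, prime to `p`", and
`ω⁻¹`-equivariance are contradictory (via `h4c_core_rec` = reciprocity and `h3s_artin_trivial` =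
Stickelberger).
-/
import Mathlib
import Fermat.Agent.Lib.S14.ArtinMap
import Fermat.Agent.Lib.S14.NormClass
import Fermat.Agent.Lib.S14.CrossCore
import Fermat.Agent.Lib.S14.Stickelberger
import Fermat.Agent.Lib.S14.NTSetup

set_option autoImplicit false
set_option linter.unusedSectionVars false
set_option linter.style.haveILetI false

open NumberField
open scoped Pointwise

namespace Fermat.Agent.Lib.S14

section core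

variable (K L : Type) [Field K] [NumberField K] [Field L] [NumberField L] [Algebra K L]
  [IsGalois K L] (p : ℕ) [hp : Fact p.Prime] [hK : IsCyclotomicExtension {p} ℚ K]

theorem h4n_core (hp3 : 3 ≤ p) (hdeg : Module.finrank K L = p)
    (art : Ideal (𝓞 K) → Gal(L/K))
    (hmul : ∀ I J : Ideal (𝓞 K), I ≠ ⊥ → J ≠ ⊥ → art (I * J) = art I * art J)
    (htop : art ⊤ = 1)
    (hart : ∀ (𝔓 : Ideal (𝓞 L)) [𝔓.IsPrime] (h𝔓 : 𝔓 ≠ ⊥),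
      art (𝔓.under (𝓞 K)) = h2a_frob K L 𝔓 h𝔓)
    (hsplit : ∀ (𝔓 : Ideal (𝓞 L)) [𝔓.IsPrime] (h𝔓 : 𝔓 ≠ ⊥), h2a_frob K L 𝔓 h𝔓 = 1 →
      h4c_cl (𝔓.under (𝓞 K)) ∈ h4c_normSubgroup K L)
    (hZ3 : ∀ T : Finset ℕ, ∃ (𝔓 : Ideal (𝓞 L)) (_ : 𝔓.IsPrime) (h𝔓 : 𝔓 ≠ ⊥),
        (Ideal.absNorm (𝔓.under (𝓞 K))).Prime ∧ Ideal.absNorm (𝔓.under (𝓞 K)) ∉ T ∧
          h2a_frob K L 𝔓 h𝔓 ≠ 1)
    (hN : h4c_normSubgroup K L ≠ ⊤)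
    (hCR : ∀ (𝔓₁ 𝔓₂ : Ideal (𝓞 L)) [𝔓₁.IsPrime] [𝔓₂.IsPrime] (h₁ : 𝔓₁ ≠ ⊥) (h₂ : 𝔓₂ ≠ ⊥),
        (Ideal.absNorm (𝔓₁.under (𝓞 K))).Prime → (Ideal.absNorm (𝔓₂.under (𝓞 K))).Prime →
        Ideal.absNorm (𝔓₁.under (𝓞 K)) ≠ Ideal.absNorm (𝔓₂.under (𝓞 K)) →
        Ideal.absNorm (𝔓₁.under (𝓞 K)) ≠ p → Ideal.absNorm (𝔓₂.under (𝓞 K)) ≠ p →
        h2a_frob K L 𝔓₁ h₁ ≠ 1 → ∀ j : ℕ, h2a_frob K L 𝔓₂ h₂ = h2a_frob K L 𝔓₁ h₁ ^ j →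
        h4c_cl (𝔓₂.under (𝓞 K)) / h4c_cl (𝔓₁.under (𝓞 K)) ^ j ∈ h4c_normSubgroup K L)
    (hdeg1 : ∀ (𝔓 : Ideal (𝓞 L)) [𝔓.IsPrime] (h𝔓 : 𝔓 ≠ ⊥), h2a_frob K L 𝔓 h𝔓 ≠ 1 →
        (Ideal.absNorm (𝔓.under (𝓞 K))).Prime ∧ Ideal.absNorm (𝔓.under (𝓞 K)) ≠ p)
    (hequiv : ∀ (σ : Gal(K/ℚ)) (𝔓 : Ideal (𝓞 L)) [𝔓.IsPrime] (h𝔓 : 𝔓 ≠ ⊥),
        ∃ (𝔓' : Ideal (𝓞 L)) (_ : 𝔓'.IsPrime) (h' : 𝔓' ≠ ⊥),
          𝔓'.under (𝓞 K) = σ • 𝔓.under (𝓞 K) ∧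
          h2a_frob K L 𝔓' h' = h2a_frob K L 𝔓 h𝔓 ^ h3s_val p K σ⁻¹) : False := by
  classical
  have hpp : p.Prime := hp.out
  have hcard : Nat.card Gal(L/K) = p := by rw [IsGalois.card_aut_eq_finrank, hdeg]
  have hfinG : Finite Gal(L/K) := Nat.finite_of_card_ne_zero (hcard ▸ hpp.ne_zero)
  have hpowp : ∀ g : Gal(L/K), g ^ p = 1 := by
    intro g; rw [← hcard]; exact pow_card_eq_one'
  have horder : ∀ g : Gal(L/K), g ≠ 1 → orderOf g = p := fun g hg =>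
    orderOf_eq_prime (hpowp g) hg
  have hgen : ∀ g₀ : Gal(L/K), g₀ ≠ 1 → ∀ g : Gal(L/K), ∃ j : ℕ, g = g₀ ^ j := by
    intro g₀ hg₀ g
    obtain ⟨j, hj⟩ := (Submonoid.mem_powers_iff g g₀).mp (mem_powers_of_prime_card hcard hg₀)
    exact ⟨j, hj.symm⟩
  have hfr : Module.finrank (𝓞 K) (𝓞 L) = p := by
    rw [← IsFractionRing.finrank_eq (𝓞 K) K (𝓞 L) L, hdeg]
  -- the reference prime
  obtain ⟨𝔓₁, h𝔓₁p, h₁, hq₁, hq₁T, hg₁⟩ := hZ3 {p}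
  have hq₁p : Ideal.absNorm (𝔓₁.under (𝓞 K)) ≠ p := by
    intro h; exact hq₁T (by rw [h]; exact Finset.mem_singleton_self p)
  set g₁ := h2a_frob K L 𝔓₁ h₁ with hg₁def
  set 𝔮₁ := 𝔓₁.under (𝓞 K) with h𝔮₁def
  have h𝔮₁0 : 𝔮₁ ≠ ⊥ := by
    intro h; rw [h, Ideal.absNorm_bot] at hq₁; exact Nat.not_prime_zero hq₁
  set r := h4c_cl 𝔮₁ with hrdef
  set N := h4c_normSubgroup K L with hNdef
  have hr : r ^ p ∈ N := by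
    have := h4c_cl_pow_finrank_mem K L h𝔮₁0
    rwa [hfr] at this
  -- helper: crossing relation composed
  have hprime : ∀ 𝔮 : Ideal (𝓞 K), 𝔮.IsPrime → 𝔮 ≠ ⊥ → ∀ j : ℕ, art 𝔮 = g₁ ^ j →
      h4c_cl 𝔮 / r ^ j ∈ N := by
    intro 𝔮 h𝔮p h𝔮0 j hj
    obtain ⟨𝔓, h𝔓p, h𝔓0, hu⟩ := h4n_exists_above (L := L) 𝔮 h𝔮0
    have hfrob : art 𝔮 = h2a_frob K L 𝔓 h𝔓0 := by rw [← hu]; exact hart 𝔓 h𝔓0
    by_cases h1 : h2a_frob K L 𝔓 h𝔓0 = 1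
    · -- split prime
      have hmem : h4c_cl 𝔮 ∈ N := by rw [← hu]; exact hsplit 𝔓 h𝔓0 h1
      have hdvd : p ∣ j := by
        rw [← horder g₁ hg₁]
        apply orderOf_dvd_of_pow_eq_one
        rw [← hj, hfrob, h1]
      obtain ⟨k, rfl⟩ := hdvd
      rw [pow_mul]
      exact N.div_mem hmem (N.pow_mem hr k)
    · obtain ⟨hqpr, hqp⟩ := hdeg1 𝔓 h𝔓0 h1
      rw [hfrob] at hj
      by_cases hne : Ideal.absNorm (𝔓₁.under (𝓞 K)) = Ideal.absNorm (𝔓.under (𝓞 K))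
      · -- third prime
        obtain ⟨𝔓₃, h𝔓₃p, h₃, hq₃, hq₃T, hg₃⟩ := hZ3 {p, Ideal.absNorm (𝔓₁.under (𝓞 K))}
        have hq₃p : Ideal.absNorm (𝔓₃.under (𝓞 K)) ≠ p := by
          intro h; exact hq₃T (by rw [h]; exact Finset.mem_insert_self _ _)
        have hq₃1 : Ideal.absNorm (𝔓₁.under (𝓞 K)) ≠ Ideal.absNorm (𝔓₃.under (𝓞 K)) := by
          intro h; exact hq₃T (by rw [← h]; simp)
        obtain ⟨j₃, hj₃⟩ := hgen g₁ hg₁ (h2a_frob K L 𝔓₃ h₃)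
        obtain ⟨j', hj'⟩ := hgen (h2a_frob K L 𝔓₃ h₃) hg₃ (h2a_frob K L 𝔓 h𝔓0)
        have c1 := hCR 𝔓₁ 𝔓₃ h₁ h₃ hq₁ hq₃ hq₃1 hq₁p hq₃p hg₁ j₃ hj₃
        have c2 := hCR 𝔓₃ 𝔓 h₃ h𝔓0 hq₃ hqpr (by rw [← hne]; exact hq₃1.symm) hq₃p hqp hg₃ j' hj'
        rw [hu] at c2
        have c3 : h4c_cl 𝔮 / r ^ (j₃ * j') ∈ N := by
          have e : h4c_cl 𝔮 / r ^ (j₃ * j') =
              (h4c_cl 𝔮 / h4c_cl (𝔓₃.under (𝓞 K)) ^ j') *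
                (h4c_cl (𝔓₃.under (𝓞 K)) / r ^ j₃) ^ j' := by
            rw [div_pow, ← pow_mul, div_mul_div_cancel]
          rw [e]
          exact N.mul_mem c2 (N.pow_mem c1 j')
        have hmod : j₃ * j' ≡ j [MOD p] := by
          rw [← horder g₁ hg₁]
          apply pow_eq_pow_iff_modEq.mp
          rw [pow_mul, ← hj₃, ← hj', hj]
        exact h4c_pow_mem_of_modEq N r hpp hr hmod _ c3
      · have c := hCR 𝔓₁ 𝔓 h₁ h𝔓0 hq₁ hqpr hne hq₁p hqp hg₁ j hj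
        rw [hu] at c
        exact c
  have hprinc := h4c_core_rec art N g₁ r hmul htop hpp (horder g₁ hg₁) (hgen g₁ hg₁) hr hN hprime
  -- Stickelberger
  haveI : IsCyclic Gal(L/K) := isCyclic_of_prime_card hcard
  letI : CommGroup Gal(L/K) := IsCyclic.commGroup
  have hsmul_ne : ∀ σ : Gal(K/ℚ), σ • 𝔮₁ ≠ ⊥ := by
    intro σ h
    apply h𝔮₁0
    have : σ⁻¹ • (σ • 𝔮₁) = 𝔮₁ := inv_smul_smul σ 𝔮₁
    rw [← this, h]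
    simp [Ideal.pointwise_smul_def, Ideal.map_bot]
  have hmulS : ∀ s : Finset Gal(K/ℚ), (∏ σ ∈ s, σ • 𝔮₁ ≠ ⊥) ∧
      art (∏ σ ∈ s, σ • 𝔮₁) = ∏ σ ∈ s, art (σ • 𝔮₁) := by
    intro s
    induction s using Finset.induction_on with
    | empty =>
      simp only [Finset.prod_empty]
      exact ⟨by simp, by rw [Ideal.one_eq_top, htop]⟩
    | insert a s ha ih =>
      rw [Finset.prod_insert ha, Finset.prod_insert ha]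
      exact ⟨mul_ne_zero (hsmul_ne a) ih.1, by rw [hmul _ _ (hsmul_ne a) ih.1, ih.2]⟩
  have hequiv' : ∀ σ : Gal(K/ℚ), art (σ • 𝔮₁) = art 𝔮₁ ^ h3s_val p K σ⁻¹ := by
    intro σ
    obtain ⟨𝔓', h𝔓'p, h', hu', hf'⟩ := hequiv σ 𝔓₁ h₁
    rw [← hu', hart 𝔓' h', hf', hart 𝔓₁ h₁]
  have hfinal := h3s_artin_trivial p hp3 𝔮₁ hq₁ hq₁p rfl art (fun s => (hmulS s).2) hequiv'
    hprinc (hpowp _)
  apply hg₁
  rw [hg₁def, ← hart 𝔓₁ h₁]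
  exact hfinal

end core

end Fermat.Agent.Lib.S14
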