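/-
S14 project (speculative), helper3: small interface lemmas about `h3s_val`
(`σ ζ = ζ ^ h3s_val σ`), for matching with the conjugation hypothesis of `NTStatement`.
-/
import Fermat.Agent.Lib.S14.Stickelberger

set_option autoImplicit false

namespace Fermat.Agent.Lib.S14

open NumberField Ideal IsCyclotomicExtension.Rat
open scoped Pointwise

section aux

variable (p : ℕ) [hp : Fact p.Prime] (K : Type*) [Field K] [NumberField K]
  [hK : IsCyclotomicExtension {p} ℚ K]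

/-- `σ x = x ^ (h3s_val σ)` for every `p`-th root of unity `x` of `K`. -/
theorem h3s_val_spec (σ : Gal(K/ℚ)) {x : K} (hx : x ^ p = 1) : σ x = x ^ h3s_val p K σ := by
  haveI : NeZero p := ⟨hp.out.ne_zero⟩
  exact galEquivZMod_apply_of_pow_eq p K σ hx

variable {K} in
/-- if `σ ζ = ζ ^ k` for a primitive `p`-th root of unity then `k ≡ h3s_val σ mod p`. -/
theorem h3s_val_unique (σ : Gal(K/ℚ)) {ζ : K} (hζ : IsPrimitiveRoot ζ p) {k : ℕ}
    (hk : σ ζ = ζ ^ k) : k % p = h3s_val p K σ := by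
  have h1 := h3s_val_spec p K σ hζ.pow_eq_one
  rw [hk] at h1
  have hpos : 0 < p := hp.out.pos
  have h2 : ζ ^ (k % p) = ζ ^ k := by
    conv_rhs => rw [← Nat.div_add_mod k p, pow_add, pow_mul, hζ.pow_eq_one, one_pow, one_mul]
  rw [← h2] at h1
  exact hζ.pow_inj (Nat.mod_lt _ hpos) (h3s_val_lt p K σ) h1

variable {K} in
/-- `h3s_val` is multiplicative mod `p`. -/
theorem h3s_val_mul (σ τ : Gal(K/ℚ)) :
    (h3s_val p K σ * h3s_val p K τ) % p = h3s_val p K (σ * τ) := by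
  haveI : NeZero p := ⟨hp.out.ne_zero⟩
  have hζ := IsCyclotomicExtension.zeta_spec p ℚ K
  apply h3s_val_unique p (σ * τ) hζ
  rw [AlgEquiv.mul_apply, h3s_val_spec p K τ hζ.pow_eq_one, map_pow,
    h3s_val_spec p K σ hζ.pow_eq_one, ← pow_mul]

theorem h3s_val_one : h3s_val p K (1 : Gal(K/ℚ)) = 1 := by
  haveI : NeZero p := ⟨hp.out.ne_zero⟩
  have hζ := IsCyclotomicExtension.zeta_spec p ℚ K
  have h := h3s_val_unique p (1 : Gal(K/ℚ)) hζ (k := 1) (by simp)
  rw [← h]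
  exact Nat.mod_eq_of_lt hp.out.one_lt

variable {K} in
/-- `val σ * val σ⁻¹ ≡ 1 mod p`. -/
theorem h3s_val_mul_inv (σ : Gal(K/ℚ)) : (h3s_val p K σ * h3s_val p K σ⁻¹) % p = 1 := by
  rw [h3s_val_mul, mul_inv_cancel, h3s_val_one]

variable {K} in
/-- In a group, if `c ^ p = 1` and `c ^ k = g` with `k ≡ val σ mod p`, then
`c = g ^ val σ⁻¹`: the form in which the `ω⁻¹`-action is used (`c = τ g τ⁻¹`, `τ ζ = ζ ^ k`). -/
theorem h3s_conj_eq_pow {Γ : Type*} [Group Γ] (σ : Gal(K/ℚ)) {g c : Γ}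
    (hc : c ^ p = 1) {k : ℕ} (hk : k % p = h3s_val p K σ) (h : c ^ k = g) :
    c = g ^ h3s_val p K σ⁻¹ := by
  have h1 : c ^ h3s_val p K σ = g := by
    rw [← hk, ← h]
    conv_rhs => rw [← Nat.div_add_mod k p, pow_add, pow_mul, hc, one_pow, one_mul]
  rw [← h1, ← pow_mul]
  have h2 := h3s_val_mul_inv p σ
  conv_lhs => rw [← pow_one c, ← h2]
  conv_rhs => rw [← Nat.div_add_mod (h3s_val p K σ * h3s_val p K σ⁻¹) p, pow_add, pow_mul, hc,
    one_pow, one_mul]

end aux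

end Fermat.Agent.Lib.S14
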