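/-
S14 project (speculative), helper4: the final NT assembly in the NT setting
(`K = ℚ(ζ) ⊂ L`, notation of `NTStatement`), from the `K,L`-instantiated inputs:
(Z3) [lead's elementary shape], (B) [helper8's ideal form], the crossing relation `hCR`
[= `lead_aux_prime` + `h6c_cross`], degree one (P2) and equivariance (P4) [helper3].
-/
import Mathlib
import Fermat.Agent.Lib.S14.ArtinIdeal
import Fermat.Agent.Lib.S14.ArtinEquiv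
import Fermat.Agent.Lib.S14.NormClass
import Fermat.Agent.Lib.S14.CrossCore
import Fermat.Agent.Lib.S14.Stickelberger
import Fermat.Agent.Lib.S14.StickAux
import Fermat.Agent.Lib.S14.NTSetup
import Fermat.Agent.Lib.S14.NTCore

set_option autoImplicit false
set_option linter.unusedSectionVars false
set_option linter.style.haveILetI false

open NumberField
open scoped Pointwise

namespace Fermat.Agent.Lib.S14

section nt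

variable {p : ℕ} [hp : Fact p.Prime] {L : Type} [Field L] [NumberField L] [IsGalois ℚ L]
  (ζ : L)

theorem h4n_isCyclotomic (hζ : IsPrimitiveRoot ζ p) :
    IsCyclotomicExtension {p} ℚ (IntermediateField.adjoin ℚ {ζ}) := by
  haveI : NeZero p := ⟨hp.out.ne_zero⟩
  exact hζ.intermediateField_adjoin_isCyclotomicExtension ℚ

theorem h4n_normal (hζ : IsPrimitiveRoot ζ p) : Normal ℚ (IntermediateField.adjoin ℚ {ζ}) := by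
  haveI : NeZero p := ⟨hp.out.ne_zero⟩
  haveI := h4n_isCyclotomic ζ hζ
  haveI : IsGalois ℚ (IntermediateField.adjoin ℚ {ζ}) :=
    IsCyclotomicExtension.isGalois {p} ℚ (IntermediateField.adjoin ℚ {ζ})
  infer_instance

/-- **NT from the instantiated inputs.** -/
theorem h4n_NT_of_inputs (hp3 : 3 ≤ p) (hζ : IsPrimitiveRoot ζ p)
    (hdeg : Module.finrank (IntermediateField.adjoin ℚ {ζ}) L = p)
    (hin : ∀ (𝔔 : Ideal (𝓞 L)) [𝔔.IsPrime], 𝔔 ≠ ⊥ →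
      ∀ g ∈ 𝔔.inertia (L ≃ₐ[ℚ] L), g ζ = ζ → g = 1)
    (hsp : ∀ (𝔔 : Ideal (𝓞 L)) [𝔔.IsPrime], (p : 𝓞 L) ∈ 𝔔 →
      ∀ g : L ≃ₐ[ℚ] L, g • 𝔔 = 𝔔 → g ζ = ζ → g = 1)
    -- (Z3) for `L/K`
    (hZ3 : ∀ T : Finset ℕ, ∃ 𝔮 : Ideal (𝓞 (IntermediateField.adjoin ℚ {ζ})), 𝔮.IsPrime ∧
      (Ideal.absNorm 𝔮).Prime ∧ Ideal.absNorm 𝔮 ∉ T ∧
      ∀ 𝔔 : Ideal (𝓞 L), 𝔔.IsPrime → 𝔔.LiesOver 𝔮 →
        ∃ σ : L ≃ₐ[IntermediateField.adjoin ℚ {ζ}] L, σ ≠ 1 ∧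
          ∀ x : 𝓞 L, σ • x - x ^ Ideal.absNorm 𝔮 ∈ 𝔔)
    -- (B) for `L/K`
    (hB : ∃ 𝔞 : Ideal (𝓞 (IntermediateField.adjoin ℚ {ζ})), 𝔞 ≠ ⊥ ∧
      ∀ (𝔅 : Ideal (𝓞 L)) (x y : 𝓞 (IntermediateField.adjoin ℚ {ζ})), 𝔅 ≠ ⊥ → x ≠ 0 → y ≠ 0 →
        Ideal.span {x} * 𝔞 ≠ Ideal.span {y} *
          Ideal.relNorm (𝓞 (IntermediateField.adjoin ℚ {ζ})) 𝔅)
    -- crossing relation for `L/K`
    (hCR : ∀ (𝔓₁ 𝔓₂ : Ideal (𝓞 L)) [𝔓₁.IsPrime] [𝔓₂.IsPrime] (h₁ : 𝔓₁ ≠ ⊥) (h₂ : 𝔓₂ ≠ ⊥),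
        (Ideal.absNorm (𝔓₁.under (𝓞 (IntermediateField.adjoin ℚ {ζ})))).Prime →
        (Ideal.absNorm (𝔓₂.under (𝓞 (IntermediateField.adjoin ℚ {ζ})))).Prime →
        Ideal.absNorm (𝔓₁.under (𝓞 (IntermediateField.adjoin ℚ {ζ}))) ≠
          Ideal.absNorm (𝔓₂.under (𝓞 (IntermediateField.adjoin ℚ {ζ}))) →
        Ideal.absNorm (𝔓₁.under (𝓞 (IntermediateField.adjoin ℚ {ζ}))) ≠ p →
        Ideal.absNorm (𝔓₂.under (𝓞 (IntermediateField.adjoin ℚ {ζ}))) ≠ p →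
        h2a_frob (IntermediateField.adjoin ℚ {ζ}) L 𝔓₁ h₁ ≠ 1 → ∀ j : ℕ,
        h2a_frob (IntermediateField.adjoin ℚ {ζ}) L 𝔓₂ h₂ =
          h2a_frob (IntermediateField.adjoin ℚ {ζ}) L 𝔓₁ h₁ ^ j →
        h4c_cl (𝔓₂.under (𝓞 (IntermediateField.adjoin ℚ {ζ}))) /
          h4c_cl (𝔓₁.under (𝓞 (IntermediateField.adjoin ℚ {ζ}))) ^ j ∈
            h4c_normSubgroup (IntermediateField.adjoin ℚ {ζ}) L)
    -- degree one (P2)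
    (hP2 : ∀ (𝔓 : Ideal (𝓞 L)) [𝔓.IsPrime] (h𝔓 : 𝔓 ≠ ⊥), (p : 𝓞 L) ∉ 𝔓 →
      h2a_frob (IntermediateField.adjoin ℚ {ζ}) L 𝔓 h𝔓 ≠ 1 →
      (Ideal.absNorm (𝔓.under (𝓞 (IntermediateField.adjoin ℚ {ζ})))).Prime)
    -- equivariance (P4)
    (hP4 : haveI := h4n_isCyclotomic ζ hζ
      haveI := h4n_normal ζ hζ
      ∀ (τ : L ≃ₐ[ℚ] L) (𝔓 : Ideal (𝓞 L)) [𝔓.IsPrime] (h𝔓 : 𝔓 ≠ ⊥) (h' : τ • 𝔓 ≠ ⊥),
      h2a_frob (IntermediateField.adjoin ℚ {ζ}) L (τ • 𝔓) h' =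
        h2a_frob (IntermediateField.adjoin ℚ {ζ}) L 𝔓 h𝔓 ^
          h3s_val p (IntermediateField.adjoin ℚ {ζ})
            (AlgEquiv.restrictNormalHom (IntermediateField.adjoin ℚ {ζ}) τ)⁻¹) :
    False := by
  haveI hcyc := h4n_isCyclotomic ζ hζ
  haveI hnor := h4n_normal ζ hζ
  have hunr := h4n_unr ζ hin
  have hcard : Nat.card (L ≃ₐ[IntermediateField.adjoin ℚ {ζ}] L) = p := by
    rw [IsGalois.card_aut_eq_finrank, hdeg]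
  haveI : IsCyclic (L ≃ₐ[IntermediateField.adjoin ℚ {ζ}] L) := isCyclic_of_prime_card hcard
  haveI : IsMulCommutative (L ≃ₐ[IntermediateField.adjoin ℚ {ζ}] L) :=
    ⟨⟨fun a b => (IsCyclic.commGroup).mul_comm a b⟩⟩
  refine h4n_core (IntermediateField.adjoin ℚ {ζ}) L p hp3 hdeg
    (h2a_artin (IntermediateField.adjoin ℚ {ζ}) L)
    (fun I J hI hJ => h2a_artin_mul hI hJ) h2a_artin_top
    (fun 𝔓 _ h𝔓 => h2a_artin_under 𝔓 h𝔓)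
    (fun 𝔓 _ h𝔓 h1 => h4n_cl_mem_of_frob_eq_one 𝔓 h𝔓 (hunr 𝔓 h𝔓) h1)
    (fun T => h4n_Z3_bridge (fun 𝔓 _ h𝔓 => hunr 𝔓 h𝔓) T (hZ3 T))
    (h4n_normSubgroup_ne_top hB) hCR ?_ ?_
  · -- degree one
    intro 𝔓 _ h𝔓 hne
    have hp𝔓 : (p : 𝓞 L) ∉ 𝔓 := fun hmem => hne (h4n_frob_eq_one_of_mem ζ hsp 𝔓 h𝔓 hmem)
    refine ⟨hP2 𝔓 h𝔓 hp𝔓 hne, ?_⟩
    intro habs
    apply hp𝔓
    have h1 : ((Ideal.absNorm (𝔓.under (𝓞 (IntermediateField.adjoin ℚ {ζ}))) : ℕ) :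
        𝓞 (IntermediateField.adjoin ℚ {ζ})) ∈ 𝔓.under (𝓞 (IntermediateField.adjoin ℚ {ζ})) :=
      Ideal.absNorm_mem _
    rw [habs, Ideal.under_def, Ideal.mem_comap, map_natCast] at h1
    exact h1
  · -- equivariance
    intro σ 𝔓 _ h𝔓
    obtain ⟨τ, hτ⟩ := AlgEquiv.restrictNormalHom_surjective L σ
    have h' : τ • 𝔓 ≠ ⊥ := h2a_smul_ne_bot_gen τ 𝔓 h𝔓
    refine ⟨τ • 𝔓, inferInstance, h', ?_, ?_⟩
    · rw [h2a_under_smul, hτ]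
    · rw [hP4 τ 𝔓 h𝔓 h', hτ]

end nt

end Fermat.Agent.Lib.S14
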