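/-
S14 project (speculative), helper3: pieces P2 + P4 of the final NT assembly (for helper4), in the
setting of `NTStatement` verbatim: `L/ℚ` Galois, `ζ ∈ L` a primitive `p`-th root of unity,
`K = ℚ(ζ) = ↥(IntermediateField.adjoin ℚ {ζ})`.

* `h3n_isCyclotomic`, `h3n_isGalois`: instances for `K`.
* `h3n_down`: an element of `Gal(L/ℚ)` fixing `ζ` as an element of `Gal(L/K)`.
* `h3n_inertia_bot`: NT's inertia hypothesis ⇒ `𝔔.inertia Gal(L/K) = ⊥`.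
* `h3n_res τ = τ|_K`, `h3n_under_smul`: `(τ • 𝔓) ∩ 𝓞 K = τ|_K • (𝔓 ∩ 𝓞 K)`,
  `h3n_apply_zeta`: `τ ζ = ζ ^ h3s_val (τ|_K)`.
* **P4** `h3n_frob_smul`: `Frob_{L/K}(τ • 𝔓) = Frob_{L/K}(𝔓) ^ h3s_val (τ|_K)⁻¹`.
* **P2** `h3n_degree_one`: if `𝔓 ∤ p` and `Frob_{L/K}(𝔓) ≠ 1` then `N(𝔓 ∩ 𝓞 K)` is a prime `≠ p`.
-/
import Fermat.Agent.Lib.S14.StickAux
import Fermat.Agent.Lib.S14.ArtinMap

set_option autoImplicit false

namespace Fermat.Agent.Lib.S14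

open NumberField
open scoped Pointwise

section setting

variable {p : ℕ} [hp : Fact p.Prime] {L : Type} [Field L] [NumberField L] [IsGalois ℚ L] (ζ : L)

/-- an automorphism fixing `ζ` fixes `K = ℚ(ζ)`. -/
theorem h3n_isCyclotomic (hζ : IsPrimitiveRoot ζ p) :
    IsCyclotomicExtension {p} ℚ (IntermediateField.adjoin ℚ {ζ}) :=
  haveI : NeZero p := ⟨hp.out.ne_zero⟩
  hζ.intermediateField_adjoin_isCyclotomicExtension ℚ

theorem h3n_isGalois (hζ : IsPrimitiveRoot ζ p) :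
    IsGalois ℚ (IntermediateField.adjoin ℚ {ζ}) :=
  haveI : NeZero p := ⟨hp.out.ne_zero⟩
  haveI := h3n_isCyclotomic ζ hζ
  IsCyclotomicExtension.isGalois {p} ℚ (IntermediateField.adjoin ℚ {ζ})

theorem h3n_mem_fixingSubgroup (c : L ≃ₐ[ℚ] L) (hc : c ζ = ζ) :
    c ∈ (IntermediateField.adjoin ℚ {ζ}).fixingSubgroup := by
  rw [IntermediateField.mem_fixingSubgroup_iff]
  intro x hx
  induction hx using IntermediateField.adjoin_induction with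
  | mem x hx =>
    rw [Set.mem_singleton_iff] at hx
    rw [hx]; exact hc
  | algebraMap x => exact c.commutes x
  | add x y _ _ hx hy => rw [map_add, hx, hy]
  | inv x _ hx => rw [map_inv₀, hx]
  | mul x y _ _ hx hy => rw [map_mul, hx, hy]

/-- an element of `Gal(L/ℚ)` fixing `ζ`, as an element of `Gal(L/K)`. -/
noncomputable def h3n_down (c : L ≃ₐ[ℚ] L) (hc : c ζ = ζ) :
    L ≃ₐ[IntermediateField.adjoin ℚ {ζ}] L :=
  IntermediateField.fixingSubgroupEquiv (IntermediateField.adjoin ℚ {ζ})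
    ⟨c, h3n_mem_fixingSubgroup ζ c hc⟩

theorem h3n_down_apply (c : L ≃ₐ[ℚ] L) (hc : c ζ = ζ) (x : L) : h3n_down ζ c hc x = c x := rfl

theorem h3n_restrictScalars_zeta (g : L ≃ₐ[IntermediateField.adjoin ℚ {ζ}] L) :
    (g.restrictScalars ℚ) ζ = ζ := by
  have := g.commutes ⟨ζ, IntermediateField.mem_adjoin_simple_self ℚ ζ⟩
  exact this

/-- NT's inertia hypothesis gives helper2's form of unramifiedness. -/
theorem h3n_inertia_bot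
    (hin : ∀ (𝔔 : Ideal (𝓞 L)) [𝔔.IsPrime], 𝔔 ≠ ⊥ →
      ∀ g ∈ 𝔔.inertia (L ≃ₐ[ℚ] L), g ζ = ζ → g = 1)
    (𝔔 : Ideal (𝓞 L)) [𝔔.IsPrime] (h𝔔 : 𝔔 ≠ ⊥) :
    𝔔.inertia (L ≃ₐ[IntermediateField.adjoin ℚ {ζ}] L) = ⊥ := by
  rw [eq_bot_iff]
  intro g hg
  rw [Subgroup.mem_bot]
  have h1 : g.restrictScalars ℚ ∈ 𝔔.inertia (L ≃ₐ[ℚ] L) := fun x => hg x
  have h2 := hin 𝔔 h𝔔 _ h1 (h3n_restrictScalars_zeta ζ g)
  ext x
  exact congrArg (fun f : L ≃ₐ[ℚ] L => f x) h2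

variable [Normal ℚ (IntermediateField.adjoin ℚ {ζ})]

noncomputable abbrev h3n_res (τ : L ≃ₐ[ℚ] L) :
    (IntermediateField.adjoin ℚ {ζ}) ≃ₐ[ℚ] (IntermediateField.adjoin ℚ {ζ}) :=
  AlgEquiv.restrictNormalHom (IntermediateField.adjoin ℚ {ζ}) τ

theorem h3n_res_coe (τ : L ≃ₐ[ℚ] L) (x : IntermediateField.adjoin ℚ {ζ}) :
    ((h3n_res ζ τ x : IntermediateField.adjoin ℚ {ζ}) : L) = τ (x : L) :=
  AlgEquiv.restrictNormal_commutes τ (IntermediateField.adjoin ℚ {ζ}) x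

/-- compatibility of the actions on integers. -/
theorem h3n_algebraMap_smul (τ : L ≃ₐ[ℚ] L) (x : 𝓞 (IntermediateField.adjoin ℚ {ζ})) :
    algebraMap (𝓞 (IntermediateField.adjoin ℚ {ζ})) (𝓞 L) (h3n_res ζ τ • x) =
      τ • algebraMap (𝓞 (IntermediateField.adjoin ℚ {ζ})) (𝓞 L) x := by
  apply RingOfIntegers.coe_injective
  exact h3n_res_coe ζ τ (x : IntermediateField.adjoin ℚ {ζ})

/-- `(τ • 𝔓) ∩ 𝓞 K = τ|_K • (𝔓 ∩ 𝓞 K)`. -/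
theorem h3n_under_smul (τ : L ≃ₐ[ℚ] L) (𝔓 : Ideal (𝓞 L)) :
    (τ • 𝔓).under (𝓞 (IntermediateField.adjoin ℚ {ζ})) =
      h3n_res ζ τ • 𝔓.under (𝓞 (IntermediateField.adjoin ℚ {ζ})) := by
  ext x
  rw [Ideal.under_def, Ideal.mem_comap, Ideal.mem_pointwise_smul_iff_inv_smul_mem,
    Ideal.mem_pointwise_smul_iff_inv_smul_mem, Ideal.under_def, Ideal.mem_comap,
    ← map_inv, h3n_algebraMap_smul]


variable [hcyc : IsCyclotomicExtension {p} ℚ (IntermediateField.adjoin ℚ {ζ})]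

/-- `τ ζ = ζ ^ val (τ|_K)`. -/
theorem h3n_apply_zeta (hζ : IsPrimitiveRoot ζ p) (τ : L ≃ₐ[ℚ] L) :
    τ ζ = ζ ^ h3s_val p (IntermediateField.adjoin ℚ {ζ}) (h3n_res ζ τ) := by
  have h1 : (⟨ζ, IntermediateField.mem_adjoin_simple_self ℚ ζ⟩ :
      IntermediateField.adjoin ℚ {ζ}) ^ p = 1 := by
    apply Subtype.ext
    simpa using hζ.pow_eq_one
  have h2 := h3s_val_spec p (IntermediateField.adjoin ℚ {ζ}) (h3n_res ζ τ) h1
  have h3 := congrArg (Subtype.val) h2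
  rw [h3n_res_coe] at h3
  simpa using h3

include hcyc in
/-- cardinality of quotients is Galois invariant. -/
theorem h3n_card_quot_smul (τ : L ≃ₐ[ℚ] L) (𝔓 : Ideal (𝓞 L)) :
    Nat.card (𝓞 (IntermediateField.adjoin ℚ {ζ}) ⧸
      (τ • 𝔓).under (𝓞 (IntermediateField.adjoin ℚ {ζ}))) =
    Nat.card (𝓞 (IntermediateField.adjoin ℚ {ζ}) ⧸
      𝔓.under (𝓞 (IntermediateField.adjoin ℚ {ζ}))) := by
  rw [h3n_under_smul]
  haveI : IsGalois ℚ (IntermediateField.adjoin ℚ {ζ}) :=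
    IsCyclotomicExtension.isGalois {p} ℚ (IntermediateField.adjoin ℚ {ζ})
  have := h3s_absNorm_smul (IntermediateField.adjoin ℚ {ζ}) (h3n_res ζ τ)
    (𝔓.under (𝓞 (IntermediateField.adjoin ℚ {ζ})))
  rw [Ideal.absNorm_apply, Ideal.absNorm_apply, Submodule.cardQuot_apply,
    Submodule.cardQuot_apply] at this
  exact this


/-- **P4 (equivariance)**: `Frob_{L/K}(τ • 𝔓) = Frob_{L/K}(𝔓) ^ val (τ|_K)⁻¹`. -/
theorem h3n_frob_smul (hζ : IsPrimitiveRoot ζ p)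
    (hfin : Module.finrank (IntermediateField.adjoin ℚ {ζ}) L = p)
    (hin : ∀ (𝔔 : Ideal (𝓞 L)) [𝔔.IsPrime], 𝔔 ≠ ⊥ →
      ∀ g ∈ 𝔔.inertia (L ≃ₐ[ℚ] L), g ζ = ζ → g = 1)
    (hconj : ∀ (τ g : L ≃ₐ[ℚ] L) (k : ℕ), g ζ = ζ → τ ζ = ζ ^ k → τ * g ^ k * τ⁻¹ = g)
    (τ : L ≃ₐ[ℚ] L) (𝔓 : Ideal (𝓞 L)) [𝔓.IsPrime] (h𝔓 : 𝔓 ≠ ⊥) (h' : τ • 𝔓 ≠ ⊥) :
    h2a_frob (IntermediateField.adjoin ℚ {ζ}) L (τ • 𝔓) h' =
      h2a_frob (IntermediateField.adjoin ℚ {ζ}) L 𝔓 h𝔓 ^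
        h3s_val p (IntermediateField.adjoin ℚ {ζ}) (h3n_res ζ τ)⁻¹ := by
  set g := h2a_frob (IntermediateField.adjoin ℚ {ζ}) L 𝔓 h𝔓 with hg
  set gq : L ≃ₐ[ℚ] L := g.restrictScalars ℚ with hgq
  have hgζ : gq ζ = ζ := h3n_restrictScalars_zeta ζ g
  -- c = τ g τ⁻¹ fixes ζ
  have hcζ : (τ * gq * τ⁻¹) ζ = ζ := by
    have h1 : τ⁻¹ ζ = ζ ^ h3s_val p (IntermediateField.adjoin ℚ {ζ}) (h3n_res ζ τ⁻¹) :=
      h3n_apply_zeta ζ hζ τ⁻¹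
    change τ (gq (τ⁻¹ ζ)) = ζ
    rw [h1, map_pow, hgζ, ← h1]
    have h2 : τ (τ⁻¹ ζ) = (τ * τ⁻¹) ζ := rfl
    rw [h2, mul_inv_cancel]
    rfl
  -- c is the Frobenius at τ • 𝔓
  have hI' : (τ • 𝔓).inertia (L ≃ₐ[IntermediateField.adjoin ℚ {ζ}] L) = ⊥ :=
    h3n_inertia_bot ζ hin (τ • 𝔓) h'
  have hfrob : h3n_down ζ (τ * gq * τ⁻¹) hcζ =
      h2a_frob (IntermediateField.adjoin ℚ {ζ}) L (τ • 𝔓) h' ^ 1 := by
    apply h2a_eq_frob_pow (τ • 𝔓) h' hI'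
    intro x
    rw [pow_one, h3n_card_quot_smul (p := p) ζ τ 𝔓]
    have h1 := h2a_frob_spec (F := IntermediateField.adjoin ℚ {ζ}) 𝔓 h𝔓 (τ⁻¹ • x)
    have h2 : τ • (g • (τ⁻¹ • x) -
        (τ⁻¹ • x) ^ Nat.card (𝓞 (IntermediateField.adjoin ℚ {ζ}) ⧸
          𝔓.under (𝓞 (IntermediateField.adjoin ℚ {ζ})))) ∈ τ • 𝔓 :=
      Ideal.smul_mem_pointwise_smul τ _ 𝔓 h1
    rw [smul_sub, smul_pow', smul_inv_smul] at h2
    exact h2
  rw [pow_one] at hfrob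
  rw [← hfrob]
  -- the conjugation hypothesis
  have hk := h3n_apply_zeta ζ hζ τ
  have h3 := hconj τ gq _ hgζ hk
  have h4 : (τ * gq * τ⁻¹) ^ h3s_val p (IntermediateField.adjoin ℚ {ζ}) (h3n_res ζ τ) = gq := by
    rw [conj_pow]; exact h3
  have hgp : g ^ p = 1 := by
    have : Nat.card (L ≃ₐ[IntermediateField.adjoin ℚ {ζ}] L) = p := by
      rw [IsGalois.card_aut_eq_finrank, hfin]
    rw [← this]
    exact pow_card_eq_one'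
  have hgqp : gq ^ p = 1 := by
    have : gq ^ p = (g ^ p).restrictScalars ℚ := by
      ext x; simp [hgq]
    rw [this, hgp]; rfl
  have hcp : (τ * gq * τ⁻¹) ^ p = 1 := by
    rw [conj_pow, hgqp, mul_one, mul_inv_cancel]
  have h5 := h3s_conj_eq_pow p (h3n_res ζ τ) hcp
    (Nat.mod_eq_of_lt (h3s_val_lt p _ (h3n_res ζ τ))) h4
  ext x
  rw [h3n_down_apply, h5]
  simp [hgq]

theorem h3n_frob_congr {F M : Type*} [Field F] [Field M] [NumberField F] [NumberField M]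
    [Algebra F M] [IsGalois F M] (𝔓 𝔓' : Ideal (𝓞 M)) [𝔓.IsPrime] [𝔓'.IsPrime] (h𝔓 : 𝔓 ≠ ⊥)
    (h𝔓' : 𝔓' ≠ ⊥) (h : 𝔓 = 𝔓') : h2a_frob F M 𝔓 h𝔓 = h2a_frob F M 𝔓' h𝔓' := by
  subst h
  rfl

/-- **P2 (degree one)**: a prime `𝔓 ∤ p` of `L` with nontrivial Frobenius in `L/K` lies over a
degree one prime of `K`. -/
theorem h3n_degree_one (hζ : IsPrimitiveRoot ζ p)
    (hfin : Module.finrank (IntermediateField.adjoin ℚ {ζ}) L = p)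
    (hin : ∀ (𝔔 : Ideal (𝓞 L)) [𝔔.IsPrime], 𝔔 ≠ ⊥ →
      ∀ g ∈ 𝔔.inertia (L ≃ₐ[ℚ] L), g ζ = ζ → g = 1)
    (hconj : ∀ (τ g : L ≃ₐ[ℚ] L) (k : ℕ), g ζ = ζ → τ ζ = ζ ^ k → τ * g ^ k * τ⁻¹ = g)
    (𝔓 : Ideal (𝓞 L)) [𝔓.IsPrime] (h𝔓 : 𝔓 ≠ ⊥) (hp𝔓 : (p : 𝓞 L) ∉ 𝔓)
    (hfrob : h2a_frob (IntermediateField.adjoin ℚ {ζ}) L 𝔓 h𝔓 ≠ 1) :
    (Ideal.absNorm (𝔓.under (𝓞 (IntermediateField.adjoin ℚ {ζ})))).Prime ∧
      Ideal.absNorm (𝔓.under (𝓞 (IntermediateField.adjoin ℚ {ζ}))) ≠ p := by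
  haveI : NeZero p := ⟨hp.out.ne_zero⟩
  haveI : NeZero 𝔓 := ⟨h𝔓⟩
  haveI : Finite (𝓞 L ⧸ 𝔓) := Ideal.finiteQuotientOfFreeOfNeBot 𝔓 h𝔓
  set ℓ := Ideal.absNorm (Ideal.under ℤ 𝔓) with hℓdef
  have hℓ : ℓ.Prime := Nat.absNorm_under_prime 𝔓
  haveI : Fact ℓ.Prime := ⟨hℓ⟩
  have hunder : Ideal.under ℤ 𝔓 = Ideal.span {(ℓ : ℤ)} := (Int.ideal_span_absNorm_eq_self _).symm
  have hℓmem : (ℓ : 𝓞 L) ∈ 𝔓 := Int.absNorm_under_mem 𝔓
  have hℓp : ℓ ≠ p := by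
    intro h
    rw [h] at hℓmem
    exact hp𝔓 hℓmem
  -- the rational Frobenius
  obtain ⟨φ, hφ⟩ := IsArithFrobAt.exists_of_isInvariant ℤ (L ≃ₐ[ℚ] L) 𝔓
  have hφ𝔓 : φ • 𝔓 = 𝔓 := MulAction.mem_stabilizer_iff.mp hφ.mem_stabilizer
  have hcard : Nat.card (ℤ ⧸ Ideal.under ℤ 𝔓) = ℓ := by rw [hunder, Int.card_ideal_quot]
  -- φ ζ = ζ ^ ℓ
  have hφζ : φ ζ = ζ ^ ℓ := by
    have h1 : hζ.toInteger ^ p = 1 := hζ.toInteger_isPrimitiveRoot.pow_eq_one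
    have h2 := AlgHom.IsArithFrobAt.apply_of_pow_eq_one hφ h1 hp𝔓
    rw [hcard] at h2
    have h3 := congrArg (algebraMap (𝓞 L) L) h2
    change φ (algebraMap (𝓞 L) L hζ.toInteger) = _ at h3
    rw [map_pow] at h3
    exact h3
  -- equivariance at τ = φ
  have h' : φ • 𝔓 ≠ ⊥ := by rw [hφ𝔓]; exact h𝔓
  have h4 := h3n_frob_smul ζ hζ hfin hin hconj φ 𝔓 h𝔓 h'
  rw [h3n_frob_congr (φ • 𝔓) 𝔓 h' h𝔓 hφ𝔓] at h4
  set g := h2a_frob (IntermediateField.adjoin ℚ {ζ}) L 𝔓 h𝔓 with hg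
  set v := h3s_val p (IntermediateField.adjoin ℚ {ζ}) (h3n_res ζ φ)⁻¹ with hv
  have hgp : g ^ p = 1 := by
    have : Nat.card (L ≃ₐ[IntermediateField.adjoin ℚ {ζ}] L) = p := by
      rw [IsGalois.card_aut_eq_finrank, hfin]
    rw [← this]
    exact pow_card_eq_one'
  have hord : orderOf g = p := by
    have h5 := orderOf_dvd_of_pow_eq_one hgp
    rcases (Nat.dvd_prime hp.out).mp h5 with h6 | h6
    · exact absurd (orderOf_eq_one_iff.mp h6) hfrob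
    · exact h6
  have hvpos : 0 < v := h3s_val_pos p _ _
  have hvlt : v < p := h3s_val_lt p _ _
  have hv1 : v = 1 := by
    have h5 : g ^ (v - 1) = 1 := by
      have h6 : g ^ (v - 1) * g = g := by
        rw [← pow_succ, Nat.sub_add_cancel hvpos]; exact h4.symm
      exact mul_right_cancel (h6.trans (one_mul g).symm)
    have h7 := orderOf_dvd_of_pow_eq_one h5
    rw [hord] at h7
    rcases Nat.eq_zero_or_pos (v - 1) with h8 | h8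
    · omega
    · have := Nat.le_of_dvd h8 h7
      omega
  have hres : h3n_res ζ φ = 1 := by
    have h5 : (h3n_res ζ φ)⁻¹ = 1 := by
      apply h3s_val_injective p (IntermediateField.adjoin ℚ {ζ})
      rw [h3s_val_one, ← hv, hv1]
    exact inv_eq_one.mp h5
  have hφζ' : φ ζ = ζ := by
    rw [h3n_apply_zeta ζ hζ φ, hres, h3s_val_one, pow_one]
  have hdvd : p ∣ ℓ - 1 := by
    rw [hφζ'] at hφζ
    have h5 : ζ ^ (ℓ - 1) = 1 := by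
      have h6 : ζ ^ (ℓ - 1) * ζ = ζ := by
        rw [← pow_succ, Nat.sub_add_cancel hℓ.pos]; exact hφζ.symm
      have hζ0 : ζ ≠ 0 := hζ.ne_zero hp.out.ne_zero
      exact mul_right_cancel₀ hζ0 (by rw [h6, one_mul])
    exact (hζ.pow_eq_one_iff_dvd _).mp h5
  -- the prime below in K
  set 𝔮 := 𝔓.under (𝓞 (IntermediateField.adjoin ℚ {ζ})) with h𝔮
  haveI : 𝔮.LiesOver (Ideal.span {(ℓ : ℤ)}) := by
    constructor
    rw [h𝔮, Ideal.under_under, hunder]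
  have hdeg := IsCyclotomicExtension.Rat.inertiaDeg_eq_of_not_dvd ℓ
    (IntermediateField.adjoin ℚ {ζ}) 𝔮 (m := p)
    (fun h => hℓp ((Nat.prime_dvd_prime_iff_eq hℓ hp.out).mp h))
  have hone : (ℓ : ZMod p) = 1 := by
    have : ℓ = (ℓ - 1) + 1 := by have := hℓ.pos; omega
    rw [this, Nat.cast_add, Nat.cast_one, (ZMod.natCast_eq_zero_iff _ _).mpr hdvd, zero_add]
  rw [hone, orderOf_one] at hdeg
  have hnorm := Ideal.pow_inertiaDeg ℓ 𝔮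
  rw [hdeg, pow_one] at hnorm
  rw [← hnorm]
  exact ⟨hℓ, hℓp⟩

end setting

end Fermat.Agent.Lib.S14
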