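/-
S14 project (speculative), slab (Z2)/(Z3) (helper1): density of the primes splitting completely in
a Galois extension `M/F` of number fields, and existence of degree-one primes with non-trivial
Frobenius, from the logarithmic form (S2) of the Euler product of the Dedekind zeta function
(contract `h1z_PrimeLog`, owner of (S2): helper9).
-/
import Mathlib

set_option autoImplicit false
set_option linter.unusedSectionVars false
set_option linter.unusedVariables false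

namespace Fermat.Agent.Lib.S14

open NumberField Ideal IsDedekindDomain

/-- Contract (S2): the prime zeta sum `∑_v N(v)^{-s}` of a number field converges for `s > 1` and
equals `log (1/(s-1)) + O(1)` on `(1,2]`. -/
def h1z_PrimeLog (F : Type*) [Field F] [NumberField F] : Prop :=
  (∀ s : ℝ, 1 < s →
    Summable fun v : HeightOneSpectrum (𝓞 F) => (absNorm v.asIdeal : ℝ) ^ (-s)) ∧
  ∃ C : ℝ, ∀ s : ℝ, 1 < s → s ≤ 2 →
    |(∑' v : HeightOneSpectrum (𝓞 F), (absNorm v.asIdeal : ℝ) ^ (-s))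
      - Real.log (1 / (s - 1))| ≤ C

/-! ### Abstract fibre-sum lemmas -/

open scoped Classical in
/-- If all fibres of `π` have at most `d` elements, then `∑ g ∘ π ≤ d ∑ g` for `g ≥ 0`. -/
theorem h1z_tsum_comp_le {α β : Type*} (π : β → α) (d : ℕ)
    (hd : ∀ (W : Finset β) (a : α), (W.filter (fun w => π w = a)).card ≤ d)
    (g : α → ℝ) (hg : ∀ a, 0 ≤ g a) (hs : Summable g) :
    Summable (fun w => g (π w)) ∧ ∑' w, g (π w) ≤ d * ∑' a, g a := by
  classical
  have key : ∀ W : Finset β, ∑ w ∈ W, g (π w) ≤ d * ∑' a, g a := by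
    intro W
    have h1 : ∑ w ∈ W, g (π w) = ∑ a ∈ W.image π, ∑ w ∈ W.filter (fun w => π w = a), g (π w) := by
      rw [Finset.sum_fiberwise_of_maps_to (fun w hw => Finset.mem_image_of_mem π hw)]
    rw [h1]
    have h2 : ∀ a ∈ W.image π, ∑ w ∈ W.filter (fun w => π w = a), g (π w) ≤ d * g a := by
      intro a _
      have : ∑ w ∈ W.filter (fun w => π w = a), g (π w)
          = ∑ w ∈ W.filter (fun w => π w = a), g a :=
        Finset.sum_congr rfl (fun w hw => by rw [(Finset.mem_filter.mp hw).2])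
      rw [this, Finset.sum_const, nsmul_eq_mul]
      exact mul_le_mul_of_nonneg_right (by exact_mod_cast hd W a) (hg a)
    calc ∑ a ∈ W.image π, ∑ w ∈ W.filter (fun w => π w = a), g (π w)
        ≤ ∑ a ∈ W.image π, d * g a := Finset.sum_le_sum h2
      _ = d * ∑ a ∈ W.image π, g a := by rw [Finset.mul_sum]
      _ ≤ d * ∑' a, g a :=
        mul_le_mul_of_nonneg_left (hs.sum_le_tsum _ (fun a _ => hg a)) (Nat.cast_nonneg d)
  have hsum : Summable (fun w => g (π w)) :=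
    summable_of_sum_le (fun w => hg (π w)) key
  exact ⟨hsum, hsum.tsum_le_of_sum_le key⟩


/-! ### Primes of `M` above primes of `F` -/

section relative

variable (F M : Type*) [Field F] [NumberField F] [Field M] [NumberField M] [Algebra F M]

/-- The prime of `F` below a prime of `M`. -/
noncomputable def h1z_below (w : HeightOneSpectrum (𝓞 M)) : HeightOneSpectrum (𝓞 F) :=
  w.under (𝓞 F)

theorem h1z_below_asIdeal (w : HeightOneSpectrum (𝓞 M)) :
    (h1z_below F M w).asIdeal = w.asIdeal.under (𝓞 F) := rfl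

theorem h1z_liesOver_below (w : HeightOneSpectrum (𝓞 M)) :
    w.asIdeal.LiesOver (h1z_below F M w).asIdeal := ⟨rfl⟩

/-- `N(w) = N(v)^f`. -/
theorem h1z_absNorm_below (w : HeightOneSpectrum (𝓞 M)) :
    absNorm w.asIdeal = absNorm (h1z_below F M w).asIdeal ^ w.asIdeal.inertiaDeg (𝓞 F) := by
  have := h1z_liesOver_below F M w
  have := w.isPrime
  exact (Ideal.absNorm_pow_inertiaDeg (h1z_below F M w).asIdeal w.asIdeal).symm

theorem h1z_inertiaDeg_pos (w : HeightOneSpectrum (𝓞 M)) : 0 < w.asIdeal.inertiaDeg (𝓞 F) := by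
  have := w.isPrime
  exact Ideal.inertiaDeg_pos _ _

theorem h1z_ramificationIdx_pos (w : HeightOneSpectrum (𝓞 M)) :
    0 < w.asIdeal.ramificationIdx (𝓞 F) := by
  have := w.isPrime
  exact Ideal.ramificationIdx_pos _ _

/-- The number of primes over a prime `v` of `F` is at most `finrank (𝓞 F) (𝓞 M)`. -/
theorem h1z_card_primesOver_le (v : HeightOneSpectrum (𝓞 F)) :
    Fintype.card (v.asIdeal.primesOver (𝓞 M)) ≤ Module.finrank (𝓞 F) (𝓞 M) := by
  have := v.isPrime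
  rw [← Ideal.sum_ramification_inertia_eq_finrank v.asIdeal (𝓞 M), Fintype.card_eq_sum_ones]
  apply Finset.sum_le_sum
  intro q _
  have hq : q.1.IsPrime := q.2.1
  exact Nat.succ_le_of_lt (Nat.mul_pos (Ideal.ramificationIdx_pos _ _) (Ideal.inertiaDeg_pos _ _))

open scoped Classical in
/-- Fibres of `h1z_below` have at most `finrank (𝓞 F) (𝓞 M)` elements. -/
theorem h1z_card_fiber_le (W : Finset (HeightOneSpectrum (𝓞 M))) (v : HeightOneSpectrum (𝓞 F)) :
    (W.filter (fun w => h1z_below F M w = v)).card ≤ Module.finrank (𝓞 F) (𝓞 M) := by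
  refine le_trans ?_ (h1z_card_primesOver_le F M v)
  rw [← Finset.card_univ]
  refine Finset.card_le_card_of_injOn
    (fun w => if h : h1z_below F M w = v then
      (⟨w.asIdeal, w.isPrime, h ▸ h1z_liesOver_below F M w⟩ : v.asIdeal.primesOver (𝓞 M))
      else Classical.arbitrary _) (fun _ _ => Finset.mem_univ _) ?_
  intro w₁ h₁ w₂ h₂ h
  have e₁ := (Finset.mem_filter.mp h₁).2
  have e₂ := (Finset.mem_filter.mp h₂).2
  simp only [e₁, e₂, dite_true] at h
  exact HeightOneSpectrum.ext (congrArg Subtype.val h)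


theorem h1s_two_le_absNorm (v : HeightOneSpectrum (𝓞 F)) : 2 ≤ absNorm v.asIdeal := by
  have h0 : absNorm v.asIdeal ≠ 0 := by
    rw [Ne, Ideal.absNorm_eq_zero_iff]; exact v.ne_bot
  have h1 : absNorm v.asIdeal ≠ 1 := by
    rw [Ne, Ideal.absNorm_eq_one_iff]; exact v.isPrime.ne_top
  omega

theorem h1s_one_le_absNorm_real (v : HeightOneSpectrum (𝓞 F)) : (1:ℝ) ≤ (absNorm v.asIdeal : ℝ) := by
  have := h1s_two_le_absNorm F v
  exact_mod_cast (by omega : 1 ≤ absNorm v.asIdeal)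

theorem h1s_pterm_nonneg (v : HeightOneSpectrum (𝓞 F)) (s : ℝ) :
    0 ≤ (absNorm v.asIdeal : ℝ) ^ (-s) :=
  Real.rpow_nonneg (Nat.cast_nonneg _) _

theorem h1s_pterm_le_one (v : HeightOneSpectrum (𝓞 F)) {s : ℝ} (hs : 0 ≤ s) :
    (absNorm v.asIdeal : ℝ) ^ (-s) ≤ 1 :=
  Real.rpow_le_one_of_one_le_of_nonpos (h1s_one_le_absNorm_real F v) (by linarith)

/-- A prime `w` of `M` of residue degree `≥ 2` over `F` has `N(w)^{-s} ≤ N(v)^{-2}` for `s ≥ 1`. -/
theorem h1s_pterm_le_of_inertiaDeg (w : HeightOneSpectrum (𝓞 M))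
    (hw : w.asIdeal.inertiaDeg (𝓞 F) ≠ 1) {s : ℝ} (hs : 1 ≤ s) :
    (absNorm w.asIdeal : ℝ) ^ (-s) ≤ (absNorm (h1z_below F M w).asIdeal : ℝ) ^ (-(2:ℝ)) := by
  have hf : 2 ≤ w.asIdeal.inertiaDeg (𝓞 F) := by
    have := h1z_inertiaDeg_pos F M w
    omega
  set N := (absNorm (h1z_below F M w).asIdeal : ℝ) with hN
  have hN1 : (1:ℝ) ≤ N := h1s_one_le_absNorm_real F _
  have hN0 : (0:ℝ) < N := by linarith
  have h1 : (absNorm w.asIdeal : ℝ) = N ^ w.asIdeal.inertiaDeg (𝓞 F) := by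
    rw [h1z_absNorm_below F M w]; push_cast; rfl
  have h2 : N ^ 2 ≤ (absNorm w.asIdeal : ℝ) := by
    rw [h1]; exact pow_le_pow_right₀ hN1 hf
  calc (absNorm w.asIdeal : ℝ) ^ (-s) ≤ (N ^ 2) ^ (-s) :=
        Real.rpow_le_rpow_of_nonpos (by positivity) h2 (by linarith)
    _ = N ^ ((2:ℝ) * (-s)) := by
        rw [Real.rpow_mul hN0.le]; norm_num
    _ ≤ N ^ (-(2:ℝ)) := Real.rpow_le_rpow_of_exponent_le hN1 (by linarith)


/-- Primes of `M` ramified over `F`. -/
def h1s_ramSet : Set (HeightOneSpectrum (𝓞 M)) := {w | w.asIdeal.ramificationIdx (𝓞 F) ≠ 1}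

/-- Primes of `M` of residue degree `≠ 1` over `F`. -/
def h1s_inertSet : Set (HeightOneSpectrum (𝓞 M)) := {w | w.asIdeal.inertiaDeg (𝓞 F) ≠ 1}

/-- Primes of `M` with `e = f = 1` over `F`. -/
def h1s_goodSet : Set (HeightOneSpectrum (𝓞 M)) :=
  {w | w.asIdeal.ramificationIdx (𝓞 F) = 1 ∧ w.asIdeal.inertiaDeg (𝓞 F) = 1}

theorem h1s_compl_goodSet : (h1s_goodSet F M)ᶜ = h1s_ramSet F M ∪ h1s_inertSet F M := by
  ext w
  simp only [h1s_goodSet, h1s_ramSet, h1s_inertSet, Set.mem_compl_iff, Set.mem_ofPred_eq,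
    Set.mem_union]
  tauto

attribute [local instance] FractionRing.liftAlgebra in
/-- Only finitely many primes of `M` ramify over `F`. -/
theorem h1s_ramSet_finite : (h1s_ramSet F M).Finite := by
  have hne : differentIdeal (𝓞 F) (𝓞 M) ≠ 0 := differentIdeal_ne_bot
  refine (Ideal.finite_factors hne).subset ?_
  intro w hw
  simp only [h1s_ramSet, Set.mem_ofPred_eq] at hw
  simp only [Set.mem_ofPred_eq]
  by_contra hnd
  have := w.isPrime
  have hunr : Algebra.IsUnramifiedAt (𝓞 F) w.asIdeal := not_dvd_differentIdeal_iff.mp hnd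
  exact hw (Ideal.ramificationIdx_eq_one w.asIdeal (𝓞 F))


/-- Uniform bound for the contribution of the primes of `M` not of degree one over `F`. -/
theorem h1s_bad_sum_le
    (h2 : Summable (fun v : HeightOneSpectrum (𝓞 F) => (absNorm v.asIdeal : ℝ) ^ (-(2:ℝ))))
    {s : ℝ} (hs : 1 ≤ s)
    (hsum : Summable (fun w : HeightOneSpectrum (𝓞 M) => (absNorm w.asIdeal : ℝ) ^ (-s))) :
    ∑' w : ↥(h1s_goodSet F M)ᶜ, (absNorm w.1.asIdeal : ℝ) ^ (-s) ≤
      (h1s_ramSet F M).ncard + Module.finrank (𝓞 F) (𝓞 M) *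
        ∑' v : HeightOneSpectrum (𝓞 F), (absNorm v.asIdeal : ℝ) ^ (-(2:ℝ)) := by
  classical
  set h : HeightOneSpectrum (𝓞 M) → ℝ := fun w => (absNorm w.asIdeal : ℝ) ^ (-s) with hh
  set g₂ : HeightOneSpectrum (𝓞 F) → ℝ := fun v => (absNorm v.asIdeal : ℝ) ^ (-(2:ℝ)) with hg₂
  have hh0 : ∀ w, 0 ≤ h w := fun w => h1s_pterm_nonneg M w s
  have hg0 : ∀ v, 0 ≤ g₂ v := fun v => h1s_pterm_nonneg F v 2
  obtain ⟨hcs, hcle⟩ := h1z_tsum_comp_le (h1z_below F M) (Module.finrank (𝓞 F) (𝓞 M))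
    (h1z_card_fiber_le F M) g₂ hg0 h2
  -- the ramified part
  have hram : ∑' w, (h1s_ramSet F M).indicator h w ≤ (h1s_ramSet F M).ncard := by
    rw [← tsum_subtype]
    exact NumberField.Set.primeIdealZetaSum_le_card_of_finite (h1s_ramSet_finite F M)
      (by linarith)
  -- the part of residue degree ≥ 2
  have hin_le : ∀ w, (h1s_inertSet F M).indicator h w ≤ g₂ (h1z_below F M w) := by
    intro w
    by_cases hw : w ∈ h1s_inertSet F M
    · rw [Set.indicator_of_mem hw]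
      exact h1s_pterm_le_of_inertiaDeg F M w hw hs
    · rw [Set.indicator_of_notMem hw]
      exact hg0 _
  have hin : ∑' w, (h1s_inertSet F M).indicator h w ≤
      Module.finrank (𝓞 F) (𝓞 M) * ∑' v, g₂ v :=
    le_trans ((hsum.indicator _).tsum_le_tsum hin_le hcs) hcle
  rw [tsum_subtype ((h1s_goodSet F M)ᶜ) h, h1s_compl_goodSet]
  have hle : ∀ w, (h1s_ramSet F M ∪ h1s_inertSet F M).indicator h w ≤
      (h1s_ramSet F M).indicator h w + (h1s_inertSet F M).indicator h w := by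
    intro w
    by_cases h1 : w ∈ h1s_ramSet F M <;> by_cases h2 : w ∈ h1s_inertSet F M <;>
      simp [Set.indicator, h1, h2, hh0 w]
  calc ∑' w, (h1s_ramSet F M ∪ h1s_inertSet F M).indicator h w
      ≤ ∑' w, ((h1s_ramSet F M).indicator h w + (h1s_inertSet F M).indicator h w) :=
        (hsum.indicator _).tsum_le_tsum hle ((hsum.indicator _).add (hsum.indicator _))
    _ = ∑' w, (h1s_ramSet F M).indicator h w + ∑' w, (h1s_inertSet F M).indicator h w :=
        (hsum.indicator _).tsum_add (hsum.indicator _)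
    _ ≤ _ := add_le_add hram hin


/-- The primes of `F` that split completely in `M`. -/
def h1z_splitSet : Set (HeightOneSpectrum (𝓞 F)) :=
  {v | ∀ 𝔔 : Ideal (𝓞 M), 𝔔.IsPrime → 𝔔.LiesOver v.asIdeal →
    𝔔.ramificationIdx (𝓞 F) = 1 ∧ 𝔔.inertiaDeg (𝓞 F) = 1}

theorem h1s_good_of_below_split (w : HeightOneSpectrum (𝓞 M))
    (hw : h1z_below F M w ∈ h1z_splitSet F M) : w ∈ h1s_goodSet F M :=
  hw w.asIdeal w.isPrime (h1z_liesOver_below F M w)

/-- The fibre of `h1z_below` over `v` is the set of primes over `v`. -/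
noncomputable def h1s_fiberEquiv (v : HeightOneSpectrum (𝓞 F)) :
    ↑(h1z_below F M ⁻¹' {v}) ≃ ↑(v.asIdeal.primesOver (𝓞 M)) where
  toFun w := ⟨w.1.asIdeal, w.1.isPrime, by
    have h : h1z_below F M w.1 = v := w.2
    have h' := h1z_liesOver_below F M w.1
    rw [h] at h'
    exact h'⟩
  invFun Q := ⟨⟨Q.1, Q.2.1, Ideal.ne_bot_of_mem_primesOver v.ne_bot Q.2⟩, by
    have h : Q.1.LiesOver v.asIdeal := Q.2.2
    show h1z_below F M _ = v
    exact HeightOneSpectrum.ext (h.over).symm⟩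
  left_inv w := rfl
  right_inv Q := rfl


/-- A completely split prime is the relative norm of every prime above it. -/
theorem h1z_split_relNorm (v : HeightOneSpectrum (𝓞 F)) (hv : v ∈ h1z_splitSet F M)
    (𝔔 : Ideal (𝓞 M)) (h𝔔 : 𝔔.IsPrime) (hl : 𝔔.LiesOver v.asIdeal) :
    Ideal.relNorm (𝓞 F) 𝔔 = v.asIdeal := by
  have h𝔔0 : 𝔔 ≠ ⊥ := Ideal.ne_bot_of_mem_primesOver v.ne_bot ⟨h𝔔, hl⟩
  have hmax : 𝔔.IsMaximal := h𝔔.isMaximal h𝔔0
  have hvmax : v.asIdeal.IsMaximal := v.isMaximal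
  rw [Ideal.relNorm_eq_pow_of_isMaximal 𝔔 v.asIdeal, (hv 𝔔 h𝔔 hl).2, pow_one]

/-- A completely split prime is a relative norm. -/
theorem h1z_split_exists_relNorm (v : HeightOneSpectrum (𝓞 F)) (hv : v ∈ h1z_splitSet F M) :
    ∃ 𝔔 : Ideal (𝓞 M), 𝔔.IsPrime ∧ 𝔔 ≠ ⊥ ∧ 𝔔.LiesOver v.asIdeal ∧
      Ideal.relNorm (𝓞 F) 𝔔 = v.asIdeal := by
  have := v.isPrime
  obtain ⟨⟨𝔔, h𝔔, hl⟩⟩ := (inferInstance : Nonempty (v.asIdeal.primesOver (𝓞 M)))
  exact ⟨𝔔, h𝔔, Ideal.ne_bot_of_mem_primesOver v.ne_bot ⟨h𝔔, hl⟩, hl,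
    h1z_split_relNorm F M v hv 𝔔 h𝔔 hl⟩

end relative

section galois

variable (F M : Type*) [Field F] [NumberField F] [Field M] [NumberField M] [Algebra F M]
  [IsGalois F M]

/-- In a Galois extension, a prime below a prime with `e = f = 1` splits completely. -/
theorem h1s_below_split_of_good (w : HeightOneSpectrum (𝓞 M)) (hw : w ∈ h1s_goodSet F M) :
    h1z_below F M w ∈ h1z_splitSet F M := by
  intro 𝔔 h𝔔 hlies
  have := w.isPrime
  have := h1z_liesOver_below F M w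
  have he := Ideal.ramificationIdx_eq_of_isGaloisGroup (h1z_below F M w).asIdeal w.asIdeal 𝔔
    Gal(M/F)
  have hf := Ideal.inertiaDeg_eq_of_isGaloisGroup (h1z_below F M w).asIdeal w.asIdeal 𝔔
    Gal(M/F)
  exact ⟨he ▸ hw.1, hf ▸ hw.2⟩

/-- A completely split prime has exactly `[M:F]` primes above it. -/
theorem h1s_card_fiber_of_split (v : HeightOneSpectrum (𝓞 F)) (hv : v ∈ h1z_splitSet F M) :
    Nat.card ↑(h1z_below F M ⁻¹' {v}) = Module.finrank F M := by
  have := v.isPrime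
  rw [Nat.card_congr (h1s_fiberEquiv F M v), ← IsGalois.card_aut_eq_finrank F M]
  have key := Ideal.ncard_primesOver_mul_ramificationIdxIn_mul_inertiaDegIn v.asIdeal (𝓞 M)
    Gal(M/F)
  obtain ⟨⟨P, hP, hPl⟩⟩ := (inferInstance : Nonempty (v.asIdeal.primesOver (𝓞 M)))
  rw [Ideal.ramificationIdxIn_eq_ramificationIdx v.asIdeal P Gal(M/F),
    Ideal.inertiaDegIn_eq_inertiaDeg v.asIdeal P Gal(M/F), (hv P hP hPl).1, (hv P hP hPl).2,
    mul_one, mul_one] at key
  rw [← key]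
  rfl


/-- The sum over the primes of `M` with `e = f = 1` is `[M:F]` times the sum over the completely
split primes of `F`. -/
theorem h1s_tsum_good_eq {s : ℝ}
    (hsum : Summable (fun w : HeightOneSpectrum (𝓞 M) => (absNorm w.asIdeal : ℝ) ^ (-s))) :
    ∑' w : ↥(h1s_goodSet F M), (absNorm w.1.asIdeal : ℝ) ^ (-s) =
      (Module.finrank F M : ℝ) *
        ∑' v : ↥(h1z_splitSet F M), (absNorm v.1.asIdeal : ℝ) ^ (-s) := by
  classical
  set h : HeightOneSpectrum (𝓞 M) → ℝ := fun w => (absNorm w.asIdeal : ℝ) ^ (-s) with hh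
  set g : HeightOneSpectrum (𝓞 F) → ℝ := fun v => (absNorm v.asIdeal : ℝ) ^ (-s) with hg
  have hfib := ((hsum.indicator (h1s_goodSet F M)).hasSum).tsum_fiberwise (h1z_below F M)
  have hterm : ∀ v, ∑' w : ↑(h1z_below F M ⁻¹' {v}), (h1s_goodSet F M).indicator h w.1 =
      (h1z_splitSet F M).indicator (fun v => (Module.finrank F M : ℝ) * g v) v := by
    intro v
    have : Fintype ↑(h1z_below F M ⁻¹' {v}) := Fintype.ofEquiv _ (h1s_fiberEquiv F M v).symm
    rw [tsum_fintype]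
    by_cases hv : v ∈ h1z_splitSet F M
    · rw [Set.indicator_of_mem hv]
      have h1 : ∀ w : ↑(h1z_below F M ⁻¹' {v}), (h1s_goodSet F M).indicator h w.1 = g v := by
        intro w
        have hwv : h1z_below F M w.1 = v := w.2
        have hgood : w.1 ∈ h1s_goodSet F M := h1s_good_of_below_split F M w.1 (by rw [hwv]; exact hv)
        rw [Set.indicator_of_mem hgood]
        simp only [hh, hg]
        rw [h1z_absNorm_below F M w.1, hgood.2, pow_one, hwv]
      rw [Finset.sum_congr rfl (fun w _ => h1 w), Finset.sum_const, Finset.card_univ,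
        nsmul_eq_mul, ← Nat.card_eq_fintype_card, h1s_card_fiber_of_split F M v hv]
    · rw [Set.indicator_of_notMem hv]
      apply Finset.sum_eq_zero
      intro w _
      have hwv : h1z_below F M w.1 = v := w.2
      have hbad : w.1 ∉ h1s_goodSet F M := fun hgood =>
        hv (by have := h1s_below_split_of_good F M w.1 hgood; rwa [hwv] at this)
      exact Set.indicator_of_notMem hbad _
  simp only [hterm] at hfib
  rw [tsum_subtype (h1s_goodSet F M) h, ← hfib.tsum_eq, ← tsum_subtype (h1z_splitSet F M),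
    tsum_mul_left]


/-- **(Z2)** The primes of `F` splitting completely in a Galois extension `M/F` have Dirichlet
density `1/[M:F]`, in the strong form `∑_{v split} N(v)^{-s} = (1/n) log (1/(s-1)) + O(1)`. -/
theorem h1z_split_density (hF : h1z_PrimeLog F) (hM : h1z_PrimeLog M) :
    ∃ C : ℝ, ∀ s : ℝ, 1 < s → s ≤ 2 →
      |(∑' v : ↥(h1z_splitSet F M), (absNorm v.1.asIdeal : ℝ) ^ (-s))
        - (1 / (Module.finrank F M : ℝ)) * Real.log (1 / (s - 1))| ≤ C := by
  obtain ⟨hMs, CM, hCM⟩ := hM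
  have h2 := hF.1 2 (by norm_num)
  have hn : (0:ℝ) < (Module.finrank F M : ℝ) := by exact_mod_cast Module.finrank_pos
  set B : ℝ := (h1s_ramSet F M).ncard + Module.finrank (𝓞 F) (𝓞 M) *
        ∑' v : HeightOneSpectrum (𝓞 F), (absNorm v.asIdeal : ℝ) ^ (-(2:ℝ)) with hB
  refine ⟨(CM + B) / (Module.finrank F M : ℝ), fun s hs1 hs2 => ?_⟩
  have hsum := hMs s hs1
  have hsplit := hsum.tsum_subtype_add_tsum_subtype_compl (h1s_goodSet F M)
  have hbad := h1s_bad_sum_le F M h2 hs1.le hsum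
  have hbad0 : 0 ≤ ∑' w : ↥(h1s_goodSet F M)ᶜ, (absNorm w.1.asIdeal : ℝ) ^ (-s) :=
    tsum_nonneg (fun w => h1s_pterm_nonneg M w.1 s)
  have hgood := h1s_tsum_good_eq F M hsum
  have hlog := hCM s hs1 hs2
  rw [← hB] at hbad
  set PS := ∑' v : ↥(h1z_splitSet F M), (absNorm v.1.asIdeal : ℝ) ^ (-s) with hPS
  set L := Real.log (1 / (s - 1)) with hL
  have key : |(Module.finrank F M : ℝ) * PS - L| ≤ CM + B := by
    rw [abs_le] at hlog ⊢
    constructor <;> linarith [hlog.1, hlog.2]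
  have : PS - 1 / (Module.finrank F M : ℝ) * L =
      ((Module.finrank F M : ℝ) * PS - L) / (Module.finrank F M : ℝ) := by
    field_simp
  rw [this, abs_div, abs_of_pos hn]
  exact div_le_div_of_nonneg_right key hn.le

/-- (Z2), lower-bound form (the input shape of the analytic index inequality). -/
theorem h1z_split_density_lower (hF : h1z_PrimeLog F) (hM : h1z_PrimeLog M) :
    ∃ C : ℝ, ∀ s : ℝ, 1 < s → s ≤ 2 →
      (1 / (Module.finrank F M : ℝ)) * Real.log (1 / (s - 1)) - C ≤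
        ∑' v : ↥(h1z_splitSet F M), (absNorm (v : HeightOneSpectrum (𝓞 F)).asIdeal : ℝ) ^ (-s) := by
  obtain ⟨C, hC⟩ := h1z_split_density F M hF hM
  refine ⟨C, fun s hs1 hs2 => ?_⟩
  have := (abs_le.mp (hC s hs1 hs2)).1
  linarith

end galois


/-! ### Primes whose absolute norm is not a prime number -/

section absolute

variable (F : Type*) [Field F] [NumberField F]

/-- The residue characteristic of a prime of `F`. -/
noncomputable def h1s_char (v : HeightOneSpectrum (𝓞 F)) : ℕ := absNorm (under ℤ v.asIdeal)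

theorem h1s_char_prime (v : HeightOneSpectrum (𝓞 F)) : (h1s_char F v).Prime := by
  have := v.isPrime
  have : NeZero v.asIdeal := ⟨v.ne_bot⟩
  exact Nat.absNorm_under_prime v.asIdeal

theorem h1s_liesOver_char (v : HeightOneSpectrum (𝓞 F)) :
    v.asIdeal.LiesOver (span {((h1s_char F v : ℕ) : ℤ)}) :=
  Int.liesOver_span_absNorm v.asIdeal

theorem h1s_absNorm_eq_char_pow (v : HeightOneSpectrum (𝓞 F)) :
    absNorm v.asIdeal = h1s_char F v ^ v.asIdeal.inertiaDeg ℤ := by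
  have := v.isPrime
  have := h1s_liesOver_char F v
  have h := Ideal.absNorm_pow_inertiaDeg (span {((h1s_char F v : ℕ) : ℤ)}) v.asIdeal
  rw [← h]
  congr 1
  simp

theorem h1s_inertiaDeg_int_ne_one (v : HeightOneSpectrum (𝓞 F))
    (hv : ¬ (absNorm v.asIdeal).Prime) : v.asIdeal.inertiaDeg ℤ ≠ 1 := by
  intro h
  apply hv
  rw [h1s_absNorm_eq_char_pow, h, pow_one]
  exact h1s_char_prime F v

/-- A prime `v` of `F` whose norm is not a prime number has `N(v)^{-s} ≤ ℓ^{-2}` for `s ≥ 1`. -/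
theorem h1s_pterm_le_of_not_prime (v : HeightOneSpectrum (𝓞 F))
    (hv : ¬ (absNorm v.asIdeal).Prime) {s : ℝ} (hs : 1 ≤ s) :
    (absNorm v.asIdeal : ℝ) ^ (-s) ≤ ((h1s_char F v : ℕ) : ℝ) ^ (-(2:ℝ)) := by
  have := v.isPrime
  have hf : 2 ≤ v.asIdeal.inertiaDeg ℤ := by
    have h1 := h1s_inertiaDeg_int_ne_one F v hv
    have h2 : 0 < v.asIdeal.inertiaDeg ℤ := Ideal.inertiaDeg_pos _ _
    omega
  set N := ((h1s_char F v : ℕ) : ℝ) with hN
  have hN1 : (1:ℝ) ≤ N := by
    have := (h1s_char_prime F v).one_lt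
    rw [hN]
    exact_mod_cast this.le
  have hN0 : (0:ℝ) < N := by linarith
  have h1 : (absNorm v.asIdeal : ℝ) = N ^ v.asIdeal.inertiaDeg ℤ := by
    rw [h1s_absNorm_eq_char_pow F v]; push_cast; rfl
  have h2 : N ^ 2 ≤ (absNorm v.asIdeal : ℝ) := by
    rw [h1]; exact pow_le_pow_right₀ hN1 hf
  calc (absNorm v.asIdeal : ℝ) ^ (-s) ≤ (N ^ 2) ^ (-s) :=
        Real.rpow_le_rpow_of_nonpos (by positivity) h2 (by linarith)
    _ = N ^ ((2:ℝ) * (-s)) := by
        rw [Real.rpow_mul hN0.le]; norm_num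
    _ ≤ N ^ (-(2:ℝ)) := Real.rpow_le_rpow_of_exponent_le hN1 (by linarith)

open scoped Classical in
/-- At most `[F:ℚ]` primes of `F` have a given residue characteristic. -/
theorem h1s_card_char_fiber_le (W : Finset (HeightOneSpectrum (𝓞 F))) (ℓ : ℕ) :
    (W.filter (fun v => h1s_char F v = ℓ)).card ≤ Module.finrank ℤ (𝓞 F) := by
  by_cases hne : (W.filter (fun v => h1s_char F v = ℓ)).Nonempty
  swap
  · rw [Finset.not_nonempty_iff_eq_empty.mp hne]; simp
  obtain ⟨v₀, hv₀⟩ := hne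
  have hℓ : ℓ.Prime := (Finset.mem_filter.mp hv₀).2 ▸ h1s_char_prime F v₀
  have : Fact ℓ.Prime := ⟨hℓ⟩
  have hmax : (span {(ℓ : ℤ)}).IsMaximal := Int.ideal_span_isMaximal_of_prime ℓ
  have hprime : (span {(ℓ : ℤ)}).IsPrime := hmax.isPrime
  have hcard : Fintype.card ((span {(ℓ : ℤ)}).primesOver (𝓞 F)) ≤ Module.finrank ℤ (𝓞 F) := by
    rw [← Ideal.sum_ramification_inertia_eq_finrank (span {(ℓ : ℤ)}) (𝓞 F),
      Fintype.card_eq_sum_ones]
    apply Finset.sum_le_sum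
    intro q _
    have hq : q.1.IsPrime := q.2.1
    exact Nat.succ_le_of_lt
      (Nat.mul_pos (Ideal.ramificationIdx_pos _ _) (Ideal.inertiaDeg_pos _ _))
  refine le_trans ?_ hcard
  rw [← Finset.card_univ]
  refine Finset.card_le_card_of_injOn
    (fun v => if h : h1s_char F v = ℓ then
      (⟨v.asIdeal, v.isPrime, h ▸ h1s_liesOver_char F v⟩ :
        (span {(ℓ : ℤ)}).primesOver (𝓞 F))
      else ⟨v₀.asIdeal, v₀.isPrime, (Finset.mem_filter.mp hv₀).2 ▸ h1s_liesOver_char F v₀⟩)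
    (fun _ _ => Finset.mem_univ _) ?_
  intro w₁ h₁ w₂ h₂ h
  have e₁ := (Finset.mem_filter.mp h₁).2
  have e₂ := (Finset.mem_filter.mp h₂).2
  simp only [e₁, e₂, dite_true] at h
  exact HeightOneSpectrum.ext (congrArg Subtype.val h)

/-- The primes of `F` whose norm is not a prime number contribute `O(1)`. -/
theorem h1s_nonprime_sum_le {s : ℝ} (hs : 1 ≤ s)
    (hsum : Summable (fun v : HeightOneSpectrum (𝓞 F) => (absNorm v.asIdeal : ℝ) ^ (-s))) :
    ∑' v : ↥{v : HeightOneSpectrum (𝓞 F) | ¬ (absNorm v.asIdeal).Prime},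
        (absNorm v.1.asIdeal : ℝ) ^ (-s) ≤
      Module.finrank ℤ (𝓞 F) * ∑' n : ℕ, (n : ℝ) ^ (-(2:ℝ)) := by
  classical
  set h : HeightOneSpectrum (𝓞 F) → ℝ := fun w => (absNorm w.asIdeal : ℝ) ^ (-s) with hh
  set g₂ : ℕ → ℝ := fun n => (n : ℝ) ^ (-(2:ℝ)) with hg₂
  have hg0 : ∀ n, 0 ≤ g₂ n := fun n => Real.rpow_nonneg (Nat.cast_nonneg _) _
  have h2 : Summable g₂ := Real.summable_nat_rpow.mpr (by norm_num)
  obtain ⟨hcs, hcle⟩ := h1z_tsum_comp_le (h1s_char F) (Module.finrank ℤ (𝓞 F))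
    (fun W a => by convert h1s_card_char_fiber_le F W a) g₂ hg0 h2
  set A : Set (HeightOneSpectrum (𝓞 F)) := {v | ¬ (absNorm v.asIdeal).Prime} with hA
  have hle : ∀ v, A.indicator h v ≤ g₂ (h1s_char F v) := by
    intro v
    by_cases hv : v ∈ A
    · rw [Set.indicator_of_mem hv]
      exact h1s_pterm_le_of_not_prime F v hv hs
    · rw [Set.indicator_of_notMem hv]
      exact hg0 _
  rw [tsum_subtype A h]
  exact le_trans ((hsum.indicator _).tsum_le_tsum hle hcs) hcle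

end absolute

/-! ### (Z3): existence of unramified non-split primes of degree one -/

theorem h1s_tsum_le_of_subset_union {β : Type*} {g : β → ℝ} (hg : ∀ b, 0 ≤ g b)
    (hs : Summable g) {A B C : Set β} (h : A ⊆ B ∪ C) :
    ∑' b : ↥A, g b ≤ ∑' b : ↥B, g b + ∑' b : ↥C, g b := by
  classical
  rw [tsum_subtype A g, tsum_subtype B g, tsum_subtype C g,
    ← (hs.indicator B).tsum_add (hs.indicator C)]
  refine (hs.indicator A).tsum_le_tsum (fun b => ?_) ((hs.indicator B).add (hs.indicator C))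
  by_cases hA : b ∈ A
  · rcases h hA with hB | hC
    · rw [Set.indicator_of_mem hA, Set.indicator_of_mem hB]
      have : 0 ≤ C.indicator g b := Set.indicator_nonneg (fun b _ => hg b) b
      linarith
    · rw [Set.indicator_of_mem hA, Set.indicator_of_mem hC]
      have : 0 ≤ B.indicator g b := Set.indicator_nonneg (fun b _ => hg b) b
      linarith
  · rw [Set.indicator_of_notMem hA]
    exact add_nonneg (Set.indicator_nonneg (fun b _ => hg b) b)
      (Set.indicator_nonneg (fun b _ => hg b) b)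

section nonsplit

variable (F M : Type*) [Field F] [NumberField F] [Field M] [NumberField M] [Algebra F M]
  [IsGalois F M]

/-- **(Z3), general form.** In a non-trivial Galois extension `M/F` of number fields, outside any
finite set `T` of primes there is a prime `v` of `F` whose norm is a prime number, which is
unramified in `M` and does not split completely. -/
theorem h1z_exists_nonsplit (hF : h1z_PrimeLog F) (hM : h1z_PrimeLog M)
    (hdeg : 1 < Module.finrank F M) (T : Set (HeightOneSpectrum (𝓞 F))) (hT : T.Finite) :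
    ∃ v : HeightOneSpectrum (𝓞 F), v ∉ T ∧ (absNorm v.asIdeal).Prime ∧
      v ∉ h1z_splitSet F M ∧
      ∀ 𝔔 : Ideal (𝓞 M), 𝔔.IsPrime → 𝔔.LiesOver v.asIdeal → 𝔔.ramificationIdx (𝓞 F) = 1 := by
  classical
  by_contra hcon
  push Not at hcon
  obtain ⟨C₂, hC₂⟩ := h1z_split_density F M hF hM
  obtain ⟨hFs, CF, hCF⟩ := hF
  set R : Set (HeightOneSpectrum (𝓞 F)) := h1z_below F M '' (h1s_ramSet F M) with hR
  have hRfin : R.Finite := (h1s_ramSet_finite F M).image _
  set NP : Set (HeightOneSpectrum (𝓞 F)) := {v | ¬ (absNorm v.asIdeal).Prime} with hNP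
  have hcover : (Set.univ : Set (HeightOneSpectrum (𝓞 F))) ⊆
      (h1z_splitSet F M ∪ NP) ∪ (T ∪ R) := by
    intro v _
    by_cases hvT : v ∈ T
    · exact Or.inr (Or.inl hvT)
    by_cases hvP : (absNorm v.asIdeal).Prime
    swap
    · exact Or.inl (Or.inr hvP)
    by_cases hvS : v ∈ h1z_splitSet F M
    · exact Or.inl (Or.inl hvS)
    obtain ⟨𝔔, h𝔔, hl, he⟩ := hcon v hvT hvP hvS
    refine Or.inr (Or.inr ⟨⟨𝔔, h𝔔, Ideal.ne_bot_of_mem_primesOver v.ne_bot ⟨h𝔔, hl⟩⟩, he, ?_⟩)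
    exact HeightOneSpectrum.ext (hl.over).symm
  have hTR : (T ∪ R).Finite := hT.union hRfin
  set n : ℝ := (Module.finrank F M : ℝ) with hn
  have hn1 : (1:ℝ) < n := by rw [hn]; exact_mod_cast hdeg
  have hδ : 0 < 1 - 1 / n := by
    have : 1 / n < 1 := by rw [div_lt_one (by linarith)]; exact hn1
    linarith
  set BNP : ℝ := Module.finrank ℤ (𝓞 F) * ∑' n : ℕ, (n : ℝ) ^ (-(2:ℝ)) with hBNP
  set K : ℝ := CF + C₂ + BNP + (T ∪ R).ncard with hK
  -- the key inequality for all `s ∈ (1,2]`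
  have hkey : ∀ s : ℝ, 1 < s → s ≤ 2 → (1 - 1 / n) * Real.log (1 / (s - 1)) ≤ K := by
    intro s hs1 hs2
    have hsum := hFs s hs1
    have hg0 : ∀ v : HeightOneSpectrum (𝓞 F), 0 ≤ (absNorm v.asIdeal : ℝ) ^ (-s) :=
      fun v => h1s_pterm_nonneg F v s
    have h1 := h1s_tsum_le_of_subset_union hg0 hsum hcover
    have h2 := h1s_tsum_le_of_subset_union hg0 hsum
      (Set.Subset.refl (h1z_splitSet F M ∪ NP))
    have h3 : ∑' v : ↥(T ∪ R), (absNorm v.1.asIdeal : ℝ) ^ (-s) ≤ (T ∪ R).ncard :=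
      NumberField.Set.primeIdealZetaSum_le_card_of_finite hTR (by linarith)
    have h4 := h1s_nonprime_sum_le F hs1.le hsum
    have h5 := (abs_le.mp (hC₂ s hs1 hs2)).2
    have h6 := (abs_le.mp (hCF s hs1 hs2)).1
    rw [tsum_univ (fun v : HeightOneSpectrum (𝓞 F) => (absNorm v.asIdeal : ℝ) ^ (-s))] at h1
    have : (1 - 1 / n) * Real.log (1 / (s - 1)) =
        Real.log (1 / (s - 1)) - 1 / n * Real.log (1 / (s - 1)) := by ring
    rw [this, hK]
    linarith
  -- choose `s` close to `1`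
  set X : ℝ := |K| / (1 - 1 / n) + 1 with hX
  have hX0 : 0 < X := by
    have : 0 ≤ |K| / (1 - 1 / n) := div_nonneg (abs_nonneg _) hδ.le
    linarith
  have hs1 : 1 < 1 + Real.exp (-X) := by linarith [Real.exp_pos (-X)]
  have hs2 : 1 + Real.exp (-X) ≤ 2 := by
    have : Real.exp (-X) ≤ 1 := Real.exp_le_one_iff.mpr (by linarith)
    linarith
  have := hkey _ hs1 hs2
  have hlog : Real.log (1 / (1 + Real.exp (-X) - 1)) = X := by
    rw [add_sub_cancel_left, one_div, ← Real.exp_neg, neg_neg, Real.log_exp]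
  rw [hlog, hX, mul_add, mul_one, mul_div_cancel₀ _ hδ.ne'] at this
  have := le_abs_self K
  linarith


/-- In a finite field in which every element satisfies `y ^ q = y`, there are at most `q`
elements. -/
theorem h1s_card_le_of_pow_eq {k : Type*} [Field k] [Finite k] (q : ℕ) (hq : 2 ≤ q)
    (h : ∀ y : k, y ^ q = y) : Nat.card k ≤ q := by
  classical
  have : Fintype k := Fintype.ofFinite k
  have hne : (Polynomial.X ^ q - Polynomial.X : Polynomial k) ≠ 0 :=
    FiniteField.X_pow_card_sub_X_ne_zero k (by omega)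
  have hdeg : (Polynomial.X ^ q - Polynomial.X : Polynomial k).natDegree = q :=
    FiniteField.X_pow_card_sub_X_natDegree_eq k (by omega)
  have hsub : (Finset.univ : Finset k).val ≤ (Polynomial.X ^ q - Polynomial.X : Polynomial k).roots := by
    rw [Multiset.le_iff_subset Finset.univ.nodup]
    intro y _
    rw [Polynomial.mem_roots hne]
    simp [h y]
  have := Multiset.card_le_card hsub
  rw [Nat.card_eq_fintype_card, ← Finset.card_univ]
  calc (Finset.univ : Finset k).card = Multiset.card (Finset.univ : Finset k).val := rfl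
    _ ≤ Multiset.card (Polynomial.X ^ q - Polynomial.X : Polynomial k).roots := this
    _ ≤ (Polynomial.X ^ q - Polynomial.X : Polynomial k).natDegree := Polynomial.card_roots' _
    _ = q := hdeg

/-- At an unramified non-split prime `v` of a Galois extension `M/F`, no prime `𝔔` above `v`
has trivial Frobenius: an element `σ` with `σ x ≡ x ^ N(v) mod 𝔔` for all `x` is `≠ 1`. -/
theorem h1z_frob_ne_one (v : HeightOneSpectrum (𝓞 F)) (hvS : v ∉ h1z_splitSet F M)
    (𝔔 : Ideal (𝓞 M)) (h𝔔 : 𝔔.IsPrime) (hl : 𝔔.LiesOver v.asIdeal)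
    (he : 𝔔.ramificationIdx (𝓞 F) = 1)
    (σ : M ≃ₐ[F] M) (hσ : ∀ x : 𝓞 M, σ • x - x ^ absNorm v.asIdeal ∈ 𝔔) : σ ≠ 1 := by
  intro h1
  apply hvS
  have h𝔔0 : 𝔔 ≠ ⊥ := Ideal.ne_bot_of_mem_primesOver v.ne_bot ⟨h𝔔, hl⟩
  set w : HeightOneSpectrum (𝓞 M) := ⟨𝔔, h𝔔, h𝔔0⟩ with hw
  have hbelow : h1z_below F M w = v := HeightOneSpectrum.ext (hl.over).symm
  have hmax : 𝔔.IsMaximal := h𝔔.isMaximal h𝔔0
  let _ : Field (𝓞 M ⧸ 𝔔) := Ideal.Quotient.field 𝔔
  have hfin : Finite (𝓞 M ⧸ 𝔔) := Ideal.finiteQuotientOfFreeOfNeBot 𝔔 h𝔔0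
  have hq2 : 2 ≤ absNorm v.asIdeal := h1s_two_le_absNorm F v
  have hall : ∀ y : 𝓞 M ⧸ 𝔔, y ^ absNorm v.asIdeal = y := by
    intro y
    obtain ⟨x, rfl⟩ := Ideal.Quotient.mk_surjective y
    have := hσ x
    rw [h1, one_smul] at this
    rw [← map_pow]
    exact ((Ideal.Quotient.eq).mpr this).symm
  have hcard := h1s_card_le_of_pow_eq (absNorm v.asIdeal) hq2 hall
  have hN : Nat.card (𝓞 M ⧸ 𝔔) = absNorm v.asIdeal ^ 𝔔.inertiaDeg (𝓞 F) := by
    have := h1z_absNorm_below F M w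
    rw [hbelow] at this
    rw [← this, Ideal.absNorm_apply, Submodule.cardQuot_apply]
  have hf : 𝔔.inertiaDeg (𝓞 F) = 1 := by
    have hpos : 0 < 𝔔.inertiaDeg (𝓞 F) := Ideal.inertiaDeg_pos _ _
    rw [hN] at hcard
    by_contra hne
    have h2 : 2 ≤ 𝔔.inertiaDeg (𝓞 F) := by omega
    have : absNorm v.asIdeal ^ 2 ≤ absNorm v.asIdeal ^ 𝔔.inertiaDeg (𝓞 F) :=
      Nat.pow_le_pow_right (by omega) h2
    nlinarith
  have hgood : w ∈ h1s_goodSet F M := ⟨he, hf⟩
  have := h1s_below_split_of_good F M w hgood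
  rwa [hbelow] at this

/-- Existence of a Frobenius element (no hypothesis on ramification). -/
theorem h1z_exists_frob (v : HeightOneSpectrum (𝓞 F))
    (𝔔 : Ideal (𝓞 M)) (h𝔔 : 𝔔.IsPrime) (hl : 𝔔.LiesOver v.asIdeal) :
    ∃ σ : M ≃ₐ[F] M, ∀ x : 𝓞 M, σ • x - x ^ absNorm v.asIdeal ∈ 𝔔 := by
  have h𝔔0 : 𝔔 ≠ ⊥ := Ideal.ne_bot_of_mem_primesOver v.ne_bot ⟨h𝔔, hl⟩
  have hfin : Finite (𝓞 M ⧸ 𝔔) := Ideal.finiteQuotientOfFreeOfNeBot 𝔔 h𝔔0
  refine ⟨arithFrobAt (𝓞 F) Gal(M/F) 𝔔, fun x => ?_⟩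
  have := IsArithFrobAt.arithFrobAt (𝓞 F) Gal(M/F) 𝔔 x
  rwa [← hl.over, ← Submodule.cardQuot_apply, ← Ideal.absNorm_apply] at this

/-- **(Z3)** in elementary form: in a non-trivial Galois extension `M/F` of number fields, for any
finite set `T` of natural numbers there is a prime `𝔮` of `F` whose norm is a prime number not in
`T`, unramified in `M`, all of whose Frobenius elements are non-trivial. -/
theorem h1z_Z3_of_primeLog (hF : h1z_PrimeLog F) (hM : h1z_PrimeLog M)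
    (hdeg : 1 < Module.finrank F M) (T : Finset ℕ) :
    ∃ 𝔮 : Ideal (𝓞 F), 𝔮.IsPrime ∧ (Ideal.absNorm 𝔮).Prime ∧ Ideal.absNorm 𝔮 ∉ T ∧
      ∀ 𝔔 : Ideal (𝓞 M), 𝔔.IsPrime → 𝔔.LiesOver 𝔮 →
        𝔔.ramificationIdx (𝓞 F) = 1 ∧
        ∃ σ : M ≃ₐ[F] M, σ ≠ 1 ∧ ∀ x : 𝓞 M, σ • x - x ^ Ideal.absNorm 𝔮 ∈ 𝔔 := by
  set T' : Set (HeightOneSpectrum (𝓞 F)) := {v | absNorm v.asIdeal ∈ T} with hT'
  have hT'fin : T'.Finite := by
    have h1 : {I : Ideal (𝓞 F) | absNorm I ∈ T}.Finite := by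
      have : {I : Ideal (𝓞 F) | absNorm I ∈ T} = ⋃ t ∈ T, {I : Ideal (𝓞 F) | absNorm I = t} := by
        ext I; simp
      rw [this]
      exact Set.Finite.biUnion T.finite_toSet (fun t _ => Ideal.finite_setOfPred_absNorm_eq t)
    refine Set.Finite.of_finite_image (f := HeightOneSpectrum.asIdeal) (h1.subset ?_) ?_
    · rintro _ ⟨v, hv, rfl⟩; exact hv
    · intro v₁ _ v₂ _ h; exact HeightOneSpectrum.ext h
  obtain ⟨v, hvT, hvP, hvS, hunr⟩ := h1z_exists_nonsplit F M hF hM hdeg T' hT'fin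
  refine ⟨v.asIdeal, v.isPrime, hvP, hvT, fun 𝔔 h𝔔 hl => ⟨hunr 𝔔 h𝔔 hl, ?_⟩⟩
  obtain ⟨σ, hσ⟩ := h1z_exists_frob F M v 𝔔 h𝔔 hl
  exact ⟨σ, h1z_frob_ne_one F M v hvS 𝔔 h𝔔 hl (hunr 𝔔 h𝔔 hl) σ hσ, hσ⟩

end nonsplit

end Fermat.Agent.Lib.S14
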