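/-
S14 project (speculative), slab (Z2)/(Z3) (helper1), UNCONDITIONAL forms: `ZetaSplit` (helper1)
combined with the (S2) theorem `h9e_primeLog` (helper9, `EulerLogBridge`).

* `h1z_split_density_lower'` : (Z2), the exact `hS` input of the analytic index inequality.
* `h1z_Z3` : (Z3) in the elementary shape `Z3Statement` (lead, AuxPrime) / `h4n_Z3_bridge` (helper4).
-/
import Mathlib
import Fermat.Agent.Lib.S14.ZetaSplit
import Fermat.Agent.Lib.S14.EulerLogBridge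

set_option autoImplicit false

namespace Fermat.Agent.Lib.S14

open NumberField Ideal IsDedekindDomain

/-- **(Z2)**, unconditional. -/
theorem h1z_split_density' (F M : Type*) [Field F] [NumberField F] [Field M] [NumberField M]
    [Algebra F M] [IsGalois F M] :
    ∃ C : ℝ, ∀ s : ℝ, 1 < s → s ≤ 2 →
      |(∑' v : ↥(h1z_splitSet F M), (absNorm v.1.asIdeal : ℝ) ^ (-s))
        - (1 / (Module.finrank F M : ℝ)) * Real.log (1 / (s - 1))| ≤ C :=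
  h1z_split_density F M (h9e_primeLog F) (h9e_primeLog M)

/-- **(Z2)**, unconditional, lower-bound form. -/
theorem h1z_split_density_lower' (F M : Type*) [Field F] [NumberField F] [Field M]
    [NumberField M] [Algebra F M] [IsGalois F M] :
    ∃ C : ℝ, ∀ s : ℝ, 1 < s → s ≤ 2 →
      (1 / (Module.finrank F M : ℝ)) * Real.log (1 / (s - 1)) - C ≤
        ∑' v : ↥(h1z_splitSet F M),
          (absNorm (v : HeightOneSpectrum (𝓞 F)).asIdeal : ℝ) ^ (-s) :=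
  h1z_split_density_lower F M (h9e_primeLog F) (h9e_primeLog M)

/-- **(Z3)**, unconditional, strong form (any non-trivial Galois extension; also gives `e = 1`). -/
theorem h1z_Z3_strong (F M : Type*) [Field F] [NumberField F] [Field M] [NumberField M]
    [Algebra F M] [IsGalois F M] (hdeg : 1 < Module.finrank F M) (T : Finset ℕ) :
    ∃ 𝔮 : Ideal (𝓞 F), 𝔮.IsPrime ∧ (Ideal.absNorm 𝔮).Prime ∧ Ideal.absNorm 𝔮 ∉ T ∧
      ∀ 𝔔 : Ideal (𝓞 M), 𝔔.IsPrime → 𝔔.LiesOver 𝔮 →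
        𝔔.ramificationIdx (𝓞 F) = 1 ∧
        ∃ σ : M ≃ₐ[F] M, σ ≠ 1 ∧ ∀ x : 𝓞 M, σ • x - x ^ Ideal.absNorm 𝔮 ∈ 𝔔 :=
  h1z_Z3_of_primeLog F M (h9e_primeLog F) (h9e_primeLog M) hdeg T

/-- **(Z3)**, unconditional, in the exact shape of `Z3Statement` (lead, msg 447). -/
theorem h1z_Z3 : ∀ (F M : Type) [Field F] [NumberField F] [Field M] [NumberField M]
    [Algebra F M] [IsGalois F M], (Module.finrank F M).Prime → ∀ T : Finset ℕ,
    ∃ 𝔮 : Ideal (𝓞 F), 𝔮.IsPrime ∧ (Ideal.absNorm 𝔮).Prime ∧ Ideal.absNorm 𝔮 ∉ T ∧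
      ∀ 𝔔 : Ideal (𝓞 M), 𝔔.IsPrime → 𝔔.LiesOver 𝔮 →
        ∃ σ : M ≃ₐ[F] M, σ ≠ 1 ∧ ∀ x : 𝓞 M, σ • x - x ^ Ideal.absNorm 𝔮 ∈ 𝔔 := by
  intro F M _ _ _ _ _ _ hp T
  obtain ⟨𝔮, h1, h2, h3, h4⟩ := h1z_Z3_strong F M hp.one_lt T
  exact ⟨𝔮, h1, h2, h3, fun 𝔔 h𝔔 hl => (h4 𝔔 h𝔔 hl).2⟩

end Fermat.Agent.Lib.S14
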