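/-
S14 project (speculative), helper1: `Z3Statement` (lead's elementary form of (Z3), file
`Z3Statement.lean`) is a THEOREM: `h1z_Z3Statement`.
-/
import Mathlib
import Fermat.Agent.Lib.S14.ZetaZ3
import Fermat.Agent.Lib.S14.Z3Statement

set_option autoImplicit false

namespace Fermat.Agent.Lib.S14

/-- (Z3) holds unconditionally. -/
theorem h1z_Z3Statement : Z3Statement := h1z_Z3

end Fermat.Agent.Lib.S14
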