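/-
S14 project (speculative), helper4: **NTStatement from the crossing lemma and (B)**.

`h4n_NT : h4n_CrossStatement → h4n_BStatement → NTStatement`; everything else in the chain is
proved: (Z3) `h1z_Z3Statement`, auxiliary prime `lead_aux_prime`, Stickelberger, equivariance and
degree one (`NTEquiv`), the Artin map (`ArtinIdeal`), reciprocity core (`CrossCore`, `NTCore`).
-/
import Mathlib
import Fermat.Agent.Lib.S14.NTStatement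
import Fermat.Agent.Lib.S14.NTAssembly
import Fermat.Agent.Lib.S14.NTEquiv
import Fermat.Agent.Lib.S14.AuxPrime
import Fermat.Agent.Lib.S14.Z3Proof

set_option autoImplicit false
set_option linter.unusedSectionVars false
set_option linter.style.haveILetI false

open NumberField
open scoped Pointwise

namespace Fermat.Agent.Lib.S14

/-- the crossing lemma, in the shape consumed by the assembly (helper6's `h6c_cross`). -/
def h4n_CrossStatement : Prop :=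
  ∀ (K L : Type) [Field K] [NumberField K] [Field L] [NumberField L] [Algebra K L] [IsGalois K L]
    (p : ℕ) [Fact p.Prime], 3 ≤ p → ∀ [IsCyclotomicExtension {p} ℚ K], Module.finrank K L = p →
    (∀ (𝔓 : Ideal (𝓞 L)) [𝔓.IsPrime], 𝔓 ≠ ⊥ → 𝔓.inertia Gal(L/K) = ⊥) →
    ∀ (l : ℕ), l.Prime → l % p = 1 →
    ∀ (𝔓₁ 𝔓₂ : Ideal (𝓞 L)) [𝔓₁.IsPrime] [𝔓₂.IsPrime] (h₁ : 𝔓₁ ≠ ⊥) (h₂ : 𝔓₂ ≠ ⊥),
      ¬ l ∣ Ideal.absNorm (𝔓₁.under (𝓞 K)) → ¬ l ∣ Ideal.absNorm (𝔓₂.under (𝓞 K)) → ∀ j : ℕ,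
      h2a_frob K L 𝔓₁ h₁ ≠ 1 → h2a_frob K L 𝔓₂ h₂ = h2a_frob K L 𝔓₁ h₁ ^ j →
      (¬ ∃ y : ZMod l, (Ideal.absNorm (𝔓₁.under (𝓞 K)) : ZMod l) = y ^ p) →
      (∃ y : ZMod l, (Ideal.absNorm (𝔓₂.under (𝓞 K)) : ZMod l) =
        (Ideal.absNorm (𝔓₁.under (𝓞 K)) : ZMod l) ^ j * y ^ p) →
      h4c_cl (𝔓₂.under (𝓞 K)) / h4c_cl (𝔓₁.under (𝓞 K)) ^ j ∈ h4c_normSubgroup K L

/-- (B), in helper8's shape. -/
def h4n_BStatement : Prop :=
  ∀ (K L : Type) [Field K] [Field L] [NumberField K] [NumberField L] [Algebra K L] [IsGalois K L]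
    [NumberField.IsTotallyComplex K] (p : ℕ) [Fact p.Prime], Module.finrank K L = p →
    (∀ (𝔓 : Ideal (𝓞 L)) [𝔓.IsPrime], 𝔓 ≠ ⊥ → 𝔓.ramificationIdx (𝓞 K) = 1) →
    ∃ 𝔞 : Ideal (𝓞 K), 𝔞 ≠ ⊥ ∧ ∀ (𝔅 : Ideal (𝓞 L)) (x y : 𝓞 K), 𝔅 ≠ ⊥ → x ≠ 0 → y ≠ 0 →
      Ideal.span {x} * 𝔞 ≠ Ideal.span {y} * Ideal.relNorm (𝓞 K) 𝔅

/-- **NT from the crossing lemma and (B)** (everything else is proved). -/
theorem h4n_NT (hC : h4n_CrossStatement) (hB : h4n_BStatement) : NTStatement := by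
  intro p _ hp3 L _ _ _ ζ hζ hfin hunrI hunrE hconj hsplit
  have hpp : p.Prime := Fact.out
  haveI hcyc := h4n_isCyclotomic ζ hζ
  haveI hnor := h4n_normal ζ hζ
  haveI : NumberField.IsTotallyComplex (IntermediateField.adjoin ℚ {ζ}) :=
    haveI : NeZero p := ⟨hpp.ne_zero⟩
    IsCyclotomicExtension.Rat.isTotallyComplex (n := p) (IntermediateField.adjoin ℚ {ζ})
      (by omega)
  have hunr := h4n_unr ζ hunrI
  refine h4n_NT_of_inputs ζ hp3 hζ hfin hunrI hsplit ?_ ?_ ?_ ?_ ?_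
  · -- Z3
    intro T
    exact h1z_Z3Statement (IntermediateField.adjoin ℚ {ζ}) L (by rw [hfin]; exact hpp) T
  · -- B
    exact hB (IntermediateField.adjoin ℚ {ζ}) L p hfin hunrE
  · -- crossing
    intro 𝔓₁ 𝔓₂ _ _ h₁ h₂ hq₁ hq₂ h12 h1p h2p hg₁ j hj
    obtain ⟨l, hl, -, hlp, hl1, hl2, hlmod, ⟨y, hy⟩, hnot⟩ :=
      lead_aux_prime h1z_Z3Statement hpp (by omega) hq₁ hq₂ h12 h1p h2p j ∅
    refine hC (IntermediateField.adjoin ℚ {ζ}) L p hp3 hfin hunr l hl hlmod 𝔓₁ 𝔓₂ h₁ h₂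
      ?_ ?_ j hg₁ hj hnot ⟨y, by rw [hy, mul_comm]⟩
    · intro hdvd
      exact hl1 ((Nat.prime_dvd_prime_iff_eq hl hq₁).mp hdvd)
    · intro hdvd
      exact hl2 ((Nat.prime_dvd_prime_iff_eq hl hq₂).mp hdvd)
  · -- P2
    intro 𝔓 _ h𝔓 hp𝔓 hne
    exact (h3n_degree_one ζ hζ hfin hunrI hconj 𝔓 h𝔓 hp𝔓 hne).1
  · -- P4
    intro τ 𝔓 _ h𝔓 h'
    exact h3n_frob_smul ζ hζ hfin hunrI hconj τ 𝔓 h𝔓 h'

end Fermat.Agent.Lib.S14
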