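/-
S14 project (speculative), helper4: **(B)** `h4x_BStatement : h4n_BStatement` (the shape consumed by
`h4n_NT`): glue of helper3's `h3f_count_nf` (`|Cl_L^σ| * p ≤ h_K`, all inputs of helper8's
`h8b_count_nf` discharged), helper7's `h7b_B_ideal_of_ambig` and helper8's `h8b_exists_generator`.
-/
import Mathlib
import Fermat.Agent.Lib.S14.ChevGlue3
import Fermat.Agent.Lib.S14.BClass7
import Fermat.Agent.Lib.S14.ChevalleyOut
import Fermat.Agent.Lib.S14.NTFinal

set_option autoImplicit false

open NumberField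
open scoped Pointwise

namespace Fermat.Agent.Lib.S14

/-- **(B)** in the shape consumed by `h4n_NT`. -/
theorem h4x_BStatement : h4n_BStatement := by
  intro K L _ _ _ _ _ _ _ p _ hdeg hunr
  obtain ⟨σ, hσ⟩ := h8b_exists_generator (K := K) (L := L) hdeg
  exact h7b_B_ideal_of_ambig σ p (Fact.out : p.Prime).two_le
    (h3f_count_nf hdeg σ hσ (fun 𝔓 h𝔓p h𝔓 => @hunr 𝔓 h𝔓p h𝔓))

end Fermat.Agent.Lib.S14
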