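/-
S14 project (speculative), helper8, stream (B): final assembly of (B).
`h8b_BStatement : h4n_BStatement` -- for an everywhere unramified cyclic extension `L/K` of
prime degree `p` with `K` totally complex, the relative norm on ideal classes is not surjective.
Inputs: `h3f_count_nf` (ambiguous class count, helper3 glue of helper8/helper9/helper5/helper3),
`h7b_B_ideal_of_ambig` (helper7), `h8b_exists_generator`.
-/
import Mathlib
import Fermat.Agent.Lib.S14.ChevGlue3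
import Fermat.Agent.Lib.S14.ChevalleyOut
import Fermat.Agent.Lib.S14.BClass7
import Fermat.Agent.Lib.S14.NTFinal

set_option autoImplicit false

open NumberField nonZeroDivisors

namespace Fermat.Agent.Lib.S14

/-- (B), in the explicit form. -/
theorem h8b_B_explicit {K L : Type} [Field K] [Field L] [NumberField K] [NumberField L]
    [Algebra K L] [IsGalois K L] [IsTotallyComplex K] {p : ℕ} [hp : Fact p.Prime]
    (hdeg : Module.finrank K L = p)
    (hunr : ∀ 𝔓 : Ideal (𝓞 L), 𝔓.IsPrime → 𝔓 ≠ ⊥ → 𝔓.ramificationIdx (𝓞 K) = 1) :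
    ∃ 𝔞 : Ideal (𝓞 K), 𝔞 ≠ ⊥ ∧ ∀ (𝔅 : Ideal (𝓞 L)) (x y : 𝓞 K), 𝔅 ≠ ⊥ → x ≠ 0 → y ≠ 0 →
      Ideal.span {x} * 𝔞 ≠ Ideal.span {y} * Ideal.relNorm (𝓞 K) 𝔅 := by
  obtain ⟨σ, hσ⟩ := h8b_exists_generator (K := K) (L := L) hdeg
  exact h7b_B_ideal_of_ambig σ p hp.out.two_le (h3f_count_nf hdeg σ hσ hunr)

/-- **(B)**: the statement consumed by `h4n_NT`. -/
theorem h8b_BStatement : h4n_BStatement := by
  intro K L _ _ _ _ _ _ _ p _ hdeg hunr
  exact h8b_B_explicit hdeg (fun 𝔓 h𝔓 hne => @hunr 𝔓 h𝔓 hne)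

end Fermat.Agent.Lib.S14
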