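/-
S14 project (speculative), piece (BR1) (helper5): reduction of `ExtCitation.ExtVanishingCts p` to a
group-theoretic statement about `G_ℚ` (`NTGroupStatement`): an admissible extension
`0 → ℤ/p → V → μ_p → 0` is described by a cocycle `b : G_ℚ → 𝔽_p` with `σ e₂ = χ(σ) e₂ + b(σ) e₁`,
`b (σ τ) = χ(τ) b(σ) + b(τ)`.  If `b` vanishes on `ker χ = G_{ℚ(ζ_p)}` the extension splits (Maschke
by hand).  Otherwise `b` restricted to `ker χ` cuts out a cyclic extension of degree `p` of `ℚ(ζ_p)`,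
unramified everywhere (outside `p` by `unramified_outside`, at `p` by `locally_split`), which
`NTGroupStatement` excludes (this is where class field theory + Stickelberger enter).
-/
import Mathlib
import Fermat.Prelude.Def_ExtCitation_AdmissibleExtension_v2

set_option autoImplicit false

namespace Fermat.Agent.Lib.S14

open ExtCitation

/-- `ℚ̄`. -/
abbrev Qb : Type := AlgebraicClosure ℚ

/-- `G_ℚ`. -/
abbrev GQb : Type := Qb ≃ₐ[ℚ] Qb

/-- The mod `p` cyclotomic character, with values in `ZMod p`. -/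
noncomputable def h5b_chi (p : ℕ) [Fact p.Prime] (σ : GQb) : ZMod p := (cycloExp p σ : ZMod p)

theorem h5b_chi_eq (p : ℕ) [Fact p.Prime] (σ : GQb) :
    haveI : NeZero p := ⟨(Fact.out : p.Prime).ne_zero⟩
    h5b_chi p σ = ((modularCyclotomicCharacter Qb (card_rootsOfUnity_eq_self p)
      (σ : Qb ≃+* Qb) : (ZMod p)ˣ) : ZMod p) := by
  have : NeZero p := ⟨(Fact.out : p.Prime).ne_zero⟩
  unfold h5b_chi cycloExp
  rw [ZMod.natCast_zmod_val]

theorem h5b_chi_mul (p : ℕ) [Fact p.Prime] (σ τ : GQb) :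
    h5b_chi p (σ * τ) = h5b_chi p σ * h5b_chi p τ := by
  have : NeZero p := ⟨(Fact.out : p.Prime).ne_zero⟩
  rw [h5b_chi_eq, h5b_chi_eq, h5b_chi_eq]
  have : ((σ * τ : GQb) : Qb ≃+* Qb) = (σ : Qb ≃+* Qb) * (τ : Qb ≃+* Qb) := rfl
  rw [this, map_mul, Units.val_mul]

theorem h5b_chi_one (p : ℕ) [Fact p.Prime] : h5b_chi p (1 : GQb) = 1 := by
  have : NeZero p := ⟨(Fact.out : p.Prime).ne_zero⟩
  rw [h5b_chi_eq]
  have : ((1 : GQb) : Qb ≃+* Qb) = 1 := rfl
  rw [this, map_one, Units.val_one]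

theorem h5b_chi_ne_zero (p : ℕ) [Fact p.Prime] (σ : GQb) : h5b_chi p σ ≠ 0 := by
  have : NeZero p := ⟨(Fact.out : p.Prime).ne_zero⟩
  rw [h5b_chi_eq]
  exact Units.ne_zero _

/-- The group-theoretic form of the number-theoretic core of S14: there is no cocycle
`b : G_ℚ → 𝔽_p(χ⁻¹)`-type function (`b (σ τ) = χ τ * b σ + b τ`), trivial on an open subgroup,
vanishing on `I_A ∩ ker χ` for every place `A` and on `D_A ∩ ker χ` for the places `A | p`, and
nonzero on `ker χ`. -/
def NTGroupStatement : Prop :=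
  ∀ (p : ℕ) [Fact p.Prime], 3 ≤ p → ∀ b : GQb → ZMod p,
    (∀ σ τ : GQb, b (σ * τ) = h5b_chi p τ * b σ + b τ) →
    IsOpen {σ : GQb | h5b_chi p σ = 1 ∧ b σ = 0} →
    (∀ ℓ : ℕ, ℓ.Prime → ∀ A : ValuationSubring Qb, A.LiesOverPrime ℓ →
      ∀ σ ∈ A.inertiaSubgroupIn ℚ, h5b_chi p σ = 1 → b σ = 0) →
    (∀ A : ValuationSubring Qb, A.LiesOverPrime p →
      ∀ σ ∈ A.decompositionSubgroup ℚ, h5b_chi p σ = 1 → b σ = 0) →
    (∃ σ : GQb, h5b_chi p σ = 1 ∧ b σ ≠ 0) → False

section alg

variable {p : ℕ} [Fact p.Prime] {V : Type} [AddCommGroup V] [Module (ZMod p) V]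

/-- A submodule of cardinality `p` is spanned by any of its nonzero vectors. -/
theorem h5b_exists_smul_eq {C : Submodule (ZMod p) V} (hC : Nat.card C = p) {e₁ : V}
    (he₁ : e₁ ∈ C) (h0 : e₁ ≠ 0) {x : V} (hx : x ∈ C) : ∃ t : ZMod p, x = t • e₁ := by
  have : Finite C := Nat.finite_of_card_ne_zero (by rw [hC]; exact (Fact.out : p.Prime).ne_zero)
  let f : ZMod p → C := fun t => ⟨t • e₁, C.smul_mem t he₁⟩
  have hinj : Function.Injective f := by
    intro t t' h
    have h' : t • e₁ = t' • e₁ := congrArg Subtype.val h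
    have h'' : (t - t') • e₁ = 0 := by rw [sub_smul, h', sub_self]
    rcases smul_eq_zero.mp h'' with h1 | h1
    · exact sub_eq_zero.mp h1
    · exact absurd h1 h0
  have hbij : Function.Bijective f := by
    apply Function.Injective.bijective_of_nat_card_le hinj
    rw [hC, Nat.card_zmod]
  obtain ⟨t, ht⟩ := hbij.2 ⟨x, hx⟩
  exact ⟨t, (congrArg Subtype.val ht).symm⟩

theorem h5b_smul_inj {e₁ : V} (h0 : e₁ ≠ 0) {t t' : ZMod p} (h : t • e₁ = t' • e₁) : t = t' := by
  have h'' : (t - t') • e₁ = 0 := by rw [sub_smul, h, sub_self]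
  rcases smul_eq_zero.mp h'' with h1 | h1
  · exact sub_eq_zero.mp h1
  · exact absurd h1 h0

end alg

section main

variable {p : ℕ} [Fact p.Prime] {V : Type} [AddCommGroup V] [Module (ZMod p) V]
  [DistribMulAction GQb V] [SMulCommClass GQb (ZMod p) V]

/-- Reduction of S14 to the group-theoretic number-theoretic core. -/
theorem h5b_splits_of_NTG (hNT : NTGroupStatement) (h3 : 3 ≤ p) (C : Submodule (ZMod p) V)
    (hadm : IsAdmissibleExtensionCts p V C) : SplitsGlobally C := by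
  have hp := (Fact.out : p.Prime)
  obtain ⟨hst, hfix, hcyc, hcardC, hcardV, hunr, hloc⟩ := hadm.toIsAdmissibleExtension
  have hopen := hadm.open_kernel
  have hfinV : Finite V :=
    Nat.finite_of_card_ne_zero (by rw [hcardV]; exact pow_ne_zero _ hp.ne_zero)
  have hfinC : Finite C := Nat.finite_of_card_ne_zero (by rw [hcardC]; exact hp.ne_zero)
  -- a basis vector of `C`
  obtain ⟨e₁, he₁C, he₁0⟩ : ∃ e₁ ∈ C, e₁ ≠ 0 := by
    have h1 : 1 < Nat.card C := by rw [hcardC]; exact hp.one_lt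
    have : Nontrivial C := Finite.one_lt_card_iff_nontrivial.mp h1
    obtain ⟨x, hx⟩ := exists_ne (0 : C)
    exact ⟨x, x.2, fun h => hx (Subtype.ext h)⟩
  -- a vector outside `C`
  obtain ⟨e₂, he₂⟩ : ∃ e₂ : V, e₂ ∉ C := by
    by_contra h
    push Not at h
    have htop : C = ⊤ := eq_top_iff.mpr (fun x _ => h x)
    have hcard : Nat.card C = Nat.card V := by
      rw [htop]
      exact Nat.card_congr (Submodule.topEquiv (R := ZMod p) (M := V)).toEquiv
    rw [hcardC, hcardV] at hcard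
    have : p ^ 1 = p ^ 2 := by rw [pow_one]; exact hcard
    have := Nat.pow_right_injective hp.two_le this
    omega
  have hb : ∀ σ : GQb, ∃ t : ZMod p, σ • e₂ - h5b_chi p σ • e₂ = t • e₁ :=
    fun σ => h5b_exists_smul_eq hcardC he₁C he₁0 (hcyc σ e₂)
  choose b hb using hb
  have hσe₂ : ∀ σ : GQb, σ • e₂ = h5b_chi p σ • e₂ + b σ • e₁ := fun σ => by
    rw [← hb σ]; abel
  have hσe₁ : ∀ σ : GQb, σ • e₁ = e₁ := fun σ => hfix σ e₁ he₁C
  -- independence of `e₁, e₂`
  have hind : ∀ u t : ZMod p, u • e₂ = t • e₁ → u = 0 ∧ t = 0 := by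
    intro u t h
    by_cases hu : u = 0
    · subst hu
      rw [zero_smul] at h
      refine ⟨rfl, ?_⟩
      rcases smul_eq_zero.mp h.symm with h1 | h1
      · exact h1
      · exact absurd h1 he₁0
    · exfalso
      apply he₂
      have : e₂ = (u⁻¹ * t) • e₁ := by
        rw [mul_smul, ← h, smul_smul, inv_mul_cancel₀ hu, one_smul]
      rw [this]
      exact C.smul_mem _ he₁C
  -- the cocycle relation
  have hcoc : ∀ σ τ : GQb, b (σ * τ) = h5b_chi p τ * b σ + b τ := by
    intro σ τ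
    have h1 : (σ * τ) • e₂ = (h5b_chi p σ * h5b_chi p τ) • e₂ + b (σ * τ) • e₁ := by
      rw [← h5b_chi_mul]; exact hσe₂ _
    have h2 : (σ * τ) • e₂
        = (h5b_chi p σ * h5b_chi p τ) • e₂ + (h5b_chi p τ * b σ + b τ) • e₁ := by
      rw [mul_smul, hσe₂ τ, smul_add, smul_comm σ (h5b_chi p τ) e₂, smul_comm σ (b τ) e₁, hσe₁,
        hσe₂ σ, smul_add, smul_smul, smul_smul, add_smul, mul_comm (h5b_chi p τ) (h5b_chi p σ)]
      abel
    exact h5b_smul_inj he₁0 (add_left_cancel (h1.symm.trans h2))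
  have hχinv : ∀ σ : GQb, h5b_chi p σ⁻¹ * h5b_chi p σ = 1 := fun σ => by
    rw [← h5b_chi_mul, inv_mul_cancel, h5b_chi_one]
  have hb1 : b 1 = 0 := by
    have := hcoc 1 1
    rw [mul_one, h5b_chi_one, one_mul] at this
    exact left_eq_add.mp this
  -- the elements acting trivially on `V`
  have hU : ∀ σ : GQb, (∀ v : V, σ • v = v) → h5b_chi p σ = 1 ∧ b σ = 0 := by
    intro σ hσ
    have h := hσe₂ σ
    rw [hσ e₂] at h
    have h' : (1 - h5b_chi p σ) • e₂ = b σ • e₁ := by
      rw [sub_smul, one_smul]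
      nth_rewrite 1 [h]
      abel
    obtain ⟨h1, h2⟩ := hind _ _ h'
    exact ⟨(sub_eq_zero.mp h1).symm, h2⟩
  let S : Subgroup GQb :=
    { carrier := {σ | h5b_chi p σ = 1 ∧ b σ = 0}
      mul_mem' := by
        rintro σ τ ⟨h1, h2⟩ ⟨h3, h4⟩
        refine ⟨by rw [h5b_chi_mul, h1, h3, one_mul], ?_⟩
        rw [hcoc, h2, h4, mul_zero, add_zero]
      one_mem' := ⟨h5b_chi_one p, hb1⟩
      inv_mem' := by
        rintro σ ⟨h1, h2⟩
        have h3 : h5b_chi p σ⁻¹ = 1 := by
          have := hχinv σ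
          rwa [h1, mul_one] at this
        refine ⟨h3, ?_⟩
        have := hcoc σ σ⁻¹
        rw [mul_inv_cancel, hb1, h2, mul_zero, zero_add] at this
        exact this.symm }
  let U : Subgroup GQb :=
    { carrier := {σ | ∀ v : V, σ • v = v}
      mul_mem' := fun {σ τ} hσ hτ v => by rw [mul_smul, hτ v, hσ v]
      one_mem' := fun v => one_smul _ v
      inv_mem' := fun {σ} hσ v => by rw [inv_smul_eq_iff, hσ v] }
  have hUS : U ≤ S := fun σ hσ => hU σ hσ
  have hSopen : IsOpen (S : Set GQb) := Subgroup.isOpen_mono hUS hopen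
  by_cases hcase : ∃ σ : GQb, h5b_chi p σ = 1 ∧ b σ ≠ 0
  · exfalso
    -- `b` vanishes on `D_A ∩ ker χ` for `A | p`
    have hdecp : ∀ A : ValuationSubring Qb, A.LiesOverPrime p →
        ∀ σ ∈ A.decompositionSubgroup ℚ, h5b_chi p σ = 1 → b σ = 0 := by
      intro A hA σ hσD hχ
      obtain ⟨C', hC'st, hcompl⟩ := hloc A hA
      have he₂top : e₂ ∈ C ⊔ C' := by
        rw [hcompl.codisjoint.eq_top]; exact Submodule.mem_top
      obtain ⟨c₁, hc₁, c', hc', hsum⟩ := Submodule.mem_sup.mp he₂top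
      have hσc' := hC'st σ hσD c' hc'
      have hdiff : σ • c' - c' = b σ • e₁ := by
        have hc'eq : c' = e₂ - c₁ := by rw [← hsum]; abel
        rw [hc'eq, smul_sub, hfix σ c₁ hc₁, hσe₂ σ, hχ, one_smul]
        abel
      have hmemC : σ • c' - c' ∈ C := by rw [hdiff]; exact C.smul_mem _ he₁C
      have hmemC' : σ • c' - c' ∈ C' := C'.sub_mem hσc' hc'
      have hzero : σ • c' - c' = 0 := (Submodule.disjoint_def.mp hcompl.disjoint) _ hmemC hmemC'
      rw [hdiff] at hzero
      rcases smul_eq_zero.mp hzero with h1 | h1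
      · exact h1
      · exact absurd h1 he₁0
    refine hNT p h3 b hcoc hSopen ?_ hdecp hcase
    intro ℓ hℓ A hA σ hσ hχ
    by_cases hℓp : ℓ = p
    · subst hℓp
      have hσD : σ ∈ A.decompositionSubgroup ℚ := by
        obtain ⟨τ, -, rfl⟩ := hσ
        exact τ.2
      exact hdecp A hA σ hσD hχ
    · exact (hU σ (fun v => hunr ℓ hℓ hℓp A hA σ hσ v)).2
  · -- the split case: Maschke by hand
    push Not at hcase
    have hcomm : ∀ σ τ : GQb, b σ * (h5b_chi p τ - 1) = b τ * (h5b_chi p σ - 1) := by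
      intro σ τ
      have hh : h5b_chi p ((τ * σ)⁻¹ * (σ * τ)) = 1 := by
        rw [h5b_chi_mul, h5b_chi_mul p σ τ, mul_comm (h5b_chi p σ), ← h5b_chi_mul p τ σ]
        exact hχinv _
      have hbh := hcase _ hh
      have e : σ * τ = (τ * σ) * ((τ * σ)⁻¹ * (σ * τ)) := by group
      have h1 := hcoc (τ * σ) ((τ * σ)⁻¹ * (σ * τ))
      rw [← e, hh, one_mul, hbh, add_zero, hcoc σ τ, hcoc τ σ] at h1
      linear_combination h1
    obtain ⟨c, hc⟩ : ∃ c : ZMod p, ∀ σ : GQb, b σ = c * (h5b_chi p σ - 1) := by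
      by_cases hσ₀ : ∃ σ₀ : GQb, h5b_chi p σ₀ ≠ 1
      · obtain ⟨σ₀, hσ₀⟩ := hσ₀
        have hne : h5b_chi p σ₀ - 1 ≠ 0 := sub_ne_zero.mpr hσ₀
        refine ⟨b σ₀ / (h5b_chi p σ₀ - 1), fun σ => ?_⟩
        have := hcomm σ σ₀
        field_simp
        linear_combination this
      · push Not at hσ₀
        exact ⟨0, fun σ => by rw [zero_mul]; exact hcase σ (hσ₀ σ)⟩
    have heC : e₂ + c • e₁ ∉ C := by
      intro h
      apply he₂
      have : e₂ = (e₂ + c • e₁) - c • e₁ := by abel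
      rw [this]
      exact C.sub_mem h (C.smul_mem _ he₁C)
    have he0 : e₂ + c • e₁ ≠ 0 := fun h => heC (h ▸ C.zero_mem)
    refine ⟨Submodule.span (ZMod p) {e₂ + c • e₁}, ?_, ?_⟩
    · intro σ x hx
      obtain ⟨t, rfl⟩ := Submodule.mem_span_singleton.mp hx
      rw [smul_comm]
      apply Submodule.smul_mem
      have : σ • (e₂ + c • e₁) = h5b_chi p σ • (e₂ + c • e₁) := by
        rw [smul_add, smul_comm σ c e₁, hσe₁, hσe₂, hc σ, smul_add, smul_smul, add_assoc,
          ← add_smul]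
        congr 2
        ring
      rw [this]
      exact Submodule.smul_mem _ _ (Submodule.mem_span_singleton_self _)
    · have hfd : Module.Finite (ZMod p) V := Module.Finite.of_finite
      have hrankV : Module.finrank (ZMod p) V = 2 := by
        have := Module.natCard_eq_pow_finrank (K := ZMod p) (V := V)
        rw [hcardV, Nat.card_zmod] at this
        exact (Nat.pow_right_injective hp.two_le this).symm
      have hrankC : Module.finrank (ZMod p) C = 1 := by
        have := Module.natCard_eq_pow_finrank (K := ZMod p) (V := C)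
        rw [hcardC, Nat.card_zmod] at this
        have h1 : p ^ 1 = p ^ Module.finrank (ZMod p) C := by rw [pow_one]; exact this
        exact (Nat.pow_right_injective hp.two_le h1).symm
      rw [Submodule.isCompl_iff_disjoint]
      · rw [Submodule.disjoint_def]
        intro x hxC hxs
        obtain ⟨t, rfl⟩ := Submodule.mem_span_singleton.mp hxs
        by_cases ht : t = 0
        · rw [ht, zero_smul]
        · exfalso
          apply heC
          have : e₂ + c • e₁ = t⁻¹ • (t • (e₂ + c • e₁)) := by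
            rw [smul_smul, inv_mul_cancel₀ ht, one_smul]
          rw [this]
          exact C.smul_mem _ hxC
      · rw [hrankV, hrankC, finrank_span_singleton he0]

/-- **(BR1)**: S14 from the group-theoretic core. -/
theorem h5b_s14_of_NTG (hNT : NTGroupStatement) {p : ℕ} [Fact p.Prime] (h3 : 3 ≤ p) :
    ExtCitation.ExtVanishingCts p :=
  fun _ _ _ _ _ C hadm => h5b_splits_of_NTG hNT h3 C hadm

end main

end Fermat.Agent.Lib.S14
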