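/-
S14 project (speculative), auxiliary lemmas for the bridge (BR2) (helper5):
* `h5b_inertia_le_of_ramificationIdx`: a subgroup `J ≤ Gal(L/ℚ)` whose fixed field is unramified at
  the prime below `𝔔` contains the inertia group of `𝔔`;
* `h5b_exists_valuationSubring`: every nonzero prime of a number field `E ⊆ Lb` is cut out by a
  valuation subring of `Lb`;
* `h5b_card_of_comap`, `h5b_relIndex_eq_prime`: index bookkeeping.
-/
import Mathlib
import Fermat.Agent.Lib.S13.ValBridge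

set_option autoImplicit false

namespace Fermat.Agent.Lib.S14

open NumberField Fermat.Agent.Lib.S13



/-- If the prime below `𝔔` in the fixed field of a subgroup `J` of `Gal(L/ℚ)` is unramified over
`ℤ`, then `J` contains the inertia group of `𝔔`. -/
theorem h5b_inertia_le_of_ramificationIdx (L : Type*) [Field L] [NumberField L] [IsGalois ℚ L]
    (𝔔 : Ideal (𝓞 L)) [𝔔.IsPrime] (J : Subgroup (L ≃ₐ[ℚ] L))
    (he : (𝔔.under (𝓞 (IntermediateField.fixedField J))).ramificationIdx ℤ = 1) :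
    𝔔.inertia (L ≃ₐ[ℚ] L) ≤ J := by
  have i2 : IsGaloisGroup J (IntermediateField.fixedField J) L :=
    IsGaloisGroup.subgroup (L ≃ₐ[ℚ] L) ℚ L J
  have i4 : IsGaloisGroup J (𝓞 (IntermediateField.fixedField J)) (𝓞 L) :=
    IsGaloisGroup.of_isFractionRing _ _ _ (IntermediateField.fixedField J) L
  have h1 : Nat.card (𝔔.inertia (L ≃ₐ[ℚ] L)) = (𝔔.under ℤ).ramificationIdxIn (𝓞 L) :=
    Ideal.card_inertia_eq_ramificationIdxIn (G := (L ≃ₐ[ℚ] L)) (𝔔.under ℤ) 𝔔
  have h1' : (𝔔.under ℤ).ramificationIdxIn (𝓞 L) = 𝔔.ramificationIdx ℤ :=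
    Ideal.ramificationIdxIn_eq_ramificationIdx (𝔔.under ℤ) 𝔔 (L ≃ₐ[ℚ] L)
  have h2 : Nat.card (Ideal.inertia J 𝔔)
      = (𝔔.under (𝓞 (IntermediateField.fixedField J))).ramificationIdxIn (𝓞 L) :=
    Ideal.card_inertia_eq_ramificationIdxIn (G := J)
      (𝔔.under (𝓞 (IntermediateField.fixedField J))) 𝔔
  have h2' : (𝔔.under (𝓞 (IntermediateField.fixedField J))).ramificationIdxIn (𝓞 L)
      = 𝔔.ramificationIdx (𝓞 (IntermediateField.fixedField J)) :=
    Ideal.ramificationIdxIn_eq_ramificationIdx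
      (𝔔.under (𝓞 (IntermediateField.fixedField J))) 𝔔 J
  have h4 := Ideal.ramificationIdx_tower (R := ℤ)
    (𝔔.under (𝓞 (IntermediateField.fixedField J))) 𝔔
  rw [he, one_mul] at h4
  -- `|I ∩ J| = |I|`
  have hcard : Nat.card (Ideal.inertia J 𝔔) = Nat.card (𝔔.inertia (L ≃ₐ[ℚ] L)) := by
    rw [h2, h2', h1, h1', h4]
  -- `Ideal.inertia J 𝔔 = I.subgroupOf J`
  have hsub : Ideal.inertia J 𝔔 = (𝔔.inertia (L ≃ₐ[ℚ] L)).subgroupOf J := by
    ext j
    rfl
  rw [hsub] at hcard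
  have hmap : ((𝔔.inertia (L ≃ₐ[ℚ] L)).subgroupOf J).map J.subtype
      = 𝔔.inertia (L ≃ₐ[ℚ] L) ⊓ J := Subgroup.subgroupOf_map_subtype _ _
  have hcard2 : Nat.card (𝔔.inertia (L ≃ₐ[ℚ] L) ⊓ J : Subgroup (L ≃ₐ[ℚ] L))
      = Nat.card (𝔔.inertia (L ≃ₐ[ℚ] L)) := by
    rw [← hmap, ← hcard]
    exact Nat.card_congr
      (((𝔔.inertia (L ≃ₐ[ℚ] L)).subgroupOf J).equivMapOfInjective J.subtype
        J.subtype_injective).toEquiv.symm
  have heq : 𝔔.inertia (L ≃ₐ[ℚ] L) ⊓ J = 𝔔.inertia (L ≃ₐ[ℚ] L) :=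
    Subgroup.eq_of_le_of_card_ge inf_le_left (le_of_eq hcard2.symm)
  exact inf_eq_left.mp heq




/-- A nonzero prime of `𝓞 E` contains a prime number. -/
theorem h5b_exists_prime_mem {E : Type*} [Field E] [NumberField E] (𝔔 : Ideal (𝓞 E))
    [h𝔔 : 𝔔.IsPrime] (hne : 𝔔 ≠ ⊥) : ∃ ℓ : ℕ, ℓ.Prime ∧ ((ℓ : ℕ) : 𝓞 E) ∈ 𝔔 := by
  have hn : ((Ideal.absNorm 𝔔 : ℕ) : 𝓞 E) ∈ 𝔔 := by
    have := Ideal.absNorm_mem 𝔔
    exact_mod_cast this
  have hn1 : Ideal.absNorm 𝔔 ≠ 1 := by
    intro h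
    exact h𝔔.ne_top (Ideal.absNorm_eq_one_iff.mp h)
  have hn0 : Ideal.absNorm 𝔔 ≠ 0 := by
    intro h
    exact hne (Ideal.absNorm_eq_zero_iff.mp h)
  -- induction on the factorisation
  have key : ∀ n : ℕ, n ≠ 0 → n ≠ 1 → ((n : ℕ) : 𝓞 E) ∈ 𝔔 →
      ∃ ℓ : ℕ, ℓ.Prime ∧ ((ℓ : ℕ) : 𝓞 E) ∈ 𝔔 := by
    intro n
    induction n using Nat.strong_induction_on with
    | _ n ih =>
      intro h0 h1 hmem
      obtain ⟨q, hq, hqn⟩ := Nat.exists_prime_and_dvd h1
      obtain ⟨m, rfl⟩ := hqn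
      have hmem' : ((q : ℕ) : 𝓞 E) * ((m : ℕ) : 𝓞 E) ∈ 𝔔 := by exact_mod_cast hmem
      rcases h𝔔.mem_or_mem hmem' with h | h
      · exact ⟨q, hq, h⟩
      · have hm0 : m ≠ 0 := by rintro rfl; exact h0 (mul_zero q)
        have hm1 : m ≠ 1 := by
          rintro rfl
          have : ((1 : ℕ) : 𝓞 E) ∈ 𝔔 := h
          rw [Nat.cast_one] at this
          exact h𝔔.ne_top ((Ideal.eq_top_iff_one 𝔔).mpr this)
        have hlt : m < q * m := by
          have := hq.two_le
          nlinarith [Nat.pos_of_ne_zero hm0]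
        exact ih m hlt hm0 hm1 h
  exact key _ hn0 hn1 hn

/-- Every nonzero prime of the ring of integers of a number field `E ⊆ Lb` is cut out by a
valuation subring of `Lb`, lying over a prime number. -/
theorem h5b_exists_valuationSubring {E Lb : Type*} [Field E] [NumberField E] [Field Lb]
    (ι : E →+* Lb) (𝔔 : Ideal (𝓞 E)) [h𝔔 : 𝔔.IsPrime] (hne : 𝔔 ≠ ⊥) :
    ∃ (A : ValuationSubring Lb) (ℓ : ℕ), ℓ.Prime ∧ A.LiesOverPrime ℓ ∧ h5_primeOf ι A = 𝔔 := by
  set f : 𝓞 E →+* Lb := ι.comp (algebraMap (𝓞 E) E) with hf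
  have hfinj : Function.Injective f :=
    ι.injective.comp (NumberField.RingOfIntegers.coe_injective)
  set R : Subring Lb := f.range with hR
  set I : Ideal R := 𝔔.map f.rangeRestrict with hI
  have hsurj : Function.Surjective f.rangeRestrict := f.rangeRestrict_surjective
  have hne' : I ≠ ⊤ := by
    intro h
    have h1 : (1 : R) ∈ I := by rw [h]; trivial
    rw [hI, Ideal.mem_map_iff_of_surjective _ hsurj] at h1
    obtain ⟨y, hy, hy1⟩ := h1
    have h2 : f y = 1 := by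
      have := congrArg Subtype.val hy1
      simpa using this
    have h3 : y = 1 := hfinj (by rw [h2, map_one])
    rw [h3] at hy
    exact h𝔔.ne_top ((Ideal.eq_top_iff_one 𝔔).mpr hy)
  obtain ⟨B, -, hB⟩ := Ideal.image_subset_nonunits_valuationSubring I hne'
  have hle : 𝔔 ≤ h5_primeOf ι B := by
    intro y hy
    rw [h5_mem_primeOf_iff]
    have h1 : (f y : Lb) ∈ B.nonunits := by
      apply hB
      exact ⟨f.rangeRestrict y, Ideal.mem_map_of_mem _ hy, rfl⟩
    exact (ValuationSubring.mem_nonunits_iff (A := B)).mp h1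
  have hmax : 𝔔.IsMaximal := h𝔔.isMaximal hne
  have heq : 𝔔 = h5_primeOf ι B := hmax.eq_of_le (Ideal.IsPrime.ne_top inferInstance) hle
  obtain ⟨ℓ, hℓ, hℓmem⟩ := h5b_exists_prime_mem 𝔔 hne
  refine ⟨B, ℓ, hℓ, ?_, heq.symm⟩
  have h2 := hle hℓmem
  rw [h5_mem_primeOf_iff] at h2
  show (ℓ : Lb) ∈ B.nonunits
  rw [ValuationSubring.mem_nonunits_iff]
  simpa using h2



/-- Counting lemma: for a surjective hom `ρ : G → G'` with kernel `N ≤ H`, the image of `H`
(equivalently any `Z` with `Z.comap ρ = H`) has cardinality `N.relIndex H`. -/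
theorem h5b_card_of_comap {G G' : Type*} [Group G] [Group G'] [Finite G'] (ρ : G →* G')
    (hρ : Function.Surjective ρ) (N H : Subgroup G) (hN : ρ.ker = N) (hNH : N ≤ H)
    (Z : Subgroup G') (hZ : Z.comap ρ = H) : Nat.card Z = N.relIndex H := by
  have h1 : Z.index = H.index := by
    rw [← hZ, Subgroup.index_comap_of_surjective Z hρ]
  have h2 : N.index = Nat.card G' := by
    rw [← hN, Subgroup.index_ker]
    have : ρ.range = ⊤ := MonoidHom.range_eq_top.mpr hρ
    rw [this]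
    exact Subgroup.card_top
  have h3 := Subgroup.relIndex_mul_index hNH
  have h4 := Z.index_mul_card
  rw [h1, ← h2, ← h3, mul_comm] at h4
  have hH0 : H.index ≠ 0 := by
    rw [← h1]
    exact Subgroup.index_ne_zero_of_finite
  exact Nat.eq_of_mul_eq_mul_right (Nat.pos_of_ne_zero hH0) h4

/-- The relative index of the kernel of a nonzero hom to `ZMod p`. -/
theorem h5b_relIndex_eq_prime {G : Type*} [Group G] {p : ℕ} [Fact p.Prime] (N H : Subgroup G)
    (β : G → ZMod p) (hβ : ∀ σ ∈ H, ∀ τ ∈ H, β (σ * τ) = β σ + β τ)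
    (hker : ∀ σ ∈ H, β σ = 0 ↔ σ ∈ N) (hne : ∃ σ ∈ H, β σ ≠ 0) : N.relIndex H = p := by
  let f : H →* Multiplicative (ZMod p) :=
    { toFun := fun h => Multiplicative.ofAdd (β h)
      map_one' := by
        have h1 := hβ 1 H.one_mem 1 H.one_mem
        rw [mul_one] at h1
        have : β 1 = 0 := by
          have h2 : β (1 : G) + 0 = β 1 + β 1 := by rw [add_zero]; exact h1
          exact (add_left_cancel h2).symm
        show Multiplicative.ofAdd (β ((1 : H) : G)) = 1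
        rw [Subgroup.coe_one, this]
        rfl
      map_mul' := fun x y => by
        show Multiplicative.ofAdd (β ((x * y : H) : G)) = _
        rw [Subgroup.coe_mul, hβ x x.2 y y.2]
        rfl }
  have hkerf : f.ker = N.subgroupOf H := by
    ext x
    rw [MonoidHom.mem_ker, Subgroup.mem_subgroupOf]
    show Multiplicative.ofAdd (β x) = 1 ↔ _
    rw [← hker x x.2]
    exact ⟨fun h => by simpa using h, fun h => by rw [h]; rfl⟩
  rw [Subgroup.relIndex, ← hkerf, Subgroup.index_ker]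
  -- the range is a nontrivial subgroup of a group of prime order
  have hcard : Nat.card (Multiplicative (ZMod p)) = p := by
    rw [Nat.card_congr Multiplicative.toAdd, Nat.card_zmod]
  have hrange : f.range = ⊤ := by
    have : Fact (Nat.card (Multiplicative (ZMod p))).Prime := ⟨by rw [hcard]; exact Fact.out⟩
    rcases (f.range).eq_bot_or_eq_top_of_prime_card with h | h
    · exfalso
      obtain ⟨σ, hσ, hσβ⟩ := hne
      have : f ⟨σ, hσ⟩ ∈ f.range := ⟨_, rfl⟩
      rw [h, Subgroup.mem_bot] at this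
      apply hσβ
      have h2 : Multiplicative.ofAdd (β σ) = 1 := this
      simpa using h2
    · exact h
  rw [hrange, Subgroup.card_top, hcard]

end Fermat.Agent.Lib.S14
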