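/-
S14 project (speculative), bridge (BR2), part 1 (helper5): cocycle calculus for
`b : G_ℚ → ZMod p`, `b (σ τ) = χ(τ) b(σ) + b(τ)`; the subgroups `h5b_H p = ker χ` and
`h5b_N hcoc = ker χ ∩ ker b`; the cyclotomic character on a primitive `p`-th root of unity of `ℚ̄`.
-/
import Mathlib
import Fermat.Agent.Lib.S14.BridgeAlg

set_option autoImplicit false

namespace Fermat.Agent.Lib.S14

open ExtCitation



theorem h5b_chi_inv_mul (p : ℕ) [Fact p.Prime] (σ : GQb) :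
    h5b_chi p σ⁻¹ * h5b_chi p σ = 1 := by
  rw [← h5b_chi_mul, inv_mul_cancel, h5b_chi_one]

/-- `ker χ`. -/
def h5b_H (p : ℕ) [Fact p.Prime] : Subgroup GQb where
  carrier := {σ | h5b_chi p σ = 1}
  mul_mem' := by
    intro σ τ h1 h2
    show h5b_chi p (σ * τ) = 1
    rw [h5b_chi_mul, h1, h2, one_mul]
  one_mem' := h5b_chi_one p
  inv_mem' := by
    intro σ h1
    show h5b_chi p σ⁻¹ = 1
    have := h5b_chi_inv_mul p σ
    rwa [h1, mul_one] at this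


section cocycle

variable {p : ℕ} [Fact p.Prime] {b : GQb → ZMod p}
  (hcoc : ∀ σ τ : GQb, b (σ * τ) = h5b_chi p τ * b σ + b τ)

include hcoc

theorem h5b_b_one : b 1 = 0 := by
  have := hcoc 1 1
  rw [mul_one, h5b_chi_one, one_mul] at this
  exact left_eq_add.mp this

theorem h5b_b_inv (σ : GQb) : b σ⁻¹ = -(h5b_chi p σ⁻¹ * b σ) := by
  have := hcoc σ σ⁻¹
  rw [mul_inv_cancel, h5b_b_one hcoc] at this
  exact eq_neg_of_add_eq_zero_right this.symm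

theorem h5b_b_conj (τ σ : GQb) (hσ : h5b_chi p σ = 1) :
    h5b_chi p τ * b (τ * σ * τ⁻¹) = b σ := by
  rw [hcoc (τ * σ) τ⁻¹, hcoc τ σ, hσ, one_mul, h5b_b_inv hcoc τ]
  have h := h5b_chi_inv_mul p τ
  linear_combination (b σ) * h

theorem h5b_b_pow (σ : GQb) (hσ : h5b_chi p σ = 1) (k : ℕ) : b (σ ^ k) = k * b σ := by
  induction k with
  | zero => rw [pow_zero, h5b_b_one hcoc]; simp
  | succ k ih =>
    rw [pow_succ, hcoc, hσ, one_mul, ih]
    push_cast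
    ring

/-- `ker χ ∩ ker b`. -/
def h5b_N : Subgroup GQb where
  carrier := {σ | h5b_chi p σ = 1 ∧ b σ = 0}
  mul_mem' := by
    rintro σ τ ⟨h1, h2⟩ ⟨h3, h4⟩
    refine ⟨by rw [h5b_chi_mul, h1, h3, one_mul], ?_⟩
    rw [hcoc, h2, h4, mul_zero, add_zero]
  one_mem' := ⟨h5b_chi_one p, h5b_b_one hcoc⟩
  inv_mem' := by
    rintro σ ⟨h1, h2⟩
    have h3 : h5b_chi p σ⁻¹ = 1 := by
      have := h5b_chi_inv_mul p σ
      rwa [h1, mul_one] at this
    exact ⟨h3, by rw [h5b_b_inv hcoc, h2, mul_zero, neg_zero]⟩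

end cocycle

theorem h5b_mem_H {p : ℕ} [Fact p.Prime] {σ : GQb} : σ ∈ h5b_H p ↔ h5b_chi p σ = 1 := Iff.rfl

instance h5b_H_normal (p : ℕ) [Fact p.Prime] : (h5b_H p).Normal := by
  refine ⟨fun σ hσ τ => ?_⟩
  show h5b_chi p (τ * σ * τ⁻¹) = 1
  have hσ' : h5b_chi p σ = 1 := hσ
  rw [h5b_chi_mul, h5b_chi_mul, hσ', mul_one, mul_comm]
  exact h5b_chi_inv_mul p τ

section cocycle2

variable {p : ℕ} [Fact p.Prime] {b : GQb → ZMod p}
  (hcoc : ∀ σ τ : GQb, b (σ * τ) = h5b_chi p τ * b σ + b τ)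

theorem h5b_mem_N {σ : GQb} : σ ∈ h5b_N hcoc ↔ h5b_chi p σ = 1 ∧ b σ = 0 := Iff.rfl

theorem h5b_N_le_H : h5b_N hcoc ≤ h5b_H p := fun _ h => h.1

instance h5b_N_normal : (h5b_N hcoc).Normal := by
  refine ⟨fun σ hσ τ => ?_⟩
  obtain ⟨h1, h2⟩ := hσ
  have h3 : h5b_chi p (τ * σ * τ⁻¹) = 1 := (h5b_H_normal p).conj_mem σ h1 τ
  refine ⟨h3, ?_⟩
  have h4 := h5b_b_conj hcoc τ σ h1
  rw [h2] at h4
  rcases mul_eq_zero.mp h4 with h5 | h5
  · exact absurd h5 (h5b_chi_ne_zero p τ)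
  · exact h5

end cocycle2




/-- A primitive `p`-th root of unity in `ℚ̄`. -/
theorem h5b_exists_zeta (p : ℕ) [Fact p.Prime] : ∃ ζ : Qb, IsPrimitiveRoot ζ p := by
  have : NeZero p := ⟨(Fact.out : p.Prime).ne_zero⟩
  have : NeZero (p : ℚ) := ⟨by exact_mod_cast (Fact.out : p.Prime).ne_zero⟩
  exact HasEnoughRootsOfUnity.exists_primitiveRoot Qb p

/-- The defining property of the cyclotomic character. -/
theorem h5b_apply_zeta {p : ℕ} [Fact p.Prime] {ζ : Qb} (hζ : IsPrimitiveRoot ζ p) (σ : GQb) :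
    σ ζ = ζ ^ (cycloExp p σ) := by
  have : NeZero p := ⟨(Fact.out : p.Prime).ne_zero⟩
  have h := modularCyclotomicCharacter.spec (L := Qb) (card_rootsOfUnity_eq_self p)
    (σ : Qb ≃+* Qb) (t := hζ.toRootsOfUnity) (hζ.toRootsOfUnity).2
  simpa [cycloExp] using h

theorem h5b_chi_eq_one_iff {p : ℕ} [Fact p.Prime] {ζ : Qb} (hζ : IsPrimitiveRoot ζ p) (σ : GQb) :
    h5b_chi p σ = 1 ↔ σ ζ = ζ := by
  have hp := (Fact.out : p.Prime)
  have : NeZero p := ⟨hp.ne_zero⟩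
  rw [h5b_apply_zeta hζ σ]
  have hlt : cycloExp p σ < p := by
    unfold cycloExp
    exact ZMod.val_lt _
  constructor
  · intro h
    have h1 : cycloExp p σ % p = 1 % p := by
      have : ((cycloExp p σ : ℕ) : ZMod p) = ((1 : ℕ) : ZMod p) := by
        rw [Nat.cast_one]; exact h
      exact (ZMod.natCast_eq_natCast_iff' _ _ _).mp this
    rw [Nat.mod_eq_of_lt hlt, Nat.mod_eq_of_lt hp.one_lt] at h1
    rw [h1, pow_one]
  · intro h
    have h1 : ζ ^ cycloExp p σ = ζ ^ 1 := by rw [pow_one]; exact h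
    have h2 := hζ.pow_inj hlt hp.one_lt h1
    show ((cycloExp p σ : ℕ) : ZMod p) = 1
    rw [h2, Nat.cast_one]

/-- `χ(τ)` as a natural exponent. -/
theorem h5b_chi_eq_of_apply {p : ℕ} [Fact p.Prime] {ζ : Qb} (hζ : IsPrimitiveRoot ζ p) (τ : GQb)
    (k : ℕ) (h : τ ζ = ζ ^ k) : h5b_chi p τ = (k : ZMod p) := by
  have hp := (Fact.out : p.Prime)
  have : NeZero p := ⟨hp.ne_zero⟩
  rw [h5b_apply_zeta hζ τ] at h
  have hlt : cycloExp p τ < p := by
    unfold cycloExp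
    exact ZMod.val_lt _
  have h1 : ζ ^ k = ζ ^ (k % p) := by
    conv_rhs => rw [hζ.eq_orderOf]
    exact (pow_mod_orderOf ζ k).symm
  rw [h1] at h
  have h2 := hζ.pow_inj hlt (Nat.mod_lt k hp.pos) h
  show ((cycloExp p τ : ℕ) : ZMod p) = (k : ZMod p)
  rw [h2, ZMod.natCast_mod]

end Fermat.Agent.Lib.S14
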