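/-
S14 project (speculative), bridge (BR2), decomposition groups (helper5):
`h5b_exists_decomposition_lift`: for a finite Galois `L ⊆ ℚ̄` (given abstractly by `ι`, `ρ`), the
decomposition group of a valuation subring `A` of `ℚ̄` surjects onto the decomposition group in
`Gal(L/ℚ)` of the prime of `L` cut out by `A`.  Proof: Mathlib's transitivity of a profinite group on
the primes above a given prime (`Algebra.IsInvariant.exists_smul_of_under_eq_of_profinite`) applied
to `Gal(ℚ̄/L)` acting on the ring of all algebraic integers, plus the fact that a valuation subring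
of `ℚ̄` is determined by its centre (helper9's `valuationSubring_le_of_centre`).
-/
import Mathlib
import Fermat.Agent.Lib.Helper6.Frobenius
import Fermat.Agent.Lib.Helper9.ValFrob
import Fermat.Agent.Lib.S13.ValBridge
import Fermat.Agent.Lib.S14.BridgeAlg

set_option autoImplicit false

noncomputable section

namespace Fermat.Agent.Lib.S14

open NumberField Fermat.Agent.Lib.S13
open scoped Pointwise

/-- The ring of all algebraic integers. -/
abbrev Zb : Subring Qb := Fermat.Agent.Lib.Helper6.Zbar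

theorem h5b_Zb_le (A : ValuationSubring Qb) : Zb ≤ A.toSubring := fun z hz =>
  Fermat.Agent.Lib.Helper9.obar_mem_valuationSubring A ⟨z, hz⟩

/-- The centre of a valuation subring of `ℚ̄` on the ring of algebraic integers. -/
def h5b_centre (A : ValuationSubring Qb) : Ideal Zb :=
  Ideal.comap (Subring.inclusion (h5b_Zb_le A)) (IsLocalRing.maximalIdeal A)

instance h5b_centre_isPrime (A : ValuationSubring Qb) : (h5b_centre A).IsPrime :=
  Ideal.comap_isPrime _ _

theorem h5b_mem_centre_iff (A : ValuationSubring Qb) (z : Zb) :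
    z ∈ h5b_centre A ↔ A.valuation (z : Qb) < 1 := by
  unfold h5b_centre
  rw [Ideal.mem_comap, ValuationSubring.valuation_lt_one_iff]
  rfl


set_option synthInstance.maxHeartbeats 400000 in
set_option maxHeartbeats 1000000 in
/-- The decomposition group of a valuation subring `A` of `ℚ̄` surjects onto the decomposition group
of the prime of `L` cut out by `A`. -/
theorem h5b_exists_decomposition_lift {L : Type} [Field L] [NumberField L]
    (ι : L →+* Qb) (ρ : GQb →* (L ≃ₐ[ℚ] L)) (hρ : Function.Surjective ρ)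
    (hιρ : ∀ (σ : GQb) (x : L), ι (ρ σ x) = σ (ι x))
    (hclosed : IsClosed ((ρ.ker : Subgroup GQb) : Set GQb))
    (hfixed : ∀ y : Qb, (∀ σ ∈ ρ.ker, σ y = y) → ∃ x : L, ι x = y)
    (A : ValuationSubring Qb) {ℓ : ℕ} (hℓ : ℓ.Prime) (hA : A.LiesOverPrime ℓ)
    (g : L ≃ₐ[ℚ] L) (hg : g • (h5_primeOf ι A : Ideal (𝓞 L)) = h5_primeOf ι A) :
    ∃ σ ∈ A.decompositionSubgroup ℚ, ρ σ = g := by
  obtain ⟨σ₀, hσ₀⟩ := hρ g
  have : CompactSpace ρ.ker := isCompact_iff_compactSpace.mp hclosed.isCompact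
  have : Algebra.IsInvariant (FixedPoints.subring Zb ρ.ker) Zb ρ.ker :=
    ⟨fun b hb => ⟨⟨b, hb⟩, rfl⟩⟩
  have hunder : (σ₀ • h5b_centre A).under (FixedPoints.subring Zb ρ.ker)
      = (h5b_centre A).under (FixedPoints.subring Zb ρ.ker) := by
    ext z
    rw [Ideal.under_def, Ideal.under_def, Ideal.mem_comap, Ideal.mem_comap,
      Ideal.mem_pointwise_smul_iff_inv_smul_mem, h5b_mem_centre_iff, h5b_mem_centre_iff]
    obtain ⟨x, hx⟩ := hfixed ((z : Zb) : Qb) (fun σ hσ => congrArg Subtype.val (z.2 ⟨σ, hσ⟩))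
    have hxint : IsIntegral ℤ x := by
      have h1 : IsIntegral ℤ (ι.toIntAlgHom x) := by
        show IsIntegral ℤ (ι x)
        rw [hx]
        exact (z : Zb).2
      exact (isIntegral_algHom_iff ι.toIntAlgHom ι.injective).mp h1
    set x' : 𝓞 L := ⟨x, hxint⟩ with hx'
    have h1 : (((σ₀⁻¹ • (algebraMap (FixedPoints.subring Zb ρ.ker) Zb z) : Zb)) : Qb)
        = ι (((g⁻¹ • x' : 𝓞 L)) : L) := by
      show σ₀⁻¹ ((z : Zb) : Qb) = ι (g⁻¹ x)
      rw [← hx, ← hσ₀, ← map_inv, hιρ]
    have h2 : (((algebraMap (FixedPoints.subring Zb ρ.ker) Zb z) : Zb) : Qb)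
        = ι ((x' : 𝓞 L) : L) := hx.symm
    have e1 := h5_mem_primeOf_iff ι A (g⁻¹ • x')
    have e2 := h5_mem_primeOf_iff ι A x'
    rw [h1, h2, ← e1, ← e2, ← Ideal.mem_pointwise_smul_iff_inv_smul_mem, hg]
  obtain ⟨h, hh⟩ := Algebra.IsInvariant.exists_smul_of_under_eq_of_profinite
    (A := FixedPoints.subring Zb ρ.ker) (B := Zb) (G := ρ.ker)
    (σ₀ • h5b_centre A) (h5b_centre A) hunder
  have hpres : ∀ z : Zb, A.valuation (z : Qb) < 1 ↔
      A.valuation (((h : GQb) * σ₀)⁻¹ (z : Qb)) < 1 := by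
    intro z
    rw [← h5b_mem_centre_iff]
    conv_lhs => rw [hh]
    rw [Ideal.mem_pointwise_smul_iff_inv_smul_mem, Ideal.mem_pointwise_smul_iff_inv_smul_mem,
      h5b_mem_centre_iff]
    rfl
  refine ⟨(h : GQb) * σ₀, ?_, ?_⟩
  · show ((h : GQb) * σ₀) • A = A
    have hℓσ : (ℓ : Qb) ∈ (((h : GQb) * σ₀) • A).nonunits := by
      rw [Fermat.Agent.Lib.Helper9.mem_nonunits_smul_iff, map_natCast]
      exact hA
    apply le_antisymm
    · apply Fermat.Agent.Lib.Helper9.valuationSubring_le_of_centre _ _ ℓ hℓ hℓσ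
      intro s hs
      rw [Fermat.Agent.Lib.Helper9.mem_nonunits_smul_iff, ValuationSubring.mem_nonunits_iff]
      rw [ValuationSubring.mem_nonunits_iff] at hs
      exact (hpres ⟨s, s.2⟩).mp hs
    · apply Fermat.Agent.Lib.Helper9.valuationSubring_le_of_centre _ _ ℓ hℓ hA
      intro s hs
      rw [Fermat.Agent.Lib.Helper9.mem_nonunits_smul_iff, ValuationSubring.mem_nonunits_iff] at hs
      rw [ValuationSubring.mem_nonunits_iff]
      exact (hpres ⟨s, s.2⟩).mpr hs
  · rw [map_mul, hσ₀]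
    have h1 : ρ (h : GQb) = 1 := h.2
    rw [h1, one_mul]

end Fermat.Agent.Lib.S14
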