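/-
S14 project (speculative), helper5: the number-field statement `NTStatement` to which the bridge
(`BridgeAlg.lean`: `h5b_s14_of_NTG`, `BridgeNF.lean`: `h5b_NTG_of_NT`) reduces S14
(`ExtCitation.ExtVanishingCts p`).

`NTStatement`: for a prime `p ≥ 3` there is no Galois number field `L/ℚ` containing a primitive
`p`-th root of unity `ζ`, of degree `p` over `K = ℚ(ζ)`, unramified over `K` at every finite prime
(given in two forms: via inertia groups inside `Gal(L/ℚ)`, and as `e = 1`), on which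
`Δ = Gal(K/ℚ)` acts through the inverse of the cyclotomic character:
`τ g τ⁻¹ = g ^ (χ(τ)⁻¹)` for `g ∈ Gal(L/K)`, i.e. `τ g ^ k τ⁻¹ = g` when `τ ζ = ζ ^ k`, and in which
the primes over `p` split completely over `K` (last hypothesis: the decomposition group in
`Gal(L/ℚ)` of a prime `𝔔 ∣ p` meets `Gal(L/K)` trivially; `g • 𝔔` is Mathlib's pointwise action).
-/
import Mathlib

set_option autoImplicit false

namespace Fermat.Agent.Lib.S14

open NumberField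
open scoped Pointwise

/-- The number-field form of the core of S14. -/
def NTStatement : Prop :=
  ∀ (p : ℕ) [Fact p.Prime], 3 ≤ p →
  ∀ (L : Type) [Field L] [NumberField L] [IsGalois ℚ L] (ζ : L), IsPrimitiveRoot ζ p →
    Module.finrank (IntermediateField.adjoin ℚ {ζ}) L = p →
    (∀ (𝔔 : Ideal (𝓞 L)) [𝔔.IsPrime], 𝔔 ≠ ⊥ →
      ∀ g ∈ 𝔔.inertia (L ≃ₐ[ℚ] L), g ζ = ζ → g = 1) →
    (∀ (𝔔 : Ideal (𝓞 L)) [𝔔.IsPrime], 𝔔 ≠ ⊥ →
      𝔔.ramificationIdx (𝓞 (IntermediateField.adjoin ℚ {ζ})) = 1) →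
    (∀ (τ g : L ≃ₐ[ℚ] L) (k : ℕ), g ζ = ζ → τ ζ = ζ ^ k → τ * g ^ k * τ⁻¹ = g) →
    (∀ (𝔔 : Ideal (𝓞 L)) [𝔔.IsPrime], ((p : ℕ) : 𝓞 L) ∈ 𝔔 →
      ∀ g : L ≃ₐ[ℚ] L, g • 𝔔 = 𝔔 → g ζ = ζ → g = 1) →
    False

end Fermat.Agent.Lib.S14
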