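/-
S14 project (speculative), bridge (BR2) (helper5): `h5b_NTG_of_NT : NTStatement → NTGroupStatement`
and hence `h5b_s14_of_NT : NTStatement → ExtCitation.ExtVanishingCts p`.

A cocycle `b` as in `NTGroupStatement` cuts out the number field `F = ℚ̄^N`, `N = ker χ ∩ ker b`.
It contains `ζ_p`, has degree `p` over `ℚ(ζ_p)`, is unramified over it (the inertia groups of
`Gal(F/ℚ)` are images of inertia groups of `G_ℚ`: (E2) of the S13 project), and `Gal(ℚ(ζ_p)/ℚ)` acts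
on `Gal(F/ℚ(ζ_p))` through `χ⁻¹`; `NTStatement` excludes this.
-/
import Mathlib
import Fermat.Agent.Lib.S14.BridgeCoc
import Fermat.Agent.Lib.S14.BridgeAux
import Fermat.Agent.Lib.S14.BridgeDec
import Fermat.Agent.Lib.S14.NTStatement
import Fermat.Agent.Lib.S13.InertiaFinal

set_option autoImplicit false
set_option linter.unusedSectionVars false

namespace Fermat.Agent.Lib.S14

open NumberField Fermat.Agent.Lib.S13 IntermediateField
open scoped Pointwise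

theorem h5b_mem_fixingSubgroup_adjoin {L : Type*} [Field L] [Algebra ℚ L] (ζ : L)
    (g : L ≃ₐ[ℚ] L) : g ∈ (adjoin ℚ {ζ}).fixingSubgroup ↔ g ζ = ζ := by
  constructor
  · intro h
    exact (mem_fixingSubgroup_iff _ g).mp h ζ (mem_adjoin_simple_self ℚ ζ)
  · intro h
    have h1 : Subgroup.zpowers g ≤ MulAction.stabilizer (L ≃ₐ[ℚ] L) ζ := by
      rw [Subgroup.zpowers_le]
      exact h
    have h2 : adjoin ℚ {ζ} ≤ fixedField (Subgroup.zpowers g) := by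
      rw [adjoin_simple_le_iff, mem_fixedField_iff]
      intro f hf
      exact h1 hf
    exact (le_iff_le _ _).mp h2 (Subgroup.mem_zpowers g)

section Abstract

variable {p : ℕ} [Fact p.Prime] {b : GQb → ZMod p}
  (hcoc : ∀ σ τ : GQb, b (σ * τ) = h5b_chi p τ * b σ + b τ)
  {L : Type} [Field L] [NumberField L] [IsGalois ℚ L]
  (ι : L →+* Qb) (ρ : GQb →* (L ≃ₐ[ℚ] L)) (hρ : Function.Surjective ρ)
  (hιρ : ∀ (σ : GQb) (x : L), ι (ρ σ x) = σ (ι x))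
  (hker : ρ.ker = h5b_N hcoc)
  {ζ' : Qb} (hζ' : IsPrimitiveRoot ζ' p) {ζ : L} (hζ : ι ζ = ζ')

include hιρ hζ' hζ in
theorem h5b_abs_fix_iff (σ : GQb) : ρ σ ζ = ζ ↔ h5b_chi p σ = 1 := by
  rw [h5b_chi_eq_one_iff hζ' σ, ← hζ, ← hιρ]
  exact ⟨fun h => by rw [h], fun h => ι.injective h⟩

include hζ' hζ in
theorem h5b_abs_isPrimitiveRoot : IsPrimitiveRoot ζ p := by
  rw [← hζ] at hζ'
  exact hζ'.of_map_of_injective ι.injective

include hρ hιρ hker hζ' hζ in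
theorem h5b_abs_finrank (hne : ∃ σ : GQb, h5b_chi p σ = 1 ∧ b σ ≠ 0) :
    Module.finrank (adjoin ℚ {ζ}) L = p := by
  rw [← IsGalois.card_fixingSubgroup_eq_finrank]
  have hZ : (adjoin ℚ {ζ}).fixingSubgroup.comap ρ = h5b_H p := by
    ext σ
    rw [Subgroup.mem_comap, h5b_mem_fixingSubgroup_adjoin, h5b_abs_fix_iff ι ρ hιρ hζ' hζ, h5b_mem_H]
  rw [h5b_card_of_comap ρ hρ (h5b_N hcoc) (h5b_H p) hker (h5b_N_le_H hcoc) _ hZ]
  refine h5b_relIndex_eq_prime (h5b_N hcoc) (h5b_H p) b ?_ ?_ ?_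
  · intro σ _ τ hτ
    rw [hcoc, h5b_mem_H.mp hτ, one_mul]
  · intro σ hσ
    rw [h5b_mem_N]
    exact ⟨fun h => ⟨h5b_mem_H.mp hσ, h⟩, fun h => h.2⟩
  · obtain ⟨σ, h1, h2⟩ := hne
    exact ⟨σ, h5b_mem_H.mpr h1, h2⟩

include hρ hιρ hker hζ' hζ in
theorem h5b_abs_conj (τ g : L ≃ₐ[ℚ] L) (k : ℕ) (hg : g ζ = ζ) (hτ : τ ζ = ζ ^ k) :
    τ * g ^ k * τ⁻¹ = g := by
  obtain ⟨τ', rfl⟩ := hρ τ
  obtain ⟨g', rfl⟩ := hρ g
  have hχg : h5b_chi p g' = 1 := (h5b_abs_fix_iff ι ρ hιρ hζ' hζ g').mp hg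
  have hχτ : h5b_chi p τ' = (k : ZMod p) := by
    apply h5b_chi_eq_of_apply hζ' τ' k
    rw [← hζ, ← hιρ, hτ, map_pow]
  -- the commutator-type element lies in `N`
  have hmem : τ' * g' ^ k * τ'⁻¹ * g'⁻¹ ∈ h5b_N hcoc := by
    have hgk : h5b_chi p (g' ^ k) = 1 := h5b_mem_H.mp ((h5b_H p).pow_mem (h5b_mem_H.mpr hχg) k)
    have hconjH : h5b_chi p (τ' * g' ^ k * τ'⁻¹) = 1 :=
      (h5b_H_normal p).conj_mem _ (h5b_mem_H.mpr hgk) τ'
    have hginv : h5b_chi p g'⁻¹ = 1 := h5b_mem_H.mp ((h5b_H p).inv_mem (h5b_mem_H.mpr hχg))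
    rw [h5b_mem_N]
    refine ⟨by rw [h5b_chi_mul, hconjH, hginv, one_mul], ?_⟩
    rw [hcoc, hginv, one_mul, h5b_b_inv hcoc, hginv, one_mul]
    have h1 := h5b_b_conj hcoc τ' (g' ^ k) hgk
    rw [h5b_b_pow hcoc g' hχg k, ← hχτ] at h1
    have h2 : b (τ' * g' ^ k * τ'⁻¹) = b g' :=
      mul_left_cancel₀ (h5b_chi_ne_zero p τ') h1
    rw [h2, add_neg_cancel]
  rw [← hker, MonoidHom.mem_ker] at hmem
  rw [map_mul, map_mul, map_mul, map_pow, map_inv, map_inv] at hmem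
  exact mul_inv_eq_one.mp hmem

include hιρ hker hζ' hζ in
theorem h5b_abs_inertia
    (hinert : ∀ ℓ : ℕ, ℓ.Prime → ∀ A : ValuationSubring Qb, A.LiesOverPrime ℓ →
      ∀ σ ∈ A.inertiaSubgroupIn ℚ, h5b_chi p σ = 1 → b σ = 0)
    (𝔔 : Ideal (𝓞 L)) [𝔔.IsPrime] (hne : 𝔔 ≠ ⊥) (g : L ≃ₐ[ℚ] L)
    (hg : g ∈ 𝔔.inertia (L ≃ₐ[ℚ] L)) (hgζ : g ζ = ζ) : g = 1 := by
  obtain ⟨A, ℓ, hℓ, hA, hprime⟩ := h5b_exists_valuationSubring ι 𝔔 hne
  have hle : 𝔔.inertia (L ≃ₐ[ℚ] L) ≤ (A.inertiaSubgroupIn ℚ).map ρ := by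
    apply h5b_inertia_le_of_ramificationIdx L 𝔔
    have hval : ∀ x : fixedField ((A.inertiaSubgroupIn ℚ).map ρ), x ≠ 0 →
        ∃ n : ℤ, A.valuation ((ι.comp (algebraMap (fixedField ((A.inertiaSubgroupIn ℚ).map ρ)) L)) x)
          = A.valuation (ℓ : Qb) ^ n := by
      intro x hx
      refine h5_inertia_fixed_val hℓ A hA _ ?_ ?_
      · rw [Ne, map_eq_zero]; exact hx
      · intro σ hσ
        show σ (ι (x : L)) = ι (x : L)
        rw [← hιρ]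
        congr 1
        have hx' : (x : L) ∈ fixedField ((A.inertiaSubgroupIn ℚ).map ρ) := x.2
        rw [mem_fixedField_iff] at hx'
        exact hx' (ρ σ) (Subgroup.mem_map_of_mem ρ hσ)
    have he := h5_ramificationIdx_of_val_hos_p
      (ι.comp (algebraMap (fixedField ((A.inertiaSubgroupIn ℚ).map ρ)) L)) A hℓ hA
      (h5_uniformizer_of_val _ A hℓ hA hval)
    have hPE : h5_primeOf (ι.comp (algebraMap (fixedField ((A.inertiaSubgroupIn ℚ).map ρ)) L)) A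
        = 𝔔.under (𝓞 (fixedField ((A.inertiaSubgroupIn ℚ).map ρ))) := by
      ext y
      rw [h5_mem_primeOf_iff, Ideal.under_def, Ideal.mem_comap, ← hprime, h5_mem_primeOf_iff]
      rfl
    rw [← hPE]
    exact he
  obtain ⟨i, hi, rfl⟩ := hle hg
  have hχ : h5b_chi p i = 1 := (h5b_abs_fix_iff ι ρ hιρ hζ' hζ i).mp hgζ
  have hb := hinert ℓ hℓ A hA i hi hχ
  have hmem : i ∈ h5b_N hcoc := ⟨hχ, hb⟩
  rw [← hker] at hmem
  exact hmem

include hρ hιρ hker hζ' hζ in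
theorem h5b_abs_split
    (hclosed : IsClosed ((ρ.ker : Subgroup GQb) : Set GQb))
    (hfixed : ∀ y : Qb, (∀ σ ∈ ρ.ker, σ y = y) → ∃ x : L, ι x = y)
    (hdec : ∀ A : ValuationSubring Qb, A.LiesOverPrime p →
      ∀ σ ∈ A.decompositionSubgroup ℚ, h5b_chi p σ = 1 → b σ = 0)
    (𝔔 : Ideal (𝓞 L)) [h𝔔 : 𝔔.IsPrime] (hp𝔔 : ((p : ℕ) : 𝓞 L) ∈ 𝔔) (g : L ≃ₐ[ℚ] L)
    (hg : g • 𝔔 = 𝔔) (hgζ : g ζ = ζ) : g = 1 := by
  have hp := (Fact.out : p.Prime)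
  have hne : 𝔔 ≠ ⊥ := by
    intro h
    rw [h, Ideal.mem_bot] at hp𝔔
    have : (p : ℕ) = 0 := by exact_mod_cast hp𝔔
    exact hp.ne_zero this
  obtain ⟨A, ℓ, hℓ, hA, hprime⟩ := h5b_exists_valuationSubring ι 𝔔 hne
  have hℓ𝔔 : ((ℓ : ℕ) : 𝓞 L) ∈ 𝔔 := by
    rw [← hprime]
    exact h5_natCast_mem_primeOf ι A hA
  have hℓp : ℓ = p := by
    by_contra hcon
    have hcop : Nat.Coprime ℓ p := (Nat.coprime_primes hℓ hp).mpr hcon
    have hcop' : IsCoprime (ℓ : ℤ) (p : ℤ) := Nat.isCoprime_iff_coprime.mpr hcop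
    obtain ⟨u, v, huv⟩ := hcop'
    have h1 : (1 : 𝓞 L) = (u : 𝓞 L) * ((ℓ : ℕ) : 𝓞 L) + (v : 𝓞 L) * ((p : ℕ) : 𝓞 L) := by
      have := congrArg (fun z : ℤ => (z : 𝓞 L)) huv
      simp only [Int.cast_add, Int.cast_mul, Int.cast_natCast, Int.cast_one] at this
      exact this.symm
    apply h𝔔.ne_top
    rw [Ideal.eq_top_iff_one, h1]
    exact 𝔔.add_mem (𝔔.mul_mem_left _ hℓ𝔔) (𝔔.mul_mem_left _ hp𝔔)
  subst hℓp
  obtain ⟨σ, hσD, rfl⟩ := h5b_exists_decomposition_lift ι ρ hρ hιρ hclosed hfixed A hℓ hA g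
    (by rw [hprime]; exact hg)
  have hχ : h5b_chi ℓ σ = 1 := (h5b_abs_fix_iff ι ρ hιρ hζ' hζ σ).mp hgζ
  have hb := hdec A hA σ hσD hχ
  have hmem : σ ∈ h5b_N hcoc := ⟨hχ, hb⟩
  rw [← hker] at hmem
  exact hmem

end Abstract


/-- If the inertia group of `𝔔` in `Gal(L/ℚ)` meets `Gal(L/K)` trivially, then `e(𝔔 | K) = 1`. -/
theorem h5b_ramificationIdx_eq_one_of_inertia (L : Type*) [Field L] [NumberField L] [IsGalois ℚ L]
    (K : IntermediateField ℚ L) (𝔔 : Ideal (𝓞 L)) [𝔔.IsPrime]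
    (h : ∀ g ∈ 𝔔.inertia (L ≃ₐ[ℚ] L), (∀ x ∈ K, g x = x) → g = 1) :
    𝔔.ramificationIdx (𝓞 K) = 1 := by
  have i4 : IsGaloisGroup (L ≃ₐ[K] L) (𝓞 K) (𝓞 L) := IsGaloisGroup.of_isFractionRing _ _ _ K L
  have h1 : Nat.card (𝔔.inertia (L ≃ₐ[K] L)) = (𝔔.under (𝓞 K)).ramificationIdxIn (𝓞 L) :=
    Ideal.card_inertia_eq_ramificationIdxIn (G := (L ≃ₐ[K] L)) (𝔔.under (𝓞 K)) 𝔔
  have h1' : (𝔔.under (𝓞 K)).ramificationIdxIn (𝓞 L) = 𝔔.ramificationIdx (𝓞 K) :=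
    Ideal.ramificationIdxIn_eq_ramificationIdx (𝔔.under (𝓞 K)) 𝔔 (L ≃ₐ[K] L)
  rw [← h1', ← h1]
  have hbot : 𝔔.inertia (L ≃ₐ[K] L) = ⊥ := by
    rw [eq_bot_iff]
    intro g hg
    rw [Subgroup.mem_bot]
    have h2 : g.restrictScalars ℚ = 1 := by
      refine h _ ?_ (fun x hx => g.commutes ⟨x, hx⟩)
      intro x
      exact hg x
    ext x
    exact DFunLike.congr_fun h2 x
  rw [hbot]
  exact Subgroup.card_bot

section Core

variable {p : ℕ} [Fact p.Prime] {b : GQb → ZMod p}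
  (hcoc : ∀ σ τ : GQb, b (σ * τ) = h5b_chi p τ * b σ + b τ)

theorem h5b_NTG_core (hNT : NTStatement) (h3 : 3 ≤ p)
    (hinert : ∀ ℓ : ℕ, ℓ.Prime → ∀ A : ValuationSubring Qb, A.LiesOverPrime ℓ →
      ∀ σ ∈ A.inertiaSubgroupIn ℚ, h5b_chi p σ = 1 → b σ = 0)
    (hdec : ∀ A : ValuationSubring Qb, A.LiesOverPrime p →
      ∀ σ ∈ A.decompositionSubgroup ℚ, h5b_chi p σ = 1 → b σ = 0)
    (hne : ∃ σ : GQb, h5b_chi p σ = 1 ∧ b σ ≠ 0)
    (F : IntermediateField ℚ Qb) [FiniteDimensional ℚ F] [Normal ℚ F]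
    (hfix : F.fixingSubgroup = h5b_N hcoc)
    (hclosedN : IsClosed ((h5b_N hcoc : Subgroup GQb) : Set GQb)) : False := by
  obtain ⟨ζ', hζ'⟩ := h5b_exists_zeta p
  have hζmem : ζ' ∈ F := by
    rw [← InfiniteGalois.fixedField_fixingSubgroup F, mem_fixedField_iff, hfix]
    intro σ hσ
    exact (h5b_chi_eq_one_iff hζ' σ).mp hσ.1
  have hρ : Function.Surjective (AlgEquiv.restrictNormalHom (F := ℚ) (K₁ := Qb) F) :=
    AlgEquiv.restrictNormalHom_surjective Qb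
  have hιρ : ∀ (σ : GQb) (x : F), algebraMap F Qb (AlgEquiv.restrictNormalHom F σ x)
      = σ (algebraMap F Qb x) := fun σ x => h5_restrict_apply F σ x
  have hker : (AlgEquiv.restrictNormalHom (F := ℚ) (K₁ := Qb) F).ker = h5b_N hcoc := by
    rw [← hfix]
    ext σ
    rw [MonoidHom.mem_ker, IntermediateField.mem_fixingSubgroup_iff]
    constructor
    · intro h x hx
      have h1 := h5_restrict_apply F σ ⟨x, hx⟩
      rw [h] at h1
      exact h1.symm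
    · intro h
      ext x
      rw [h5_restrict_apply]
      exact h x x.2
  have hζ : algebraMap F Qb (⟨ζ', hζmem⟩ : F) = ζ' := rfl
  refine hNT p h3 ↥F ⟨ζ', hζmem⟩ (h5b_abs_isPrimitiveRoot (algebraMap F Qb) hζ' hζ)
    (h5b_abs_finrank hcoc (algebraMap F Qb) _ hρ hιρ hker hζ' hζ hne) ?_ ?_ ?_ ?_
  · intro 𝔔 _ h𝔔 g hg hgζ
    exact h5b_abs_inertia hcoc (algebraMap F Qb) _ hιρ hker hζ' hζ hinert 𝔔 h𝔔 g hg hgζ
  · intro 𝔔 _ h𝔔
    apply h5b_ramificationIdx_eq_one_of_inertia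
    intro g hg hgK
    exact h5b_abs_inertia hcoc (algebraMap F Qb) _ hιρ hker hζ' hζ hinert 𝔔 h𝔔 g hg
      (hgK _ (mem_adjoin_simple_self ℚ _))
  · intro τ g k hg hτ
    exact h5b_abs_conj hcoc (algebraMap F Qb) _ hρ hιρ hker hζ' hζ τ g k hg hτ
  · intro 𝔔 _ hp𝔔 g hg hgζ
    refine h5b_abs_split hcoc (algebraMap F Qb) _ hρ hιρ hker hζ' hζ ?_ ?_ hdec 𝔔 hp𝔔 g hg hgζ
    · rw [hker]; exact hclosedN
    · intro y hy
      have hyF : y ∈ F := by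
        rw [← InfiniteGalois.fixedField_fixingSubgroup F, mem_fixedField_iff, hfix, ← hker]
        exact hy
      exact ⟨⟨y, hyF⟩, rfl⟩

end Core

/-- **(BR2)**: the group-theoretic core from the number-field statement. -/
theorem h5b_NTG_of_NT (hNT : NTStatement) : NTGroupStatement := by
  intro p _ h3 b hcoc hopen hinert hdec hne
  have hopen' : IsOpen ((h5b_N hcoc : Subgroup GQb) : Set GQb) := hopen
  have hclosed : IsClosed ((h5b_N hcoc : Subgroup GQb) : Set GQb) :=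
    Subgroup.isClosed_of_isOpen _ hopen'
  have hfix : (fixedField (h5b_N hcoc)).fixingSubgroup = h5b_N hcoc :=
    InfiniteGalois.fixingSubgroup_fixedField ⟨h5b_N hcoc, hclosed⟩
  have hfin : FiniteDimensional ℚ (fixedField (h5b_N hcoc)) := by
    rw [← InfiniteGalois.isOpen_iff_finite, hfix]
    exact hopen'
  have hgal : IsGalois ℚ (fixedField (h5b_N hcoc)) := by
    have h0 : (fixedField (h5b_N hcoc)).fixingSubgroup.Normal := by rw [hfix]; infer_instance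
    exact (InfiniteGalois.normal_iff_isGalois _).mp h0
  have hnormal : Normal ℚ (fixedField (h5b_N hcoc)) := hgal.to_normal
  exact h5b_NTG_core hcoc hNT h3 hinert hdec hne (fixedField (h5b_N hcoc)) hfix hclosed

/-- **(BR)**: S14 from the number-field statement. -/
theorem h5b_s14_of_NT (hNT : NTStatement) {p : ℕ} [Fact p.Prime] (h3 : 3 ≤ p) :
    ExtCitation.ExtVanishingCts p :=
  h5b_s14_of_NTG (h5b_NTG_of_NT hNT) h3

end Fermat.Agent.Lib.S14
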