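/-
S14 project (speculative), helper3, stream (B): **(B) closed**: `h3f_BStatement : h4n_BStatement`
(helper4's `NTFinal` shape), from `h3f_count_nf` (`ChevGlue3`: helper8's `h8b_count_nf` with all
inputs discharged) and helper7's `h7b_B_ideal_of_ambig` (`BClass7`).
-/
import Mathlib
import Fermat.Agent.Lib.S14.ChevGlue3
import Fermat.Agent.Lib.S14.BClass7
import Fermat.Agent.Lib.S14.NTFinal

set_option autoImplicit false
set_option linter.unusedSectionVars false

open NumberField nonZeroDivisors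

namespace Fermat.Agent.Lib.S14

/-- **(B)**: for an everywhere unramified Galois extension `L/K` of prime degree `p` with `K`
totally complex, the norm map on ideal classes is not surjective (ideal form). -/
theorem h3f_BStatement : h4n_BStatement := by
  intro K L _ _ _ _ _ _ _ p hp hdeg hunr
  have hcard : Nat.card (L ≃ₐ[K] L) = p := by rw [IsGalois.card_aut_eq_finrank, hdeg]
  have : IsCyclic (L ≃ₐ[K] L) := isCyclic_of_prime_card hcard
  obtain ⟨σ, hσ⟩ := IsCyclic.exists_generator (α := L ≃ₐ[K] L)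
  have hunr' : ∀ 𝔓 : Ideal (𝓞 L), 𝔓.IsPrime → 𝔓 ≠ ⊥ → 𝔓.ramificationIdx (𝓞 K) = 1 :=
    fun 𝔓 h𝔓 h0 => @hunr 𝔓 h𝔓 h0
  exact h7b_B_ideal_of_ambig σ p hp.out.two_le (h3f_count_nf hdeg σ hσ hunr')

end Fermat.Agent.Lib.S14
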