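/-
S14 project, stream (B), piece (I-field) (helper9): the field-level hypotheses of helper8's abstract
Chevalley bound `h8b_ambig_count` for a cyclic extension `L/K` of number fields of prime degree:
`σ^p = 1` on `Lˣ`, fixed points of a generator come from `Kˣ`, Hilbert 90, and the unit maps.
-/
import Mathlib
import Fermat.Agent.Lib.S14.AmbigCount
import Fermat.Agent.Lib.Kummer.Hilbert92

set_option autoImplicit false
set_option linter.unusedSectionVars false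

namespace Fermat.Agent.Lib.S14

open NumberField

section field

variable {K L : Type} [Field K] [Field L] [NumberField K] [NumberField L] [Algebra K L]
  [IsGalois K L]

/-- `σ` acting on `Lˣ`. -/
def h9f_sigmaL (σ : L ≃ₐ[K] L) : Lˣ →* Lˣ := Units.map (σ : L →* L)

@[simp]
theorem h9f_sigmaL_coe (σ : L ≃ₐ[K] L) (x : Lˣ) : ((h9f_sigmaL σ x : Lˣ) : L) = σ x := rfl

/-- `Kˣ → Lˣ`. -/
def h9f_i : Kˣ →* Lˣ := Units.map (algebraMap K L : K →* L)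

@[simp]
theorem h9f_i_coe (a : Kˣ) : ((h9f_i (L := L) a : Lˣ) : L) = algebraMap K L a := rfl

/-- `(𝓞 L)ˣ → Lˣ`. -/
def h9f_e : (𝓞 L)ˣ →* Lˣ := Units.map (algebraMap (𝓞 L) L : 𝓞 L →* L)

@[simp]
theorem h9f_e_coe (u : (𝓞 L)ˣ) : ((h9f_e u : Lˣ) : L) = algebraMap (𝓞 L) L u := rfl

/-- `σ` acting on `(𝓞 L)ˣ`. -/
def h9f_sigmaU (σ : L ≃ₐ[K] L) : (𝓞 L)ˣ →* (𝓞 L)ˣ :=
  Units.map (MulSemiringAction.toRingEquiv (L ≃ₐ[K] L) (𝓞 L) σ : 𝓞 L →* 𝓞 L)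

@[simp]
theorem h9f_sigmaU_coe (σ : L ≃ₐ[K] L) (u : (𝓞 L)ˣ) :
    ((h9f_sigmaU σ u : (𝓞 L)ˣ) : 𝓞 L) = σ • (u : 𝓞 L) := rfl

theorem h9f_iterate_sigmaL (σ : L ≃ₐ[K] L) (k : ℕ) (x : Lˣ) :
    (((h9f_sigmaL σ)^[k] x : Lˣ) : L) = (σ ^ k) x := by
  induction k with
  | zero => simp
  | succ k ih =>
    rw [Function.iterate_succ_apply', h9f_sigmaL_coe, ih, pow_succ', AlgEquiv.mul_apply]

theorem h9f_pow_eq_one {p : ℕ} (hdeg : Module.finrank K L = p) (σ : L ≃ₐ[K] L) : σ ^ p = 1 := by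
  rw [← hdeg, ← IsGalois.card_aut_eq_finrank]
  exact pow_card_eq_one'

/-- `hσLp`. -/
theorem h9f_iterate_p {p : ℕ} (hdeg : Module.finrank K L = p) (σ : L ≃ₐ[K] L) (x : Lˣ) :
    (h9f_sigmaL σ)^[p] x = x := by
  apply Units.ext
  rw [h9f_iterate_sigmaL, h9f_pow_eq_one hdeg, AlgEquiv.one_apply]

/-- `hfixL`. -/
theorem h9f_fixL (σ : L ≃ₐ[K] L) (hσ : ∀ τ : L ≃ₐ[K] L, τ ∈ Subgroup.zpowers σ) (x : Lˣ)
    (hx : h9f_sigmaL σ x = x) : ∃ a : Kˣ, h9f_i a = x := by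
  have h1 : σ (x : L) = x := congrArg Units.val hx
  have hfix : ∀ τ : L ≃ₐ[K] L, τ (x : L) = x := by
    intro τ
    obtain ⟨n, rfl⟩ := Subgroup.mem_zpowers_iff.mp (hσ τ)
    have hstab : σ ∈ MulAction.stabilizer (L ≃ₐ[K] L) (x : L) := h1
    exact Subgroup.zpow_mem _ hstab n
  obtain ⟨a, ha⟩ := (IsGalois.mem_range_algebraMap_iff_fixed (F := K) (E := L) _).mpr hfix
  have ha0 : a ≠ 0 := by
    rintro rfl
    rw [map_zero] at ha
    exact x.ne_zero ha.symm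
  exact ⟨Units.mk0 a ha0, Units.ext ha⟩

/-- `hfixL'`. -/
theorem h9f_fixL' (σ : L ≃ₐ[K] L) (a : Kˣ) : h9f_sigmaL σ (h9f_i a) = h9f_i a := by
  apply Units.ext
  rw [h9f_sigmaL_coe, h9f_i_coe, AlgEquiv.commutes]

theorem h9f_nu_coe (σ : L ≃ₐ[K] L) (p : ℕ) (x : Lˣ) :
    ((h8b_nu (h9f_sigmaL σ) p x : Lˣ) : L) = ∏ k ∈ Finset.range p, (σ ^ k) (x : L) := by
  rw [h8b_nu_apply, Units.coe_prod]
  exact Finset.prod_congr rfl fun k _ => h9f_iterate_sigmaL σ k x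

/-- `h90` : **Hilbert 90** for the generator `σ`. -/
theorem h9f_h90 {p : ℕ} (hdeg : Module.finrank K L = p) (σ : L ≃ₐ[K] L)
    (hσ : ∀ τ : L ≃ₐ[K] L, τ ∈ Subgroup.zpowers σ) (x : Lˣ)
    (hx : h8b_nu (h9f_sigmaL σ) p x = 1) : ∃ y : Lˣ, x = h9f_sigmaL σ y / y := by
  have : IsCyclic (L ≃ₐ[K] L) := ⟨⟨σ, hσ⟩⟩
  have hnorm : Algebra.norm K (x : L) = 1 := by
    apply (algebraMap K L).injective
    rw [← Kummer.prod_pow_generator hdeg σ hσ, ← h9f_nu_coe, hx, Units.val_one, map_one]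
  obtain ⟨y, hy⟩ := groupCohomology.exists_div_of_norm_eq_one hσ hnorm
  refine ⟨y⁻¹, Units.ext ?_⟩
  rw [Units.val_div_eq_div_val, h9f_sigmaL_coe, Units.val_inv_eq_inv_val, map_inv₀, ← hy]
  field_simp

/-- `he`. -/
theorem h9f_e_injective : Function.Injective (h9f_e (L := L)) := by
  intro u v h
  apply Units.ext
  apply RingOfIntegers.ext
  exact congrArg Units.val h

/-- `heσ`. -/
theorem h9f_e_sigmaU (σ : L ≃ₐ[K] L) (u : (𝓞 L)ˣ) :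
    h9f_e (h9f_sigmaU σ u) = h9f_sigmaL σ (h9f_e u) := by
  apply Units.ext
  rfl

end field

end Fermat.Agent.Lib.S14
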