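/-
S14 project, stream (B), piece (I-field) (helper9): the results of `ChevField9` restated verbatim
for helper8's concrete maps of `ChevalleyDefs` (`h8b_sigL`, `h8b_iL`, `h8b_eU`, `h8b_sigU`), i.e.
the hypotheses `hσLp hfixL hfixL' h90 he heσ` of `h8b_ambig_count`.
-/
import Mathlib
import Fermat.Agent.Lib.S14.ChevField9
import Fermat.Agent.Lib.S14.ChevalleyDefs

set_option autoImplicit false
set_option linter.unusedSectionVars false

namespace Fermat.Agent.Lib.S14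

open NumberField

section field

variable {K L : Type} [Field K] [Field L] [NumberField K] [NumberField L] [Algebra K L]
  [IsGalois K L]

theorem h9f_sigL_eq (σ : L ≃ₐ[K] L) : h8b_sigL σ = h9f_sigmaL σ := rfl

theorem h9f_iL_eq : h8b_iL K L = h9f_i := rfl

theorem h9f_eU_eq : h8b_eU L = h9f_e := rfl

theorem h9f_sigU_eq (σ : L ≃ₐ[K] L) : h8b_sigU σ = h9f_sigmaU σ := rfl

/-- `hσLp` of `h8b_ambig_count`. -/
theorem h9f_hsigLp {p : ℕ} (hdeg : Module.finrank K L = p) (σ : L ≃ₐ[K] L) :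
    ∀ x, (h8b_sigL σ)^[p] x = x :=
  h9f_iterate_p hdeg σ

/-- `hfixL` of `h8b_ambig_count`. -/
theorem h9f_hfixL (σ : L ≃ₐ[K] L) (hσ : ∀ τ : L ≃ₐ[K] L, τ ∈ Subgroup.zpowers σ) :
    ∀ x, h8b_sigL σ x = x → ∃ a, h8b_iL K L a = x :=
  h9f_fixL σ hσ

/-- `hfixL'` of `h8b_ambig_count`. -/
theorem h9f_hfixL' (σ : L ≃ₐ[K] L) : ∀ a, h8b_sigL σ (h8b_iL K L a) = h8b_iL K L a :=
  h9f_fixL' σ

/-- `h90` of `h8b_ambig_count`. -/
theorem h9f_hh90 {p : ℕ} (hdeg : Module.finrank K L = p) (σ : L ≃ₐ[K] L)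
    (hσ : ∀ τ : L ≃ₐ[K] L, τ ∈ Subgroup.zpowers σ) :
    ∀ x, h8b_nu (h8b_sigL σ) p x = 1 → ∃ y, x = h8b_sigL σ y / y :=
  h9f_h90 hdeg σ hσ

/-- `he` of `h8b_ambig_count`. -/
theorem h9f_he : Function.Injective (h8b_eU L) :=
  h9f_e_injective

/-- `heσ` of `h8b_ambig_count`. -/
theorem h9f_hesig (σ : L ≃ₐ[K] L) : ∀ u, h8b_eU L (h8b_sigU σ u) = h8b_sigL σ (h8b_eU L u) :=
  h9f_e_sigmaU σ

end field

end Fermat.Agent.Lib.S14
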