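/-
S14 project, stream (B) (helper9): two ideal-level hypotheses of `h8b_ambig_count` for helper8's
concrete maps: `hσIp` (the action of `σ` on fractional ideals has order dividing `p`) and `hj`
(extension of fractional ideals is injective).
-/
import Mathlib
import Fermat.Agent.Lib.S14.ChevalleyBasic

set_option autoImplicit false
set_option linter.unusedSectionVars false

open NumberField nonZeroDivisors

namespace Fermat.Agent.Lib.S14

section ideal

variable {K L : Type*} [Field K] [Field L] [NumberField K] [NumberField L] [Algebra K L]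

/-- `hj` of `h8b_ambig_count`. -/
theorem h9f_hj : Function.Injective (h8b_jI K L) := by
  intro a b h
  apply Units.ext
  have h1 : FractionalIdeal.extendedHom L (𝓞 L) (a : FractionalIdeal (𝓞 K)⁰ K) =
      FractionalIdeal.extendedHom L (𝓞 L) (b : FractionalIdeal (𝓞 K)⁰ K) :=
    congrArg Units.val h
  exact FractionalIdeal.extendedHom_injective (𝓞 K) K L (𝓞 L) h1

theorem h9f_mem_iterate_sigI (σ : L ≃ₐ[K] L) (k : ℕ) (𝔄 : (FractionalIdeal (𝓞 L)⁰ L)ˣ) (x : L) :
    x ∈ (((h8b_sigI σ)^[k] 𝔄 : (FractionalIdeal (𝓞 L)⁰ L)ˣ) : FractionalIdeal (𝓞 L)⁰ L) ↔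
      (σ ^ k).symm x ∈ (𝔄 : FractionalIdeal (𝓞 L)⁰ L) := by
  induction k generalizing x with
  | zero =>
    rw [Function.iterate_zero, id_eq, pow_zero]
    rfl
  | succ k ih =>
    rw [Function.iterate_succ_apply', h8b_mem_sigI, ih]
    have h : (σ ^ (k + 1)).symm x = (σ ^ k).symm (σ.symm x) := by
      rw [AlgEquiv.symm_apply_eq, pow_succ', AlgEquiv.mul_apply, AlgEquiv.apply_symm_apply,
        AlgEquiv.apply_symm_apply]
    rw [h]

/-- `hσIp` of `h8b_ambig_count`. -/
theorem h9f_hsigIp [IsGalois K L] {p : ℕ} (hdeg : Module.finrank K L = p) (σ : L ≃ₐ[K] L) :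
    ∀ x, (h8b_sigI σ)^[p] x = x := by
  intro 𝔄
  have hp : σ ^ p = 1 := by
    rw [← hdeg, ← IsGalois.card_aut_eq_finrank]
    exact pow_card_eq_one'
  apply Units.ext
  apply FractionalIdeal.ext
  intro x
  rw [h9f_mem_iterate_sigI, hp]
  rfl

end ideal

end Fermat.Agent.Lib.S14
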