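/-
S14 project (speculative), helper8, stream (B): `hσIp` and `hj` for the concrete maps.
-/
import Mathlib
import Fermat.Agent.Lib.S14.ChevalleyBasic

set_option autoImplicit false

open NumberField nonZeroDivisors

namespace Fermat.Agent.Lib.S14

section iter

variable {K L : Type*} [Field K] [Field L] [NumberField K] [NumberField L] [Algebra K L]

theorem h8b_mem_sigI_iterate (σ : L ≃ₐ[K] L) (k : ℕ) (𝔄 : (FractionalIdeal (𝓞 L)⁰ L)ˣ) (x : L) :
    x ∈ ((((h8b_sigI σ)^[k]) 𝔄 : (FractionalIdeal (𝓞 L)⁰ L)ˣ) : FractionalIdeal (𝓞 L)⁰ L) ↔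
      ((σ ^ k)⁻¹ : L ≃ₐ[K] L) x ∈ (𝔄 : FractionalIdeal (𝓞 L)⁰ L) := by
  induction k generalizing x with
  | zero => simp
  | succ k ih =>
    rw [Function.iterate_succ_apply', h8b_mem_sigI, ih, pow_succ', mul_inv_rev,
      AlgEquiv.mul_apply]
    rfl

/-- `hσIp`. -/
theorem h8b_sigI_iterate_eq (σ : L ≃ₐ[K] L) {p : ℕ} (hp : σ ^ p = 1)
    (𝔄 : (FractionalIdeal (𝓞 L)⁰ L)ˣ) : ((h8b_sigI σ)^[p]) 𝔄 = 𝔄 := by
  apply Units.ext
  apply SetLike.ext
  intro x
  rw [h8b_mem_sigI_iterate, hp, inv_one, AlgEquiv.one_apply]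

/-- `hj`. -/
theorem h8b_jI_injective : Function.Injective (h8b_jI K L) := by
  apply Units.map_injective
  exact FractionalIdeal.extendedHom_injective (𝓞 K) K L (𝓞 L)

end iter

end Fermat.Agent.Lib.S14
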