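/-
S14 project (speculative), piece (C) (helper6): the crossing.  Part 5a: ideals prime to `l`.

For a number field `F` and a prime number `l`: `h6c_Cop l 𝔞 := ¬ l ∣ absNorm 𝔞`, equivalent to
`span {l} ⊔ 𝔞 = ⊤`; multiplicativity; every ideal class contains an integral ideal prime to `l`
(`h6c_exists_coprime_rep`).
-/
import Mathlib

set_option autoImplicit false
set_option linter.unusedSectionVars false

open NumberField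

namespace Fermat.Agent.Lib.S14


section cop

variable {F : Type*} [Field F] [NumberField F] (l : ℕ) [Fact l.Prime]

theorem h6c_span_l_ne_top : Ideal.span {(l : 𝓞 F)} ≠ ⊤ := by
  obtain ⟨𝔏, h𝔏max, h𝔏over⟩ :=
    Ideal.exists_maximal_ideal_liesOver_of_isIntegral (S := 𝓞 F) (Ideal.span {(l : ℤ)})
  intro h
  have hl : (l : 𝓞 F) ∈ 𝔏 := by
    have h1 : (l : ℤ) ∈ Ideal.span {(l : ℤ)} := Ideal.mem_span_singleton_self _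
    rw [h𝔏over.over, Ideal.under_def, Ideal.mem_comap] at h1
    simpa using h1
  have : Ideal.span {(l : 𝓞 F)} ≤ 𝔏 := (Ideal.span_singleton_le_iff_mem 𝔏).mpr hl
  rw [h] at this
  exact h𝔏max.ne_top (top_le_iff.mp this)

/-- "coprime to `l`" for an ideal of a ring of integers -/
def h6c_Cop (𝔞 : Ideal (𝓞 F)) : Prop := ¬ l ∣ Ideal.absNorm 𝔞

theorem h6c_Cop_mul (𝔞 𝔟 : Ideal (𝓞 F)) : h6c_Cop l (𝔞 * 𝔟) ↔ h6c_Cop l 𝔞 ∧ h6c_Cop l 𝔟 := by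
  unfold h6c_Cop
  rw [map_mul, (Nat.Prime.dvd_mul Fact.out), not_or]

theorem h6c_Cop_top : h6c_Cop l (⊤ : Ideal (𝓞 F)) := by
  unfold h6c_Cop
  rw [Ideal.absNorm_top]
  exact Nat.Prime.not_dvd_one Fact.out

theorem h6c_Cop_pow (𝔞 : Ideal (𝓞 F)) (h : h6c_Cop l 𝔞) (n : ℕ) : h6c_Cop l (𝔞 ^ n) := by
  induction n with
  | zero => rw [pow_zero, Ideal.one_eq_top]; exact h6c_Cop_top l
  | succ n ih => rw [pow_succ, h6c_Cop_mul]; exact ⟨ih, h⟩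

theorem h6c_Cop_iff_sup (𝔞 : Ideal (𝓞 F)) :
    h6c_Cop l 𝔞 ↔ Ideal.span {(l : 𝓞 F)} ⊔ 𝔞 = ⊤ := by
  constructor
  · intro h
    have hcop : Nat.Coprime l (Ideal.absNorm 𝔞) := (Nat.Prime.coprime_iff_not_dvd Fact.out).mpr h
    rw [Ideal.eq_top_iff_one]
    have h1 : ((Nat.gcd l (Ideal.absNorm 𝔞) : ℤ) : 𝓞 F) ∈ Ideal.span {(l : 𝓞 F)} ⊔ 𝔞 := by
      rw [Nat.gcd_eq_gcd_ab]
      push_cast
      apply Ideal.add_mem
      · apply Ideal.mem_sup_left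
        apply Ideal.mul_mem_right
        exact Ideal.mem_span_singleton_self _
      · apply Ideal.mem_sup_right
        apply Ideal.mul_mem_right
        exact Ideal.absNorm_mem 𝔞
    rw [hcop] at h1
    simpa using h1
  · intro h hdvd
    -- Cauchy
    by_cases hfin : Finite (𝓞 F ⧸ 𝔞)
    · have : Fintype (𝓞 F ⧸ 𝔞) := Fintype.ofFinite _
      have hcard : l ∣ Fintype.card (𝓞 F ⧸ 𝔞) := by
        rw [← Nat.card_eq_fintype_card]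
        exact hdvd
      obtain ⟨x, hx⟩ := exists_prime_addOrderOf_dvd_card l hcard
      have hx0 : x ≠ 0 := by
        intro h0
        rw [h0, addOrderOf_zero] at hx
        exact (Nat.Prime.one_lt Fact.out).ne hx
      apply hx0
      have h1 : (1 : 𝓞 F) ∈ Ideal.span {(l : 𝓞 F)} ⊔ 𝔞 := by rw [h]; trivial
      obtain ⟨y, hy, a, ha, hya⟩ := Submodule.mem_sup.mp h1
      obtain ⟨r, rfl⟩ := Ideal.mem_span_singleton'.mp hy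
      obtain ⟨x', rfl⟩ := Ideal.Quotient.mk_surjective x
      have hlx : (l : 𝓞 F ⧸ 𝔞) * Ideal.Quotient.mk 𝔞 x' = 0 := by
        have := addOrderOf_nsmul_eq_zero (Ideal.Quotient.mk 𝔞 x')
        rw [hx, nsmul_eq_mul] at this
        exact this
      have : Ideal.Quotient.mk 𝔞 x' = Ideal.Quotient.mk 𝔞 ((r * l + a) * x') := by
        rw [hya, one_mul]
      rw [this, map_mul, map_add, map_mul, map_natCast, Ideal.Quotient.eq_zero_iff_mem.mpr ha,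
        add_zero, mul_assoc, hlx, mul_zero]
    · have hinf : Infinite (𝓞 F ⧸ 𝔞) := not_finite_iff_infinite.mp hfin
      have : Ideal.absNorm 𝔞 = 0 := by
        rw [Ideal.absNorm_apply, Submodule.cardQuot_apply]
        exact Nat.card_eq_zero_of_infinite (α := 𝓞 F ⧸ 𝔞)
      rw [Ideal.absNorm_eq_zero_iff] at this
      rw [this, sup_bot_eq] at h
      exact h6c_span_l_ne_top l h


theorem h6c_Cop_prime (𝔔 : Ideal (𝓞 F)) [𝔔.IsPrime] (h𝔔 : 𝔔 ≠ ⊥) :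
    h6c_Cop l 𝔔 ↔ (l : 𝓞 F) ∉ 𝔔 := by
  rw [h6c_Cop_iff_sup]
  have hmax : 𝔔.IsMaximal := Ideal.IsPrime.isMaximal inferInstance h𝔔
  constructor
  · intro h hl
    have : Ideal.span {(l : 𝓞 F)} ≤ 𝔔 := (Ideal.span_singleton_le_iff_mem 𝔔).mpr hl
    rw [sup_eq_right.mpr this] at h
    exact hmax.ne_top h
  · intro hl
    by_contra hne
    have hle : 𝔔 ≤ Ideal.span {(l : 𝓞 F)} ⊔ 𝔔 := le_sup_right
    have := hmax.eq_of_le hne hle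
    apply hl
    rw [this]
    exact Ideal.mem_sup_left (Ideal.mem_span_singleton_self _)

theorem h6c_Cop_span (x : 𝓞 F) : h6c_Cop l (Ideal.span {x}) ↔ IsCoprime (l : 𝓞 F) x := by
  rw [h6c_Cop_iff_sup, ← Ideal.isCoprime_span_singleton_iff, Ideal.isCoprime_iff_sup_eq]

theorem h6c_exists_mem_coprime (𝔞 : Ideal (𝓞 F)) (h : h6c_Cop l 𝔞) :
    ∃ a ∈ 𝔞, IsCoprime (l : 𝓞 F) a := by
  rw [h6c_Cop_iff_sup] at h
  have h1 : (1 : 𝓞 F) ∈ Ideal.span {(l : 𝓞 F)} ⊔ 𝔞 := by rw [h]; trivial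
  obtain ⟨y, hy, a, ha, hya⟩ := Submodule.mem_sup.mp h1
  obtain ⟨r, rfl⟩ := Ideal.mem_span_singleton'.mp hy
  exact ⟨a, ha, r, 1, by rw [one_mul]; exact hya⟩


/-- one step: an ideal `𝔄'` prime to `l` with `𝔄 * 𝔄'` principal -/
theorem h6c_exists_mul_eq_span (𝔄 : Ideal (𝓞 F)) (h𝔄 : 𝔄 ≠ ⊥) :
    ∃ (a : 𝓞 F) (𝔄' : Ideal (𝓞 F)), a ≠ 0 ∧ 𝔄' ≠ ⊥ ∧ h6c_Cop l 𝔄' ∧ 𝔄 * 𝔄' = Ideal.span {a} := by
  set 𝔠 : Ideal (𝓞 F) := Ideal.span {(l : 𝓞 F)} with h𝔠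
  have h𝔠0 : 𝔠 ≠ ⊥ := by
    rw [h𝔠, Ne, Ideal.span_singleton_eq_bot]
    exact_mod_cast (Nat.Prime.ne_zero Fact.out)
  have hle : 𝔄 * 𝔠 ≤ 𝔄 := Ideal.mul_le_left
  have hne : 𝔄 * 𝔠 ≠ 0 := mul_ne_zero h𝔄 h𝔠0
  obtain ⟨a, ha⟩ := IsDedekindDomain.exists_sup_span_eq hle hne
  have ha𝔄 : a ∈ 𝔄 := by
    rw [← ha]; exact Ideal.mem_sup_right (Ideal.mem_span_singleton_self _)
  obtain ⟨𝔄', h𝔄'⟩ : 𝔄 ∣ Ideal.span {a} := by
    rw [Ideal.dvd_iff_le, Ideal.span_singleton_le_iff_mem]; exact ha𝔄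
  have hsup : 𝔠 ⊔ 𝔄' = ⊤ := by
    have h1 : 𝔄 * (𝔠 ⊔ 𝔄') = 𝔄 * ⊤ := by
      rw [Ideal.mul_sup, ← h𝔄', ha, Ideal.mul_top]
    exact mul_left_cancel₀ h𝔄 h1
  have hcop : h6c_Cop l 𝔄' := (h6c_Cop_iff_sup l 𝔄').mpr hsup
  have h𝔄'0 : 𝔄' ≠ ⊥ := by
    intro h0
    rw [h0, sup_bot_eq] at hsup
    exact h6c_span_l_ne_top l hsup
  have ha0 : a ≠ 0 := by
    intro h0
    rw [h0, Ideal.span_singleton_zero] at h𝔄'
    exact mul_ne_zero h𝔄 h𝔄'0 h𝔄'.symm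
  exact ⟨a, 𝔄', ha0, h𝔄'0, hcop, h𝔄'.symm⟩

/-- (AP): every ideal class contains an integral ideal prime to `l` -/
theorem h6c_exists_coprime_rep (𝔄 : Ideal (𝓞 F)) (h𝔄 : 𝔄 ≠ ⊥) :
    ∃ (θ₁ θ₂ : 𝓞 F) (𝔄' : Ideal (𝓞 F)), θ₁ ≠ 0 ∧ θ₂ ≠ 0 ∧ 𝔄' ≠ ⊥ ∧ h6c_Cop l 𝔄' ∧
      Ideal.span {θ₁} * 𝔄 = Ideal.span {θ₂} * 𝔄' := by
  obtain ⟨a, 𝔅, ha0, h𝔅0, -, h1⟩ := h6c_exists_mul_eq_span l 𝔄 h𝔄
  obtain ⟨b, 𝔄', hb0, h𝔄'0, hcop, h2⟩ := h6c_exists_mul_eq_span l 𝔅 h𝔅0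
  refine ⟨b, a, 𝔄', hb0, ha0, h𝔄'0, hcop, ?_⟩
  rw [← h2, ← h1]
  ring

end cop
end Fermat.Agent.Lib.S14
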