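/-
S14 project (speculative), piece (C) (helper6): the crossing.  Part 1: the ambient field.

`K ⊂ L` number fields, `L/K` Galois; `l` a prime number.  The ambient field is
`h6c_Om L l = L(ζ_l)` (Mathlib's `CyclotomicField l L`), Galois over `K`; its Galois group
`Gal(L(ζ_l)/K)` carries the two "coordinates"

* `h6c_res : Gal(L(ζ_l)/K) →* Gal(L/K)`   (restriction)
* `h6c_chi : Gal(L(ζ_l)/K) →* (ZMod l)ˣ`  (cyclotomic character, `σ ζ = ζ ^ χ(σ)`)

and `(res, χ)` is injective.
-/
import Mathlib

set_option autoImplicit false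
set_option linter.unusedSectionVars false

open NumberField Polynomial

namespace Fermat.Agent.Lib.S14

section setup

variable (K L : Type) [Field K] [NumberField K] [Field L] [NumberField L] [Algebra K L]
  [IsGalois K L]
variable (l : ℕ) [Fact l.Prime]

/-- The ambient field `L(ζ_l)`. -/
abbrev h6c_Om : Type := CyclotomicField l L

instance h6c_isGalois_Om : IsGalois K (h6c_Om L l) := by
  have hn : Normal K (h6c_Om L l) := by
    obtain ⟨q, hq⟩ := Normal.exists_isSplittingField K L
    have h2 : IsSplittingField L (h6c_Om L l) (((X : K[X]) ^ l - 1).map (algebraMap K L)) := by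
      have := IsCyclotomicExtension.isSplittingField_X_pow_sub_one l L (h6c_Om L l)
      simpa using this
    have hx0 : ((X : K[X]) ^ l - 1) ≠ 0 := X_pow_sub_C_ne_zero (Nat.Prime.pos Fact.out) 1
    by_cases hq0 : q = 0
    · subst hq0
      have h1 : IsSplittingField K L (1 : K[X]) := by
        refine ⟨by simp, ?_⟩
        have := hq.adjoin_rootSet'
        simpa using this
      have := IsSplittingField.mul (F := K) (K := L) (h6c_Om L l) 1 _ one_ne_zero hx0
      exact Normal.of_isSplittingField (1 * ((X : K[X]) ^ l - 1))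
    · have := IsSplittingField.mul (F := K) (K := L) (h6c_Om L l) q _ hq0 hx0
      exact Normal.of_isSplittingField (q * ((X : K[X]) ^ l - 1))
  exact ⟨⟩

/-- The primitive `l`-th root of unity of the ambient field. -/
noncomputable def h6c_zeta : h6c_Om L l := IsCyclotomicExtension.zeta l L (h6c_Om L l)

theorem h6c_zeta_spec : IsPrimitiveRoot (h6c_zeta L l) l :=
  IsCyclotomicExtension.zeta_spec l L _

/-- Restriction to `L`. -/
noncomputable def h6c_res : Gal(h6c_Om L l/K) →* Gal(L/K) := AlgEquiv.restrictNormalHom L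

/-- The cyclotomic character. -/
noncomputable def h6c_chi : Gal(h6c_Om L l/K) →* (ZMod l)ˣ := (h6c_zeta_spec L l).autToPow K

theorem h6c_res_commutes (σ : Gal(h6c_Om L l/K)) (x : L) :
    algebraMap L (h6c_Om L l) (h6c_res K L l σ x) = σ (algebraMap L (h6c_Om L l) x) :=
  AlgEquiv.restrictNormal_commutes σ L x

theorem h6c_chi_spec (σ : Gal(h6c_Om L l/K)) :
    σ (h6c_zeta L l) = h6c_zeta L l ^ (h6c_chi K L l σ : ZMod l).val :=
  ((h6c_zeta_spec L l).autToPow_spec K σ).symm

theorem h6c_res_surjective : Function.Surjective (h6c_res K L l) :=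
  AlgEquiv.restrictNormalHom_surjective (h6c_Om L l)

/-- `(res, χ)` is injective. -/
theorem h6c_eq_one_of_res_chi (σ : Gal(h6c_Om L l/K)) (h1 : h6c_res K L l σ = 1)
    (h2 : h6c_chi K L l σ = 1) : σ = 1 := by
  -- σ fixes L and ζ, and Ω' = L(ζ)
  have hL : ∀ x : L, σ (algebraMap L (h6c_Om L l) x) = algebraMap L (h6c_Om L l) x := by
    intro x
    rw [← h6c_res_commutes, h1]; rfl
  have hz : σ (h6c_zeta L l) = h6c_zeta L l := by
    rw [h6c_chi_spec, h2]
    have : ((1 : (ZMod l)ˣ) : ZMod l).val = 1 := by
      rw [Units.val_one]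
      exact ZMod.val_one l
    rw [this, pow_one]
  -- the L-algebra automorphism
  let τ : h6c_Om L l ≃ₐ[L] h6c_Om L l :=
    { σ.toRingEquiv with commutes' := hL }
  have hτ : τ = 1 := by
    have hprim := h6c_zeta_spec L l
    have htop := IsCyclotomicExtension.adjoin_primitive_root_eq_top (n := l) (A := L)
      (B := h6c_Om L l) hprim
    apply AlgEquiv.coe_toAlgHom_injective
    apply AlgHom.ext_of_adjoin_eq_top htop
    intro x hx
    rw [Set.mem_singleton_iff] at hx
    subst hx
    exact hz
  ext x
  have := congrArg (fun t : h6c_Om L l ≃ₐ[L] h6c_Om L l => t x) hτ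
  exact this

end setup

end Fermat.Agent.Lib.S14
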