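/-
S14 project (speculative), piece (C) (helper6): the crossing.  Part 2: ramification over `l`.

`K = ℚ(ζ_p)`, `L/K` Galois and unramified, `l ≠ p` prime.  For every prime `𝔏` of the ambient field
`L(ζ_l)` over `l` the inertia group in `Gal(L(ζ_l)/K)` is exactly `ker res = Gal(L(ζ_l)/L)`, and
this group has `l - 1` elements (`h6c_key1`); hence the cyclotomic character is onto `(ZMod l)ˣ`
already on `ker res` (`h6c_chi_ker_surjective`).
-/
import Mathlib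
import Fermat.Agent.Lib.S14.Cross6Setup

set_option autoImplicit false
set_option linter.unusedSectionVars false

open NumberField Polynomial
open scoped Pointwise

namespace Fermat.Agent.Lib.S14

section ram

variable (K L : Type) [Field K] [NumberField K] [Field L] [NumberField L] [Algebra K L]
  [IsGalois K L]
variable (l : ℕ) [Fact l.Prime]

theorem h6c_algebraMap_res_smul (σ : Gal(h6c_Om L l/K)) (y : 𝓞 L) :
    algebraMap (𝓞 L) (𝓞 (h6c_Om L l)) (h6c_res K L l σ • y) =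
      σ • algebraMap (𝓞 L) (𝓞 (h6c_Om L l)) y := by
  apply RingOfIntegers.ext
  exact h6c_res_commutes K L l σ (y : L)

theorem h6c_under_ne_bot {A B : Type*} [CommRing A] [CommRing B] [IsDomain B] [Algebra A B]
    [Algebra.IsIntegral A B] [Nontrivial A]
    (𝔔 : Ideal B) (h𝔔 : 𝔔 ≠ ⊥) : 𝔔.under A ≠ ⊥ := by
  intro h
  exact h𝔔 (Ideal.eq_bot_of_comap_eq_bot h)

theorem h6c_ne_bot_of_liesOver {B : Type*} [CommRing B] [Algebra ℤ B] [IsDomain B] [CharZero B]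
    (𝔏 : Ideal B) [𝔏.LiesOver (Ideal.span {(l : ℤ)})] : 𝔏 ≠ ⊥ := by
  intro h
  have h1 := Ideal.over_def 𝔏 (Ideal.span {(l : ℤ)})
  rw [h] at h1
  have : (l : ℤ) ∈ Ideal.span {(l : ℤ)} := Ideal.mem_span_singleton_self _
  rw [h1, Ideal.under_def, Ideal.mem_comap, Ideal.mem_bot] at this
  have h2 : ((l : ℤ) : B) = 0 := by simpa using this
  have h3 : (l : B) = 0 := by exact_mod_cast h2
  have := (Nat.cast_eq_zero (R := B)).mp h3
  exact (Nat.Prime.ne_zero Fact.out) this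

/-- The inertia group of any nonzero prime of the ambient field maps into the (trivial) inertia
group of `L/K`, i.e. lies in `ker res`. -/
theorem h6c_inertia_le_ker
    (hunr : ∀ (𝔓 : Ideal (𝓞 L)) [𝔓.IsPrime], 𝔓 ≠ ⊥ → 𝔓.inertia Gal(L/K) = ⊥)
    (𝔔 : Ideal (𝓞 (h6c_Om L l))) [𝔔.IsPrime] (h𝔔 : 𝔔 ≠ ⊥) :
    𝔔.inertia Gal(h6c_Om L l/K) ≤ (h6c_res K L l).ker := by
  intro σ hσ
  rw [MonoidHom.mem_ker]
  have hne : 𝔔.under (𝓞 L) ≠ ⊥ := h6c_under_ne_bot 𝔔 h𝔔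
  have := hunr (𝔔.under (𝓞 L)) hne
  rw [← Subgroup.mem_bot, ← this]
  intro y
  change h6c_res K L l σ • y - y ∈ 𝔔.under (𝓞 L)
  rw [Ideal.under_def, Ideal.mem_comap, map_sub, h6c_algebraMap_res_smul]
  exact hσ _

/-- the subfield `ℚ(ζ_l)` of the ambient field -/
noncomputable abbrev h6c_E : IntermediateField ℚ (h6c_Om L l) :=
  IntermediateField.adjoin ℚ {h6c_zeta L l}

instance h6c_E_cyc : IsCyclotomicExtension {l} ℚ (h6c_E L l) :=
  (h6c_zeta_spec L l).intermediateField_adjoin_isCyclotomicExtension ℚ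

/-- the ramification index over `ℤ` of a prime of the ambient field over `l` is divisible by
`l - 1` -/
theorem h6c_ram_ge (𝔏 : Ideal (𝓞 (h6c_Om L l))) [𝔏.IsPrime]
    [𝔏.LiesOver (Ideal.span {(l : ℤ)})] : (l - 1) ∣ 𝔏.ramificationIdx ℤ := by
  have h1 := Ideal.ramificationIdx_tower (R := ℤ) (𝔏.under (𝓞 (h6c_E L l))) 𝔏
  have : (𝔏.under (𝓞 (h6c_E L l))).LiesOver (Ideal.span {(l : ℤ)}) :=
    Ideal.LiesOver.tower_bot 𝔏 _ _
  have h2 := IsCyclotomicExtension.Rat.ramificationIdx_eq_of_prime l (h6c_E L l)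
    (𝔏.under (𝓞 (h6c_E L l)))
  rw [h1, h2]
  exact Dvd.intro _ rfl

theorem h6c_card_inertia (𝔏 : Ideal (𝓞 (h6c_Om L l))) [𝔏.IsPrime] (h𝔏 : 𝔏 ≠ ⊥) :
    Nat.card (𝔏.inertia Gal(h6c_Om L l/K)) = 𝔏.ramificationIdx (𝓞 K) := by
  have hne : 𝔏.under (𝓞 K) ≠ ⊥ := h6c_under_ne_bot 𝔏 h𝔏
  have : (𝔏.under (𝓞 K)).IsMaximal := Ideal.IsPrime.isMaximal inferInstance hne
  have : Finite ((𝓞 K) ⧸ 𝔏.under (𝓞 K)) := Ideal.finiteQuotientOfFreeOfNeBot _ hne
  have : Finite (𝔏.under (𝓞 K)).ResidueField := inferInstance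
  have : PerfectField (𝔏.under (𝓞 K)).ResidueField := inferInstance
  rw [Ideal.card_inertia_eq_ramificationIdxIn (G := Gal(h6c_Om L l/K)) (𝔏.under (𝓞 K)) 𝔏,
    Ideal.ramificationIdxIn_eq_ramificationIdx (𝔏.under (𝓞 K)) 𝔏 Gal(h6c_Om L l/K)]

theorem h6c_chi_ker_injective :
    Function.Injective ((h6c_chi K L l).comp (h6c_res K L l).ker.subtype) := by
  rw [injective_iff_map_eq_one]
  rintro ⟨σ, hσ⟩ h
  have := h6c_eq_one_of_res_chi K L l σ (MonoidHom.mem_ker.mp hσ) h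
  exact Subtype.ext this

theorem h6c_card_units : Nat.card (ZMod l)ˣ = l - 1 := by
  rw [Nat.card_eq_fintype_card, ZMod.card_units_eq_totient, Nat.totient_prime Fact.out]

theorem h6c_card_ker_le : Nat.card (h6c_res K L l).ker ≤ l - 1 := by
  have h1 := Nat.card_le_card_of_injective _ (h6c_chi_ker_injective K L l)
  have h2 := h6c_card_units l
  omega

variable (p : ℕ) [Fact p.Prime] [IsCyclotomicExtension {p} ℚ K]

theorem h6c_ram_K (hlp : l ≠ p) (𝔏 : Ideal (𝓞 (h6c_Om L l))) [𝔏.IsPrime]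
    [𝔏.LiesOver (Ideal.span {(l : ℤ)})] :
    𝔏.ramificationIdx ℤ = 𝔏.ramificationIdx (𝓞 K) := by
  have h1 := Ideal.ramificationIdx_tower (R := ℤ) (𝔏.under (𝓞 K)) 𝔏
  have : (𝔏.under (𝓞 K)).LiesOver (Ideal.span {(l : ℤ)}) :=
    Ideal.LiesOver.tower_bot 𝔏 _ _
  have hnd : ¬ l ∣ p := by
    intro h
    exact hlp ((Nat.prime_dvd_prime_iff_eq Fact.out Fact.out).mp h)
  have h2 := IsCyclotomicExtension.Rat.ramificationIdx_eq_of_not_dvd l K
    (𝔏.under (𝓞 K)) hnd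
  rw [h1, h2, one_mul]

/-- **KEY1**: over `l`, the inertia group in `Gal(L(ζ_l)/K)` is `ker res`, of order `l - 1`. -/
theorem h6c_key1
    (hunr : ∀ (𝔓 : Ideal (𝓞 L)) [𝔓.IsPrime], 𝔓 ≠ ⊥ → 𝔓.inertia Gal(L/K) = ⊥)
    (hlp : l ≠ p) (𝔏 : Ideal (𝓞 (h6c_Om L l))) [𝔏.IsPrime]
    [𝔏.LiesOver (Ideal.span {(l : ℤ)})] :
    𝔏.inertia Gal(h6c_Om L l/K) = (h6c_res K L l).ker ∧
      Nat.card (h6c_res K L l).ker = l - 1 := by
  have h𝔏 : 𝔏 ≠ ⊥ := h6c_ne_bot_of_liesOver l 𝔏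
  have hle := h6c_inertia_le_ker K L l hunr 𝔏 h𝔏
  have hcard := h6c_card_inertia K L l 𝔏 h𝔏
  have hdvd := h6c_ram_ge L l 𝔏
  rw [h6c_ram_K K L l p hlp 𝔏] at hdvd
  have hpos : 0 < 𝔏.ramificationIdx (𝓞 K) := Ideal.ramificationIdx_pos 𝔏 (𝓞 K)
  have hge : l - 1 ≤ Nat.card (𝔏.inertia Gal(h6c_Om L l/K)) := by
    rw [hcard]; exact Nat.le_of_dvd hpos hdvd
  have hker := h6c_card_ker_le K L l
  have hle' : Nat.card (𝔏.inertia Gal(h6c_Om L l/K)) ≤ Nat.card (h6c_res K L l).ker :=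
    Subgroup.card_le_of_le hle
  have hcardeq : Nat.card (h6c_res K L l).ker = l - 1 := by omega
  refine ⟨?_, hcardeq⟩
  exact Subgroup.eq_of_le_of_card_ge hle (by omega)

/-- For `l ≠ p` (so that some prime over `l` exists and KEY1 applies) the cyclotomic character is
already surjective on `ker res`. -/
theorem h6c_chi_ker_surjective
    (hunr : ∀ (𝔓 : Ideal (𝓞 L)) [𝔓.IsPrime], 𝔓 ≠ ⊥ → 𝔓.inertia Gal(L/K) = ⊥)
    (hlp : l ≠ p) (u : (ZMod l)ˣ) :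
    ∃ ν : Gal(h6c_Om L l/K), h6c_res K L l ν = 1 ∧ h6c_chi K L l ν = u := by
  -- a prime over `l`
  obtain ⟨𝔏, h𝔏max, h𝔏over⟩ :=
    Ideal.exists_maximal_ideal_liesOver_of_isIntegral (S := 𝓞 (h6c_Om L l))
      (Ideal.span {(l : ℤ)})
  have hcard := (h6c_key1 K L l p hunr hlp 𝔏).2
  have hbij : Function.Bijective ((h6c_chi K L l).comp (h6c_res K L l).ker.subtype) := by
    apply (h6c_chi_ker_injective K L l).bijective_of_nat_card_le
    rw [hcard, h6c_card_units]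
  obtain ⟨⟨ν, hν⟩, hνu⟩ := hbij.2 u
  exact ⟨ν, MonoidHom.mem_ker.mp hν, hνu⟩

end ram

end Fermat.Agent.Lib.S14
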