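/-
S14 project (speculative), piece (C) (helper6): the crossing.  Part 3: Frobenius elements in the
ambient group `Gal(L(ζ_l)/K)` at primes `𝔔` not over `l`.

`h6c_IsFrob σ n 𝔔`: `σ x ≡ x ^ n mod 𝔔` for all integral `x`.  Then `χ(σ) = n mod l`
(`h6c_chi_of_isFrob`) and `res σ` acts as `y ↦ y ^ n` modulo `𝔔 ∩ 𝓞 L` (`h6c_res_of_isFrob`);
for `n = N𝔮 ^ f` this gives `res σ = Frob_{L/K} ^ f` (`h6c_res_eq_frob_pow`).  Primes not over `l`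
are unramified in `L(ζ_l)/K` (`h6c_inertia_eq_bot`).
-/
import Mathlib
import Fermat.Agent.Lib.S14.Cross6Ram
import Fermat.Agent.Lib.S14.ArtinMap

set_option autoImplicit false
set_option linter.unusedSectionVars false

open NumberField Polynomial
open scoped Pointwise

namespace Fermat.Agent.Lib.S14

section frobOm


variable (K L : Type) [Field K] [NumberField K] [Field L] [NumberField L] [Algebra K L]
  [IsGalois K L]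
variable (l : ℕ) [Fact l.Prime]

theorem h6c_coprime_absNorm {M : Type*} [Field M] [NumberField M] (𝔔 : Ideal (𝓞 M)) [𝔔.IsPrime]
    (h𝔔 : 𝔔 ≠ ⊥) (hl : (l : 𝓞 M) ∉ 𝔔) : (Ideal.absNorm 𝔔).Coprime l := by
  have : NeZero 𝔔 := ⟨h𝔔⟩
  have hq := Nat.absNorm_under_prime 𝔔
  have hne : Ideal.absNorm (Ideal.under ℤ 𝔔) ≠ l := by
    intro h
    apply hl
    have := Int.absNorm_under_mem 𝔔
    rwa [h] at this
  rw [Ideal.absNorm_eq_pow_inertiaDeg' 𝔔 hq]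
  apply Nat.Coprime.pow_left
  exact (Nat.coprime_primes hq Fact.out).mpr hne

/-- `σ` acts as `x ↦ x ^ n` modulo `𝔔`. -/
def h6c_IsFrob (σ : Gal(h6c_Om L l/K)) (n : ℕ) (𝔔 : Ideal (𝓞 (h6c_Om L l))) : Prop :=
  ∀ x : 𝓞 (h6c_Om L l), σ • x - x ^ n ∈ 𝔔

/-- the integral primitive root -/
noncomputable def h6c_z : 𝓞 (h6c_Om L l) := (h6c_zeta_spec L l).toInteger

theorem h6c_z_spec : IsPrimitiveRoot (h6c_z L l) l := (h6c_zeta_spec L l).toInteger_isPrimitiveRoot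

theorem h6c_smul_z (σ : Gal(h6c_Om L l/K)) :
    σ • h6c_z L l = h6c_z L l ^ (h6c_chi K L l σ : ZMod l).val := by
  apply RingOfIntegers.ext
  have := h6c_chi_spec K L l σ
  rw [RingOfIntegers.coe_eq_algebraMap, RingOfIntegers.coe_eq_algebraMap, map_pow]
  exact this

theorem h6c_chi_of_isFrob (σ : Gal(h6c_Om L l/K)) (n : ℕ) (𝔔 : Ideal (𝓞 (h6c_Om L l)))
    [𝔔.IsPrime] (h𝔔 : 𝔔 ≠ ⊥) (hl : (l : 𝓞 (h6c_Om L l)) ∉ 𝔔) (h : h6c_IsFrob K L l σ n 𝔔) :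
    ((h6c_chi K L l σ : (ZMod l)ˣ) : ZMod l) = (n : ZMod l) := by
  have hcop := h6c_coprime_absNorm l 𝔔 h𝔔 hl
  have hne1 : Ideal.absNorm 𝔔 ≠ 1 := by
    rw [Ne, Ideal.absNorm_eq_one_iff]
    exact Ideal.IsPrime.ne_top inferInstance
  have h0 := (h6c_z_spec L l).idealQuotient_mk hne1 hcop
  have h1 := h (h6c_z L l)
  rw [h6c_smul_z, ← Ideal.Quotient.eq, map_pow, map_pow,
    (h0.isOfFinOrder (NeZero.ne _)).pow_inj_mod, ← h0.eq_orderOf,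
    ← ZMod.natCast_eq_natCast_iff', ZMod.natCast_val, ZMod.cast_id] at h1
  exact h1



theorem h6c_res_of_isFrob (σ : Gal(h6c_Om L l/K)) (n : ℕ) (𝔔 : Ideal (𝓞 (h6c_Om L l)))
    (h : h6c_IsFrob K L l σ n 𝔔) (y : 𝓞 L) :
    h6c_res K L l σ • y - y ^ n ∈ 𝔔.under (𝓞 L) := by
  rw [Ideal.under_def, Ideal.mem_comap, map_sub, h6c_algebraMap_res_smul, map_pow]
  exact h _

theorem h6c_inertia_eq_bot
    (hunr : ∀ (𝔓 : Ideal (𝓞 L)) [𝔓.IsPrime], 𝔓 ≠ ⊥ → 𝔓.inertia Gal(L/K) = ⊥)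
    (𝔔 : Ideal (𝓞 (h6c_Om L l))) [𝔔.IsPrime] (h𝔔 : 𝔔 ≠ ⊥)
    (hl : (l : 𝓞 (h6c_Om L l)) ∉ 𝔔) : 𝔔.inertia Gal(h6c_Om L l/K) = ⊥ := by
  rw [eq_bot_iff]
  intro σ hσ
  rw [Subgroup.mem_bot]
  have h1 := h6c_inertia_le_ker K L l hunr 𝔔 h𝔔 hσ
  have h2 : h6c_IsFrob K L l σ 1 𝔔 := by
    intro x
    rw [pow_one]
    exact hσ x
  have h3 := h6c_chi_of_isFrob K L l σ 1 𝔔 h𝔔 hl h2
  apply h6c_eq_one_of_res_chi K L l σ (MonoidHom.mem_ker.mp h1)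
  apply Units.ext
  rw [h3]
  simp

theorem h6c_res_eq_frob_pow
    (hunr : ∀ (𝔓 : Ideal (𝓞 L)) [𝔓.IsPrime], 𝔓 ≠ ⊥ → 𝔓.inertia Gal(L/K) = ⊥)
    (σ : Gal(h6c_Om L l/K)) (𝔔 : Ideal (𝓞 (h6c_Om L l))) [𝔔.IsPrime] (h𝔔 : 𝔔 ≠ ⊥) (f : ℕ)
    (h : h6c_IsFrob K L l σ (Nat.card (𝓞 K ⧸ 𝔔.under (𝓞 K)) ^ f) 𝔔) :
    h6c_res K L l σ = h2a_frob K L (𝔔.under (𝓞 L)) (h6c_under_ne_bot 𝔔 h𝔔) ^ f := by
  apply h2a_eq_frob_pow (𝔔.under (𝓞 L)) (h6c_under_ne_bot 𝔔 h𝔔)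
    (hunr _ (h6c_under_ne_bot 𝔔 h𝔔))
  intro y
  rw [Ideal.under_under]
  exact h6c_res_of_isFrob K L l σ _ 𝔔 h y


end frobOm

end Fermat.Agent.Lib.S14
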