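/-
S14 project (speculative), piece (C) (helper6): the crossing.  Part 4: the subgroups.

`g ∈ Gal(L/K)` of order `p`, `k ∈ (ZMod l)ˣ` not a `p`-th power.  Inside `Gal(L(ζ_l)/K)`:

* `h6c_H` = `{σ | (res σ, χ σ) ∈ ⟨(g, k)⟩ · (1 × p-th powers)}`  (its fixed field is the diagonal
  field `F`),
* `h6c_P` = `{σ | res σ = 1, χ σ a p-th power}`  (its fixed field is `Ω = L·E_p`).

`h6c_H_index : [Gal : 𝓗] = p`, `h6c_P_relIndex_H : [𝓗 : P] = p`, `𝓗 ∩ ker res = P`,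
`Gal = ker res · 𝓗` (`h6c_exists_ker_mul_H`), and an element of `𝓗` whose `χ` is a `p`-th power
lies in `P` (`h6c_mem_P_of_chi`).
-/
import Mathlib
import Fermat.Agent.Lib.S14.Cross6Frob

set_option autoImplicit false

open NumberField Polynomial
open scoped Pointwise
namespace Fermat.Agent.Lib.S14
set_option linter.unusedSectionVars false

section grp

variable (l : ℕ) [Fact l.Prime] (p : ℕ) [Fact p.Prime]

/-- the subgroup of `p`-th powers of `(ZMod l)ˣ` -/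
def h6c_Pw : Subgroup (ZMod l)ˣ := (powMonoidHom p : (ZMod l)ˣ →* (ZMod l)ˣ).range

theorem h6c_mem_Pw (u : (ZMod l)ˣ) : u ∈ h6c_Pw l p ↔ ∃ v : (ZMod l)ˣ, v ^ p = u := by
  rw [h6c_Pw, MonoidHom.mem_range]
  rfl

theorem h6c_Pw_index (hpl : p ∣ l - 1) : (h6c_Pw l p).index = p := by
  rw [h6c_Pw, IsCyclic.index_powMonoidHom_range, h6c_card_units]
  exact Nat.gcd_eq_right hpl

theorem h6c_zpow_mul_mem_Pw (k : (ZMod l)ˣ) (m : ℤ) : k ^ ((p : ℤ) * m) ∈ h6c_Pw l p := by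
  rw [h6c_mem_Pw]
  exact ⟨k ^ m, by rw [← zpow_natCast, ← zpow_mul, mul_comm]⟩

/-- if `k` is not a `p`-th power and `k ^ i` is, then `p ∣ i` -/
theorem h6c_dvd_of_zpow_mem_Pw {k : (ZMod l)ˣ} (hk : k ∉ h6c_Pw l p) {i : ℤ}
    (h : k ^ i ∈ h6c_Pw l p) : (p : ℤ) ∣ i := by
  by_contra hnd
  apply hk
  have hp : Prime (p : ℤ) := Nat.prime_iff_prime_int.mp Fact.out
  have hcop : IsCoprime (p : ℤ) i := (Prime.coprime_iff_not_dvd hp).mpr hnd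
  obtain ⟨a, b, hab⟩ := hcop
  have : k = k ^ ((p : ℤ) * a) * (k ^ i) ^ b := by
    rw [← zpow_mul, ← zpow_add]
    have : (p : ℤ) * a + i * b = 1 := by linarith
    rw [this, zpow_one]
  rw [this]
  exact Subgroup.mul_mem _ (h6c_zpow_mul_mem_Pw l p k a) (Subgroup.zpow_mem _ h _)

end grp

section subgroups

variable (K L : Type) [Field K] [NumberField K] [Field L] [NumberField L] [Algebra K L]
  [IsGalois K L]
variable (l : ℕ) [Fact l.Prime] (p : ℕ) [Fact p.Prime]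
variable (g : Gal(L/K)) (k : (ZMod l)ˣ)

/-- the subgroup `𝓗` of the ambient Galois group: `(res σ, χ σ) ∈ ⟨(g, k)⟩ · (1 × p-th powers)` -/
def h6c_H : Subgroup Gal(h6c_Om L l/K) where
  carrier := {σ | ∃ i : ℤ, h6c_res K L l σ = g ^ i ∧ h6c_chi K L l σ * (k ^ i)⁻¹ ∈ h6c_Pw l p}
  one_mem' := ⟨0, by simp, by simp⟩
  mul_mem' := by
    rintro a b ⟨i, hi1, hi2⟩ ⟨j, hj1, hj2⟩
    refine ⟨i + j, by rw [map_mul, hi1, hj1, zpow_add], ?_⟩
    have := Subgroup.mul_mem _ hi2 hj2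
    convert this using 1
    rw [map_mul, zpow_add, mul_inv]
    exact mul_mul_mul_comm _ _ _ _
  inv_mem' := by
    rintro a ⟨i, hi1, hi2⟩
    refine ⟨-i, by rw [map_inv, hi1, zpow_neg], ?_⟩
    have := Subgroup.inv_mem _ hi2
    convert this using 1
    rw [map_inv, zpow_neg, mul_inv]

/-- the subgroup `P = Gal(L(ζ_l)/Ω)` -/
def h6c_P : Subgroup Gal(h6c_Om L l/K) where
  carrier := {σ | h6c_res K L l σ = 1 ∧ h6c_chi K L l σ ∈ h6c_Pw l p}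
  one_mem' := ⟨by simp, by simp⟩
  mul_mem' := by
    rintro a b ⟨ha1, ha2⟩ ⟨hb1, hb2⟩
    exact ⟨by rw [map_mul, ha1, hb1, mul_one], by rw [map_mul]; exact Subgroup.mul_mem _ ha2 hb2⟩
  inv_mem' := by
    rintro a ⟨ha1, ha2⟩
    exact ⟨by rw [map_inv, ha1, inv_one], by rw [map_inv]; exact Subgroup.inv_mem _ ha2⟩

theorem h6c_mem_H (σ : Gal(h6c_Om L l/K)) : σ ∈ h6c_H K L l p g k ↔
    ∃ i : ℤ, h6c_res K L l σ = g ^ i ∧ h6c_chi K L l σ * (k ^ i)⁻¹ ∈ h6c_Pw l p := Iff.rfl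

theorem h6c_mem_P (σ : Gal(h6c_Om L l/K)) : σ ∈ h6c_P K L l p ↔
    h6c_res K L l σ = 1 ∧ h6c_chi K L l σ ∈ h6c_Pw l p := Iff.rfl

theorem h6c_P_le_H : h6c_P K L l p ≤ h6c_H K L l p g k := by
  rintro σ ⟨h1, h2⟩
  exact ⟨0, by simpa using h1, by simpa using h2⟩

theorem h6c_P_le_ker : h6c_P K L l p ≤ (h6c_res K L l).ker := fun _ h => MonoidHom.mem_ker.mpr h.1

variable {K L l p g k}

/-- (G2) -/
theorem h6c_mem_P_of_res (hg : orderOf g = p) {σ : Gal(h6c_Om L l/K)}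
    (hσ : σ ∈ h6c_H K L l p g k) (h1 : h6c_res K L l σ = 1) : σ ∈ h6c_P K L l p := by
  obtain ⟨i, hi1, hi2⟩ := hσ
  refine ⟨h1, ?_⟩
  rw [h1] at hi1
  have hdvd : (p : ℤ) ∣ i := by
    rw [← hg]; exact orderOf_dvd_iff_zpow_eq_one.mpr hi1.symm
  obtain ⟨m, rfl⟩ := hdvd
  have := Subgroup.mul_mem _ hi2 (h6c_zpow_mul_mem_Pw l p k m)
  simpa using this

/-- (G3) -/
theorem h6c_mem_P_of_chi (hg : orderOf g = p) (hk : k ∉ h6c_Pw l p) {σ : Gal(h6c_Om L l/K)}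
    (hσ : σ ∈ h6c_H K L l p g k) (h1 : h6c_chi K L l σ ∈ h6c_Pw l p) : σ ∈ h6c_P K L l p := by
  obtain ⟨i, hi1, hi2⟩ := hσ
  refine ⟨?_, h1⟩
  have h2 : k ^ i ∈ h6c_Pw l p := by
    have := Subgroup.mul_mem _ (Subgroup.inv_mem _ hi2) h1
    simpa using this
  obtain ⟨m, rfl⟩ := h6c_dvd_of_zpow_mem_Pw l p hk h2
  rw [hi1, zpow_mul, zpow_natCast, ← hg, pow_orderOf_eq_one, one_zpow]

end subgroups

section index

variable {K L : Type} [Field K] [NumberField K] [Field L] [NumberField L] [Algebra K L]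
  [IsGalois K L]
variable {l : ℕ} [Fact l.Prime] {p : ℕ} [Fact p.Prime] [IsCyclotomicExtension {p} ℚ K]
variable {g : Gal(L/K)} {k : (ZMod l)ˣ}

theorem h6c_orderOf_g (hcard : Nat.card Gal(L/K) = p) (hg : g ≠ 1) : orderOf g = p := by
  apply orderOf_eq_prime _ hg
  rw [← hcard]; exact pow_card_eq_one'

theorem h6c_g_gen (hcard : Nat.card Gal(L/K) = p) (hg : g ≠ 1) (τ : Gal(L/K)) :
    ∃ i : ℤ, τ = g ^ i := by
  obtain ⟨i, hi⟩ := Subgroup.mem_zpowers_iff.mp (mem_zpowers_of_prime_card hcard hg (g' := τ))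
  exact ⟨i, hi.symm⟩

theorem h6c_Gal_comm (hcard : Nat.card Gal(L/K) = p) :
    IsMulCommutative Gal(h6c_Om L l/K) := by
  have : IsCyclic Gal(L/K) := isCyclic_of_prime_card hcard
  have hG : IsMulCommutative Gal(L/K) := IsCyclic.isMulCommutative
  refine ⟨⟨fun a b => ?_⟩⟩
  have h1 : h6c_res K L l (a * b * (b * a)⁻¹) = 1 := by
    simp only [map_mul, map_inv, mul_inv_rev]
    have := mul_comm' (h6c_res K L l a) (h6c_res K L l b)
    rw [this]; group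
  have h2 : h6c_chi K L l (a * b * (b * a)⁻¹) = 1 := by
    simp only [map_mul, map_inv, mul_inv_rev]
    rw [mul_comm (h6c_chi K L l a)]; group
  have := h6c_eq_one_of_res_chi K L l _ h1 h2
  exact mul_inv_eq_one.mp this

/-- (G4) -/
theorem h6c_exists_ker_mul
    (hunr : ∀ (𝔓 : Ideal (𝓞 L)) [𝔓.IsPrime], 𝔓 ≠ ⊥ → 𝔓.inertia Gal(L/K) = ⊥) (hlp : l ≠ p)
    (σ : Gal(h6c_Om L l/K)) (i : ℤ) (hi : h6c_res K L l σ = g ^ i) :
    ∃ ν : Gal(h6c_Om L l/K), h6c_res K L l ν = 1 ∧ h6c_res K L l (ν⁻¹ * σ) = g ^ i ∧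
      h6c_chi K L l (ν⁻¹ * σ) = k ^ i := by
  obtain ⟨ν, hν1, hν2⟩ := h6c_chi_ker_surjective K L l p hunr hlp (h6c_chi K L l σ * (k ^ i)⁻¹)
  refine ⟨ν, hν1, by rw [map_mul, map_inv, hν1, inv_one, one_mul, hi], ?_⟩
  rw [map_mul, map_inv, hν2]
  simp

theorem h6c_exists_ker_mul_H
    (hunr : ∀ (𝔓 : Ideal (𝓞 L)) [𝔓.IsPrime], 𝔓 ≠ ⊥ → 𝔓.inertia Gal(L/K) = ⊥) (hlp : l ≠ p)
    (hcard : Nat.card Gal(L/K) = p) (hg : g ≠ 1)
    (σ : Gal(h6c_Om L l/K)) :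
    ∃ ν : Gal(h6c_Om L l/K), h6c_res K L l ν = 1 ∧ ν⁻¹ * σ ∈ h6c_H K L l p g k := by
  obtain ⟨i, hi⟩ := h6c_g_gen hcard hg (h6c_res K L l σ)
  obtain ⟨ν, h1, h2, h3⟩ := h6c_exists_ker_mul (k := k) hunr hlp σ i hi
  exact ⟨ν, h1, i, h2, by rw [h3]; simp⟩


theorem h6c_P_relIndex_H
    (hunr : ∀ (𝔓 : Ideal (𝓞 L)) [𝔓.IsPrime], 𝔓 ≠ ⊥ → 𝔓.inertia Gal(L/K) = ⊥) (hlp : l ≠ p)
    (hcard : Nat.card Gal(L/K) = p) (hg : g ≠ 1) :
    (h6c_P K L l p).relIndex (h6c_H K L l p g k) = p := by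
  let f : ↥(h6c_H K L l p g k) →* Gal(L/K) := (h6c_res K L l).comp (h6c_H K L l p g k).subtype
  have hker : f.ker = (h6c_P K L l p).subgroupOf (h6c_H K L l p g k) := by
    ext ⟨σ, hσ⟩
    rw [MonoidHom.mem_ker, Subgroup.mem_subgroupOf]
    constructor
    · intro h
      exact h6c_mem_P_of_res (h6c_orderOf_g hcard hg) hσ h
    · intro h
      exact h.1
  have hsurj : Function.Surjective f := by
    intro τ
    obtain ⟨σ, hσ⟩ := h6c_res_surjective K L l τ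
    obtain ⟨i, hi⟩ := h6c_g_gen hcard hg τ
    obtain ⟨ν, h1, h2, h3⟩ := h6c_exists_ker_mul (k := k) hunr hlp σ i (hσ.trans hi)
    refine ⟨⟨ν⁻¹ * σ, i, h2, by rw [h3]; simp⟩, ?_⟩
    change h6c_res K L l (ν⁻¹ * σ) = τ
    rw [h2, hi]
  rw [Subgroup.relIndex, ← hker, Subgroup.index_ker, MonoidHom.range_eq_top.mpr hsurj,
    Nat.card_congr Subgroup.topEquiv.toEquiv, hcard]

theorem h6c_P_relIndex_ker
    (hunr : ∀ (𝔓 : Ideal (𝓞 L)) [𝔓.IsPrime], 𝔓 ≠ ⊥ → 𝔓.inertia Gal(L/K) = ⊥) (hlp : l ≠ p)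
    (hpl : p ∣ l - 1) :
    (h6c_P K L l p).relIndex (h6c_res K L l).ker = p := by
  let f : ↥(h6c_res K L l).ker →* (ZMod l)ˣ ⧸ h6c_Pw l p :=
    (QuotientGroup.mk' (h6c_Pw l p)).comp ((h6c_chi K L l).comp (h6c_res K L l).ker.subtype)
  have hker : f.ker = (h6c_P K L l p).subgroupOf (h6c_res K L l).ker := by
    ext ⟨σ, hσ⟩
    rw [MonoidHom.mem_ker, Subgroup.mem_subgroupOf]
    change (QuotientGroup.mk' (h6c_Pw l p)) (h6c_chi K L l σ) = 1 ↔ _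
    rw [QuotientGroup.mk'_apply, QuotientGroup.eq_one_iff]
    exact ⟨fun h => ⟨MonoidHom.mem_ker.mp hσ, h⟩, fun h => h.2⟩
  have hsurj : Function.Surjective f := by
    intro u
    obtain ⟨u, rfl⟩ := QuotientGroup.mk'_surjective _ u
    obtain ⟨ν, h1, h2⟩ := h6c_chi_ker_surjective K L l p hunr hlp u
    refine ⟨⟨ν, MonoidHom.mem_ker.mpr h1⟩, ?_⟩
    change (QuotientGroup.mk' (h6c_Pw l p)) (h6c_chi K L l ν) = _
    rw [h2]
  rw [Subgroup.relIndex, ← hker, Subgroup.index_ker, MonoidHom.range_eq_top.mpr hsurj,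
    Nat.card_congr Subgroup.topEquiv.toEquiv, ← Subgroup.index_eq_card, h6c_Pw_index l p hpl]

theorem h6c_H_index
    (hunr : ∀ (𝔓 : Ideal (𝓞 L)) [𝔓.IsPrime], 𝔓 ≠ ⊥ → 𝔓.inertia Gal(L/K) = ⊥) (hlp : l ≠ p)
    (hpl : p ∣ l - 1) (hcard : Nat.card Gal(L/K) = p) (hg : g ≠ 1) :
    (h6c_H K L l p g k).index = p := by
  have hcomm : IsMulCommutative Gal(h6c_Om L l/K) := h6c_Gal_comm hcard
  have hnorm : (h6c_H K L l p g k).Normal := Subgroup.normal_of_isMulCommutative _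
  have hsup : (h6c_res K L l).ker ⊔ h6c_H K L l p g k = ⊤ := by
    rw [eq_top_iff]
    intro σ _
    obtain ⟨ν, h1, h2⟩ := h6c_exists_ker_mul_H (k := k) hunr hlp hcard hg σ
    have : σ = ν * (ν⁻¹ * σ) := by group
    rw [this]
    exact Subgroup.mul_mem_sup (MonoidHom.mem_ker.mpr h1) h2
  have hinf : h6c_H K L l p g k ⊓ (h6c_res K L l).ker = h6c_P K L l p := by
    apply le_antisymm
    · rintro σ ⟨h1, h2⟩
      exact h6c_mem_P_of_res (h6c_orderOf_g hcard hg) h1 (MonoidHom.mem_ker.mp h2)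
    · exact le_inf (h6c_P_le_H K L l p g k) (h6c_P_le_ker K L l p)
  rw [← Subgroup.relIndex_top_right, ← hsup, Subgroup.relIndex_sup_right,
    ← Subgroup.inf_relIndex_right, hinf, h6c_P_relIndex_ker hunr hlp hpl]

end index
end Fermat.Agent.Lib.S14
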