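/-
S14 project (speculative), piece (C) (helper6): the crossing.  Part 6: the abstract crossing.

Number fields `K ⊂ L`, `K ⊂ F ⊂ M ⊃ L`; `art : Ideal (𝓞 K) → G` multiplicative, trivial on norms
from `L`; `g ∈ G` of prime order `p`, `k ∈ (ZMod l)ˣ` not a `p`-th power.  Hypotheses:

* `claim2`: for every prime `𝔔 ∤ l` of `F`, `(art (N_{F/K} 𝔔), N𝔔 mod l) ∈ ⟨(g, k)⟩ · (1 × p-th powers)`;
* `I4`: the absolute norm of every principal ideal of `F` is a `p`-th power mod `l`;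
* `hidx`: `[Cl_F : norm classes from M] ≤ p`  (first inequality for `M/F`).

Conclusion `h6c_abstract_cross`: if `𝔮ᵢ = N_{F/K} 𝔔ᵢ`, `art 𝔮₁ = g`, `art 𝔮₂ = g ^ j`, then
`[𝔮₂] / [𝔮₁] ^ j` is a norm class from `L`.
-/
import Mathlib
import Fermat.Agent.Lib.S14.NormClass
import Fermat.Agent.Lib.S14.Cross6Group
import Fermat.Agent.Lib.S14.Cross6Cop

set_option autoImplicit false

open NumberField Polynomial
open scoped Pointwise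
namespace Fermat.Agent.Lib.S14
set_option linter.unusedSectionVars false

section abstract

variable {K L F M : Type} [Field K] [NumberField K] [Field L] [NumberField L]
  [Field F] [NumberField F] [Field M] [NumberField M]
  [Algebra K L] [Algebra K F] [Algebra F M] [Algebra L M] [Algebra K M]
  [IsScalarTower K F M] [IsScalarTower K L M]
  {G : Type} [Group G]
  (l p : ℕ) [Fact l.Prime] [Fact p.Prime]
  (art : Ideal (𝓞 K) → G)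
  (hmul : ∀ I J : Ideal (𝓞 K), I ≠ ⊥ → J ≠ ⊥ → art (I * J) = art I * art J)
  (htop : art ⊤ = 1)
  (g : G) (k : (ZMod l)ˣ)

/-- the property of claim 2 -/
def h6c_Good (𝔅 : Ideal (𝓞 F)) : Prop :=
  ∃ (i : ℤ) (u : (ZMod l)ˣ), art (Ideal.relNorm (𝓞 K) 𝔅) = g ^ i ∧
    (u : ZMod l) = (Ideal.absNorm 𝔅 : ZMod l) ∧ u * (k ^ i)⁻¹ ∈ h6c_Pw l p

include hmul htop in
/-- Step 1: claim 2 for all ideals prime to `l` -/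
theorem h6c_good_of_cop
    (claim2 : ∀ 𝔔 : Ideal (𝓞 F), 𝔔.IsPrime → 𝔔 ≠ ⊥ → (l : 𝓞 F) ∉ 𝔔 →
      h6c_Good (K := K) l p art g k 𝔔)
    (𝔅 : Ideal (𝓞 F)) (h𝔅 : 𝔅 ≠ ⊥) (hcop : h6c_Cop l 𝔅) : h6c_Good (K := K) l p art g k 𝔅 := by
  induction 𝔅 using UniqueFactorizationMonoid.induction_on_prime with
  | h₁ => exact absurd rfl h𝔅
  | h₂ I hI =>
    have hI' : I = ⊤ := Ideal.isUnit_iff.mp hI
    subst hI'
    refine ⟨0, 1, ?_, ?_, ?_⟩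
    · rw [Ideal.relNorm_top, htop, zpow_zero]
    · rw [Ideal.absNorm_top]; simp
    · simp
  | h₃ I 𝔔 hI0 h𝔔 ih =>
    have h𝔔0 : 𝔔 ≠ ⊥ := h𝔔.ne_zero
    have h𝔔p : 𝔔.IsPrime := Ideal.isPrime_of_prime h𝔔
    have hI0' : I ≠ ⊥ := hI0
    rw [h6c_Cop_mul] at hcop
    obtain ⟨i₁, u₁, h11, h12, h13⟩ := claim2 𝔔 h𝔔p h𝔔0 ((h6c_Cop_prime l 𝔔 h𝔔0).mp hcop.1)
    obtain ⟨i₂, u₂, h21, h22, h23⟩ := ih hI0' hcop.2
    refine ⟨i₁ + i₂, u₁ * u₂, ?_, ?_, ?_⟩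
    · rw [map_mul, hmul _ _ (h4c_relNorm_ne_bot K F h𝔔0) (h4c_relNorm_ne_bot K F hI0'), h11, h21,
        zpow_add]
    · rw [map_mul, Units.val_mul, h12, h22, Nat.cast_mul]
    · have := Subgroup.mul_mem _ h13 h23
      convert this using 1
      rw [zpow_add, mul_inv]
      exact mul_mul_mul_comm _ _ _ _


include hmul htop in
/-- Step 2: principal ideals prime to `l` are killed -/
theorem h6c_principal_killed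
    (claim2 : ∀ 𝔔 : Ideal (𝓞 F), 𝔔.IsPrime → 𝔔 ≠ ⊥ → (l : 𝓞 F) ∉ 𝔔 →
      h6c_Good (K := K) l p art g k 𝔔)
    (I4 : ∀ β : 𝓞 F, ∃ y : ZMod l, (Ideal.absNorm (Ideal.span {β}) : ZMod l) = y ^ p)
    (hg : orderOf g = p) (hk : k ∉ h6c_Pw l p)
    (β : 𝓞 F) (hβ : β ≠ 0) (hcop : IsCoprime (l : 𝓞 F) β) :
    art (Ideal.relNorm (𝓞 K) (Ideal.span {β})) = 1 := by
  have hne : Ideal.span {β} ≠ (⊥ : Ideal (𝓞 F)) := by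
    rw [Ne, Ideal.span_singleton_eq_bot]; exact hβ
  obtain ⟨i, u, h1, h2, h3⟩ := h6c_good_of_cop l p art hmul htop g k claim2 _ hne
    ((h6c_Cop_span l β).mpr hcop)
  obtain ⟨y, hy⟩ := I4 β
  have hy0 : y ≠ 0 := by
    rintro rfl
    rw [zero_pow (Nat.Prime.ne_zero Fact.out)] at hy
    rw [hy] at h2
    exact u.ne_zero h2
  have hu : u ∈ h6c_Pw l p := by
    rw [h6c_mem_Pw]
    refine ⟨Units.mk0 y hy0, ?_⟩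
    apply Units.ext
    rw [Units.val_pow_eq_pow_val, Units.val_mk0, h2, hy]
  have hki : k ^ i ∈ h6c_Pw l p := by
    have := Subgroup.mul_mem _ (Subgroup.inv_mem _ h3) hu
    simpa using this
  obtain ⟨m, rfl⟩ := h6c_dvd_of_zpow_mem_Pw l p hk hki
  rw [h1, zpow_mul, zpow_natCast, ← hg, pow_orderOf_eq_one, one_zpow]


/-- Step 3: norms from `M` are killed -/
theorem h6c_norm_killed
    (hnorm : ∀ 𝔄 : Ideal (𝓞 L), 𝔄 ≠ ⊥ → art (Ideal.relNorm (𝓞 K) 𝔄) = 1)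
    (𝔄 : Ideal (𝓞 M)) (h𝔄 : 𝔄 ≠ ⊥) :
    art (Ideal.relNorm (𝓞 K) (Ideal.relNorm (𝓞 F) 𝔄)) = 1 := by
  rw [Ideal.relNorm_relNorm (𝓞 K) (𝓞 F) 𝔄, ← Ideal.relNorm_relNorm (𝓞 K) (𝓞 L) 𝔄]
  exact hnorm _ (h4c_relNorm_ne_bot L M h𝔄)


theorem h6c_ne_zero_of_coprime {x : 𝓞 F} (h : IsCoprime (l : 𝓞 F) x) : x ≠ 0 := by
  rintro rfl
  rw [isCoprime_zero_right] at h
  exact h6c_span_l_ne_top (F := F) l (Ideal.span_singleton_eq_top.mpr h)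

include hmul htop in
/-- Step 5: `A` depends only on the class, among ideals prime to `l` -/
theorem h6c_A_congr
    (claim2 : ∀ 𝔔 : Ideal (𝓞 F), 𝔔.IsPrime → 𝔔 ≠ ⊥ → (l : 𝓞 F) ∉ 𝔔 →
      h6c_Good (K := K) l p art g k 𝔔)
    (I4 : ∀ β : 𝓞 F, ∃ y : ZMod l, (Ideal.absNorm (Ideal.span {β}) : ZMod l) = y ^ p)
    (hg : orderOf g = p) (hk : k ∉ h6c_Pw l p)
    (x y : 𝓞 F) (hx : x ≠ 0) (hy : y ≠ 0) (𝔞 𝔟 : Ideal (𝓞 F)) (h𝔞 : 𝔞 ≠ ⊥) (h𝔟 : 𝔟 ≠ ⊥)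
    (ha : h6c_Cop l 𝔞) (hb : h6c_Cop l 𝔟)
    (h : Ideal.span {x} * 𝔞 = Ideal.span {y} * 𝔟) :
    art (Ideal.relNorm (𝓞 K) 𝔞) = art (Ideal.relNorm (𝓞 K) 𝔟) := by
  obtain ⟨a₀, ha₀, hca₀⟩ := h6c_exists_mem_coprime l 𝔞 ha
  obtain ⟨b₀, hb₀, hcb₀⟩ := h6c_exists_mem_coprime l 𝔟 hb
  have h1 : x * a₀ ∈ Ideal.span {y} * 𝔟 := by
    rw [← h]; exact Ideal.mul_mem_mul (Ideal.mem_span_singleton_self x) ha₀
  obtain ⟨b₁, hb₁, hb₁'⟩ := Ideal.mem_span_singleton_mul.mp h1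
  have h2 : y * b₀ ∈ Ideal.span {x} * 𝔞 := by
    rw [h]; exact Ideal.mul_mem_mul (Ideal.mem_span_singleton_self y) hb₀
  obtain ⟨a₁, ha₁, ha₁'⟩ := Ideal.mem_span_singleton_mul.mp h2
  have h3 : a₀ * b₀ = a₁ * b₁ := by
    apply mul_left_cancel₀ hx
    calc x * (a₀ * b₀) = (x * a₀) * b₀ := by ring
      _ = (y * b₁) * b₀ := by rw [hb₁']
      _ = b₁ * (y * b₀) := by ring
      _ = b₁ * (x * a₁) := by rw [ha₁']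
      _ = x * (a₁ * b₁) := by ring
  have hcb₁ : IsCoprime (l : 𝓞 F) b₁ := by
    have : IsCoprime (l : 𝓞 F) (a₁ * b₁) := by rw [← h3]; exact hca₀.mul_right hcb₀
    exact this.of_mul_right_right
  have hy' : Ideal.span {y} ≠ (⊥ : Ideal (𝓞 F)) := by
    rw [Ne, Ideal.span_singleton_eq_bot]; exact hy
  have h4 : Ideal.span {b₁} * 𝔞 = Ideal.span {a₀} * 𝔟 := by
    apply mul_left_cancel₀ hy'
    calc Ideal.span {y} * (Ideal.span {b₁} * 𝔞) = Ideal.span {y * b₁} * 𝔞 := by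
          rw [← mul_assoc, Ideal.span_singleton_mul_span_singleton]
      _ = Ideal.span {x * a₀} * 𝔞 := by rw [hb₁']
      _ = Ideal.span {a₀} * (Ideal.span {x} * 𝔞) := by
          rw [← mul_assoc, Ideal.span_singleton_mul_span_singleton, mul_comm a₀ x]
      _ = Ideal.span {a₀} * (Ideal.span {y} * 𝔟) := by rw [h]
      _ = Ideal.span {y} * (Ideal.span {a₀} * 𝔟) := by ring
  have hb₁0 : b₁ ≠ 0 := h6c_ne_zero_of_coprime l hcb₁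
  have ha₀0 : a₀ ≠ 0 := h6c_ne_zero_of_coprime l hca₀
  have hsb : Ideal.span {b₁} ≠ (⊥ : Ideal (𝓞 F)) := by
    rw [Ne, Ideal.span_singleton_eq_bot]; exact hb₁0
  have hsa : Ideal.span {a₀} ≠ (⊥ : Ideal (𝓞 F)) := by
    rw [Ne, Ideal.span_singleton_eq_bot]; exact ha₀0
  have h5 := congrArg (fun I => art (Ideal.relNorm (𝓞 K) I)) h4
  simp only [map_mul] at h5
  rw [hmul _ _ (h4c_relNorm_ne_bot K F hsb) (h4c_relNorm_ne_bot K F h𝔞),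
    hmul _ _ (h4c_relNorm_ne_bot K F hsa) (h4c_relNorm_ne_bot K F h𝔟),
    h6c_principal_killed l p art hmul htop g k claim2 I4 hg hk b₁ hb₁0 hcb₁,
    h6c_principal_killed l p art hmul htop g k claim2 I4 hg hk a₀ ha₀0 hca₀, one_mul, one_mul] at h5
  exact h5


omit [IsScalarTower K F M] [IsScalarTower K L M] in
/-- the norm classes already form a subgroup -/
theorem h6c_mem_normSubgroup_iff (c : ClassGroup (𝓞 F)) :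
    c ∈ h4c_normSubgroup F M ↔
      ∃ 𝔄 : Ideal (𝓞 M), 𝔄 ≠ ⊥ ∧ c = h4c_cl (Ideal.relNorm (𝓞 F) 𝔄) := by
  constructor
  · intro hc
    induction hc using Subgroup.closure_induction with
    | mem c hc => exact hc
    | one => exact ⟨⊤, by simp, by rw [Ideal.relNorm_top, h4c_cl_top]⟩
    | mul c d _ _ hc hd =>
      obtain ⟨𝔄, h𝔄, rfl⟩ := hc
      obtain ⟨𝔅, h𝔅, rfl⟩ := hd
      refine ⟨𝔄 * 𝔅, mul_ne_zero h𝔄 h𝔅, ?_⟩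
      rw [map_mul, h4c_cl_mul (h4c_relNorm_ne_bot F M h𝔄) (h4c_relNorm_ne_bot F M h𝔅)]
    | inv c _ hc =>
      obtain ⟨𝔄, h𝔄, rfl⟩ := hc
      have hfin : Finite (ClassGroup (𝓞 F)) := inferInstance
      set n := Nat.card (ClassGroup (𝓞 F)) with hn
      have hnpos : 0 < n := Nat.card_pos
      refine ⟨𝔄 ^ (n - 1), pow_ne_zero _ h𝔄, ?_⟩
      rw [map_pow, h4c_cl_pow (h4c_relNorm_ne_bot F M h𝔄)]
      have h1 : h4c_cl (Ideal.relNorm (𝓞 F) 𝔄) ^ n = 1 := pow_card_eq_one'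
      rw [eq_comm, ← mul_eq_one_iff_eq_inv, ← pow_succ, Nat.sub_add_cancel hnpos, h1]
  · rintro ⟨𝔄, h𝔄, rfl⟩
    exact h4c_cl_relNorm_mem F M h𝔄


theorem h6c_cl_eq_iff {R : Type*} [CommRing R] [IsDedekindDomain R] {𝔞 𝔟 : Ideal R}
    (h𝔞 : 𝔞 ≠ ⊥) (h𝔟 : 𝔟 ≠ ⊥) :
    h4c_cl 𝔞 = h4c_cl 𝔟 ↔
      ∃ x y : R, x ≠ 0 ∧ y ≠ 0 ∧ Ideal.span {x} * 𝔞 = Ideal.span {y} * 𝔟 := by
  rw [h4c_cl_of_ne h𝔞, h4c_cl_of_ne h𝔟, ClassGroup.mk0_eq_mk0_iff]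
  constructor
  · rintro ⟨x, y, hx, hy, h⟩
    exact ⟨x, y, hx, hy, h⟩
  · rintro ⟨x, y, hx, hy, h⟩
    exact ⟨x, y, hx, hy, h⟩

theorem h6c_Cop_relNorm (𝔄 : Ideal (𝓞 M)) (h : h6c_Cop l 𝔄) :
    h6c_Cop l (Ideal.relNorm (𝓞 F) 𝔄) := by
  unfold h6c_Cop at *
  rwa [Ideal.absNorm_relNorm]

include hmul htop in
/-- Step 6: an ideal prime to `l` whose class is a norm class is killed. -/
theorem h6c_killed_of_mem_normSubgroup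
    (hnorm : ∀ 𝔄 : Ideal (𝓞 L), 𝔄 ≠ ⊥ → art (Ideal.relNorm (𝓞 K) 𝔄) = 1)
    (claim2 : ∀ 𝔔 : Ideal (𝓞 F), 𝔔.IsPrime → 𝔔 ≠ ⊥ → (l : 𝓞 F) ∉ 𝔔 →
      h6c_Good (K := K) l p art g k 𝔔)
    (I4 : ∀ β : 𝓞 F, ∃ y : ZMod l, (Ideal.absNorm (Ideal.span {β}) : ZMod l) = y ^ p)
    (hg : orderOf g = p) (hk : k ∉ h6c_Pw l p)
    (𝔞 : Ideal (𝓞 F)) (h𝔞 : 𝔞 ≠ ⊥) (ha : h6c_Cop l 𝔞)
    (hmem : h4c_cl 𝔞 ∈ h4c_normSubgroup F M) :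
    art (Ideal.relNorm (𝓞 K) 𝔞) = 1 := by
  obtain ⟨𝔄, h𝔄, hcl⟩ := (h6c_mem_normSubgroup_iff (F := F) (M := M) _).mp hmem
  obtain ⟨x, y, hx, hy, hxy⟩ := (h6c_cl_eq_iff h𝔞 (h4c_relNorm_ne_bot F M h𝔄)).mp hcl
  obtain ⟨θ₁, θ₂, 𝔄', hθ₁, hθ₂, h𝔄', hcop', hθ⟩ := h6c_exists_coprime_rep l 𝔄 h𝔄
  -- norms
  have hN := congrArg (Ideal.relNorm (𝓞 F)) hθ
  rw [map_mul, map_mul, Ideal.relNorm_singleton, Ideal.relNorm_singleton] at hN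
  set n₁ := Algebra.intNorm (𝓞 F) (𝓞 M) θ₁ with hn₁
  set n₂ := Algebra.intNorm (𝓞 F) (𝓞 M) θ₂ with hn₂
  have hn₁0 : n₁ ≠ 0 := Algebra.intNorm_ne_zero.mpr hθ₁
  have hn₂0 : n₂ ≠ 0 := Algebra.intNorm_ne_zero.mpr hθ₂
  have hfin : Ideal.span {x * n₁} * 𝔞 = Ideal.span {y * n₂} * Ideal.relNorm (𝓞 F) 𝔄' := by
    calc Ideal.span {x * n₁} * 𝔞 = Ideal.span {n₁} * (Ideal.span {x} * 𝔞) := by
          rw [← mul_assoc, Ideal.span_singleton_mul_span_singleton, mul_comm n₁ x]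
      _ = Ideal.span {n₁} * (Ideal.span {y} * Ideal.relNorm (𝓞 F) 𝔄) := by rw [hxy]
      _ = Ideal.span {y} * (Ideal.span {n₁} * Ideal.relNorm (𝓞 F) 𝔄) := by ring
      _ = Ideal.span {y} * (Ideal.span {n₂} * Ideal.relNorm (𝓞 F) 𝔄') := by rw [hN]
      _ = Ideal.span {y * n₂} * Ideal.relNorm (𝓞 F) 𝔄' := by
          rw [← mul_assoc, Ideal.span_singleton_mul_span_singleton]
  rw [h6c_A_congr l p art hmul htop g k claim2 I4 hg hk (x * n₁) (y * n₂) (mul_ne_zero hx hn₁0)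
    (mul_ne_zero hy hn₂0) 𝔞 _ h𝔞 (h4c_relNorm_ne_bot F M h𝔄') ha (h6c_Cop_relNorm l 𝔄' hcop') hfin]
  exact h6c_norm_killed art hnorm 𝔄' h𝔄'


include hmul htop in
/-- Step 7: the index argument. -/
theorem h6c_mem_normSubgroup_of_killed
    (hnorm : ∀ 𝔄 : Ideal (𝓞 L), 𝔄 ≠ ⊥ → art (Ideal.relNorm (𝓞 K) 𝔄) = 1)
    (claim2 : ∀ 𝔔 : Ideal (𝓞 F), 𝔔.IsPrime → 𝔔 ≠ ⊥ → (l : 𝓞 F) ∉ 𝔔 →
      h6c_Good (K := K) l p art g k 𝔔)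
    (I4 : ∀ β : 𝓞 F, ∃ y : ZMod l, (Ideal.absNorm (Ideal.span {β}) : ZMod l) = y ^ p)
    (hg : orderOf g = p) (hk : k ∉ h6c_Pw l p)
    (hidx : (h4c_normSubgroup F M).index ≤ p) (hFM : Module.finrank (𝓞 F) (𝓞 M) = p)
    (𝔔₁ : Ideal (𝓞 F)) (h𝔔₁ : 𝔔₁ ≠ ⊥) (hc₁ : h6c_Cop l 𝔔₁)
    (ha₁ : art (Ideal.relNorm (𝓞 K) 𝔔₁) = g)
    (𝔞 : Ideal (𝓞 F)) (h𝔞 : 𝔞 ≠ ⊥) (hc : h6c_Cop l 𝔞)
    (hkill : art (Ideal.relNorm (𝓞 K) 𝔞) = 1) :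
    h4c_cl 𝔞 ∈ h4c_normSubgroup F M := by
  set N := h4c_normSubgroup F M with hN
  set c₁ := h4c_cl 𝔔₁ with hc₁def
  have hp : p.Prime := Fact.out
  -- powers of 𝔔₁
  have hApow : ∀ n : ℕ, art (Ideal.relNorm (𝓞 K) (𝔔₁ ^ n)) = g ^ n := by
    intro n
    induction n with
    | zero => rw [pow_zero, Ideal.one_eq_top, Ideal.relNorm_top, htop, pow_zero]
    | succ n ih =>
      rw [pow_succ, map_mul, hmul _ _ (h4c_relNorm_ne_bot K F (pow_ne_zero n h𝔔₁))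
        (h4c_relNorm_ne_bot K F h𝔔₁), ih, ha₁, pow_succ]
  have key : ∀ n : ℕ, c₁ ^ n ∈ N → p ∣ n := by
    intro n hn
    rw [hc₁def, ← h4c_cl_pow h𝔔₁] at hn
    have := h6c_killed_of_mem_normSubgroup (L := L) l p art hmul htop g k hnorm claim2 I4 hg hk
      (𝔔₁ ^ n) (pow_ne_zero n h𝔔₁) (h6c_Cop_pow l 𝔔₁ hc₁ n) hn
    rw [hApow] at this
    rw [← hg]
    exact orderOf_dvd_of_pow_eq_one this
  -- the map Fin p → Q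
  let φ : Fin p → ClassGroup (𝓞 F) ⧸ N := fun a => QuotientGroup.mk (c₁ ^ (a : ℕ))
  have hφinj : Function.Injective φ := by
    intro a b hab
    have hab' : (QuotientGroup.mk (c₁ ^ (a : ℕ)) : ClassGroup (𝓞 F) ⧸ N) =
        QuotientGroup.mk (c₁ ^ (b : ℕ)) := hab
    rw [QuotientGroup.eq] at hab'
    by_contra hne
    rcases lt_or_gt_of_ne (fun h => hne (Fin.ext h)) with hlt | hlt
    · have h1 : c₁ ^ ((b : ℕ) - (a : ℕ)) ∈ N := by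
        have : c₁ ^ ((b : ℕ) - (a : ℕ)) = (c₁ ^ (a : ℕ))⁻¹ * c₁ ^ (b : ℕ) := by
          rw [eq_inv_mul_iff_mul_eq, ← pow_add, Nat.add_sub_cancel' hlt.le]
        rw [this]; exact hab'
      have h2 := key _ h1
      have h3 : (b : ℕ) - (a : ℕ) < p := lt_of_le_of_lt (Nat.sub_le _ _) b.2
      have h4 : 0 < (b : ℕ) - (a : ℕ) := Nat.sub_pos_of_lt hlt
      exact absurd (Nat.le_of_dvd h4 h2) (not_le.mpr h3)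
    · have h1 : c₁ ^ ((a : ℕ) - (b : ℕ)) ∈ N := by
        have : c₁ ^ ((a : ℕ) - (b : ℕ)) = ((c₁ ^ (a : ℕ))⁻¹ * c₁ ^ (b : ℕ))⁻¹ := by
          rw [mul_inv_rev, inv_inv, eq_comm, inv_mul_eq_iff_eq_mul, ← pow_add,
            Nat.add_sub_cancel' hlt.le]
        rw [this]; exact N.inv_mem hab'
      have h2 := key _ h1
      have h3 : (a : ℕ) - (b : ℕ) < p := lt_of_le_of_lt (Nat.sub_le _ _) a.2
      have h4 : 0 < (a : ℕ) - (b : ℕ) := Nat.sub_pos_of_lt hlt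
      exact absurd (Nat.le_of_dvd h4 h2) (not_le.mpr h3)
  have hcard : Nat.card (ClassGroup (𝓞 F) ⧸ N) ≤ Nat.card (Fin p) := by
    rw [← Subgroup.index_eq_card, Nat.card_fin]; exact hidx
  have hφsurj := (hφinj.bijective_of_nat_card_le hcard).2
  obtain ⟨⟨n, hnp⟩, ha⟩ := hφsurj (QuotientGroup.mk (h4c_cl 𝔞))
  have ha' : (QuotientGroup.mk (c₁ ^ n) : ClassGroup (𝓞 F) ⧸ N) =
      QuotientGroup.mk (h4c_cl 𝔞) := ha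
  rw [QuotientGroup.eq] at ha'
  -- c₁ ^ p ∈ N
  have hc₁p : c₁ ^ p ∈ N := by
    have := h4c_cl_pow_finrank_mem F M h𝔔₁
    rwa [hFM] at this
  -- the ideal 𝔔₁^(n(p-1)) * 𝔞 has class in N
  have hmem : h4c_cl (𝔔₁ ^ (n * (p - 1)) * 𝔞) ∈ N := by
    rw [h4c_cl_mul (pow_ne_zero _ h𝔔₁) h𝔞, h4c_cl_pow h𝔔₁]
    have e : c₁ ^ (n * (p - 1)) * h4c_cl 𝔞 =
        (c₁ ^ p) ^ n * ((c₁ ^ n)⁻¹ * h4c_cl 𝔞) := by
      have hp1 : p * n = n * (p - 1) + n := by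
        have : p = (p - 1) + 1 := (Nat.sub_add_cancel hp.one_le).symm
        calc p * n = ((p - 1) + 1) * n := by rw [← this]
          _ = n * (p - 1) + n := by ring
      rw [← mul_assoc]
      congr 1
      rw [eq_mul_inv_iff_mul_eq, ← pow_mul, ← pow_add, hp1]
    rw [e]
    exact N.mul_mem (N.pow_mem hc₁p _) ha'
  have hkill2 := h6c_killed_of_mem_normSubgroup (L := L) l p art hmul htop g k hnorm claim2 I4 hg hk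
    (𝔔₁ ^ (n * (p - 1)) * 𝔞) (mul_ne_zero (pow_ne_zero _ h𝔔₁) h𝔞)
    ((h6c_Cop_mul l _ _).mpr ⟨h6c_Cop_pow l 𝔔₁ hc₁ _, hc⟩) hmem
  rw [map_mul, hmul _ _ (h4c_relNorm_ne_bot K F (pow_ne_zero _ h𝔔₁)) (h4c_relNorm_ne_bot K F h𝔞),
    hApow, hkill, mul_one] at hkill2
  have hdvd : orderOf g ∣ n * (p - 1) := orderOf_dvd_of_pow_eq_one hkill2
  rw [hg] at hdvd
  have hdvd' : p ∣ n := by
    rcases (Nat.Prime.dvd_mul hp).mp hdvd with h | h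
    · exact h
    · exfalso
      have h1 : p - 1 < p := Nat.sub_lt hp.pos one_pos
      have h2 : 0 < p - 1 := Nat.sub_pos_of_lt hp.one_lt
      exact absurd (Nat.le_of_dvd h2 h) (not_le.mpr h1)
  have ha0 : n = 0 := Nat.eq_zero_of_dvd_of_lt hdvd' hnp
  rw [ha0, pow_zero, inv_one, one_mul] at ha'
  exact ha'


theorem h6c_Cop_of_relNorm (𝔔 : Ideal (𝓞 F)) (𝔮 : Ideal (𝓞 K))
    (h : Ideal.relNorm (𝓞 K) 𝔔 = 𝔮) (hl : ¬ l ∣ Ideal.absNorm 𝔮) : h6c_Cop l 𝔔 := by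
  unfold h6c_Cop
  rwa [← Ideal.absNorm_relNorm (𝓞 K) (𝓞 F) 𝔔, h]

include hmul htop in
/-- **The abstract crossing.** -/
theorem h6c_abstract_cross
    (hnorm : ∀ 𝔄 : Ideal (𝓞 L), 𝔄 ≠ ⊥ → art (Ideal.relNorm (𝓞 K) 𝔄) = 1)
    (claim2 : ∀ 𝔔 : Ideal (𝓞 F), 𝔔.IsPrime → 𝔔 ≠ ⊥ → (l : 𝓞 F) ∉ 𝔔 →
      h6c_Good (K := K) l p art g k 𝔔)
    (I4 : ∀ β : 𝓞 F, ∃ y : ZMod l, (Ideal.absNorm (Ideal.span {β}) : ZMod l) = y ^ p)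
    (hg : orderOf g = p) (hk : k ∉ h6c_Pw l p)
    (hidx : (h4c_normSubgroup F M).index ≤ p) (hFM : Module.finrank (𝓞 F) (𝓞 M) = p)
    (hKL : Module.finrank (𝓞 K) (𝓞 L) = p)
    (𝔮₁ 𝔮₂ : Ideal (𝓞 K)) (h𝔮₁ : 𝔮₁ ≠ ⊥) (h𝔮₂ : 𝔮₂ ≠ ⊥)
    (hl₁ : ¬ l ∣ Ideal.absNorm 𝔮₁) (hl₂ : ¬ l ∣ Ideal.absNorm 𝔮₂)
    (𝔔₁ 𝔔₂ : Ideal (𝓞 F)) (h₁ : Ideal.relNorm (𝓞 K) 𝔔₁ = 𝔮₁) (h₂ : Ideal.relNorm (𝓞 K) 𝔔₂ = 𝔮₂)
    (j : ℕ) (ha₁ : art 𝔮₁ = g) (ha₂ : art 𝔮₂ = g ^ j) :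
    h4c_cl 𝔮₂ / h4c_cl 𝔮₁ ^ j ∈ h4c_normSubgroup K L := by
  have hp : p.Prime := Fact.out
  have h𝔔₁ : 𝔔₁ ≠ ⊥ := by
    intro h; rw [h, Ideal.relNorm_bot] at h₁; exact h𝔮₁ h₁.symm
  have h𝔔₂ : 𝔔₂ ≠ ⊥ := by
    intro h; rw [h, Ideal.relNorm_bot] at h₂; exact h𝔮₂ h₂.symm
  have hc₁ : h6c_Cop l 𝔔₁ := h6c_Cop_of_relNorm l 𝔔₁ 𝔮₁ h₁ hl₁
  have hc₂ : h6c_Cop l 𝔔₂ := h6c_Cop_of_relNorm l 𝔔₂ 𝔮₂ h₂ hl₂
  obtain ⟨𝔞, h𝔞def⟩ : ∃ 𝔞 : Ideal (𝓞 F), 𝔞 = 𝔔₂ * 𝔔₁ ^ (j * (p - 1)) := ⟨_, rfl⟩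
  have h𝔞 : 𝔞 ≠ ⊥ := by rw [h𝔞def]; exact mul_ne_zero h𝔔₂ (pow_ne_zero _ h𝔔₁)
  have hc : h6c_Cop l 𝔞 := by
    rw [h𝔞def]; exact (h6c_Cop_mul l _ _).mpr ⟨hc₂, h6c_Cop_pow l _ hc₁ _⟩
  have hrel : Ideal.relNorm (𝓞 K) 𝔞 = 𝔮₂ * 𝔮₁ ^ (j * (p - 1)) := by
    rw [h𝔞def, map_mul, map_pow, h₁, h₂]
  have hartpow : ∀ n : ℕ, art (𝔮₁ ^ n) = g ^ n := by
    intro n
    induction n with
    | zero => rw [pow_zero, Ideal.one_eq_top, htop, pow_zero]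
    | succ n ih => rw [pow_succ, hmul _ _ (pow_ne_zero n h𝔮₁) h𝔮₁, ih, ha₁, pow_succ]
  have hjp : j + j * (p - 1) = j * p := by
    have : p = (p - 1) + 1 := (Nat.sub_add_cancel hp.one_le).symm
    calc j + j * (p - 1) = j * ((p - 1) + 1) := by ring
      _ = j * p := by rw [← this]
  have hkill : art (Ideal.relNorm (𝓞 K) 𝔞) = 1 := by
    rw [hrel, hmul _ _ h𝔮₂ (pow_ne_zero _ h𝔮₁), ha₂, hartpow, ← pow_add, hjp, mul_comm, pow_mul,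
      ← hg, pow_orderOf_eq_one, one_pow]
  have hmem := h6c_mem_normSubgroup_of_killed (L := L) (M := M) l p art hmul htop g k hnorm claim2
    I4 hg hk hidx hFM 𝔔₁ h𝔔₁ hc₁ (by rw [h₁]; exact ha₁) 𝔞 h𝔞 hc hkill
  -- norm down
  obtain ⟨𝔄, h𝔄, hcl⟩ := (h6c_mem_normSubgroup_iff (F := F) (M := M) _).mp hmem
  obtain ⟨x, y, hx, hy, hxy⟩ := (h6c_cl_eq_iff h𝔞 (h4c_relNorm_ne_bot F M h𝔄)).mp hcl
  have hN := congrArg (Ideal.relNorm (𝓞 K)) hxy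
  rw [map_mul, map_mul, Ideal.relNorm_singleton, Ideal.relNorm_singleton, hrel,
    Ideal.relNorm_relNorm (𝓞 K) (𝓞 F) 𝔄, ← Ideal.relNorm_relNorm (𝓞 K) (𝓞 L) 𝔄] at hN
  have hx' : Algebra.intNorm (𝓞 K) (𝓞 F) x ≠ 0 := Algebra.intNorm_ne_zero.mpr hx
  have hy' : Algebra.intNorm (𝓞 K) (𝓞 F) y ≠ 0 := Algebra.intNorm_ne_zero.mpr hy
  have h𝔄L : Ideal.relNorm (𝓞 L) 𝔄 ≠ ⊥ := h4c_relNorm_ne_bot L M h𝔄
  have hprod : 𝔮₂ * 𝔮₁ ^ (j * (p - 1)) ≠ ⊥ := mul_ne_zero h𝔮₂ (pow_ne_zero _ h𝔮₁)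
  have hcl2 : h4c_cl (𝔮₂ * 𝔮₁ ^ (j * (p - 1))) =
      h4c_cl (Ideal.relNorm (𝓞 K) (Ideal.relNorm (𝓞 L) 𝔄)) :=
    (h6c_cl_eq_iff hprod (h4c_relNorm_ne_bot K L h𝔄L)).mpr ⟨_, _, hx', hy', hN⟩
  have hmem2 : h4c_cl 𝔮₂ * h4c_cl 𝔮₁ ^ (j * (p - 1)) ∈ h4c_normSubgroup K L := by
    rw [← h4c_cl_pow h𝔮₁, ← h4c_cl_mul h𝔮₂ (pow_ne_zero _ h𝔮₁), hcl2]
    exact h4c_cl_relNorm_mem K L h𝔄L
  have hpmem : h4c_cl 𝔮₁ ^ p ∈ h4c_normSubgroup K L := by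
    have := h4c_cl_pow_finrank_mem K L h𝔮₁
    rwa [hKL] at this
  have e : h4c_cl 𝔮₂ / h4c_cl 𝔮₁ ^ j =
      h4c_cl 𝔮₂ * h4c_cl 𝔮₁ ^ (j * (p - 1)) * ((h4c_cl 𝔮₁ ^ p) ^ j)⁻¹ := by
    rw [div_eq_mul_inv, mul_assoc]
    congr 1
    rw [eq_mul_inv_iff_mul_eq, ← pow_mul, inv_mul_eq_iff_eq_mul, ← pow_add, mul_comm p j, hjp]
  rw [e]
  exact (h4c_normSubgroup K L).mul_mem hmem2 ((h4c_normSubgroup K L).inv_mem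
    ((h4c_normSubgroup K L).pow_mem hpmem j))

end abstract
end Fermat.Agent.Lib.S14
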