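/-
S14 project (speculative), piece (C) (helper6): the crossing.  Part 6: the concrete fields.

Inside `Om = L(ζ_l)`:
* `h6c_F` = the fixed field of `𝓗 = h6c_H` (the diagonal field `F`, cyclic of degree `p` over `K`,
  totally ramified at `l`),
* `h6c_M` = the fixed field of `P = h6c_P` (`= L·E_p`, of degree `p` over `F` and over `L`).
-/
import Mathlib
import Fermat.Agent.Lib.S14.Cross6Group

set_option autoImplicit false

open NumberField Polynomial
open scoped Pointwise
namespace Fermat.Agent.Lib.S14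
set_option linter.unusedSectionVars false

section fields

variable (K L : Type) [Field K] [NumberField K] [Field L] [NumberField L] [Algebra K L]
  [IsGalois K L]
variable (l : ℕ) [Fact l.Prime] (p : ℕ) [Fact p.Prime]
variable (g : Gal(L/K)) (k : (ZMod l)ˣ)

/-- the diagonal field `F`: the fixed field of `𝓗` -/
noncomputable def h6c_F : IntermediateField K (h6c_Om L l) := IntermediateField.fixedField (h6c_H K L l p g k)

/-- the field `M = L·E_p`: the fixed field of `P` -/
noncomputable def h6c_M : IntermediateField K (h6c_Om L l) := IntermediateField.fixedField (h6c_P K L l p)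

theorem h6c_mem_F (x : h6c_Om L l) :
    x ∈ h6c_F K L l p g k ↔ ∀ σ ∈ h6c_H K L l p g k, σ x = x :=
  IntermediateField.mem_fixedField_iff _ _

theorem h6c_mem_M (x : h6c_Om L l) :
    x ∈ h6c_M K L l p ↔ ∀ σ ∈ h6c_P K L l p, σ x = x :=
  IntermediateField.mem_fixedField_iff _ _

theorem h6c_F_le_M : h6c_F K L l p g k ≤ h6c_M K L l p :=
  IntermediateField.fixedField_antitone (h6c_P_le_H K L l p g k)

/-- `F ⊆ M` -/
noncomputable instance h6c_algebra_F_M : Algebra ↥(h6c_F K L l p g k) ↥(h6c_M K L l p) :=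
  (IntermediateField.inclusion (h6c_F_le_M K L l p g k)).toRingHom.toAlgebra

theorem h6c_algebraMap_F_M (x : ↥(h6c_F K L l p g k)) :
    ((algebraMap ↥(h6c_F K L l p g k) ↥(h6c_M K L l p) x : ↥(h6c_M K L l p)) : h6c_Om L l) = x :=
  rfl

instance h6c_tower_K_F_M : IsScalarTower K ↥(h6c_F K L l p g k) ↥(h6c_M K L l p) :=
  IsScalarTower.of_algebraMap_eq fun _ => rfl

instance h6c_tower_F_M_Om :
    IsScalarTower ↥(h6c_F K L l p g k) ↥(h6c_M K L l p) (h6c_Om L l) :=
  IsScalarTower.of_algebraMap_eq fun _ => rfl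

theorem h6c_algebraMap_L_mem_M (x : L) : algebraMap L (h6c_Om L l) x ∈ h6c_M K L l p := by
  rw [h6c_mem_M]
  intro σ hσ
  have h := h6c_res_commutes K L l σ x
  rw [((h6c_mem_P K L l p σ).mp hσ).1] at h
  exact h.symm

/-- `L ⊆ M` -/
noncomputable instance h6c_algebra_L_M : Algebra L ↥(h6c_M K L l p) :=
  ((algebraMap L (h6c_Om L l)).codRestrict (h6c_M K L l p).toSubring
    (h6c_algebraMap_L_mem_M K L l p)).toAlgebra

theorem h6c_algebraMap_L_M (x : L) :
    ((algebraMap L ↥(h6c_M K L l p) x : ↥(h6c_M K L l p)) : h6c_Om L l) =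
      algebraMap L (h6c_Om L l) x :=
  rfl

instance h6c_tower_K_L_M : IsScalarTower K L ↥(h6c_M K L l p) :=
  IsScalarTower.of_algebraMap_eq fun x => Subtype.ext (by
    rw [h6c_algebraMap_L_M]
    exact IsScalarTower.algebraMap_apply K L (h6c_Om L l) x)

instance h6c_tower_L_M_Om : IsScalarTower L ↥(h6c_M K L l p) (h6c_Om L l) :=
  IsScalarTower.of_algebraMap_eq fun _ => rfl

end fields

section degrees

variable {K L : Type} [Field K] [NumberField K] [Field L] [NumberField L] [Algebra K L]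
  [IsGalois K L]
variable {l : ℕ} [Fact l.Prime] {p : ℕ} [Fact p.Prime] [IsCyclotomicExtension {p} ℚ K]
variable {g : Gal(L/K)} {k : (ZMod l)ˣ}

theorem h6c_isGalois_F (hcard : Nat.card Gal(L/K) = p) : IsGalois K ↥(h6c_F K L l p g k) := by
  have hcomm : IsMulCommutative Gal(h6c_Om L l/K) := h6c_Gal_comm hcard
  have hnorm : (h6c_H K L l p g k).Normal := Subgroup.normal_of_isMulCommutative _
  exact IsGalois.of_fixedField_normal_subgroup (h6c_H K L l p g k)

theorem h6c_isGalois_M (hcard : Nat.card Gal(L/K) = p) : IsGalois K ↥(h6c_M K L l p) := by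
  have hcomm : IsMulCommutative Gal(h6c_Om L l/K) := h6c_Gal_comm hcard
  have hnorm : (h6c_P K L l p).Normal := Subgroup.normal_of_isMulCommutative _
  exact IsGalois.of_fixedField_normal_subgroup (h6c_P K L l p)

theorem h6c_isGalois_F_M (hcard : Nat.card Gal(L/K) = p) :
    IsGalois ↥(h6c_F K L l p g k) ↥(h6c_M K L l p) := by
  have := h6c_isGalois_M (l := l) hcard
  exact IsGalois.tower_top_of_isGalois K ↥(h6c_F K L l p g k) ↥(h6c_M K L l p)

theorem h6c_finrank_K_F
    (hunr : ∀ (𝔓 : Ideal (𝓞 L)) [𝔓.IsPrime], 𝔓 ≠ ⊥ → 𝔓.inertia Gal(L/K) = ⊥) (hlp : l ≠ p)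
    (hpl : p ∣ l - 1) (hcard : Nat.card Gal(L/K) = p) (hg : g ≠ 1) :
    Module.finrank K ↥(h6c_F K L l p g k) = p := by
  rw [IntermediateField.finrank_eq_fixingSubgroup_index, h6c_F,
    IntermediateField.fixingSubgroup_fixedField, h6c_H_index hunr hlp hpl hcard hg]

theorem h6c_finrank_K_M
    (hunr : ∀ (𝔓 : Ideal (𝓞 L)) [𝔓.IsPrime], 𝔓 ≠ ⊥ → 𝔓.inertia Gal(L/K) = ⊥) (hlp : l ≠ p)
    (hpl : p ∣ l - 1) (hcard : Nat.card Gal(L/K) = p) (hg : g ≠ 1) :
    Module.finrank K ↥(h6c_M K L l p) = p * p := by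
  rw [IntermediateField.finrank_eq_fixingSubgroup_index, h6c_M,
    IntermediateField.fixingSubgroup_fixedField,
    ← Subgroup.relIndex_mul_index (h6c_P_le_H K L l p g 1),
    h6c_H_index hunr hlp hpl hcard hg, h6c_P_relIndex_H hunr hlp hcard hg]

theorem h6c_finrank_F_M
    (hunr : ∀ (𝔓 : Ideal (𝓞 L)) [𝔓.IsPrime], 𝔓 ≠ ⊥ → 𝔓.inertia Gal(L/K) = ⊥) (hlp : l ≠ p)
    (hpl : p ∣ l - 1) (hcard : Nat.card Gal(L/K) = p) (hg : g ≠ 1) :
    Module.finrank ↥(h6c_F K L l p g k) ↥(h6c_M K L l p) = p := by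
  have h1 := Module.finrank_mul_finrank K ↥(h6c_F K L l p g k) ↥(h6c_M K L l p)
  rw [h6c_finrank_K_F hunr hlp hpl hcard hg, h6c_finrank_K_M (g := g) hunr hlp hpl hcard hg] at h1
  exact Nat.eq_of_mul_eq_mul_left (Fact.out : p.Prime).pos h1

end degrees

end Fermat.Agent.Lib.S14
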