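/-
S14 project (speculative), helper4: piece (D1) of the crossing: degree one primes of the diagonal
field.

`h4d_exists_over`: a nonzero prime `𝔓` of `L`, prime to `l`, with `Frob_{L/K}(𝔓) = g ^ j` and
`N(𝔓 ∩ K) ≡ k ^ j · y ^ p mod l`, has Frobenius in `Gal(L(ζ_l)/K)` lying in `𝓗 = h6c_H`; hence
`𝔓 ∩ K` is the relative norm of a prime of `F = h6c_F` (helper2's decomposition-field lemma).
-/
import Mathlib
import Fermat.Agent.Lib.S14.Cross6Fields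
import Fermat.Agent.Lib.S14.Cross6Frob
import Fermat.Agent.Lib.S14.ArtinDecomp
import Fermat.Agent.Lib.S14.NTSetup

set_option autoImplicit false
set_option linter.unusedSectionVars false
set_option linter.style.haveILetI false

open NumberField
open scoped Pointwise

namespace Fermat.Agent.Lib.S14

section D1

/-- a prime containing the prime number `l` has absolute norm divisible by `l` -/
theorem h4d_dvd_absNorm_of_mem {M : Type*} [Field M] [NumberField M] (l : ℕ) (hl : l.Prime)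
    (𝔔 : Ideal (𝓞 M)) [𝔔.IsPrime] (h : (l : 𝓞 M) ∈ 𝔔) : l ∣ Ideal.absNorm 𝔔 := by
  have hle : Ideal.span {(l : 𝓞 M)} ≤ 𝔔 := (Ideal.span_singleton_le_iff_mem 𝔔).mpr h
  have hdvd := Ideal.absNorm_dvd_absNorm_of_le hle
  rw [Ideal.absNorm_span_singleton] at hdvd
  have hnorm : (Algebra.norm ℤ (l : 𝓞 M)).natAbs = l ^ Module.finrank ℚ M := by
    have h1 : (l : 𝓞 M) = algebraMap ℤ (𝓞 M) (l : ℤ) := by simp
    rw [h1, Algebra.norm_algebraMap, Int.natAbs_pow, Int.natAbs_natCast,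
      RingOfIntegers.rank]
  rw [hnorm] at hdvd
  obtain ⟨i, -, hi⟩ := (Nat.dvd_prime_pow hl).mp hdvd
  have hne1 : Ideal.absNorm 𝔔 ≠ 1 := by
    rw [Ne, Ideal.absNorm_eq_one_iff]
    exact Ideal.IsPrime.ne_top inferInstance
  rw [hi]
  rcases Nat.eq_zero_or_pos i with h0 | h0
  · rw [hi, h0, pow_zero] at hne1; exact absurd rfl hne1
  · exact dvd_pow_self l h0.ne'

variable (K L : Type) [Field K] [NumberField K] [Field L] [NumberField L] [Algebra K L]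
  [IsGalois K L]
variable (l : ℕ) [Fact l.Prime] (p : ℕ) [Fact p.Prime]
variable (g : Gal(L/K)) (k : (ZMod l)ˣ)

/-- **(D1)** a prime `𝔓` of `L` whose Frobenius and norm residue are "on the diagonal" lies over a
prime of `K` which is the relative norm of a prime of the diagonal field `F`. -/
theorem h4d_exists_over
    (hunr : ∀ (𝔓 : Ideal (𝓞 L)) [𝔓.IsPrime], 𝔓 ≠ ⊥ → 𝔓.inertia Gal(L/K) = ⊥)
    (𝔓 : Ideal (𝓞 L)) [𝔓.IsPrime] (h𝔓 : 𝔓 ≠ ⊥)
    (hl : ¬ l ∣ Ideal.absNorm (𝔓.under (𝓞 K))) (j : ℕ) (hfrob : h2a_frob K L 𝔓 h𝔓 = g ^ j)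
    (hN : ∃ y : ZMod l, ((Ideal.absNorm (𝔓.under (𝓞 K)) : ℕ) : ZMod l) =
      ((k : (ZMod l)ˣ) : ZMod l) ^ j * y ^ p) :
    ∃ 𝔔 : Ideal (𝓞 ↥(h6c_F K L l p g k)), Ideal.relNorm (𝓞 K) 𝔔 = 𝔓.under (𝓞 K) := by
  have hll : l.Prime := Fact.out
  obtain ⟨𝔔', h𝔔'p, h𝔔'0, hu⟩ := h4n_exists_above (L := h6c_Om L l) 𝔓 h𝔓
  have huK : 𝔔'.under (𝓞 K) = 𝔓.under (𝓞 K) := by
    rw [← hu, Ideal.under_under]
  -- `l ∉ 𝔔'`
  have hl' : (l : 𝓞 (h6c_Om L l)) ∉ 𝔔' := by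
    intro hmem
    apply hl
    rw [← huK]
    apply h4d_dvd_absNorm_of_mem l hll
    rw [Ideal.under_def, Ideal.mem_comap, map_natCast]
    exact hmem
  -- the Frobenius of `Om/K`
  set φ := h2a_frob K (h6c_Om L l) 𝔔' h𝔔'0 with hφdef
  have hφ : IsArithFrobAt (𝓞 K) φ 𝔔' := h2a_frob_isArithFrobAt 𝔔' h𝔔'0
  have hF : h6c_IsFrob K L l φ (Nat.card (𝓞 K ⧸ 𝔔'.under (𝓞 K)) ^ 1) 𝔔' := by
    intro x
    rw [pow_one]
    exact h2a_frob_spec 𝔔' h𝔔'0 x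
  -- restriction to `L`
  have hres : h6c_res K L l φ = g ^ j := by
    have h1 := h6c_res_eq_frob_pow K L l hunr φ 𝔔' h𝔔'0 1 hF
    rw [pow_one] at h1
    rw [h1, ← hfrob]
    subst hu
    rfl
  -- cyclotomic character
  have hchi : ((h6c_chi K L l φ : (ZMod l)ˣ) : ZMod l) =
      ((Ideal.absNorm (𝔓.under (𝓞 K)) : ℕ) : ZMod l) := by
    have h1 := h6c_chi_of_isFrob K L l φ _ 𝔔' h𝔔'0 hl' hF
    rw [pow_one, huK] at h1
    rw [h1, Ideal.absNorm_apply, Submodule.cardQuot_apply]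
  -- `φ ∈ 𝓗`
  obtain ⟨y, hy⟩ := hN
  have hy0 : y ≠ 0 := by
    rintro rfl
    rw [zero_pow (Nat.Prime.ne_zero Fact.out), mul_zero, ← hchi] at hy
    exact (Units.ne_zero _) hy
  have hφH : φ ∈ h6c_H K L l p g k := by
    refine ⟨(j : ℤ), by rw [hres, zpow_natCast], ?_⟩
    rw [h6c_mem_Pw]
    refine ⟨Units.mk0 y hy0, ?_⟩
    apply Units.ext
    rw [Units.val_pow_eq_pow_val, Units.val_mk0, Units.val_mul, zpow_natCast, hchi, hy]
    rw [Units.val_inv_eq_inv_val, Units.val_pow_eq_pow_val]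
    field_simp
  -- `φ` fixes `F`
  have hfix : ∀ x : ↥(h6c_F K L l p g k),
      φ (algebraMap ↥(h6c_F K L l p g k) (h6c_Om L l) x) =
        algebraMap ↥(h6c_F K L l p g k) (h6c_Om L l) x := by
    intro x
    exact (h6c_mem_F K L l p g k _).mp x.2 φ hφH
  refine ⟨𝔔'.under (𝓞 ↥(h6c_F K L l p g k)), ?_⟩
  rw [h2a_relNorm_under_of_frob_fixes φ 𝔔' h𝔔'0 hφ hfix, huK]

end D1

end Fermat.Agent.Lib.S14
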