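/-
S14 project (speculative), helper4: piece (C-b) of the crossing, in abstract form.

* `h4r_restrict_mem_inertia`: inertia restricts into inertia.
* **(T)** `h4r_inertia_eq_top`: if every `τ ∈ Gal(F/K)` lifts to the inertia group of `𝔏` in
  `Gal(Om/K)`, then `F/K` is totally ramified at `𝔏 ∩ 𝓞 F` (`inertia = ⊤`, the form consumed by
  `TameNorm`).  `h4r_totally_ramified_over_l`: the instance for helper6's ambient field
  `Om = L(ζ_l)` via KEY1 (`h6c_key1`: inertia over `l` is `ker res`).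
* **(U)** `h4r_unramified_of_restrict_injective`: if `L/K` is unramified and restriction
  `Gal(Ω/F) → Gal(L/K)` is injective (`Ω = L F`), then `Ω/F` is unramified at every prime.
-/
import Mathlib
import Fermat.Agent.Lib.S14.ArtinTower
import Fermat.Agent.Lib.S14.Cross6Ram
import Fermat.Agent.Lib.S14.NTSetup

set_option autoImplicit false
set_option linter.unusedSectionVars false
set_option linter.style.haveILetI false

open NumberField
open scoped Pointwise

namespace Fermat.Agent.Lib.S14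

section ram

/-- inertia restricts into inertia (normal subextension `L/K` of `M/K`). -/
theorem h4r_restrict_mem_inertia {K L M : Type*} [Field K] [Field L] [Field M]
    [NumberField K] [NumberField L] [NumberField M]
    [Algebra K L] [Algebra K M] [Algebra L M] [IsScalarTower K L M] [Normal K L]
    (𝔔 : Ideal (𝓞 M)) (σ : M ≃ₐ[K] M) (hσ : σ ∈ 𝔔.inertia (M ≃ₐ[K] M)) :
    AlgEquiv.restrictNormalHom L σ ∈ (𝔔.under (𝓞 L)).inertia (L ≃ₐ[K] L) := by
  intro x
  change AlgEquiv.restrictNormalHom L σ • x - x ∈ 𝔔.under (𝓞 L)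
  rw [Ideal.under_def, Ideal.mem_comap, map_sub, h2a_algebraMap_restrictNormal_smul]
  exact hσ _

/-- **(T)** total ramification of `F/K` at `𝔏 ∩ 𝓞 F` from a lifting property of the inertia group
of `𝔏` in `Gal(Om/K)`. -/
theorem h4r_inertia_eq_top {K F Om : Type*} [Field K] [Field F] [Field Om]
    [NumberField K] [NumberField F] [NumberField Om]
    [Algebra K F] [Algebra K Om] [Algebra F Om] [IsScalarTower K F Om] [Normal K F]
    (𝔏 : Ideal (𝓞 Om))
    (hlift : ∀ τ : F ≃ₐ[K] F, ∃ σ ∈ 𝔏.inertia (Om ≃ₐ[K] Om),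
      AlgEquiv.restrictNormalHom F σ = τ) :
    (𝔏.under (𝓞 F)).inertia (F ≃ₐ[K] F) = ⊤ := by
  rw [eq_top_iff]
  intro τ _
  obtain ⟨σ, hσ, rfl⟩ := hlift τ
  exact h4r_restrict_mem_inertia 𝔏 σ hσ

/-- **(U)** `Ω = L F` with `L/K` unramified ⇒ `Ω/F` unramified everywhere (Galois form:
restriction `Gal(Ω/F) → Gal(L/K)` injective). -/
theorem h4r_unramified_of_restrict_injective {K L F Om : Type*} [Field K] [Field L] [Field F]
    [Field Om] [NumberField K] [NumberField L] [NumberField F] [NumberField Om]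
    [Algebra K L] [Algebra K F] [Algebra K Om] [Algebra L Om] [Algebra F Om]
    [IsScalarTower K L Om] [IsScalarTower K F Om] [Normal K L]
    (hunr : ∀ (𝔓 : Ideal (𝓞 L)) [𝔓.IsPrime], 𝔓 ≠ ⊥ → 𝔓.inertia (L ≃ₐ[K] L) = ⊥)
    (hinj : ∀ τ : Om ≃ₐ[F] Om,
      AlgEquiv.restrictNormalHom L (τ.restrictScalars K) = 1 → τ = 1)
    (𝔔 : Ideal (𝓞 Om)) [𝔔.IsPrime] (h𝔔 : 𝔔 ≠ ⊥) :
    𝔔.inertia (Om ≃ₐ[F] Om) = ⊥ := by
  rw [eq_bot_iff]
  intro τ hτ
  rw [Subgroup.mem_bot]
  apply hinj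
  have h1 : τ.restrictScalars K ∈ 𝔔.inertia (Om ≃ₐ[K] Om) := by
    intro x
    rw [h2a_restrictScalars_smul]
    exact hτ x
  have h2 := h4r_restrict_mem_inertia (L := L) 𝔔 _ h1
  have hne : 𝔔.under (𝓞 L) ≠ ⊥ := h2a_under_ne_bot 𝔔 h𝔔
  rw [hunr (𝔔.under (𝓞 L)) hne, Subgroup.mem_bot] at h2
  exact h2

end ram

section cross

variable (K L : Type) [Field K] [NumberField K] [Field L] [NumberField L] [Algebra K L]
  [IsGalois K L]
variable (l : ℕ) [Fact l.Prime] (p : ℕ) [Fact p.Prime] [IsCyclotomicExtension {p} ℚ K]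

/-- a prime of a number field containing the prime number `l` lies over `(l)` -/
theorem h4r_liesOver_of_mem {M : Type*} [Field M] [NumberField M] (𝔏 : Ideal (𝓞 M)) [𝔏.IsPrime]
    (hl : (l : 𝓞 M) ∈ 𝔏) : 𝔏.LiesOver (Ideal.span {(l : ℤ)}) := by
  constructor
  have hprime : Prime (l : ℤ) := Nat.prime_iff_prime_int.mp Fact.out
  have hmax : (Ideal.span {(l : ℤ)}).IsMaximal :=
    PrincipalIdealRing.isMaximal_of_irreducible hprime.irreducible
  apply hmax.eq_of_le (Ideal.IsPrime.ne_top (Ideal.IsPrime.under ℤ 𝔏))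
  rw [Ideal.span_singleton_le_iff_mem, Ideal.under_def, Ideal.mem_comap]
  simpa using hl

/-- **`F/K` is totally ramified at every prime over `l`** (in the form consumed by `TameNorm`),
for a normal subextension `F` of `L(ζ_l)/K` such that every element of `Gal(F/K)` lifts to
`ker res = Gal(L(ζ_l)/L)`. -/
theorem h4r_totally_ramified_over_l {F : Type*} [Field F] [NumberField F] [Algebra K F]
    [Algebra F (h6c_Om L l)] [IsScalarTower K F (h6c_Om L l)] [Normal K F]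
    (hunr : ∀ (𝔓 : Ideal (𝓞 L)) [𝔓.IsPrime], 𝔓 ≠ ⊥ → 𝔓.inertia Gal(L/K) = ⊥)
    (hlp : l ≠ p)
    (hlift : ∀ τ : F ≃ₐ[K] F, ∃ ν : Gal(h6c_Om L l/K), h6c_res K L l ν = 1 ∧
      AlgEquiv.restrictNormalHom F ν = τ)
    (𝔏F : Ideal (𝓞 F)) [𝔏F.IsPrime] (hl : (l : 𝓞 F) ∈ 𝔏F) :
    𝔏F.inertia (F ≃ₐ[K] F) = ⊤ := by
  have hne : 𝔏F ≠ ⊥ := by
    rintro rfl
    rw [Ideal.mem_bot] at hl
    have : (l : 𝓞 F) ≠ 0 := Nat.cast_ne_zero.mpr (Nat.Prime.ne_zero Fact.out)
    exact this hl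
  obtain ⟨𝔏, h𝔏p, -, hu⟩ := h4n_exists_above (L := h6c_Om L l) 𝔏F hne
  have hl' : (l : 𝓞 (h6c_Om L l)) ∈ 𝔏 := by
    have : (l : 𝓞 F) ∈ 𝔏.under (𝓞 F) := by rw [hu]; exact hl
    rw [Ideal.under_def, Ideal.mem_comap, map_natCast] at this
    exact this
  haveI := h4r_liesOver_of_mem l 𝔏 hl'
  have hkey := (h6c_key1 K L l p hunr hlp 𝔏).1
  rw [← hu]
  apply h4r_inertia_eq_top
  intro τ
  obtain ⟨ν, hν1, hν2⟩ := hlift τ
  exact ⟨ν, by rw [hkey]; exact MonoidHom.mem_ker.mpr hν1, hν2⟩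

end cross

end Fermat.Agent.Lib.S14
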