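/-
S14 project (speculative), helper4: the norm computation of the crossing.

`F/K` finite Galois of degree `n`, `𝔏` a prime of `𝓞 F` whose inertia group is all of `Gal(F/K)`
(totally ramified), `n` prime to the residue characteristic `l` (tame):
* `h4t_exists_congr`: the residue field does not grow (`∀ x ∈ 𝓞 F, ∃ b ∈ 𝓞 K, x ≡ b mod 𝔏`);
* `h4t_norm_congr`: `N_{F/K} β ≡ b ^ n mod 𝔏 ∩ 𝓞 K`.
`K/ℚ` Galois with a degree one prime `𝔩₀` above `l`: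
* `h4t_norm_pow_mod`: `γ` an `n`-th power modulo all conjugates of `𝔩₀` ⇒ `N_{K/ℚ} γ` is an
  `n`-th power modulo `l`.
Combined: `h4t_norm_pow_mod_of_ramified`, `h4t_absNorm_span_pow_mod` (`n` odd): the absolute norm
of any principal ideal of `𝓞 F` is an `n`-th power mod `l`.
-/
import Mathlib
import Fermat.Agent.Lib.S14.NTSetup

set_option autoImplicit false
set_option linter.unusedSectionVars false

open NumberField
open scoped Pointwise

namespace Fermat.Agent.Lib.S14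

section tame

variable {K F : Type*} [Field K] [NumberField K] [Field F] [NumberField F] [Algebra K F]
  [IsGalois K F]

/-- the relative norm of an algebraic integer as a product over the Galois group -/
theorem h4t_algebraMap_norm (β : 𝓞 F) :
    algebraMap (𝓞 K) (𝓞 F) (RingOfIntegers.norm K β) = ∏ σ : Gal(F/K), σ • β := by
  apply RingOfIntegers.ext
  rw [RingOfIntegers.coe_algebraMap_norm, Algebra.norm_eq_prod_automorphisms]
  rw [show ((∏ σ : Gal(F/K), σ • β : 𝓞 F) : F) = ∏ σ : Gal(F/K), ((σ • β : 𝓞 F) : F) from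
    map_prod (algebraMap (𝓞 F) F) _ _]
  rfl

/-- the relative trace of an algebraic integer, as an element of `𝓞 K` -/
theorem h4t_exists_trace (β : 𝓞 F) :
    ∃ t : 𝓞 K, algebraMap (𝓞 K) (𝓞 F) t = ∑ σ : Gal(F/K), σ • β := by
  apply Algebra.IsInvariant.isInvariant (A := 𝓞 K) (B := 𝓞 F) (G := Gal(F/K))
  intro g
  rw [Finset.smul_sum]
  exact Fintype.sum_equiv (Equiv.mulLeft g) _ _ (fun σ => by simp [mul_smul])

/-- tame total ramification: if the inertia group of `𝔏` is the whole Galois group and the degree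
is prime to the residue characteristic, the residue field does not grow. -/
theorem h4t_exists_congr (𝔏 : Ideal (𝓞 F)) (hI : 𝔏.inertia Gal(F/K) = ⊤) {l : ℕ}
    (hl : (l : 𝓞 F) ∈ 𝔏) (hcop : Nat.Coprime (Module.finrank K F) l) (x : 𝓞 F) :
    ∃ b : 𝓞 K, x - algebraMap (𝓞 K) (𝓞 F) b ∈ 𝔏 := by
  obtain ⟨t, ht⟩ := h4t_exists_trace (K := K) x
  have hmem : ∀ τ : Gal(F/K), τ • x - x ∈ 𝔏 := by
    intro τ
    have : τ ∈ 𝔏.inertia Gal(F/K) := by rw [hI]; trivial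
    exact this x
  have hcard : Fintype.card Gal(F/K) = Module.finrank K F := by
    rw [← Nat.card_eq_fintype_card, IsGalois.card_aut_eq_finrank]
  have hsum : (∑ σ : Gal(F/K), σ • x) - (Module.finrank K F : 𝓞 F) * x ∈ 𝔏 := by
    have : (∑ σ : Gal(F/K), σ • x) - (Module.finrank K F : 𝓞 F) * x
        = ∑ σ : Gal(F/K), (σ • x - x) := by
      rw [Finset.sum_sub_distrib, Finset.sum_const, Finset.card_univ, hcard, nsmul_eq_mul]
    rw [this]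
    exact 𝔏.sum_mem (fun σ _ => hmem σ)
  -- Bezout
  have hg : Nat.gcd (Module.finrank K F) l = 1 := hcop
  have hb := Nat.gcd_eq_gcd_ab (Module.finrank K F) l
  rw [hg] at hb
  set u := Nat.gcdA (Module.finrank K F) l
  set v := Nat.gcdB (Module.finrank K F) l
  refine ⟨(u : 𝓞 K) * t, ?_⟩
  have h1 : (1 : 𝓞 F) = (Module.finrank K F : 𝓞 F) * (u : 𝓞 F) + (l : 𝓞 F) * (v : 𝓞 F) := by
    have := congrArg (fun z : ℤ => (z : 𝓞 F)) hb
    push_cast at this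
    simpa using this
  have h2 : x - algebraMap (𝓞 K) (𝓞 F) ((u : 𝓞 K) * t) =
      (l : 𝓞 F) * ((v : 𝓞 F) * x) -
        (u : 𝓞 F) * ((∑ σ : Gal(F/K), σ • x) - (Module.finrank K F : 𝓞 F) * x) := by
    rw [map_mul, ht, map_intCast]
    generalize (∑ σ : Gal(F/K), σ • x) = S
    linear_combination x * h1
  rw [h2]
  exact 𝔏.sub_mem (𝔏.mul_mem_right _ hl) (𝔏.mul_mem_left _ hsum)

/-- **tame norm lemma**: at a totally and tamely ramified prime, norms are `n`-th powers in the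
residue field of the base. -/
theorem h4t_norm_congr (𝔏 : Ideal (𝓞 F)) (hI : 𝔏.inertia Gal(F/K) = ⊤) {l : ℕ}
    (hl : (l : 𝓞 F) ∈ 𝔏) (hcop : Nat.Coprime (Module.finrank K F) l) (β : 𝓞 F) :
    ∃ b : 𝓞 K, RingOfIntegers.norm K β - b ^ Module.finrank K F ∈ 𝔏.under (𝓞 K) := by
  obtain ⟨b, hb⟩ := h4t_exists_congr (K := K) 𝔏 hI hl hcop β
  refine ⟨b, ?_⟩
  rw [Ideal.under_def, Ideal.mem_comap, map_sub, map_pow, h4t_algebraMap_norm,
    ← Ideal.Quotient.eq, map_prod, map_pow]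
  have hmem : ∀ τ : Gal(F/K), τ • β - β ∈ 𝔏 := by
    intro τ
    have : τ ∈ 𝔏.inertia Gal(F/K) := by rw [hI]; trivial
    exact this β
  have hcard : Fintype.card Gal(F/K) = Module.finrank K F := by
    rw [← Nat.card_eq_fintype_card, IsGalois.card_aut_eq_finrank]
  have h1 : ∀ τ : Gal(F/K), Ideal.Quotient.mk 𝔏 (τ • β) =
      Ideal.Quotient.mk 𝔏 (algebraMap (𝓞 K) (𝓞 F) b) := by
    intro τ
    rw [Ideal.Quotient.eq]
    have := 𝔏.add_mem (hmem τ) hb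
    simpa using this
  rw [Finset.prod_congr rfl (fun τ _ => h1 τ), Finset.prod_const, Finset.card_univ, hcard]

end tame

section down

variable {K : Type*} [Field K] [NumberField K] [IsGalois ℚ K]

theorem h4t_algebraMap_norm_int (γ : 𝓞 K) :
    algebraMap ℤ (𝓞 K) (Algebra.norm ℤ γ) = ∏ σ : Gal(K/ℚ), σ • γ := by
  apply RingOfIntegers.ext
  rw [show ((∏ σ : Gal(K/ℚ), σ • γ : 𝓞 K) : K) = ∏ σ : Gal(K/ℚ), ((σ • γ : 𝓞 K) : K) from
    map_prod (algebraMap (𝓞 K) K) _ _]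
  have h1 := Algebra.norm_eq_prod_automorphisms ℚ (γ : K)
  have h2 := Algebra.coe_norm_int γ
  rw [← h2] at h1
  rw [show ((algebraMap ℤ (𝓞 K) (Algebra.norm ℤ γ) : 𝓞 K) : K) =
    algebraMap ℚ K ((Algebra.norm ℤ γ : ℤ) : ℚ) by simp]
  rw [h1]
  rfl

/-- if `γ` is an `n`-th power modulo every conjugate of a degree one prime `𝔩₀ ∣ l`, then
`N_{K/ℚ} γ` is an `n`-th power modulo `l`. -/
theorem h4t_norm_pow_mod {l : ℕ} (hl : l.Prime) (𝔩₀ : Ideal (𝓞 K)) [𝔩₀.IsPrime]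
    (h𝔩₀ : Ideal.absNorm 𝔩₀ = l) (n : ℕ) (γ : 𝓞 K)
    (h : ∀ σ : Gal(K/ℚ), ∃ b : 𝓞 K, γ - b ^ n ∈ σ • 𝔩₀) :
    ∃ c : ZMod l, ((Algebra.norm ℤ γ : ℤ) : ZMod l) = c ^ n := by
  classical
  choose b hb using fun σ : Gal(K/ℚ) => h σ⁻¹
  have h1 : ∀ σ : Gal(K/ℚ), σ • γ - (σ • b σ) ^ n ∈ 𝔩₀ := by
    intro σ
    have := hb σ
    rw [Ideal.mem_inv_pointwise_smul_iff, smul_sub, smul_pow'] at this
    exact this
  have h𝔩₀0 : 𝔩₀ ≠ ⊥ := by
    rintro rfl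
    rw [Ideal.absNorm_bot] at h𝔩₀
    exact hl.ne_zero h𝔩₀.symm
  have hfin : Finite (𝓞 K ⧸ 𝔩₀) := Ideal.finiteQuotientOfFreeOfNeBot 𝔩₀ h𝔩₀0
  let _ := Fintype.ofFinite (𝓞 K ⧸ 𝔩₀)
  have hcard : Fintype.card (𝓞 K ⧸ 𝔩₀) = l := by
    rw [← Nat.card_eq_fintype_card, ← h𝔩₀, Ideal.absNorm_apply, Submodule.cardQuot_apply]
  let e : ZMod l ≃+* (𝓞 K ⧸ 𝔩₀) := ZMod.ringEquivOfPrime (𝓞 K ⧸ 𝔩₀) hl hcard
  set B : 𝓞 K := ∏ σ : Gal(K/ℚ), σ • b σ with hB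
  refine ⟨e.symm (Ideal.Quotient.mk 𝔩₀ B), ?_⟩
  apply e.injective
  rw [map_pow, RingEquiv.apply_symm_apply, map_intCast]
  have h2 : ((Algebra.norm ℤ γ : ℤ) : 𝓞 K ⧸ 𝔩₀) =
      Ideal.Quotient.mk 𝔩₀ (algebraMap ℤ (𝓞 K) (Algebra.norm ℤ γ)) := by
    rw [eq_intCast, map_intCast]
  rw [h2, h4t_algebraMap_norm_int, map_prod, hB, map_prod, ← Finset.prod_pow]
  apply Finset.prod_congr rfl
  intro σ _
  rw [← map_pow, Ideal.Quotient.eq]
  exact h1 σ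

end down

section combine

variable {K F : Type*} [Field K] [NumberField K] [Field F] [NumberField F] [Algebra K F]
  [IsGalois ℚ K] [IsGalois K F]

theorem h4t_norm_int_norm (β : 𝓞 F) :
    Algebra.norm ℤ (RingOfIntegers.norm K β) = Algebra.norm ℤ β := by
  have h1 := Algebra.coe_norm_int β
  have h2 := Algebra.coe_norm_int (RingOfIntegers.norm K β)
  rw [RingOfIntegers.coe_norm, Algebra.norm_norm] at h2
  have : ((Algebra.norm ℤ (RingOfIntegers.norm K β) : ℤ) : ℚ) = ((Algebra.norm ℤ β : ℤ) : ℚ) := by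
    rw [h1, h2]
  exact_mod_cast this

/-- **The norm computation of the crossing.**  `F/K` Galois of degree `n` prime to `l`, totally
ramified at every prime above `l`; `K/ℚ` Galois with a degree one prime above `l`.  Then the
absolute norm of every `β ∈ 𝓞 F` is an `n`-th power modulo `l`. -/
theorem h4t_norm_pow_mod_of_ramified {l : ℕ} (hl : l.Prime)
    (hcop : Nat.Coprime (Module.finrank K F) l)
    (hram : ∀ 𝔏 : Ideal (𝓞 F), 𝔏.IsPrime → (l : 𝓞 F) ∈ 𝔏 → 𝔏.inertia Gal(F/K) = ⊤)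
    (𝔩₀ : Ideal (𝓞 K)) [𝔩₀.IsPrime] (h𝔩₀ : Ideal.absNorm 𝔩₀ = l) (β : 𝓞 F) :
    ∃ c : ZMod l, ((Algebra.norm ℤ β : ℤ) : ZMod l) = c ^ Module.finrank K F := by
  rw [← h4t_norm_int_norm (K := K) β]
  apply h4t_norm_pow_mod hl 𝔩₀ h𝔩₀
  intro σ
  have h𝔩₀0 : 𝔩₀ ≠ ⊥ := by
    rintro rfl
    rw [Ideal.absNorm_bot] at h𝔩₀
    exact hl.ne_zero h𝔩₀.symm
  have hmem0 : (l : 𝓞 K) ∈ 𝔩₀ := by
    have := Ideal.absNorm_mem 𝔩₀
    rwa [h𝔩₀] at this
  have hmem : (l : 𝓞 K) ∈ σ • 𝔩₀ := by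
    rw [Ideal.mem_pointwise_smul_iff_inv_smul_mem]
    have : σ⁻¹ • (l : 𝓞 K) = (l : 𝓞 K) := by
      rw [← map_natCast (algebraMap ℤ (𝓞 K)) l, smul_algebraMap]
    rw [this]
    exact hmem0
  have hne : σ • 𝔩₀ ≠ ⊥ := by
    intro h
    apply h𝔩₀0
    have : σ⁻¹ • (σ • 𝔩₀) = 𝔩₀ := inv_smul_smul σ 𝔩₀
    rw [← this, h]
    simp [Ideal.pointwise_smul_def, Ideal.map_bot]
  obtain ⟨𝔏, h𝔏p, -, hu⟩ := h4n_exists_above (L := F) (σ • 𝔩₀) hne
  have hl𝔏 : (l : 𝓞 F) ∈ 𝔏 := by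
    have : (l : 𝓞 K) ∈ 𝔏.under (𝓞 K) := by rw [hu]; exact hmem
    rw [Ideal.under_def, Ideal.mem_comap, map_natCast] at this
    exact this
  obtain ⟨b, hb⟩ := h4t_norm_congr (K := K) 𝔏 (hram 𝔏 h𝔏p hl𝔏) hl𝔏 hcop β
  exact ⟨b, by rw [← hu]; exact hb⟩

/-- the same for the absolute norm of the principal ideal (odd degree). -/
theorem h4t_absNorm_span_pow_mod {l : ℕ} (hl : l.Prime)
    (hcop : Nat.Coprime (Module.finrank K F) l) (hodd : Odd (Module.finrank K F))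
    (hram : ∀ 𝔏 : Ideal (𝓞 F), 𝔏.IsPrime → (l : 𝓞 F) ∈ 𝔏 → 𝔏.inertia Gal(F/K) = ⊤)
    (𝔩₀ : Ideal (𝓞 K)) [𝔩₀.IsPrime] (h𝔩₀ : Ideal.absNorm 𝔩₀ = l) (β : 𝓞 F) :
    ∃ c : ZMod l, ((Ideal.absNorm (Ideal.span {β}) : ℕ) : ZMod l) = c ^ Module.finrank K F := by
  obtain ⟨c, hc⟩ := h4t_norm_pow_mod_of_ramified hl hcop hram 𝔩₀ h𝔩₀ β
  rw [Ideal.absNorm_span_singleton]
  rcases Int.natAbs_eq (Algebra.norm ℤ β) with h | h
  · refine ⟨c, ?_⟩
    rw [← hc]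
    conv_rhs => rw [h]
    simp
  · refine ⟨-c, ?_⟩
    rw [hodd.neg_pow, ← hc]
    conv_rhs => rw [h]
    simp

end combine

end Fermat.Agent.Lib.S14
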