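/-
S14 project (speculative), helper4: the hypothesis `I4` of helper6's abstract crossing, for the
concrete diagonal field `F = L(ζ_l)^𝓗` (`𝓗 = h6c_H K L l p g k`):

`h4i_I4`: the absolute norm of every principal ideal of `𝓞 F` is a `p`-th power modulo `l`.

Ingredients: `F/K` is Galois of degree `p` (`h4i_isGalois_F`, `h4i_finrank_F`), every element of
`Gal(F/K)` lifts to `ker res` (`h6c_exists_ker_mul_H`), hence `F/K` is totally ramified over `l`
(`CrossRam`, KEY1), and the tame norm computation (`TameNorm`) with a degree one prime of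
`K = ℚ(ζ_p)` over `l ≡ 1 mod p` (`h4i_exists_degree_one`).
-/
import Mathlib
import Fermat.Agent.Lib.S14.Cross6Group
import Fermat.Agent.Lib.S14.CrossRam
import Fermat.Agent.Lib.S14.TameNorm

set_option autoImplicit false
set_option linter.unusedSectionVars false
set_option linter.style.haveILetI false

open NumberField
open scoped Pointwise

namespace Fermat.Agent.Lib.S14

section deg1

/-- a degree one prime of `ℚ(ζ_p)` over a prime `l ≡ 1 mod p` -/
theorem h4i_exists_degree_one (K : Type*) [Field K] [NumberField K] (p : ℕ) [Fact p.Prime]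
    [IsCyclotomicExtension {p} ℚ K] (l : ℕ) [Fact l.Prime] (hlp : l ≠ p) (hl1 : l % p = 1) :
    ∃ (𝔩₀ : Ideal (𝓞 K)) (_ : 𝔩₀.IsPrime), Ideal.absNorm 𝔩₀ = l := by
  have hpp : p.Prime := Fact.out
  have hll : l.Prime := Fact.out
  haveI : NeZero p := ⟨hpp.ne_zero⟩
  obtain ⟨𝔩₀, h𝔩₀max, h𝔩₀over⟩ :=
    Ideal.exists_maximal_ideal_liesOver_of_isIntegral (S := 𝓞 K) (Ideal.span {(l : ℤ)})
  haveI : 𝔩₀.IsPrime := h𝔩₀max.isPrime
  refine ⟨𝔩₀, inferInstance, ?_⟩
  have hdeg := IsCyclotomicExtension.Rat.inertiaDeg_eq_of_not_dvd l K 𝔩₀ (m := p)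
    (fun h => hlp ((Nat.prime_dvd_prime_iff_eq hll hpp).mp h))
  have hone : (l : ZMod p) = 1 := by
    have h1 : ((l % p : ℕ) : ZMod p) = (l : ZMod p) := ZMod.natCast_mod l p
    rw [← h1, hl1, Nat.cast_one]
  rw [hone, orderOf_one] at hdeg
  have hnorm := Ideal.pow_inertiaDeg l 𝔩₀
  rw [hdeg, pow_one] at hnorm
  exact hnorm.symm

end deg1

section I4

variable (K L : Type) [Field K] [NumberField K] [Field L] [NumberField L] [Algebra K L]
  [IsGalois K L]
variable (l : ℕ) [Fact l.Prime] (p : ℕ) [Fact p.Prime] [IsCyclotomicExtension {p} ℚ K]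
variable (g : Gal(L/K)) (k : (ZMod l)ˣ)

theorem h4i_normal_H (hcard : Nat.card Gal(L/K) = p) : (h6c_H K L l p g k).Normal := by
  have hcomm : IsMulCommutative Gal(h6c_Om L l/K) := h6c_Gal_comm hcard
  exact Subgroup.normal_of_isMulCommutative _

theorem h4i_isGalois_F (hcard : Nat.card Gal(L/K) = p) :
    IsGalois K ↥(IntermediateField.fixedField (h6c_H K L l p g k)) := by
  haveI := h4i_normal_H K L l p g k hcard
  exact IsGalois.of_fixedField_normal_subgroup _

/-- `[F : K] = p` -/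
theorem h4i_finrank_F
    (hunr : ∀ (𝔓 : Ideal (𝓞 L)) [𝔓.IsPrime], 𝔓 ≠ ⊥ → 𝔓.inertia Gal(L/K) = ⊥) (hlp : l ≠ p)
    (hpl : p ∣ l - 1) (hcard : Nat.card Gal(L/K) = p) (hg : g ≠ 1) :
    Module.finrank K ↥(IntermediateField.fixedField (h6c_H K L l p g k)) = p := by
  have h1 := IntermediateField.finrank_fixedField_eq_card (h6c_H K L l p g k)
  have h2 := Module.finrank_mul_finrank K ↥(IntermediateField.fixedField (h6c_H K L l p g k))
    (h6c_Om L l)
  have h3 : Module.finrank K (h6c_Om L l) = Nat.card Gal(h6c_Om L l/K) :=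
    (IsGalois.card_aut_eq_finrank K (h6c_Om L l)).symm
  have h4 := (h6c_H K L l p g k).card_mul_index
  have h5 := h6c_H_index (k := k) hunr hlp hpl hcard hg
  rw [h1, h3, ← h4, h5] at h2
  have hpos : 0 < Nat.card ↥(h6c_H K L l p g k) := Nat.card_pos
  have : Module.finrank K ↥(IntermediateField.fixedField (h6c_H K L l p g k)) *
      Nat.card ↥(h6c_H K L l p g k) = p * Nat.card ↥(h6c_H K L l p g k) := by
    rw [h2, mul_comm]
  exact Nat.eq_of_mul_eq_mul_right hpos this

/-- elements of `𝓗` restrict trivially to `F` -/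
theorem h4i_restrict_H (hcard : Nat.card Gal(L/K) = p) (σ : Gal(h6c_Om L l/K))
    (hσ : σ ∈ h6c_H K L l p g k) :
    haveI := h4i_isGalois_F K L l p g k hcard
    AlgEquiv.restrictNormalHom ↥(IntermediateField.fixedField (h6c_H K L l p g k)) σ = 1 := by
  haveI := h4i_isGalois_F K L l p g k hcard
  ext x
  have h1 := AlgEquiv.restrictNormal_commutes σ
    ↥(IntermediateField.fixedField (h6c_H K L l p g k)) x
  have h2 : σ (x : h6c_Om L l) = x := x.2 ⟨σ, hσ⟩
  exact h1.trans h2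

/-- **I4**: the absolute norm of every principal ideal of `𝓞 F` is a `p`-th power mod `l`. -/
theorem h4i_I4
    (hunr : ∀ (𝔓 : Ideal (𝓞 L)) [𝔓.IsPrime], 𝔓 ≠ ⊥ → 𝔓.inertia Gal(L/K) = ⊥) (hlp : l ≠ p)
    (hl1 : l % p = 1) (hp3 : 3 ≤ p) (hcard : Nat.card Gal(L/K) = p) (hg : g ≠ 1)
    (β : 𝓞 ↥(IntermediateField.fixedField (h6c_H K L l p g k))) :
    ∃ y : ZMod l, ((Ideal.absNorm (Ideal.span {β}) : ℕ) : ZMod l) = y ^ p := by
  have hpp : p.Prime := Fact.out
  have hll : l.Prime := Fact.out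
  haveI : NeZero p := ⟨hpp.ne_zero⟩
  haveI hgalF := h4i_isGalois_F K L l p g k hcard
  haveI : IsGalois ℚ K := IsCyclotomicExtension.isGalois {p} ℚ K
  have hpl : p ∣ l - 1 := by
    have := Nat.mod_add_div l p
    refine ⟨l / p, ?_⟩
    omega
  have hfr := h4i_finrank_F K L l p g k hunr hlp hpl hcard hg
  obtain ⟨𝔩₀, h𝔩₀p, h𝔩₀⟩ := h4i_exists_degree_one K p l hlp hl1
  have hcop : Nat.Coprime (Module.finrank K ↥(IntermediateField.fixedField (h6c_H K L l p g k))) l := by
    rw [hfr]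
    exact (Nat.coprime_primes hpp hll).mpr (Ne.symm hlp)
  have hodd : Odd (Module.finrank K ↥(IntermediateField.fixedField (h6c_H K L l p g k))) := by
    rw [hfr]
    exact hpp.odd_of_ne_two (by omega)
  have hlift : ∀ τ : ↥(IntermediateField.fixedField (h6c_H K L l p g k)) ≃ₐ[K]
      ↥(IntermediateField.fixedField (h6c_H K L l p g k)),
      ∃ ν : Gal(h6c_Om L l/K), h6c_res K L l ν = 1 ∧
        AlgEquiv.restrictNormalHom ↥(IntermediateField.fixedField (h6c_H K L l p g k)) ν = τ := by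
    intro τ
    obtain ⟨σ, hσ⟩ := AlgEquiv.restrictNormalHom_surjective (h6c_Om L l) τ
    obtain ⟨ν, hν1, hν2⟩ := h6c_exists_ker_mul_H (k := k) hunr hlp hcard hg σ
    refine ⟨ν, hν1, ?_⟩
    have h1 := h4i_restrict_H K L l p g k hcard _ hν2
    rw [map_mul, map_inv, hσ, inv_mul_eq_one] at h1
    exact h1
  have hram := h4r_totally_ramified_over_l K L l p hunr hlp hlift
  have := h4t_absNorm_span_pow_mod hll hcop hodd (fun 𝔏 h𝔏 hl => @hram 𝔏 h𝔏 hl) 𝔩₀ h𝔩₀ β
  rwa [hfr] at this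

end I4

end Fermat.Agent.Lib.S14
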