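/-
S14 project (speculative), piece (C) (helper6): the crossing.  Part 7: claim 2 for the concrete
diagonal field, and the final assembly `h6c_crossStatement : h4n_CrossStatement`.
-/
import Mathlib
import Fermat.Agent.Lib.S14.Cross6Fields
import Fermat.Agent.Lib.S14.Cross6Abstract
import Fermat.Agent.Lib.S14.ArtinNorm
import Fermat.Agent.Lib.S14.CrossI4
import Fermat.Agent.Lib.S14.CrossDeg1
import Fermat.Agent.Lib.S14.FirstIneq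
import Fermat.Agent.Lib.S14.NTFinal

set_option autoImplicit false

open NumberField Polynomial
open scoped Pointwise
namespace Fermat.Agent.Lib.S14
set_option linter.unusedSectionVars false

section claim2

variable {K L : Type} [Field K] [NumberField K] [Field L] [NumberField L] [Algebra K L]
  [IsGalois K L]
variable {l : ℕ} [Fact l.Prime] {p : ℕ} [Fact p.Prime]
variable {g : Gal(L/K)} {k : (ZMod l)ˣ}

/-- an element of `Gal(Om/F)`, viewed in `Gal(Om/K)`, lies in `𝓗` -/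
theorem h6c_restrictScalars_mem_H (φ₀ : Gal(h6c_Om L l/↥(h6c_F K L l p g k))) :
    (φ₀.restrictScalars K : Gal(h6c_Om L l/K)) ∈ h6c_H K L l p g k := by
  have h1 : (h6c_F K L l p g k).fixingSubgroup = h6c_H K L l p g k :=
    IntermediateField.fixingSubgroup_fixedField _
  rw [← h1, IntermediateField.mem_fixingSubgroup_iff]
  intro x hx
  exact φ₀.commutes ⟨x, hx⟩

/-- Frobenius elements of `Om/F` exist inside `𝓗` -/
theorem h6c_exists_frob_H (𝔔' : Ideal (𝓞 (h6c_Om L l))) [𝔔'.IsPrime] (h𝔔' : 𝔔' ≠ ⊥) :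
    ∃ φ : Gal(h6c_Om L l/K), φ ∈ h6c_H K L l p g k ∧
      h6c_IsFrob K L l φ (Nat.card (𝓞 ↥(h6c_F K L l p g k) ⧸ 𝔔'.under (𝓞 ↥(h6c_F K L l p g k)))) 𝔔' := by
  refine ⟨(h2a_frob ↥(h6c_F K L l p g k) (h6c_Om L l) 𝔔' h𝔔').restrictScalars K,
    h6c_restrictScalars_mem_H _, ?_⟩
  intro x
  exact h2a_frob_spec (F := ↥(h6c_F K L l p g k)) 𝔔' h𝔔' x

theorem h6c_claim2 [IsMulCommutative Gal(L/K)]
    (hunr : ∀ (𝔓 : Ideal (𝓞 L)) [𝔓.IsPrime], 𝔓 ≠ ⊥ → 𝔓.inertia Gal(L/K) = ⊥)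
    (𝔔 : Ideal (𝓞 ↥(h6c_F K L l p g k))) (h𝔔p : 𝔔.IsPrime) (h𝔔 : 𝔔 ≠ ⊥)
    (hl : (l : 𝓞 ↥(h6c_F K L l p g k)) ∉ 𝔔) :
    h6c_Good (K := K) l p (h2a_artin K L) g k 𝔔 := by
  have hmax : 𝔔.IsMaximal := Ideal.IsPrime.isMaximal h𝔔p h𝔔
  obtain ⟨𝔔', h1, h2⟩ :=
    Ideal.exists_maximal_ideal_liesOver_of_isIntegral (S := 𝓞 (h6c_Om L l)) 𝔔
  have h𝔔'p : 𝔔'.IsPrime := h1.isPrime
  have hover : 𝔔'.under (𝓞 ↥(h6c_F K L l p g k)) = 𝔔 := h2.over.symm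
  have h𝔔' : 𝔔' ≠ ⊥ := by
    intro h
    apply h𝔔
    rw [← hover, h]
    exact Ideal.under_bot _ _
  have hl' : (l : 𝓞 (h6c_Om L l)) ∉ 𝔔' := by
    intro h
    apply hl
    rw [← hover, Ideal.under_def, Ideal.mem_comap, map_natCast]
    exact h
  obtain ⟨φ, hφH, hφ⟩ := h6c_exists_frob_H (K := K) (p := p) (g := g) (k := k) 𝔔' h𝔔'
  rw [hover] at hφ
  -- the residue degree
  have hcard := h2a_card_quot_eq_pow (F := K) 𝔔 h𝔔
  have hunder : 𝔔.under (𝓞 K) = 𝔔'.under (𝓞 K) := by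
    rw [← hover, Ideal.under_under]
  have hunderL : (𝔔'.under (𝓞 L)).under (𝓞 K) = 𝔔'.under (𝓞 K) := Ideal.under_under _
  rw [hunder] at hcard
  rw [hcard] at hφ
  have hres := h6c_res_eq_frob_pow K L l hunr φ 𝔔' h𝔔' _ hφ
  have hchi := h6c_chi_of_isFrob K L l φ _ 𝔔' h𝔔' hl' hφ
  obtain ⟨i, hi1, hi2⟩ := (h6c_mem_H K L l p g k φ).mp hφH
  refine ⟨i, h6c_chi K L l φ, ?_, ?_, hi2⟩
  · rw [h2a_relNorm_prime (F := K) 𝔔 h𝔔, h2a_artin_pow, hunder, ← hunderL,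
      h2a_artin_under _ (h6c_under_ne_bot 𝔔' h𝔔'), ← hres, hi1]
  · rw [hchi, ← hcard, Ideal.absNorm_apply, Submodule.cardQuot_apply]

end claim2
section main

theorem h6c_finrank_int (F M : Type*) [Field F] [NumberField F] [Field M] [NumberField M]
    [Algebra F M] [IsGalois F M] : Module.finrank (𝓞 F) (𝓞 M) = Module.finrank F M := by
  rw [← IsGaloisGroup.card_eq_finrank' Gal(M/F) (𝓞 F) (𝓞 M), IsGalois.card_aut_eq_finrank]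

/-- **The crossing lemma**, in the shape consumed by the assembly. -/
theorem h6c_crossStatement : h4n_CrossStatement := by
  intro K L _ _ _ _ _ _ p _ hp3 _ hfin hunr l hl hl1 𝔓₁ 𝔓₂ _ _ h₁ h₂ hq₁ hq₂ j hg₁ hj hnot hy
  have : Fact l.Prime := ⟨hl⟩
  have hpp : p.Prime := Fact.out
  have hcard : Nat.card Gal(L/K) = p := by rw [IsGalois.card_aut_eq_finrank, hfin]
  have hlp : l ≠ p := by
    intro h
    rw [h, Nat.mod_self] at hl1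
    exact zero_ne_one hl1
  have hpl : p ∣ l - 1 := by
    have h1 : l % p = 1 % p := by rw [hl1, Nat.mod_eq_of_lt hpp.one_lt]
    exact (Nat.modEq_iff_dvd' hl.one_le).mp h1.symm
  have : IsCyclic Gal(L/K) := isCyclic_of_prime_card hcard
  have : IsMulCommutative Gal(L/K) := IsCyclic.isMulCommutative
  obtain ⟨g, hgdef⟩ : ∃ g : Gal(L/K), g = h2a_frob K L 𝔓₁ h₁ := ⟨_, rfl⟩
  rw [← hgdef] at hg₁ hj
  have hcop₁ : Nat.Coprime (Ideal.absNorm (𝔓₁.under (𝓞 K))) l :=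
    Nat.Coprime.symm ((Nat.Prime.coprime_iff_not_dvd hl).mpr hq₁)
  obtain ⟨k, hkcoe⟩ : ∃ k : (ZMod l)ˣ,
      (k : ZMod l) = ((Ideal.absNorm (𝔓₁.under (𝓞 K)) : ℕ) : ZMod l) :=
    ⟨ZMod.unitOfCoprime _ hcop₁, ZMod.coe_unitOfCoprime _ _⟩
  have hk : k ∉ h6c_Pw l p := by
    rw [h6c_mem_Pw]
    rintro ⟨v, hv⟩
    apply hnot
    refine ⟨(v : ZMod l), ?_⟩
    rw [← hkcoe, ← hv, Units.val_pow_eq_pow_val]
  have := h6c_isGalois_F_M (l := l) (g := g) (k := k) hcard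
  have hFM : Module.finrank ↥(h6c_F K L l p g k) ↥(h6c_M K L l p) = p :=
    h6c_finrank_F_M hunr hlp hpl hcard hg₁
  have hidx : (h4c_normSubgroup ↥(h6c_F K L l p g k) ↥(h6c_M K L l p)).index ≤ p := by
    have := h7a_A1 ↥(h6c_F K L l p g k) ↥(h6c_M K L l p)
    rwa [hFM] at this
  have hFM' : Module.finrank (𝓞 ↥(h6c_F K L l p g k)) (𝓞 ↥(h6c_M K L l p)) = p := by
    rw [h6c_finrank_int, hFM]
  have hKL' : Module.finrank (𝓞 K) (𝓞 L) = p := by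
    rw [h6c_finrank_int, hfin]
  obtain ⟨𝔔₁, hQ₁⟩ := h4d_exists_over K L l p g k hunr 𝔓₁ h₁ hq₁ 1 (by rw [pow_one, hgdef])
    ⟨1, by rw [pow_one, one_pow, mul_one, hkcoe]⟩
  obtain ⟨𝔔₂, hQ₂⟩ := h4d_exists_over K L l p g k hunr 𝔓₂ h₂ hq₂ j hj
    (by obtain ⟨y, hy⟩ := hy; exact ⟨y, by rw [hy, hkcoe]⟩)
  exact h6c_abstract_cross (L := L) (M := ↥(h6c_M K L l p)) l p (h2a_artin K L)
    (fun I J hI hJ => h2a_artin_mul hI hJ) h2a_artin_top g k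
    (fun 𝔄 _ => h2a_artin_relNorm (fun 𝔓 h𝔓p h𝔓 => @hunr 𝔓 h𝔓p h𝔓) 𝔄)
    (fun 𝔔 h𝔔p h𝔔 hl' => h6c_claim2 hunr 𝔔 h𝔔p h𝔔 hl')
    (h4i_I4 K L l p g k hunr hlp hl1 hp3 hcard hg₁)
    (h6c_orderOf_g hcard hg₁) hk hidx hFM' hKL' (𝔓₁.under (𝓞 K)) (𝔓₂.under (𝓞 K))
    (h6c_under_ne_bot 𝔓₁ h₁) (h6c_under_ne_bot 𝔓₂ h₂) hq₁ hq₂ 𝔔₁ 𝔔₂ hQ₁ hQ₂ j
    ((h2a_artin_under 𝔓₁ h₁).trans hgdef.symm) ((h2a_artin_under 𝔓₂ h₂).trans hj)

end main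

end Fermat.Agent.Lib.S14
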