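/-
S14 project (speculative), helper4: `claim2` of helper6's abstract crossing for the concrete
diagonal field `F = h6c_F` (hedge / parallel copy; helper6 owns the final assembly).

`h4d_claim2`: for a prime `𝔔 ∤ l` of `F`, the Frobenius `φ` of `Om/F` at a prime above `𝔔` lies in
`𝓗`; its restriction to `L` is `art (N_{F/K} 𝔔)` and its cyclotomic character is `N𝔔 mod l`.
-/
import Mathlib
import Fermat.Agent.Lib.S14.Cross6Fields
import Fermat.Agent.Lib.S14.Cross6Frob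
import Fermat.Agent.Lib.S14.Cross6Abstract
import Fermat.Agent.Lib.S14.ArtinNorm
import Fermat.Agent.Lib.S14.NTSetup

set_option autoImplicit false
set_option linter.unusedSectionVars false
set_option linter.style.haveILetI false

open NumberField
open scoped Pointwise

namespace Fermat.Agent.Lib.S14

section claim2

variable (K L : Type) [Field K] [NumberField K] [Field L] [NumberField L] [Algebra K L]
  [IsGalois K L]
variable (l : ℕ) [Fact l.Prime] (p : ℕ) [Fact p.Prime]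
variable (g : Gal(L/K)) (k : (ZMod l)ˣ)

/-- **claim 2** of the abstract crossing for the concrete diagonal field `F = h6c_F`. -/
theorem h4d_claim2
    (hunr : ∀ (𝔓 : Ideal (𝓞 L)) [𝔓.IsPrime], 𝔓 ≠ ⊥ → 𝔓.inertia Gal(L/K) = ⊥)
    (art : Ideal (𝓞 K) → Gal(L/K))
    (hmul : ∀ I J : Ideal (𝓞 K), I ≠ ⊥ → J ≠ ⊥ → art (I * J) = art I * art J)
    (htop : art ⊤ = 1)
    (hart : ∀ (𝔓 : Ideal (𝓞 L)) [𝔓.IsPrime] (h𝔓 : 𝔓 ≠ ⊥),
      art (𝔓.under (𝓞 K)) = h2a_frob K L 𝔓 h𝔓)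
    (𝔔 : Ideal (𝓞 ↥(h6c_F K L l p g k))) (h𝔔p : 𝔔.IsPrime) (h𝔔 : 𝔔 ≠ ⊥)
    (hl : (l : 𝓞 ↥(h6c_F K L l p g k)) ∉ 𝔔) :
    h6c_Good (K := K) l p art g k 𝔔 := by
  have hll : l.Prime := Fact.out
  obtain ⟨𝔔', h𝔔'p, h𝔔'0, hu⟩ := h4n_exists_above (L := h6c_Om L l) 𝔔 h𝔔
  have hl' : (l : 𝓞 (h6c_Om L l)) ∉ 𝔔' := by
    intro hmem
    apply hl
    rw [← hu, Ideal.under_def, Ideal.mem_comap, map_natCast]
    exact hmem
  -- the Frobenius of `Om/F`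
  set φ' := h2a_frob ↥(h6c_F K L l p g k) (h6c_Om L l) 𝔔' h𝔔'0 with hφ'def
  set φ : Gal(h6c_Om L l/K) := φ'.restrictScalars K with hφdef
  have hspec : ∀ x : 𝓞 (h6c_Om L l), φ • x - x ^ Nat.card (𝓞 ↥(h6c_F K L l p g k) ⧸ 𝔔) ∈ 𝔔' := by
    intro x
    have := h2a_frob_spec (F := ↥(h6c_F K L l p g k)) 𝔔' h𝔔'0 x
    rw [hu] at this
    rw [hφdef, h2a_restrictScalars_smul]
    exact this
  -- `φ ∈ 𝓗`
  have hφH : φ ∈ h6c_H K L l p g k := by
    have h1 : φ ∈ (h6c_F K L l p g k).fixingSubgroup := by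
      rw [IntermediateField.mem_fixingSubgroup_iff]
      intro x hx
      exact φ'.commutes ⟨x, hx⟩
    rwa [h6c_F, IntermediateField.fixingSubgroup_fixedField] at h1
  obtain ⟨i, hi1, hi2⟩ := (h6c_mem_H K L l p g k φ).mp hφH
  -- cyclotomic character
  have hchi : ((h6c_chi K L l φ : (ZMod l)ˣ) : ZMod l) = ((Ideal.absNorm 𝔔 : ℕ) : ZMod l) := by
    have h1 := h6c_chi_of_isFrob K L l φ _ 𝔔' h𝔔'0 hl' hspec
    rw [h1, Ideal.absNorm_apply, Submodule.cardQuot_apply]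
  -- restriction to `L`
  have hcardpow := h2a_card_quot_eq_pow (F := K) 𝔔 h𝔔
  have huK : 𝔔'.under (𝓞 K) = 𝔔.under (𝓞 K) := by
    rw [← hu, Ideal.under_under]
  have hF : h6c_IsFrob K L l φ
      (Nat.card (𝓞 K ⧸ 𝔔'.under (𝓞 K)) ^ 𝔔.inertiaDeg (𝓞 K)) 𝔔' := by
    intro x
    rw [huK, ← hcardpow]
    exact hspec x
  have hres := h6c_res_eq_frob_pow K L l hunr φ 𝔔' h𝔔'0 _ hF
  -- the Artin symbol of the relative norm
  have hrel := h2a_relNorm_prime (F := K) 𝔔 h𝔔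
  have h𝔮0 : 𝔔.under (𝓞 K) ≠ ⊥ := h2a_under_ne_bot 𝔔 h𝔔
  have hartpow : ∀ n : ℕ, art (𝔔.under (𝓞 K) ^ n) = art (𝔔.under (𝓞 K)) ^ n := by
    intro n
    induction n with
    | zero => rw [pow_zero, Ideal.one_eq_top, htop, pow_zero]
    | succ n ih => rw [pow_succ, hmul _ _ (pow_ne_zero n h𝔮0) h𝔮0, ih, pow_succ]
  have hartq : art (𝔔.under (𝓞 K)) =
      h2a_frob K L (𝔔'.under (𝓞 L)) (h6c_under_ne_bot 𝔔' h𝔔'0) := by
    rw [← hart (𝔔'.under (𝓞 L)) (h6c_under_ne_bot 𝔔' h𝔔'0), Ideal.under_under, huK]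
  refine ⟨i, h6c_chi K L l φ, ?_, hchi, hi2⟩
  rw [hrel, hartpow, hartq, ← hres, hi1]

end claim2

end Fermat.Agent.Lib.S14
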