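/-
S14 project, analytic stream, piece (S2) (helper9): logarithms of Euler products over number fields.

For a number field `F`, a bounded completely multiplicative `f : Ideal (𝓞 F) → ℂ` and real `s > 1`,
with `L(s) = ∑ I, f(I) N(I)^(-s)`:
* `h9l_summable_prime_rpow`: `∑ v, N(v)^(-s)` over the height one primes converges;
* `h9l_L_ne_zero`: `L(s) ≠ 0`;
* `h9l_abs_log_norm_L_sub_le`: `|log ‖L(s)‖ - ∑ v, Re f(v) N(v)^(-s)| ≤ ∑ v, N(v)^(-2)`.
-/
import Mathlib
import Fermat.Agent.Lib.S14.EulerNF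

set_option autoImplicit false
set_option linter.unusedSectionVars false

namespace Fermat.Agent.Lib.S14

open IsDedekindDomain Filter Topology NumberField Ideal

section Prime

variable (F : Type*) [Field F] [NumberField F]

theorem h9l_asIdeal_injective :
    Function.Injective (fun v : HeightOneSpectrum (𝓞 F) => v.asIdeal) :=
  fun _ _ h => HeightOneSpectrum.ext h

/-- `∑ v, N(v)^(-s)` over the (nonzero) primes of `𝓞 F` converges for `s > 1`. -/
theorem h9l_summable_prime_rpow {s : ℝ} (hs : 1 < s) :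
    Summable fun v : HeightOneSpectrum (𝓞 F) => (absNorm v.asIdeal : ℝ) ^ (-s) :=
  (h9n_summable_norm_rpow F hs).comp_injective (h9l_asIdeal_injective F)

/-- The prime zeta function of `F`. -/
noncomputable def h9l_primeZeta (s : ℝ) : ℝ :=
  ∑' v : HeightOneSpectrum (𝓞 F), (absNorm v.asIdeal : ℝ) ^ (-s)

theorem h9l_primeZeta_nonneg (s : ℝ) : 0 ≤ h9l_primeZeta F s :=
  tsum_nonneg fun _ => Real.rpow_nonneg (Nat.cast_nonneg _) _

end Prime

section Log

variable {F : Type*} [Field F] [NumberField F]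

theorem h9l_norm_rpow_le_half (v : HeightOneSpectrum (𝓞 F)) {s : ℝ} (hs : 1 ≤ s) :
    (absNorm v.asIdeal : ℝ) ^ (-s) ≤ 1 / 2 := by
  have h2 : (2 : ℝ) ≤ absNorm v.asIdeal := by exact_mod_cast h9n_two_le_absNorm v
  have h0 : (0 : ℝ) < absNorm v.asIdeal := by linarith
  calc (absNorm v.asIdeal : ℝ) ^ (-s) ≤ (absNorm v.asIdeal : ℝ) ^ (-1 : ℝ) :=
        Real.rpow_le_rpow_of_exponent_le (by linarith) (by linarith)
    _ = ((absNorm v.asIdeal : ℝ))⁻¹ := Real.rpow_neg_one _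
    _ ≤ 2⁻¹ := inv_anti₀ (by norm_num) h2
    _ = 1 / 2 := by norm_num

theorem h9l_norm_rpow_sq_le (v : HeightOneSpectrum (𝓞 F)) {s : ℝ} (hs : 1 ≤ s) :
    ((absNorm v.asIdeal : ℝ) ^ (-s)) ^ 2 ≤ (absNorm v.asIdeal : ℝ) ^ (-2 : ℝ) := by
  have h2 : (2 : ℝ) ≤ absNorm v.asIdeal := by exact_mod_cast h9n_two_le_absNorm v
  have h0 : (0 : ℝ) < absNorm v.asIdeal := by linarith
  rw [← Real.rpow_natCast, ← Real.rpow_mul h0.le]
  exact Real.rpow_le_rpow_of_exponent_le (by linarith) (by push_cast; linarith)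

/-- The Dirichlet series `L(s) = ∑ I, f(I) N(I)^(-s)`. -/
noncomputable def h9l_L (f : Ideal (𝓞 F) → ℂ) (s : ℝ) : ℂ := ∑' I : Ideal (𝓞 F), h9n_term f s I

variable {f : Ideal (𝓞 F) → ℂ} (hf1 : f ⊤ = 1) (hmul : ∀ I J, f (I * J) = f I * f J)
  (hle : ∀ I, ‖f I‖ ≤ 1)

include hle in
theorem h9l_norm_term_le_half (v : HeightOneSpectrum (𝓞 F)) {s : ℝ} (hs : 1 ≤ s) :
    ‖h9n_term f s v.asIdeal‖ ≤ 1 / 2 :=
  (h9n_norm_term_le hle s _).trans (h9l_norm_rpow_le_half v hs)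

include hle in
theorem h9l_one_sub_term_ne_zero (v : HeightOneSpectrum (𝓞 F)) {s : ℝ} (hs : 1 ≤ s) :
    (1 - h9n_term f s v.asIdeal)⁻¹ ≠ 0 := by
  refine inv_ne_zero fun h => ?_
  have h1 : h9n_term f s v.asIdeal = 1 := (sub_eq_zero.mp h).symm
  have := h9l_norm_term_le_half hle v hs
  rw [h1, norm_one] at this
  norm_num at this

include hle in
/-- `‖log (1 - z_v)⁻¹ - z_v‖ ≤ N(v)^(-2)` for `z_v = f(v) N(v)^(-s)`, `s ≥ 1`. -/
theorem h9l_norm_log_sub_le (v : HeightOneSpectrum (𝓞 F)) {s : ℝ} (hs : 1 ≤ s) :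
    ‖Complex.log (1 - h9n_term f s v.asIdeal)⁻¹ - h9n_term f s v.asIdeal‖ ≤
      (absNorm v.asIdeal : ℝ) ^ (-2 : ℝ) := by
  have hhalf := h9l_norm_term_le_half hle v hs
  have hlt : ‖h9n_term f s v.asIdeal‖ < 1 := by linarith
  have hinv : (1 - ‖h9n_term f s v.asIdeal‖)⁻¹ ≤ 2 := by
    rw [inv_le_comm₀ (by linarith) two_pos]; linarith
  calc ‖Complex.log (1 - h9n_term f s v.asIdeal)⁻¹ - h9n_term f s v.asIdeal‖
      ≤ ‖h9n_term f s v.asIdeal‖ ^ 2 * (1 - ‖h9n_term f s v.asIdeal‖)⁻¹ / 2 :=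
        Complex.norm_log_one_sub_inv_sub_self_le hlt
    _ ≤ ‖h9n_term f s v.asIdeal‖ ^ 2 * 2 / 2 := by gcongr
    _ = ‖h9n_term f s v.asIdeal‖ ^ 2 := by ring
    _ ≤ ((absNorm v.asIdeal : ℝ) ^ (-s)) ^ 2 := by
        gcongr
        exact h9n_norm_term_le hle s _
    _ ≤ _ := h9l_norm_rpow_sq_le v hs

include hle in
theorem h9l_summable_term_prime {s : ℝ} (hs : 1 < s) :
    Summable fun v : HeightOneSpectrum (𝓞 F) => h9n_term f s v.asIdeal :=
  ((h9n_summable_term hle hs).of_norm).comp_injective (h9l_asIdeal_injective F)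

include hle in
theorem h9l_summable_log_sub {s : ℝ} (hs : 1 ≤ s) :
    Summable fun v : HeightOneSpectrum (𝓞 F) =>
      Complex.log (1 - h9n_term f s v.asIdeal)⁻¹ - h9n_term f s v.asIdeal :=
  Summable.of_norm_bounded (h9l_summable_prime_rpow F (by norm_num : (1 : ℝ) < 2))
    (fun v => h9l_norm_log_sub_le hle v hs)

include hle in
theorem h9l_summable_log {s : ℝ} (hs : 1 < s) :
    Summable fun v : HeightOneSpectrum (𝓞 F) => Complex.log (1 - h9n_term f s v.asIdeal)⁻¹ := by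
  have := (h9l_summable_log_sub hle hs.le).add (h9l_summable_term_prime hle hs)
  simpa using this

include hf1 hmul hle in
/-- The logarithmic form of the Euler product. -/
theorem h9l_exp_tsum_log {s : ℝ} (hs : 1 < s) :
    Complex.exp (∑' v : HeightOneSpectrum (𝓞 F), Complex.log (1 - h9n_term f s v.asIdeal)⁻¹) =
      h9l_L f s := by
  rw [Complex.cexp_tsum_eq_tprod (fun v => h9l_one_sub_term_ne_zero hle v hs.le)
    (h9l_summable_log hle hs)]
  exact (h9n_eulerProduct hf1 hmul hle hs).tprod_eq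

include hf1 hmul hle in
theorem h9l_L_ne_zero {s : ℝ} (hs : 1 < s) : h9l_L f s ≠ 0 := by
  rw [← h9l_exp_tsum_log hf1 hmul hle hs]
  exact Complex.exp_ne_zero _

include hf1 hmul hle in
theorem h9l_log_norm_L {s : ℝ} (hs : 1 < s) :
    Real.log ‖h9l_L f s‖ =
      ∑' v : HeightOneSpectrum (𝓞 F), (Complex.log (1 - h9n_term f s v.asIdeal)⁻¹).re := by
  rw [← h9l_exp_tsum_log hf1 hmul hle hs, Complex.norm_exp, Real.log_exp, Complex.re_tsum
    (h9l_summable_log hle hs)]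

theorem h9l_term_re (s : ℝ) (I : Ideal (𝓞 F)) :
    (h9n_term f s I).re = (f I).re * (absNorm I : ℝ) ^ (-s) := by
  rw [h9n_term, Complex.re_mul_ofReal]

include hf1 hmul hle in
/-- **`log ‖L(s)‖ = ∑ v, Re f(v) N(v)^(-s) + O(1)`**, uniformly for `s > 1`. -/
theorem h9l_abs_log_norm_L_sub_le {s : ℝ} (hs : 1 < s) :
    |Real.log ‖h9l_L f s‖ -
      ∑' v : HeightOneSpectrum (𝓞 F), (f v.asIdeal).re * (absNorm v.asIdeal : ℝ) ^ (-s)| ≤
      h9l_primeZeta F 2 := by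
  have hsum2 := h9l_summable_prime_rpow F (by norm_num : (1 : ℝ) < 2)
  have hsub := h9l_summable_log_sub hle (f := f) hs.le
  have hre : ∑' v : HeightOneSpectrum (𝓞 F), (f v.asIdeal).re * (absNorm v.asIdeal : ℝ) ^ (-s) =
      ∑' v : HeightOneSpectrum (𝓞 F), (h9n_term f s v.asIdeal).re :=
    tsum_congr fun v => (h9l_term_re s _).symm
  rw [h9l_log_norm_L hf1 hmul hle hs, hre, ← Complex.re_tsum (h9l_summable_log hle hs),
    ← Complex.re_tsum (h9l_summable_term_prime hle hs), ← Complex.sub_re,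
    ← (h9l_summable_log hle hs).tsum_sub (h9l_summable_term_prime hle hs)]
  calc |(∑' v : HeightOneSpectrum (𝓞 F),
        (Complex.log (1 - h9n_term f s v.asIdeal)⁻¹ - h9n_term f s v.asIdeal)).re|
      ≤ ‖∑' v : HeightOneSpectrum (𝓞 F),
        (Complex.log (1 - h9n_term f s v.asIdeal)⁻¹ - h9n_term f s v.asIdeal)‖ :=
        Complex.abs_re_le_norm _
    _ ≤ ∑' v : HeightOneSpectrum (𝓞 F),
        ‖Complex.log (1 - h9n_term f s v.asIdeal)⁻¹ - h9n_term f s v.asIdeal‖ :=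
        norm_tsum_le_tsum_norm hsub.norm
    _ ≤ ∑' v : HeightOneSpectrum (𝓞 F), (absNorm v.asIdeal : ℝ) ^ (-2 : ℝ) :=
        hsub.norm.tsum_le_tsum (fun v => h9l_norm_log_sub_le hle v hs.le) hsum2

end Log

end Fermat.Agent.Lib.S14
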