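/-
S14 project, analytic stream, piece (S2b) (helper9): the logarithmic Euler product for characters of
the class group, and the asymptotic `∑ v, N(v)^(-s) = log (1/(s-1)) + O(1)` as `s → 1⁺`.
-/
import Mathlib
import Fermat.Agent.Lib.S14.EulerLog

set_option autoImplicit false
set_option linter.unusedSectionVars false

namespace Fermat.Agent.Lib.S14

open IsDedekindDomain Filter Topology NumberField Ideal
open scoped nonZeroDivisors

section Character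

variable {F : Type*} [Field F] [NumberField F]

open Classical in
/-- The completely multiplicative function on ideals attached to a character of the class group
(zero at the zero ideal). -/
noncomputable def h9l_chi (θ : ClassGroup (𝓞 F) →* ℂˣ) (I : Ideal (𝓞 F)) : ℂ :=
  if h : I = ⊥ then 0
  else ((θ (ClassGroup.mk0 ⟨I, mem_nonZeroDivisors_iff_ne_zero.mpr h⟩) : ℂˣ) : ℂ)

variable (θ : ClassGroup (𝓞 F) →* ℂˣ)

theorem h9l_chi_bot : h9l_chi θ ⊥ = 0 := by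
  simp [h9l_chi]

theorem h9l_chi_of_ne_bot {I : Ideal (𝓞 F)} (h : I ≠ ⊥) :
    h9l_chi θ I = ((θ (ClassGroup.mk0 ⟨I, mem_nonZeroDivisors_iff_ne_zero.mpr h⟩) : ℂˣ) : ℂ) := by
  simp [h9l_chi, h]

theorem h9l_chi_coe (I : (Ideal (𝓞 F))⁰) :
    h9l_chi θ (I : Ideal (𝓞 F)) = ((θ (ClassGroup.mk0 I) : ℂˣ) : ℂ) :=
  h9l_chi_of_ne_bot θ (mem_nonZeroDivisors_iff_ne_zero.mp I.2)

theorem h9l_chi_prime (v : HeightOneSpectrum (𝓞 F)) :
    h9l_chi θ v.asIdeal =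
      ((θ (ClassGroup.mk0 ⟨v.asIdeal, mem_nonZeroDivisors_iff_ne_zero.mpr v.ne_bot⟩) : ℂˣ) : ℂ) :=
  h9l_chi_of_ne_bot θ v.ne_bot

theorem h9l_chi_top : h9l_chi θ ⊤ = 1 := by
  have h : (⟨⊤, mem_nonZeroDivisors_iff_ne_zero.mpr top_ne_bot⟩ : (Ideal (𝓞 F))⁰) = 1 :=
    Subtype.ext Ideal.one_eq_top.symm
  rw [h9l_chi_of_ne_bot θ top_ne_bot, h, map_one, map_one, Units.val_one]

theorem h9l_chi_mul (I J : Ideal (𝓞 F)) : h9l_chi θ (I * J) = h9l_chi θ I * h9l_chi θ J := by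
  by_cases hI : I = ⊥
  · rw [hI, Ideal.bot_mul, h9l_chi_bot, zero_mul]
  by_cases hJ : J = ⊥
  · rw [hJ, Ideal.mul_bot, h9l_chi_bot, mul_zero]
  have hIJ : I * J ≠ ⊥ := mul_ne_zero hI hJ
  rw [h9l_chi_of_ne_bot θ hI, h9l_chi_of_ne_bot θ hJ, h9l_chi_of_ne_bot θ hIJ, ← Units.val_mul,
    ← map_mul, ← map_mul]
  rfl

theorem h9l_norm_unit (x : ClassGroup (𝓞 F)) : ‖((θ x : ℂˣ) : ℂ)‖ = 1 := by
  have h1 : x ^ Nat.card (ClassGroup (𝓞 F)) = 1 := pow_card_eq_one'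
  have h2 : ((θ x : ℂˣ) : ℂ) ^ Nat.card (ClassGroup (𝓞 F)) = 1 := by
    rw [← Units.val_pow_eq_pow_val, ← map_pow, h1, map_one, Units.val_one]
  exact Complex.norm_eq_one_of_pow_eq_one h2 Nat.card_pos.ne'

theorem h9l_norm_chi_le (I : Ideal (𝓞 F)) : ‖h9l_chi θ I‖ ≤ 1 := by
  by_cases hI : I = ⊥
  · rw [hI, h9l_chi_bot, norm_zero]; exact zero_le_one
  · rw [h9l_chi_of_ne_bot θ hI, h9l_norm_unit]

/-- The `L`-series of `θ` written as a sum over the nonzero ideals agrees with `h9l_L`. -/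
theorem h9l_tsum_nonZeroDivisors_eq (s : ℝ) :
    ∑' I : (Ideal (𝓞 F))⁰, ((θ (ClassGroup.mk0 I) : ℂˣ) : ℂ) *
        (((absNorm (I : Ideal (𝓞 F)) : ℝ) ^ (-s) : ℝ) : ℂ) = h9l_L (h9l_chi θ) s := by
  have hsupp : Function.support (h9n_term (h9l_chi θ) s) ⊆
      ((Ideal (𝓞 F))⁰ : Set (Ideal (𝓞 F))) := by
    intro I hI
    rw [SetLike.mem_coe, mem_nonZeroDivisors_iff_ne_zero]
    rintro rfl
    apply hI
    change h9n_term (h9l_chi θ) s ⊥ = 0
    rw [h9n_term, h9l_chi_bot, zero_mul]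
  rw [h9l_L, ← tsum_subtype_eq_of_support_subset hsupp]
  refine tsum_congr fun I => ?_
  rw [h9n_term, h9l_chi_coe]

/-- **Contract (EulerLog) for helper7**: for every character `θ` of the class group,
`L(s, θ) ≠ 0` and `log ‖L(s, θ)‖ = ∑ 𝔮, Re θ(𝔮) N(𝔮)^(-s) + O(1)` for `s > 1`. -/
theorem h9l_character_log (θ : ClassGroup (𝓞 F) →* ℂˣ) :
    ∃ C : ℝ, ∀ s : ℝ, 1 < s →
      (∑' I : (Ideal (𝓞 F))⁰, ((θ (ClassGroup.mk0 I) : ℂˣ) : ℂ) *
        (((absNorm (I : Ideal (𝓞 F)) : ℝ) ^ (-s) : ℝ) : ℂ)) ≠ 0 ∧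
      |Real.log ‖∑' I : (Ideal (𝓞 F))⁰, ((θ (ClassGroup.mk0 I) : ℂˣ) : ℂ) *
          (((absNorm (I : Ideal (𝓞 F)) : ℝ) ^ (-s) : ℝ) : ℂ)‖ -
        ∑' 𝔮 : HeightOneSpectrum (𝓞 F),
          (((θ (ClassGroup.mk0 ⟨𝔮.asIdeal, mem_nonZeroDivisors_iff_ne_zero.mpr 𝔮.ne_bot⟩) : ℂˣ) :
            ℂ)).re * (absNorm 𝔮.asIdeal : ℝ) ^ (-s)| ≤ C := by
  refine ⟨h9l_primeZeta F 2, fun s hs => ?_⟩
  rw [h9l_tsum_nonZeroDivisors_eq]
  refine ⟨h9l_L_ne_zero (h9l_chi_top θ) (h9l_chi_mul θ) (h9l_norm_chi_le θ) hs, ?_⟩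
  have := h9l_abs_log_norm_L_sub_le (h9l_chi_top θ) (h9l_chi_mul θ) (h9l_norm_chi_le θ) hs
  simpa only [h9l_chi_prime] using this

end Character

section Asymptotic

variable (F : Type*) [Field F] [NumberField F]

/-- `L(s)` for `f = 1` is the Dedekind zeta value. -/
theorem h9l_L_one (s : ℝ) :
    h9l_L (fun _ : Ideal (𝓞 F) => (1 : ℂ)) s = ((h9n_zeta F s : ℝ) : ℂ) := by
  rw [h9l_L, h9n_zeta, Complex.ofReal_tsum]
  refine tsum_congr fun I => ?_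
  rw [h9n_term, one_mul]

/-- `log ζ_F(s) = ∑ v, N(v)^(-s) + O(1)` for `s > 1`. -/
theorem h9l_abs_log_zeta_sub_primeZeta_le {s : ℝ} (hs : 1 < s) :
    |Real.log (h9n_zeta F s) - h9l_primeZeta F s| ≤ h9l_primeZeta F 2 := by
  have := h9l_abs_log_norm_L_sub_le (f := fun _ : Ideal (𝓞 F) => (1 : ℂ)) rfl
    (fun _ _ => (one_mul 1).symm) (fun _ => by simp) hs
  rw [h9l_L_one, Complex.norm_real, Real.norm_of_nonneg (h9n_zeta_pos F hs).le] at this
  simpa [h9l_primeZeta] using this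

theorem h9l_zeta_anti {s t : ℝ} (hs : 1 < s) (hst : s ≤ t) : h9n_zeta F t ≤ h9n_zeta F s := by
  refine (h9n_summable_norm_rpow F (hs.trans_le hst)).tsum_le_tsum (fun I => ?_)
    (h9n_summable_norm_rpow F hs)
  rcases Nat.eq_zero_or_pos (absNorm I) with h | h
  · rw [h, Nat.cast_zero, Real.zero_rpow (by linarith), Real.zero_rpow (by linarith)]
  · exact Real.rpow_le_rpow_of_exponent_le (by exact_mod_cast h) (by linarith)

theorem h9l_one_le_zeta {s : ℝ} (hs : 1 < s) : 1 ≤ h9n_zeta F s := by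
  have hsum := h9n_summable_norm_rpow F hs
  have h1 : (absNorm (⊤ : Ideal (𝓞 F)) : ℝ) ^ (-s) = 1 := by
    rw [Ideal.absNorm_top, Nat.cast_one, Real.one_rpow]
  calc (1 : ℝ) = (absNorm (⊤ : Ideal (𝓞 F)) : ℝ) ^ (-s) := h1.symm
    _ ≤ h9n_zeta F s :=
      hsum.le_tsum ⊤ (fun I _ => Real.rpow_nonneg (Nat.cast_nonneg _) _)

theorem h9l_abs_log_le_of_mem {a b x : ℝ} (ha : 0 < a) (hax : a ≤ x) (hxb : x ≤ b) :
    |Real.log x| ≤ max |Real.log a| |Real.log b| :=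
  abs_le_max_abs_abs (Real.log_le_log ha hax) (Real.log_le_log (ha.trans_le hax) hxb)

/-- `log ((s-1) ζ_F(s))` is bounded on `(1, 2]`. -/
theorem h9l_log_sub_one_mul_zeta_bounded :
    ∃ C : ℝ, ∀ s : ℝ, 1 < s → s ≤ 2 → |Real.log ((s - 1) * h9n_zeta F s)| ≤ C := by
  have hρ := dedekindZeta_residue_pos F
  have hev : ∀ᶠ s in 𝓝[>] (1 : ℝ), (s - 1) * h9n_zeta F s ∈
      Set.Ioo (dedekindZeta_residue F / 2) (2 * dedekindZeta_residue F) :=
    (h9n_tendsto_sub_one_mul_zeta F).eventually (Ioo_mem_nhds (by linarith) (by linarith))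
  obtain ⟨u, hu, hsub⟩ := mem_nhdsGT_iff_exists_Ioo_subset.mp hev
  have hu1 : (1 : ℝ) < u := hu
  refine ⟨max (max |Real.log (dedekindZeta_residue F / 2)| |Real.log (2 * dedekindZeta_residue F)|)
    (max |Real.log (u - 1)| |Real.log (h9n_zeta F u)|), fun s hs hs2 => ?_⟩
  rcases lt_or_ge s u with hsu | hus
  · have hx := hsub ⟨hs, hsu⟩
    exact le_max_of_le_left (h9l_abs_log_le_of_mem (by linarith) hx.1.le hx.2.le)
  · refine le_max_of_le_right (h9l_abs_log_le_of_mem (by linarith) ?_ ?_)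
    · calc u - 1 = (u - 1) * 1 := (mul_one _).symm
        _ ≤ (s - 1) * h9n_zeta F s :=
          mul_le_mul (by linarith) (h9l_one_le_zeta F hs) zero_le_one (by linarith)
    · calc (s - 1) * h9n_zeta F s ≤ 1 * h9n_zeta F u :=
          mul_le_mul (by linarith) (h9l_zeta_anti F hu1 hus) (h9n_zeta_pos F hs).le zero_le_one
        _ = _ := one_mul _

/-- **(Z1)** `∑ v, N(v)^(-s) = log (1/(s-1)) + O(1)` on `(1, 2]`. -/
theorem h9l_primeZeta_sub_log_bounded :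
    ∃ C : ℝ, ∀ s : ℝ, 1 < s → s ≤ 2 →
      |h9l_primeZeta F s - Real.log (1 / (s - 1))| ≤ C := by
  obtain ⟨C, hC⟩ := h9l_log_sub_one_mul_zeta_bounded F
  refine ⟨h9l_primeZeta F 2 + C, fun s hs hs2 => ?_⟩
  have h1 := h9l_abs_log_zeta_sub_primeZeta_le F hs
  have h2 := hC s hs hs2
  have hlog : Real.log ((s - 1) * h9n_zeta F s) =
      Real.log (s - 1) + Real.log (h9n_zeta F s) :=
    Real.log_mul (by linarith) (h9n_zeta_pos F hs).ne'
  have hinv : Real.log (1 / (s - 1)) = -Real.log (s - 1) := by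
    rw [one_div, Real.log_inv]
  have heq : h9l_primeZeta F s - Real.log (1 / (s - 1)) =
      -(Real.log (h9n_zeta F s) - h9l_primeZeta F s) + Real.log ((s - 1) * h9n_zeta F s) := by
    rw [hlog, hinv]; ring
  rw [heq]
  calc |-(Real.log (h9n_zeta F s) - h9l_primeZeta F s) + Real.log ((s - 1) * h9n_zeta F s)|
      ≤ |-(Real.log (h9n_zeta F s) - h9l_primeZeta F s)| +
        |Real.log ((s - 1) * h9n_zeta F s)| := abs_add_le _ _
    _ = |Real.log (h9n_zeta F s) - h9l_primeZeta F s| +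
        |Real.log ((s - 1) * h9n_zeta F s)| := by rw [abs_neg]
    _ ≤ _ := add_le_add h1 h2

end Asymptotic

end Fermat.Agent.Lib.S14
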