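/-
S14 project (helper9): bridge from the (S2) results of `EulerLogChar` to helper1's consumer contract
`h1z_PrimeLog` (file `ZetaSplit`).
-/
import Mathlib
import Fermat.Agent.Lib.S14.EulerLogChar
import Fermat.Agent.Lib.S14.ZetaSplit

set_option autoImplicit false

namespace Fermat.Agent.Lib.S14

open IsDedekindDomain NumberField Ideal

/-- The (S2) contract consumed by `ZetaSplit`: the prime zeta function of a number field converges
for `s > 1` and equals `log (1/(s-1)) + O(1)` on `(1, 2]`. -/
theorem h9e_primeLog (F : Type*) [Field F] [NumberField F] : h1z_PrimeLog F :=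
  ⟨fun _ hs => h9l_summable_prime_rpow F hs, h9l_primeZeta_sub_log_bounded F⟩

end Fermat.Agent.Lib.S14
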