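/-
S14 project (prep), analytic stream, piece (S1a) (helper9): the multiplicative structure of the
nonzero ideals of a Dedekind domain, in the form needed for Euler products.

* `h9e_factored s`: the nonzero ideals all of whose prime divisors lie in the finite set `s` of
  height-one primes;
* `h9e_equiv`: for `v ∉ s`, `(e, I) ↦ v^e * I` is a bijection
  `ℕ × h9e_factored s ≃ h9e_factored (insert v s)`.
-/
import Mathlib

set_option autoImplicit false
set_option linter.unusedSectionVars false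

namespace Fermat.Agent.Lib.S14

open IsDedekindDomain

variable {R : Type*} [CommRing R] [IsDedekindDomain R]

/-- The nonzero ideals all of whose prime divisors lie in `s`. -/
def h9e_factored (s : Finset (HeightOneSpectrum R)) : Set (Ideal R) :=
  {I | I ≠ ⊥ ∧ ∀ w : HeightOneSpectrum R, w.asIdeal ∣ I → w ∈ s}

theorem h9e_mem_factored {s : Finset (HeightOneSpectrum R)} {I : Ideal R} :
    I ∈ h9e_factored s ↔ I ≠ ⊥ ∧ ∀ w : HeightOneSpectrum R, w.asIdeal ∣ I → w ∈ s := Iff.rfl

theorem h9e_factored_mono {s t : Finset (HeightOneSpectrum R)} (h : s ⊆ t) :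
    h9e_factored s ⊆ h9e_factored t := fun _ hI => ⟨hI.1, fun w hw => h (hI.2 w hw)⟩

/-- A proper nonzero ideal is divisible by a height-one prime. -/
theorem h9e_exists_dvd {I : Ideal R} (h0 : I ≠ ⊥) (h1 : I ≠ ⊤) :
    ∃ w : HeightOneSpectrum R, w.asIdeal ∣ I := by
  obtain ⟨M, hM, hIM⟩ := Ideal.exists_le_maximal I h1
  have hM0 : M ≠ ⊥ := fun h => h0 (le_bot_iff.mp (h ▸ hIM))
  exact ⟨⟨M, hM.isPrime, hM0⟩, Ideal.dvd_iff_le.mpr hIM⟩

theorem h9e_factored_empty :
    h9e_factored (∅ : Finset (HeightOneSpectrum R)) = {(⊤ : Ideal R)} := by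
  ext I
  constructor
  · rintro ⟨h0, h⟩
    by_contra h1
    obtain ⟨w, hw⟩ := h9e_exists_dvd h0 h1
    exact absurd (h w hw) (Finset.notMem_empty w)
  · rintro rfl
    refine ⟨top_ne_bot, fun w hw => ?_⟩
    exfalso
    have : w.asIdeal = ⊤ := top_le_iff.mp (Ideal.dvd_iff_le.mp hw)
    exact w.isPrime.ne_top this

theorem h9e_top_mem (s : Finset (HeightOneSpectrum R)) : (⊤ : Ideal R) ∈ h9e_factored s :=
  h9e_factored_mono (Finset.empty_subset s) (by rw [h9e_factored_empty]; rfl)

/-- A height-one prime dividing a power of a height-one prime is equal to it. -/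
theorem h9e_eq_of_dvd_pow {v w : HeightOneSpectrum R} {e : ℕ}
    (h : w.asIdeal ∣ v.asIdeal ^ e) : w = v := by
  have h1 : w.asIdeal ∣ v.asIdeal := w.prime.dvd_of_dvd_pow h
  have h2 : v.asIdeal ≤ w.asIdeal := Ideal.dvd_iff_le.mp h1
  have hv : v.asIdeal.IsMaximal := v.isMaximal
  exact HeightOneSpectrum.ext (hv.eq_of_le w.isPrime.ne_top h2).symm

theorem h9e_pow_mul_mem [DecidableEq (HeightOneSpectrum R)] {s : Finset (HeightOneSpectrum R)} (v : HeightOneSpectrum R) (e : ℕ)
    {I : Ideal R} (hI : I ∈ h9e_factored s) : v.asIdeal ^ e * I ∈ h9e_factored (insert v s) := by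
  refine ⟨mul_ne_zero (pow_ne_zero e v.ne_bot) hI.1, fun w hw => ?_⟩
  rcases w.prime.dvd_or_dvd hw with h | h
  · rw [h9e_eq_of_dvd_pow h]; exact Finset.mem_insert_self v s
  · exact Finset.mem_insert_of_mem (hI.2 w h)

theorem h9e_not_dvd_of_mem {s : Finset (HeightOneSpectrum R)} {v : HeightOneSpectrum R}
    (hv : v ∉ s) {I : Ideal R} (hI : I ∈ h9e_factored s) : ¬ v.asIdeal ∣ I :=
  fun h => hv (hI.2 v h)

theorem h9e_pow_mul_injective {v : HeightOneSpectrum R} {e e' : ℕ} {I I' : Ideal R}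
    (hI : ¬ v.asIdeal ∣ I) (hI' : ¬ v.asIdeal ∣ I')
    (h : v.asIdeal ^ e * I = v.asIdeal ^ e' * I') : e = e' ∧ I = I' := by
  have hv0 : v.asIdeal ≠ 0 := v.ne_bot
  have key : ∀ {e e' : ℕ} {I I' : Ideal R}, ¬ v.asIdeal ∣ I → e ≤ e' →
      v.asIdeal ^ e * I = v.asIdeal ^ e' * I' → e = e' := by
    intro e e' I I' hI hle h
    obtain ⟨k, rfl⟩ := Nat.exists_eq_add_of_le hle
    rw [pow_add, mul_assoc] at h
    have h2 : I = v.asIdeal ^ k * I' := mul_left_cancel₀ (pow_ne_zero e hv0) h
    rcases Nat.eq_zero_or_pos k with rfl | hk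
    · rfl
    · exfalso
      apply hI
      rw [h2]
      exact Dvd.dvd.mul_right (dvd_pow_self _ hk.ne') _
  have he : e = e' := by
    rcases le_total e e' with hle | hle
    · exact key hI hle h
    · exact (key hI' hle h.symm).symm
  subst he
  exact ⟨rfl, mul_left_cancel₀ (pow_ne_zero e hv0) h⟩

/-- For `v ∉ s`, `(e, I) ↦ v^e * I` is a bijection from `ℕ × h9e_factored s` onto
`h9e_factored (insert v s)`. -/
noncomputable def h9e_equiv [DecidableEq (HeightOneSpectrum R)] {s : Finset (HeightOneSpectrum R)} {v : HeightOneSpectrum R}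
    (hv : v ∉ s) : ℕ × h9e_factored s ≃ h9e_factored (insert v s) :=
  Equiv.ofBijective
    (fun x => ⟨v.asIdeal ^ x.1 * x.2.1, h9e_pow_mul_mem v x.1 x.2.2⟩)
    (by
      constructor
      · rintro ⟨e, I, hI⟩ ⟨e', I', hI'⟩ h
        have h' : v.asIdeal ^ e * I = v.asIdeal ^ e' * I' := congrArg Subtype.val h
        obtain ⟨rfl, rfl⟩ := h9e_pow_mul_injective (h9e_not_dvd_of_mem hv hI)
          (h9e_not_dvd_of_mem hv hI') h'
        rfl
      · rintro ⟨J, hJ0, hJ⟩
        have hfin : FiniteMultiplicity v.asIdeal J :=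
          FiniteMultiplicity.of_not_isUnit v.prime.not_isUnit hJ0
        obtain ⟨c, hc, hvc⟩ := hfin.exists_eq_pow_mul_and_not_dvd
        have hc0 : c ≠ ⊥ := by
          rintro rfl
          apply hJ0
          rw [hc]
          exact mul_zero _
        have hcmem : c ∈ h9e_factored s := by
          refine ⟨hc0, fun w hw => ?_⟩
          have hwJ : w.asIdeal ∣ J := by rw [hc]; exact Dvd.dvd.mul_left hw _
          rcases Finset.mem_insert.mp (hJ w hwJ) with rfl | h
          · exact absurd hw hvc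
          · exact h
        exact ⟨(multiplicity v.asIdeal J, ⟨c, hcmem⟩), Subtype.ext hc.symm⟩)

@[simp] theorem h9e_equiv_apply [DecidableEq (HeightOneSpectrum R)] {s : Finset (HeightOneSpectrum R)} {v : HeightOneSpectrum R}
    (hv : v ∉ s) (x : ℕ × h9e_factored s) :
    ((h9e_equiv hv x : h9e_factored (insert v s)) : Ideal R) = v.asIdeal ^ x.1 * x.2.1 := rfl

/-- The prime divisors of a nonzero ideal form a finite set. -/
theorem h9e_finite_dvd {I : Ideal R} (h0 : I ≠ ⊥) :
    {w : HeightOneSpectrum R | w.asIdeal ∣ I}.Finite :=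
  Ideal.finite_factors h0

end Fermat.Agent.Lib.S14
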