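/-
S14 project (prep), analytic stream, piece (S1b) (helper9): Euler products over the prime ideals of
a Dedekind domain, for completely multiplicative functions on ideals with values in a complete
normed commutative ring (mirror of `Mathlib/NumberTheory/EulerProduct/Basic.lean`).

* `h9e_summable_and_hasSum_factored`: the finite Euler product
  `∏ v ∈ s, ∑' n, g (v ^ n) = ∑' I ∈ factored s, g I`;
* `h9e_eulerProduct_hasProd`: `HasProd (fun v ↦ ∑' n, g (v ^ n)) (∑' I, g I)`.
-/
import Mathlib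
import Fermat.Agent.Lib.S14.EulerProdAlg

set_option autoImplicit false
set_option linter.unusedSectionVars false

namespace Fermat.Agent.Lib.S14

open IsDedekindDomain Filter Topology

variable {R : Type*} [CommRing R] [IsDedekindDomain R]
variable {A : Type*} [NormedCommRing A] [CompleteSpace A] {g : Ideal R → A}

/-- The finite Euler product. -/
theorem h9e_summable_and_hasSum_factored (hg1 : g ⊤ = 1) (hmul : ∀ I J, g (I * J) = g I * g J)
    (hsum : ∀ v : HeightOneSpectrum R, Summable (fun n : ℕ ↦ ‖g (v.asIdeal ^ n)‖))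
    (s : Finset (HeightOneSpectrum R)) :
    Summable (fun m : h9e_factored s ↦ ‖g m‖) ∧
      HasSum (fun m : h9e_factored s ↦ g m) (∏ v ∈ s, ∑' n : ℕ, g (v.asIdeal ^ n)) := by
  classical
  induction s using Finset.induction with
  | empty =>
    rw [h9e_factored_empty, Finset.prod_empty]
    exact ⟨(Set.finite_singleton ⊤).summable (‖g ·‖), hg1 ▸ hasSum_singleton ⊤ g⟩
  | insert v s hv ih =>
    constructor
    · rw [← (h9e_equiv hv).summable_iff]
      simp only [Function.comp_def, h9e_equiv_apply, hmul]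
      refine Summable.of_nonneg_of_le (fun _ ↦ norm_nonneg _) (fun _ ↦ norm_mul_le ..) ?_
      apply Summable.mul_of_nonneg (hsum v) ih.1 <;> exact fun n ↦ norm_nonneg _
    · rw [Finset.prod_insert hv, ← (h9e_equiv hv).hasSum_iff]
      simp only [Function.comp_def, h9e_equiv_apply, hmul]
      apply (hsum v).of_norm.hasSum.mul ih.2
      apply summable_mul_of_summable_norm (hsum v) ih.1

theorem h9e_pow_injective (v : HeightOneSpectrum R) :
    Function.Injective (fun n : ℕ => v.asIdeal ^ n) := by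
  intro a b hab
  have hnd : ¬ v.asIdeal ∣ (⊤ : Ideal R) :=
    fun hd => v.isPrime.ne_top (top_le_iff.mp (Ideal.dvd_iff_le.mp hd))
  have h : v.asIdeal ^ a * ⊤ = v.asIdeal ^ b * ⊤ := by
    rw [Ideal.mul_top, Ideal.mul_top]; exact hab
  exact (h9e_pow_mul_injective hnd hnd h).1

theorem h9e_prod_tsum_eq_tsum_factored (hg1 : g ⊤ = 1) (hmul : ∀ I J, g (I * J) = g I * g J)
    (hsum : Summable (‖g ·‖)) (s : Finset (HeightOneSpectrum R)) :
    ∏ v ∈ s, ∑' n : ℕ, g (v.asIdeal ^ n) = ∑' m : h9e_factored s, g m :=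
  (h9e_summable_and_hasSum_factored hg1 hmul
    (fun v ↦ hsum.comp_injective (h9e_pow_injective v)) s).2.tsum_eq.symm

/-- Summing over `s`-factored ideals for large `s` approximates the full sum. -/
theorem h9e_norm_tsum_sub_tsum_factored_lt (hsum : Summable g) (hg0 : g ⊥ = 0) {ε : ℝ}
    (εpos : 0 < ε) :
    ∃ s₀ : Finset (HeightOneSpectrum R), ∀ s : Finset (HeightOneSpectrum R), s₀ ⊆ s →
      ‖(∑' I : Ideal R, g I) - ∑' m : h9e_factored s, g m‖ < ε := by
  classical
  obtain ⟨S, hS⟩ := hsum.tsum_vanishing (Metric.ball_mem_nhds 0 εpos)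
  -- the prime divisors of the nonzero ideals in `S`
  have hfin : ∀ I ∈ S.filter (· ≠ ⊥), {w : HeightOneSpectrum R | w.asIdeal ∣ I}.Finite :=
    fun I hI => h9e_finite_dvd (Finset.mem_filter.mp hI).2
  let s₀ : Finset (HeightOneSpectrum R) :=
    (Set.Finite.biUnion (S.filter (· ≠ ⊥)).finite_toSet hfin).toFinset
  refine ⟨s₀, fun s hs => ?_⟩
  have hdisj : Disjoint ((h9e_factored s)ᶜ \ {⊥}) (S : Set (Ideal R)) := by
    rw [Set.disjoint_left]
    rintro I ⟨hI, hI0⟩ hIS
    apply hI
    have hI0' : I ≠ ⊥ := hI0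
    refine ⟨hI0', fun w hw => hs ?_⟩
    rw [Set.Finite.mem_toFinset]
    exact Set.mem_biUnion (Finset.mem_coe.mpr (Finset.mem_filter.mpr ⟨hIS, hI0'⟩)) hw
  have := hS _ hdisj
  rw [mem_ball_zero_iff] at this
  rwa [← hsum.tsum_subtype_add_tsum_subtype_compl (h9e_factored s), add_sub_cancel_left,
    tsum_eq_tsum_sdiff_singleton (h9e_factored s)ᶜ hg0]

/-- **Euler product** over the height-one primes of a Dedekind domain. -/
theorem h9e_eulerProduct_hasProd (hg0 : g ⊥ = 0) (hg1 : g ⊤ = 1)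
    (hmul : ∀ I J, g (I * J) = g I * g J) (hsum : Summable (‖g ·‖)) :
    HasProd (fun v : HeightOneSpectrum R ↦ ∑' e : ℕ, g (v.asIdeal ^ e)) (∑' I : Ideal R, g I) := by
  change Tendsto _ atTop _
  rw [Metric.tendsto_nhds]
  intro ε hε
  obtain ⟨s₀, hs₀⟩ := h9e_norm_tsum_sub_tsum_factored_lt hsum.of_norm hg0 hε
  refine Filter.mem_of_superset (Filter.mem_atTop s₀) fun s hs ↦ ?_
  change dist _ _ < ε
  rw [dist_eq_norm, h9e_prod_tsum_eq_tsum_factored hg1 hmul hsum, norm_sub_rev]
  exact hs₀ s hs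

end Fermat.Agent.Lib.S14
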