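/-
S14 project, analytic stream, piece (S1c) (helper9): Euler products for number fields.

For a number field `F` and real `s > 1`:
* `h9n_summable_norm_rpow`: `∑ I, N(I)^(-s)` converges (sum over all ideals of `𝓞 F`; the zero ideal
  contributes `0`);
* `h9n_tsum_eq_dedekindZeta`: its value is `dedekindZeta F s`;
* `h9n_eulerProduct`: for `f : Ideal (𝓞 F) → ℂ` completely multiplicative with `‖f I‖ ≤ 1`,
  `∑ I, f(I) N(I)^(-s) = ∏ v, (1 - f(v) N(v)^(-s))⁻¹`.
-/
import Mathlib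
import Fermat.Agent.Lib.S14.EulerProd

set_option autoImplicit false
set_option linter.unusedSectionVars false

namespace Fermat.Agent.Lib.S14

open IsDedekindDomain Filter Topology NumberField Ideal Asymptotics

variable (F : Type*) [Field F] [NumberField F]

/-- The number of ideals of norm `n`. -/
noncomputable def h9n_count (n : ℕ) : ℕ := Nat.card {I : Ideal (𝓞 F) // absNorm I = n}

theorem h9n_tendsto_count :
    Tendsto (fun n : ℕ ↦ (∑ k ∈ Finset.Icc 1 n, (h9n_count F k : ℝ)) / (n : ℝ)) atTop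
      (𝓝 (dedekindZeta_residue F)) := by
  refine ((Ideal.tendsto_norm_le_div_atTop₀ F).comp tendsto_natCast_atTop_atTop).congr fun n ↦ ?_
  simp only [Function.comp_apply, Nat.cast_le, ← Nat.cast_sum, h9n_count]
  congr
  rw [← add_left_inj 1, ← card_norm_le_eq_card_norm_le_add_one,
    show Finset.Icc 1 n = Finset.Ioc 0 n from Finset.Icc_succ_left_eq_Ioc _ _,
    show 1 = Nat.card {I : Ideal (𝓞 F) // absNorm I = 0} by simp [Ideal.absNorm_eq_zero_iff],
    Finset.sum_Ioc_add_eq_sum_Icc (n.zero_le),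
    ← Finset.card_preimage_eq_sum_card_image_eq (fun k _ ↦ finite_setOfPred_absNorm_eq k)]
  simp [Set.coe_eq_subtype]

theorem h9n_lseriesSummable {s : ℝ} (hs : 1 < s) :
    LSeriesSummable (fun n ↦ ((h9n_count F n : ℝ) : ℂ)) (s : ℂ) := by
  refine LSeriesSummable_of_sum_norm_bigO_and_nonneg ?_ (fun n => Nat.cast_nonneg _) zero_le_one
    (by simpa using hs)
  exact isBigO_atTop_natCast_rpow_of_tendsto_div_rpow (by simpa using h9n_tendsto_count F)

theorem h9n_summable_count_rpow {s : ℝ} (hs : 1 < s) :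
    Summable (fun n : ℕ ↦ (h9n_count F n : ℝ) * (n : ℝ) ^ (-s)) := by
  have h := (h9n_lseriesSummable F hs).norm
  refine h.congr fun n => ?_
  rw [LSeries.norm_term_eq]
  by_cases hn : n = 0
  · subst hn
    rw [if_pos rfl, Nat.cast_zero, Real.zero_rpow (by linarith), mul_zero]
  · rw [if_neg hn, Complex.ofReal_re, Complex.norm_real, Real.norm_of_nonneg (Nat.cast_nonneg _),
      Real.rpow_neg (Nat.cast_nonneg _), div_eq_mul_inv]

instance h9n_finite_fiber (n : ℕ) : Finite {I : Ideal (𝓞 F) // absNorm I = n} :=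
  (finite_setOfPred_absNorm_eq n).to_subtype

theorem h9n_comp_sigmaFiberEquiv (s : ℝ) :
    ((fun I : Ideal (𝓞 F) ↦ (absNorm I : ℝ) ^ (-s)) ∘
      (Equiv.sigmaFiberEquiv (fun I : Ideal (𝓞 F) => absNorm I)))
      = fun p : (Σ n : ℕ, {I : Ideal (𝓞 F) // absNorm I = n}) => (p.1 : ℝ) ^ (-s) := by
  funext p
  obtain ⟨n, I, hI⟩ := p
  simp only [Function.comp_apply, Equiv.sigmaFiberEquiv_apply]
  rw [hI]

theorem h9n_summable_sigma {s : ℝ} (hs : 1 < s) :
    Summable (fun p : (Σ n : ℕ, {I : Ideal (𝓞 F) // absNorm I = n}) => (p.1 : ℝ) ^ (-s)) := by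
  rw [summable_sigma_of_nonneg (fun _ => Real.rpow_nonneg (Nat.cast_nonneg _) _)]
  refine ⟨fun n => Summable.of_finite, ?_⟩
  refine (h9n_summable_count_rpow F hs).congr fun n => ?_
  simp only [tsum_const, h9n_count, nsmul_eq_mul]

/-- `∑ I, N(I)^(-s)` converges for real `s > 1`. -/
theorem h9n_summable_norm_rpow {s : ℝ} (hs : 1 < s) :
    Summable (fun I : Ideal (𝓞 F) ↦ (absNorm I : ℝ) ^ (-s)) := by
  rw [← (Equiv.sigmaFiberEquiv (fun I : Ideal (𝓞 F) => absNorm I)).summable_iff,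
    h9n_comp_sigmaFiberEquiv]
  exact h9n_summable_sigma F hs

/-- The value of `∑ I, N(I)^(-s)` as a sum over `n`. -/
theorem h9n_tsum_norm_rpow_eq {s : ℝ} (hs : 1 < s) :
    ∑' I : Ideal (𝓞 F), (absNorm I : ℝ) ^ (-s) = ∑' n : ℕ, (h9n_count F n : ℝ) * (n : ℝ) ^ (-s) := by
  have h1 := (Equiv.sigmaFiberEquiv (fun I : Ideal (𝓞 F) => absNorm I)).tsum_eq
    (fun I : Ideal (𝓞 F) ↦ (absNorm I : ℝ) ^ (-s))
  rw [← h1]
  have h2 : (fun c => (absNorm ((Equiv.sigmaFiberEquiv (fun I : Ideal (𝓞 F) => absNorm I)) c) : ℝ)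
      ^ (-s)) = fun p : (Σ n : ℕ, {I : Ideal (𝓞 F) // absNorm I = n}) => (p.1 : ℝ) ^ (-s) :=
    h9n_comp_sigmaFiberEquiv F s
  rw [h2, Summable.tsum_sigma (h9n_summable_sigma F hs)]
  refine tsum_congr fun n => ?_
  simp only [tsum_const, h9n_count, nsmul_eq_mul]

/-- The real Dedekind zeta function `∑ I, N(I)^(-s)`. -/
noncomputable def h9n_zeta (s : ℝ) : ℝ := ∑' I : Ideal (𝓞 F), (absNorm I : ℝ) ^ (-s)

theorem h9n_dedekindZeta_eq {s : ℝ} (hs : 1 < s) :
    dedekindZeta F (s : ℂ) = ((h9n_zeta F s : ℝ) : ℂ) := by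
  rw [h9n_zeta, h9n_tsum_norm_rpow_eq F hs, Complex.ofReal_tsum, dedekindZeta, LSeries]
  refine tsum_congr fun n => ?_
  rw [LSeries.term]
  by_cases hn : n = 0
  · subst hn
    rw [if_pos rfl, Nat.cast_zero, Real.zero_rpow (by linarith), mul_zero, Complex.ofReal_zero]
  · rw [if_neg hn, Complex.ofReal_mul, Complex.ofReal_cpow (Nat.cast_nonneg _),
      Complex.ofReal_neg, Complex.cpow_neg, div_eq_mul_inv]
    simp [h9n_count]

/-- The residue of the real Dedekind zeta function at `s = 1`. -/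
theorem h9n_tendsto_sub_one_mul_zeta :
    Tendsto (fun s : ℝ ↦ (s - 1) * h9n_zeta F s) (𝓝[>] 1) (𝓝 (dedekindZeta_residue F)) := by
  have h := tendsto_sub_one_mul_dedekindZeta_nhdsGT F
  have h2 : Tendsto (fun s : ℝ ↦ (((s - 1) * h9n_zeta F s : ℝ) : ℂ)) (𝓝[>] 1)
      (𝓝 ((dedekindZeta_residue F : ℝ) : ℂ)) := by
    refine h.congr' ?_
    filter_upwards [self_mem_nhdsWithin] with s hs
    rw [h9n_dedekindZeta_eq F hs]
    push_cast
    ring
  exact (Complex.continuous_re.tendsto _).comp h2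

theorem h9n_zeta_pos {s : ℝ} (hs : 1 < s) : 0 < h9n_zeta F s := by
  have hsum := h9n_summable_norm_rpow F hs
  have h1 : (absNorm (⊤ : Ideal (𝓞 F)) : ℝ) ^ (-s) = 1 := by
    rw [Ideal.absNorm_top, Nat.cast_one, Real.one_rpow]
  calc (0 : ℝ) < 1 := one_pos
    _ = (absNorm (⊤ : Ideal (𝓞 F)) : ℝ) ^ (-s) := h1.symm
    _ ≤ h9n_zeta F s :=
      hsum.le_tsum ⊤ (fun I _ => Real.rpow_nonneg (Nat.cast_nonneg _) _)

/-! ### The Euler product -/

section Euler

variable {F}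

theorem h9n_two_le_absNorm (v : HeightOneSpectrum (𝓞 F)) : 2 ≤ absNorm v.asIdeal := by
  have h0 : absNorm v.asIdeal ≠ 0 := fun h => v.ne_bot (Ideal.absNorm_eq_zero_iff.mp h)
  have h1 : absNorm v.asIdeal ≠ 1 := fun h => v.isPrime.ne_top (Ideal.absNorm_eq_one_iff.mp h)
  omega

theorem h9n_norm_rpow_lt_one (v : HeightOneSpectrum (𝓞 F)) {s : ℝ} (hs : 0 < s) :
    (absNorm v.asIdeal : ℝ) ^ (-s) < 1 := by
  have h2 : (2 : ℝ) ≤ absNorm v.asIdeal := by exact_mod_cast h9n_two_le_absNorm v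
  exact Real.rpow_lt_one_of_one_lt_of_neg (by linarith) (by linarith)

/-- The Dirichlet series coefficient attached to `f`. -/
noncomputable def h9n_term (f : Ideal (𝓞 F) → ℂ) (s : ℝ) (I : Ideal (𝓞 F)) : ℂ :=
  f I * (((absNorm I : ℝ) ^ (-s) : ℝ) : ℂ)

variable {f : Ideal (𝓞 F) → ℂ} (hf1 : f ⊤ = 1) (hmul : ∀ I J, f (I * J) = f I * f J)
  (hle : ∀ I, ‖f I‖ ≤ 1)

include hle in
theorem h9n_norm_term_le (s : ℝ) (I : Ideal (𝓞 F)) :
    ‖h9n_term f s I‖ ≤ (absNorm I : ℝ) ^ (-s) := by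
  rw [h9n_term, norm_mul, Complex.norm_real, Real.norm_of_nonneg
    (Real.rpow_nonneg (Nat.cast_nonneg _) _)]
  calc ‖f I‖ * (absNorm I : ℝ) ^ (-s) ≤ 1 * (absNorm I : ℝ) ^ (-s) :=
        mul_le_mul_of_nonneg_right (hle I) (Real.rpow_nonneg (Nat.cast_nonneg _) _)
    _ = _ := one_mul _

include hle in
theorem h9n_summable_term {s : ℝ} (hs : 1 < s) : Summable (fun I => ‖h9n_term f s I‖) :=
  Summable.of_nonneg_of_le (fun _ => norm_nonneg _) (h9n_norm_term_le hle s)
    (h9n_summable_norm_rpow F hs)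

include hmul in
theorem h9n_term_mul (s : ℝ) (I J : Ideal (𝓞 F)) :
    h9n_term f s (I * J) = h9n_term f s I * h9n_term f s J := by
  simp only [h9n_term]
  rw [hmul, map_mul, Nat.cast_mul, Real.mul_rpow (Nat.cast_nonneg _) (Nat.cast_nonneg _)]
  push_cast
  ring

include hf1 in
theorem h9n_term_top (s : ℝ) : h9n_term f s ⊤ = 1 := by
  rw [h9n_term, hf1, Ideal.absNorm_top, Nat.cast_one, Real.one_rpow, Complex.ofReal_one, mul_one]

theorem h9n_term_bot {s : ℝ} (hs : 0 < s) : h9n_term f s ⊥ = 0 := by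
  rw [h9n_term, Ideal.absNorm_bot, Nat.cast_zero, Real.zero_rpow (by linarith),
    Complex.ofReal_zero, mul_zero]

include hf1 hmul in
theorem h9n_term_pow (s : ℝ) (I : Ideal (𝓞 F)) (e : ℕ) :
    h9n_term f s (I ^ e) = h9n_term f s I ^ e := by
  induction e with
  | zero => rw [pow_zero, pow_zero, Ideal.one_eq_top, h9n_term_top hf1]
  | succ e ih => rw [pow_succ, pow_succ, h9n_term_mul hmul, ih]

include hf1 hmul hle in
/-- **Euler product** for the Dirichlet series `∑ I, f(I) N(I)^(-s)` of a bounded completely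
multiplicative function `f` on the ideals of `𝓞 F`, real `s > 1`. -/
theorem h9n_eulerProduct {s : ℝ} (hs : 1 < s) :
    HasProd (fun v : HeightOneSpectrum (𝓞 F) ↦ (1 - h9n_term f s v.asIdeal)⁻¹)
      (∑' I : Ideal (𝓞 F), h9n_term f s I) := by
  have h := h9e_eulerProduct_hasProd (g := h9n_term f s) (h9n_term_bot (by linarith))
    (h9n_term_top hf1 s) (h9n_term_mul hmul s) (h9n_summable_term hle hs)
  refine h.congr_fun fun v => ?_
  have hlt : ‖h9n_term f s v.asIdeal‖ < 1 :=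
    lt_of_le_of_lt (h9n_norm_term_le hle s _) (h9n_norm_rpow_lt_one v (by linarith))
  simp only [h9n_term_pow hf1 hmul]
  exact (tsum_geometric_of_norm_lt_one hlt).symm

end Euler

end Fermat.Agent.Lib.S14
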