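/-
S14 analytic slab (helper7): quantitative lattice-point count.
`|#(A ∩ L) · covol - vol A| ≤ vol (thickening r (frontier A))` and the scaled version with rate.
-/
import Mathlib

open MeasureTheory Metric Set Submodule Module Bornology

namespace Fermat.Agent.Lib.S14

set_option linter.unusedSectionVars false

theorem h7r_segment_inter_frontier {E : Type*} [NormedAddCommGroup E] [NormedSpace ℝ E]
    (A : Set E) {x₁ x₂ : E} (h₁ : x₁ ∈ A) (h₂ : x₂ ∉ A) :
    ∃ z ∈ segment ℝ x₁ x₂, z ∈ frontier A := by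
  by_contra hcon
  push Not at hcon
  have hpre : IsPreconnected (segment ℝ x₁ x₂) := (convex_segment x₁ x₂).isPreconnected
  have hsub : segment ℝ x₁ x₂ ⊆ interior A ∪ (closure A)ᶜ := by
    intro z hz
    by_cases hzc : z ∈ closure A
    · left
      by_contra hzi
      exact hcon z hz ⟨hzc, hzi⟩
    · right; exact hzc
  have hu : (segment ℝ x₁ x₂ ∩ interior A).Nonempty := by
    refine ⟨x₁, left_mem_segment ℝ x₁ x₂, ?_⟩
    by_contra hzi
    exact hcon x₁ (left_mem_segment ℝ x₁ x₂) ⟨subset_closure h₁, hzi⟩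
  have hv : (segment ℝ x₁ x₂ ∩ (closure A)ᶜ).Nonempty := by
    refine ⟨x₂, right_mem_segment ℝ x₁ x₂, ?_⟩
    intro hzc
    exact hcon x₂ (right_mem_segment ℝ x₁ x₂) ⟨hzc, fun hi => h₂ (interior_subset hi)⟩
  obtain ⟨z, _, hz1, hz2⟩ := hpre _ _ isOpen_interior isClosed_closure.isOpen_compl hsub hu hv
  exact hz2 (subset_closure (interior_subset hz1))

section LatticeCount

variable {E : Type*} [NormedAddCommGroup E] [NormedSpace ℝ E] [FiniteDimensional ℝ E]
  [MeasurableSpace E] [BorelSpace E] (μ : Measure E) [μ.IsAddHaarMeasure]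
variable {ι : Type*} [Fintype ι] (b : Basis ι ℝ E)

/-- the translate of the fundamental domain by `l` -/
def h7r_cell (l : E) : Set E := {x | x - l ∈ ZSpan.fundamentalDomain b}

theorem h7r_self_mem_cell (l : E) : l ∈ h7r_cell b l := by
  simp [h7r_cell, ZSpan.mem_fundamentalDomain]

theorem h7r_mem_cell_floor (x : E) : x ∈ h7r_cell b (ZSpan.floor b x : E) := by
  have := ZSpan.fract_mem_fundamentalDomain b x
  rwa [ZSpan.fract_apply] at this

theorem h7r_eq_floor_of_mem_cell {x l : E} (hl : l ∈ span ℤ (Set.range b))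
    (hx : x ∈ h7r_cell b l) : (ZSpan.floor b x : E) = l := by
  have h1 : ZSpan.fract b x = x - l := by
    have : ZSpan.fract b ((x - l) + l) = ZSpan.fract b (x - l) := ZSpan.fract_add_ZSpan b _ hl
    rw [sub_add_cancel] at this
    rw [this]
    exact ZSpan.fract_eq_self.mpr hx
  rw [ZSpan.fract_apply] at h1
  have := sub_right_injective h1
  exact this

theorem h7r_cell_disjoint {l l' : E} (hl : l ∈ span ℤ (Set.range b))
    (hl' : l' ∈ span ℤ (Set.range b)) (hne : l ≠ l') :
    Disjoint (h7r_cell b l) (h7r_cell b l') := by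
  rw [Set.disjoint_left]
  intro x hx hx'
  exact hne ((h7r_eq_floor_of_mem_cell b hl hx).symm.trans (h7r_eq_floor_of_mem_cell b hl' hx'))

theorem h7r_measurableSet_cell (l : E) : MeasurableSet (h7r_cell b l) := by
  have : h7r_cell b l = (fun x => x - l) ⁻¹' ZSpan.fundamentalDomain b := rfl
  rw [this]
  exact (ZSpan.fundamentalDomain_measurableSet b).preimage (measurable_sub_const l)

theorem h7r_measure_cell (l : E) : μ (h7r_cell b l) = μ (ZSpan.fundamentalDomain b) := by
  have : h7r_cell b l = (fun x => x + (-l)) ⁻¹' ZSpan.fundamentalDomain b := by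
    ext x; simp [h7r_cell, sub_eq_add_neg]
  rw [this, measure_preimage_add_right]

theorem h7r_measure_biUnion_cell (T : Finset E) (hT : ∀ l ∈ T, l ∈ span ℤ (Set.range b)) :
    μ (⋃ l ∈ T, h7r_cell b l) = T.card * μ (ZSpan.fundamentalDomain b) := by
  rw [measure_biUnion_finset]
  · simp_rw [h7r_measure_cell]
    rw [Finset.sum_const, nsmul_eq_mul]
  · intro l hl l' hl' hne
    exact h7r_cell_disjoint b (hT l hl) (hT l' hl') hne
  · intro l _
    exact h7r_measurableSet_cell b l

theorem h7r_cell_subset_thickening (A : Set E) (d r : ℝ)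
    (hd : ∀ p ∈ ZSpan.fundamentalDomain b, ‖p‖ ≤ d) (hr : 2 * d < r) (l : E)
    (h1 : (h7r_cell b l ∩ A).Nonempty) (h2 : ¬ h7r_cell b l ⊆ A) :
    h7r_cell b l ⊆ thickening r (frontier A) := by
  obtain ⟨x₁, hx₁c, hx₁A⟩ := h1
  obtain ⟨x₂, hx₂c, hx₂A⟩ := Set.not_subset.mp h2
  obtain ⟨z, ⟨a, c, ha, hc, hac, rfl⟩, hzf⟩ := h7r_segment_inter_frontier A hx₁A hx₂A
  intro x hx
  rw [mem_thickening_iff]
  refine ⟨_, hzf, ?_⟩
  rw [dist_eq_norm]
  have e : x - (a • x₁ + c • x₂) = (x - l) - (a • (x₁ - l) + c • (x₂ - l)) := by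
    have : l = (a + c) • l := by rw [hac, one_smul]
    rw [smul_sub, smul_sub]
    calc x - (a • x₁ + c • x₂) = x - (a + c) • l - (a • x₁ - a • l + (c • x₂ - c • l)) := by
          rw [add_smul]; abel
      _ = _ := by rw [← this]
  rw [e]
  have n1 := hd _ hx
  have n2 := hd _ hx₁c
  have n3 := hd _ hx₂c
  calc ‖(x - l) - (a • (x₁ - l) + c • (x₂ - l))‖
      ≤ ‖x - l‖ + ‖a • (x₁ - l) + c • (x₂ - l)‖ := norm_sub_le _ _
    _ ≤ ‖x - l‖ + (‖a • (x₁ - l)‖ + ‖c • (x₂ - l)‖) := by gcongr; exact norm_add_le _ _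
    _ = ‖x - l‖ + (a * ‖x₁ - l‖ + c * ‖x₂ - l‖) := by
        rw [norm_smul, norm_smul, Real.norm_of_nonneg ha, Real.norm_of_nonneg hc]
    _ ≤ d + (a * d + c * d) := by gcongr
    _ = 2 * d := by rw [← add_mul, hac]; ring
    _ < r := hr

theorem h7r_count_vs_volume (A : Set E) (hAb : IsBounded A) (d r : ℝ)
    (hd : ∀ p ∈ ZSpan.fundamentalDomain b, ‖p‖ ≤ d) (hr : 2 * d < r) :
    |(Nat.card (A ∩ (span ℤ (Set.range b) : Set E) : Set E) : ℝ) *
        μ.real (ZSpan.fundamentalDomain b) - μ.real A| ≤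
      μ.real (thickening r (frontier A)) := by
  classical
  set L : Set E := (span ℤ (Set.range b) : Set E) with hL
  set P := ZSpan.fundamentalDomain b with hP
  have hd0 : 0 ≤ d := (norm_nonneg _).trans (hd 0 (by simp [hP, ZSpan.mem_fundamentalDomain]))
  -- the finite set of relevant lattice points
  obtain ⟨R, hR⟩ := isBounded_iff_forall_norm_le.mp hAb
  have hTfin : {l : E | l ∈ L ∧ (h7r_cell b l ∩ A).Nonempty}.Finite := by
    refine (ZSpan.setFinite_inter b (isBounded_closedBall (x := (0:E)) (r := R + d))).subset ?_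
    rintro l ⟨hl, x, hxc, hxA⟩
    refine ⟨?_, hl⟩
    rw [mem_closedBall_zero_iff]
    have h1 : ‖x - l‖ ≤ d := hd _ hxc
    have h2 : ‖x‖ ≤ R := hR x hxA
    calc ‖l‖ = ‖x - (x - l)‖ := by rw [sub_sub_cancel]
      _ ≤ ‖x‖ + ‖x - l‖ := norm_sub_le _ _
      _ ≤ R + d := by linarith
  set T : Finset E := hTfin.toFinset with hT
  have hTmem : ∀ l, l ∈ T ↔ l ∈ L ∧ (h7r_cell b l ∩ A).Nonempty := by
    intro l; rw [hT, Set.Finite.mem_toFinset]; rfl
  have hTL : ∀ l ∈ T, l ∈ span ℤ (Set.range b) := fun l hl => ((hTmem l).mp hl).1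
  set Sin := T.filter (fun l => h7r_cell b l ⊆ A) with hSin
  set Sbd := T.filter (fun l => ¬ h7r_cell b l ⊆ A) with hSbd
  set Sf := T.filter (fun l => l ∈ A) with hSf
  have hcardT : T.card = Sin.card + Sbd.card := by
    rw [hSin, hSbd, Finset.card_filter_add_card_filter_not]
  -- counting
  have hSfset : (A ∩ L : Set E) = ↑Sf := by
    ext l
    simp only [hSf, Finset.coe_filter, mem_inter_iff, mem_ofPred_eq, hTmem]
    constructor
    · rintro ⟨hlA, hlL⟩
      exact ⟨⟨hlL, l, h7r_self_mem_cell b l, hlA⟩, hlA⟩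
    · rintro ⟨⟨hlL, _⟩, hlA⟩
      exact ⟨hlA, hlL⟩
  have hcardS : Nat.card (A ∩ L : Set E) = Sf.card := by
    rw [hSfset, Nat.card_eq_card_toFinset]
    simp
  have h_in_le : Sin.card ≤ Sf.card := by
    apply Finset.card_le_card
    intro l hl
    rw [hSin, Finset.mem_filter] at hl
    rw [hSf, Finset.mem_filter]
    exact ⟨hl.1, hl.2 (h7r_self_mem_cell b l)⟩
  have h_le_T : Sf.card ≤ T.card := Finset.card_le_card (Finset.filter_subset _ _)
  -- measures
  have hPfin : μ P ≠ ⊤ := (ZSpan.fundamentalDomain_isBounded b).measure_lt_top.ne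
  have hAfin : μ A ≠ ⊤ := hAb.measure_lt_top.ne
  have hthfin : μ (thickening r (frontier A)) ≠ ⊤ := by
    have : IsBounded (thickening r (frontier A)) :=
      (hAb.closure.subset frontier_subset_closure).thickening
    exact this.measure_lt_top.ne
  have m1 : (Sin.card : ENNReal) * μ P ≤ μ A := by
    rw [← h7r_measure_biUnion_cell μ b Sin (fun l hl => hTL l (Finset.mem_of_mem_filter l hl))]
    apply measure_mono
    intro x hx
    simp only [mem_iUnion] at hx
    obtain ⟨l, hl, hxl⟩ := hx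
    rw [hSin, Finset.mem_filter] at hl
    exact hl.2 hxl
  have m2 : μ A ≤ (T.card : ENNReal) * μ P := by
    rw [← h7r_measure_biUnion_cell μ b T hTL]
    apply measure_mono
    intro x hx
    simp only [mem_iUnion]
    refine ⟨(ZSpan.floor b x : E), ?_, h7r_mem_cell_floor b x⟩
    rw [hTmem]
    exact ⟨(ZSpan.floor b x).2, x, h7r_mem_cell_floor b x, hx⟩
  have m3 : (Sbd.card : ENNReal) * μ P ≤ μ (thickening r (frontier A)) := by
    rw [← h7r_measure_biUnion_cell μ b Sbd (fun l hl => hTL l (Finset.mem_of_mem_filter l hl))]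
    apply measure_mono
    intro x hx
    simp only [mem_iUnion] at hx
    obtain ⟨l, hl, hxl⟩ := hx
    rw [hSbd, Finset.mem_filter] at hl
    exact h7r_cell_subset_thickening b A d r hd hr l ((hTmem l).mp hl.1).2 hl.2 hxl
  -- pass to reals
  have r1 : (Sin.card : ℝ) * μ.real P ≤ μ.real A := by
    have := ENNReal.toReal_mono hAfin m1
    rwa [ENNReal.toReal_mul, ENNReal.toReal_natCast] at this
  have r2 : μ.real A ≤ (T.card : ℝ) * μ.real P := by
    have := ENNReal.toReal_mono (ENNReal.mul_ne_top (ENNReal.natCast_ne_top _) hPfin) m2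
    rwa [ENNReal.toReal_mul, ENNReal.toReal_natCast] at this
  have r3 : (Sbd.card : ℝ) * μ.real P ≤ μ.real (thickening r (frontier A)) := by
    have := ENNReal.toReal_mono hthfin m3
    rwa [ENNReal.toReal_mul, ENNReal.toReal_natCast] at this
  have hp0 : 0 ≤ μ.real P := measureReal_nonneg
  rw [hcardS]
  have c1 : (Sin.card : ℝ) ≤ Sf.card := by exact_mod_cast h_in_le
  have c2 : (Sf.card : ℝ) ≤ Sin.card + Sbd.card := by
    have : Sf.card ≤ Sin.card + Sbd.card := hcardT ▸ h_le_T
    exact_mod_cast this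
  have c3 : (T.card : ℝ) = Sin.card + Sbd.card := by exact_mod_cast hcardT
  rw [c3] at r2
  rw [abs_le]
  constructor
  · nlinarith
  · nlinarith

end LatticeCount

section Scaling

open Pointwise

variable {E : Type*} [NormedAddCommGroup E] [NormedSpace ℝ E]

theorem h7r_frontier_smul {t : ℝ} (ht : t ≠ 0) (S : Set E) :
    frontier (t • S) = t • frontier S := by
  have := (Homeomorph.smulOfNeZero t ht).image_frontier S
  simp only [Homeomorph.smulOfNeZero_apply, Set.image_smul] at this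
  exact this.symm

theorem h7r_thickening_smul_subset {t : ℝ} (ht : 0 < t) (r : ℝ) (S : Set E) :
    thickening r (t • S) ⊆ t • thickening (r / t) S := by
  intro x hx
  rw [mem_thickening_iff] at hx
  obtain ⟨z, ⟨z', hz', rfl⟩, hxz⟩ := hx
  refine ⟨t⁻¹ • x, ?_, by simp [smul_smul, ht.ne']⟩
  rw [mem_thickening_iff]
  refine ⟨z', hz', ?_⟩
  have : dist (t⁻¹ • x) z' = t⁻¹ * dist x (t • z') := by
    have e : z' = t⁻¹ • (t • z') := by simp [smul_smul, ht.ne']
    conv_lhs => rw [e]
    rw [dist_smul₀, Real.norm_of_nonneg (inv_nonneg.mpr ht.le)]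
  rw [this, div_eq_inv_mul]
  exact mul_lt_mul_of_pos_left hxz (inv_pos.mpr ht)

end Scaling

section Rate

open Pointwise

variable {E : Type*} [NormedAddCommGroup E] [NormedSpace ℝ E] [FiniteDimensional ℝ E]
  [MeasurableSpace E] [BorelSpace E] (μ : Measure E) [μ.IsAddHaarMeasure]
variable (L : Submodule ℤ E) [DiscreteTopology L] [IsZLattice ℝ L]

theorem h7r_card_le_rate (hn : 0 < finrank ℝ E)
    {X : Set E} (hX : ∀ ⦃x⦄ ⦃r : ℝ⦄, x ∈ X → 0 < r → r • x ∈ X)
    {F : E → ℝ} (hF : ∀ x ⦃r : ℝ⦄, 0 ≤ r → F (r • x) = r ^ finrank ℝ E * F x)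
    (hDb : IsBounded {x | x ∈ X ∧ F x ≤ 1})
    (hfr : ∃ C : ℝ, ∀ ε : ℝ, 0 < ε → ε ≤ 1 →
      μ (thickening ε (frontier {x | x ∈ X ∧ F x ≤ 1})) ≤ ENNReal.ofReal (C * ε)) :
    ∃ A : ℝ, ∀ c : ℝ, 1 ≤ c →
      |(Nat.card ({x | x ∈ X ∧ F x ≤ c} ∩ (L : Set E) : Set E) : ℝ) -
          c * μ.real {x | x ∈ X ∧ F x ≤ 1} / ZLattice.covolume L μ| ≤
        A * c ^ (1 - 1 / (finrank ℝ E : ℝ)) := by
  classical
  set n := finrank ℝ E with hndef
  set D : Set E := {x | x ∈ X ∧ F x ≤ 1} with hD
  let b₀ := Module.Free.chooseBasis ℤ L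
  let b := b₀.ofZLatticeBasis ℝ L
  have hspan : span ℤ (Set.range b) = L := b₀.ofZLatticeBasis_span ℝ L
  have hcov : ZLattice.covolume L μ = μ.real (ZSpan.fundamentalDomain b) :=
    ZLattice.covolume_eq_measure_fundamentalDomain L μ (ZLattice.isAddFundamentalDomain b₀ μ)
  have hp : 0 < ZLattice.covolume L μ := ZLattice.covolume_pos L μ
  obtain ⟨d, hd⟩ := isBounded_iff_forall_norm_le.mp (ZSpan.fundamentalDomain_isBounded b)
  have hd0 : 0 ≤ d := (norm_nonneg _).trans (hd 0 (by simp [ZSpan.mem_fundamentalDomain]))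
  set r : ℝ := 2 * d + 1 with hr
  have hr1 : 1 ≤ r := by linarith
  have hrpos : 0 < r := by linarith
  obtain ⟨C, hC⟩ := hfr
  -- extend the frontier bound to all `ε ≤ r`
  have hthb : IsBounded (thickening r (frontier D)) :=
    (hDb.closure.subset frontier_subset_closure).thickening
  set M : ℝ := μ.real (thickening r (frontier D)) with hM
  have hM0 : 0 ≤ M := measureReal_nonneg
  set C₁ : ℝ := max C M with hC₁
  have hC₁0 : 0 ≤ C₁ := hM0.trans (le_max_right _ _)
  have hbound : ∀ ε : ℝ, 0 < ε → ε ≤ r → μ.real (thickening ε (frontier D)) ≤ C₁ * ε := by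
    intro ε hε hεr
    rcases le_or_gt ε 1 with h1 | h1
    · have h2 := ENNReal.toReal_mono ENNReal.ofReal_ne_top (hC ε hε h1)
      rw [ENNReal.toReal_ofReal'] at h2
      refine h2.trans (max_le ?_ (by positivity))
      gcongr
      exact le_max_left _ _
    · have h2 : μ.real (thickening ε (frontier D)) ≤ M :=
        measureReal_mono (thickening_mono hεr _) hthb.measure_lt_top.ne
      calc μ.real (thickening ε (frontier D)) ≤ M := h2
        _ ≤ C₁ * 1 := by rw [mul_one]; exact le_max_right _ _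
        _ ≤ C₁ * ε := by gcongr
  refine ⟨C₁ * r / ZLattice.covolume L μ, ?_⟩
  intro c hc
  have hc0 : 0 < c := by linarith
  have hnR : (0:ℝ) < n := by exact_mod_cast hn
  set t : ℝ := c ^ (1 / (n:ℝ)) with ht
  have ht1 : 1 ≤ t := Real.one_le_rpow hc (by positivity)
  have ht0 : 0 < t := by linarith
  have htn : t ^ n = c := by
    rw [ht, ← Real.rpow_natCast, ← Real.rpow_mul hc0.le, one_div, inv_mul_cancel₀ hnR.ne',
      Real.rpow_one]
  -- the scaled set
  have hset : {x | x ∈ X ∧ F x ≤ c} = t • D := by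
    ext x
    rw [Set.mem_smul_set_iff_inv_smul_mem₀ ht0.ne']
    simp only [hD, Set.mem_ofPred_eq]
    rw [hF x (inv_pos.mpr ht0).le, inv_pow, htn, inv_mul_le_iff₀ hc0, mul_one]
    constructor
    · rintro ⟨h1, h2⟩; exact ⟨hX h1 (inv_pos.mpr ht0), h2⟩
    · rintro ⟨h1, h2⟩
      refine ⟨?_, h2⟩
      have := hX h1 ht0
      rwa [smul_inv_smul₀ ht0.ne'] at this
  have hAb : IsBounded (t • D) := hDb.smul₀ t
  have key := h7r_count_vs_volume μ b (t • D) hAb d r hd (by rw [hr]; linarith)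
  rw [hspan, ← hcov] at key
  rw [hset]
  -- volumes
  have hvolA : μ.real (t • D) = c * μ.real D := by
    rw [measureReal_def, Measure.addHaar_smul, ENNReal.toReal_mul, ← measureReal_def,
      ENNReal.toReal_ofReal (abs_nonneg _), abs_of_pos (pow_pos ht0 _), ← hndef, htn]
  have hvolT : μ.real (thickening r (frontier (t • D))) ≤ c * (C₁ * (r / t)) := by
    rw [h7r_frontier_smul ht0.ne']
    have hsub := h7r_thickening_smul_subset ht0 r (frontier D)
    have hbd' : IsBounded (t • thickening (r / t) (frontier D)) :=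
      ((hDb.closure.subset frontier_subset_closure).thickening).smul₀ t
    have h1 : μ.real (thickening r (t • frontier D)) ≤
        μ.real (t • thickening (r / t) (frontier D)) :=
      measureReal_mono hsub hbd'.measure_lt_top.ne
    have h2 : μ.real (t • thickening (r / t) (frontier D)) =
        c * μ.real (thickening (r / t) (frontier D)) := by
      rw [measureReal_def, Measure.addHaar_smul, ENNReal.toReal_mul, ← measureReal_def,
        ENNReal.toReal_ofReal (abs_nonneg _), abs_of_pos (pow_pos ht0 _), ← hndef, htn]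
    have h3 : μ.real (thickening (r / t) (frontier D)) ≤ C₁ * (r / t) := by
      apply hbound _ (by positivity)
      rw [div_le_iff₀ ht0]
      nlinarith
    rw [h2] at h1
    exact h1.trans (by gcongr)
  rw [hvolA] at key
  have key2 := key.trans hvolT
  -- divide by the covolume
  have e1 : (Nat.card (t • D ∩ (L : Set E) : Set E) : ℝ) - c * μ.real D / ZLattice.covolume L μ =
      ((Nat.card (t • D ∩ (L : Set E) : Set E) : ℝ) * ZLattice.covolume L μ - c * μ.real D) /
        ZLattice.covolume L μ := by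
    field_simp
  rw [e1, abs_div, abs_of_pos hp, div_le_iff₀ hp]
  refine key2.trans (le_of_eq ?_)
  have e2 : c ^ (1 - 1 / (n:ℝ)) = c / t := by
    rw [Real.rpow_sub hc0, Real.rpow_one]
  rw [e2]
  field_simp

end Rate

end Fermat.Agent.Lib.S14
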