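/-
S14 analytic slab (helper7): Minkowski-content bound for the frontier of `normLeOne K`.
Part 1: covering lemma for Lipschitz images of cube faces.
Part 2: the frontier of `normLeOne K` lies over Lipschitz images of the faces of the unit cube.
-/
import Mathlib

open MeasureTheory Metric Set

open NumberField NumberField.mixedEmbedding NumberField.mixedEmbedding.fundamentalCone
  NumberField.InfinitePlace NumberField.Units NumberField.Units.dirichletUnitTheorem

namespace Fermat.Agent.Lib.S14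

/-- grid point on the face `u w = v` -/
noncomputable def h7r_gridPt {ι : Type*} [DecidableEq ι] (w : ι) (v : ℝ) (N : ℕ)
    (k : {i // i ≠ w} → Fin N) : ι → ℝ :=
  fun i => if h : i = w then v else ((k ⟨i, h⟩ : ℕ) : ℝ) / N

theorem h7r_gridPt_mem {ι : Type*} [DecidableEq ι] (w : ι) (v : ℝ) (hv : v ∈ Icc (0:ℝ) 1) (N : ℕ)
    (k : {i // i ≠ w} → Fin N) (i : ι) : h7r_gridPt w v N k i ∈ Icc (0:ℝ) 1 := by
  unfold h7r_gridPt
  split_ifs with h
  · exact hv
  · have hN : 0 < N := Fin.pos (k ⟨i, h⟩)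
    have hN' : (0:ℝ) < N := by exact_mod_cast hN
    have hk : ((k ⟨i, h⟩ : ℕ) : ℝ) ≤ N := by exact_mod_cast (k ⟨i, h⟩).2.le
    constructor
    · positivity
    · rw [div_le_one hN']; exact hk

theorem h7r_exists_near_nat (N : ℕ) (hN : 0 < N) (a : ℝ) (ha0 : 0 ≤ a) (haN : a ≤ N) :
    ∃ j : Fin N, |a - ((j : ℕ) : ℝ)| ≤ 1 := by
  have hjlt : min ⌊a⌋₊ (N - 1) < N := lt_of_le_of_lt (min_le_right _ _) (by omega)
  refine ⟨⟨min ⌊a⌋₊ (N - 1), hjlt⟩, ?_⟩
  simp only
  have h1 : ((min ⌊a⌋₊ (N - 1) : ℕ) : ℝ) ≤ a :=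
    le_trans (by exact_mod_cast min_le_left _ _) (Nat.floor_le ha0)
  have h2 : a ≤ ((min ⌊a⌋₊ (N - 1) : ℕ) : ℝ) + 1 := by
    rcases le_total ⌊a⌋₊ (N - 1) with h | h
    · rw [min_eq_left h]
      exact (Nat.lt_floor_add_one a).le
    · rw [min_eq_right h]
      have : ((N - 1 : ℕ) : ℝ) + 1 = N := by
        have : N - 1 + 1 = N := by omega
        exact_mod_cast this
      rw [this]; exact haN
  rw [abs_le]; constructor <;> linarith

theorem h7r_face_cover {ι : Type*} [Fintype ι] [DecidableEq ι] (w : ι) (v : ℝ) (N : ℕ)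
    (hN : 0 < N) (u : ι → ℝ) (hu : ∀ i, u i ∈ Icc (0:ℝ) 1) (huw : u w = v) :
    ∃ k : {i // i ≠ w} → Fin N, dist u (h7r_gridPt w v N k) ≤ 1 / N := by
  have hN' : (0:ℝ) < N := by exact_mod_cast hN
  have key : ∀ i : {i // i ≠ w}, ∃ j : Fin N, |u i.1 * N - ((j : ℕ) : ℝ)| ≤ 1 := by
    intro i
    apply h7r_exists_near_nat N hN
    · exact mul_nonneg (hu i.1).1 hN'.le
    · calc u i.1 * N ≤ 1 * N := by gcongr; exact (hu i.1).2
        _ = N := one_mul _
  choose k hk using key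
  refine ⟨k, ?_⟩
  rw [dist_pi_le_iff (by positivity)]
  intro i
  unfold h7r_gridPt
  split_ifs with h
  · subst h; rw [huw, dist_self]; positivity
  · rw [Real.dist_eq]
    have := hk ⟨i, h⟩
    simp only at this
    have e : u i - ((k ⟨i, h⟩ : ℕ) : ℝ) / N = (u i * N - ((k ⟨i, h⟩ : ℕ) : ℝ)) / N := by
      field_simp
    rw [e, abs_div, abs_of_pos hN']
    gcongr

theorem h7r_volume_thickening_face_le {ι : Type*} [Fintype ι] [DecidableEq ι] (w : ι) (v : ℝ)
    (hv : v ∈ Icc (0:ℝ) 1)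
    (Ψ : (ι → ℝ) → (ι → ℝ)) (Kψ : NNReal)
    (hΨ : LipschitzOnWith Kψ Ψ (univ.pi fun _ => Icc (0:ℝ) 1))
    (ε : ℝ) (hε : 0 < ε) (hε1 : ε ≤ 1) :
    volume (thickening ε (Ψ '' {u | (∀ i, u i ∈ Icc (0:ℝ) 1) ∧ u w = v})) ≤
      ENNReal.ofReal (2 ^ (Fintype.card ι - 1) * (2 * ((Kψ : ℝ) + 1)) ^ Fintype.card ι * ε) := by
  set m := Fintype.card ι with hm
  have hm1 : 1 ≤ m := Fintype.card_pos_iff.mpr ⟨w⟩
  set N := ⌈1 / ε⌉₊ with hNdef
  have hNpos : 0 < N := Nat.ceil_pos.mpr (by positivity)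
  have hN' : (0:ℝ) < N := by exact_mod_cast hNpos
  have hNinv : 1 / (N:ℝ) ≤ ε := by
    rw [div_le_iff₀ hN']
    have : 1 / ε ≤ N := Nat.le_ceil _
    rw [div_le_iff₀ hε] at this
    linarith [mul_comm (N:ℝ) ε]
  have hNle : (N:ℝ) ≤ 2 / ε := by
    have : (N:ℝ) < 1 / ε + 1 := Nat.ceil_lt_add_one (by positivity)
    have h1 : (1:ℝ) ≤ 1 / ε := by rw [le_div_iff₀ hε]; linarith
    have : (2:ℝ) / ε = 1 / ε + 1 / ε := by ring
    linarith
  set r : ℝ := ((Kψ : ℝ) + 1) * ε with hr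
  have hrpos : 0 < r := by positivity
  have hsub : thickening ε (Ψ '' {u | (∀ i, u i ∈ Icc (0:ℝ) 1) ∧ u w = v}) ⊆
      ⋃ k : {i // i ≠ w} → Fin N, ball (Ψ (h7r_gridPt w v N k)) r := by
    intro x hx
    rw [mem_thickening_iff] at hx
    obtain ⟨z, ⟨u, ⟨hu, huw⟩, rfl⟩, hxz⟩ := hx
    obtain ⟨k, hk⟩ := h7r_face_cover w v N hNpos u hu huw
    refine mem_iUnion.mpr ⟨k, ?_⟩
    rw [mem_ball]
    have hu' : u ∈ (univ.pi fun _ => Icc (0:ℝ) 1 : Set (ι → ℝ)) := fun i _ => hu i
    have hg' : h7r_gridPt w v N k ∈ (univ.pi fun _ => Icc (0:ℝ) 1 : Set (ι → ℝ)) :=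
      fun i _ => h7r_gridPt_mem w v hv N k i
    have h1 : dist (Ψ u) (Ψ (h7r_gridPt w v N k)) ≤ Kψ * dist u (h7r_gridPt w v N k) :=
      hΨ.dist_le_mul u hu' _ hg'
    have h2 : (Kψ:ℝ) * dist u (h7r_gridPt w v N k) ≤ Kψ * ε := by
      gcongr; exact hk.trans hNinv
    calc dist x (Ψ (h7r_gridPt w v N k)) ≤ dist x (Ψ u) + dist (Ψ u) (Ψ (h7r_gridPt w v N k)) :=
          dist_triangle _ _ _
      _ < ε + Kψ * ε := by linarith
      _ = r := by rw [hr]; ring
  refine (measure_mono hsub).trans ?_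
  refine (measure_iUnion_le _).trans ?_
  rw [tsum_fintype]
  simp_rw [Real.volume_pi_ball _ hrpos]
  rw [Finset.sum_const, Finset.card_univ, Fintype.card_fun, Fintype.card_fin,
    Fintype.card_subtype_compl, Fintype.card_subtype_eq, nsmul_eq_mul, ← hm]
  rw [show ((N ^ (m - 1) : ℕ) : ENNReal) = ENNReal.ofReal ((N:ℝ) ^ (m - 1)) by
    rw [ENNReal.ofReal_pow hN'.le, ENNReal.ofReal_natCast]; push_cast; rfl]
  rw [← ENNReal.ofReal_mul (by positivity)]
  apply ENNReal.ofReal_le_ofReal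
  have e1 : (N:ℝ) ^ (m - 1) ≤ (2 / ε) ^ (m - 1) := by gcongr
  have e2 : (2 * r) ^ m = (2 * ((Kψ:ℝ) + 1)) ^ m * ε ^ (m - 1) * ε := by
    rw [hr, mul_assoc, ← pow_succ]
    have : m - 1 + 1 = m := by omega
    rw [this, ← mul_pow]; ring
  calc (N:ℝ) ^ (m - 1) * (2 * r) ^ m ≤ (2 / ε) ^ (m - 1) * (2 * r) ^ m := by gcongr
    _ = 2 ^ (m - 1) * (2 * ((Kψ:ℝ) + 1)) ^ m * ε := by
        rw [e2, div_pow]
        have : ε ^ (m - 1) ≠ 0 := by positivity
        field_simp


variable (K : Type*) [Field K] [NumberField K]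

open scoped Classical

/-- the parametrisation of `compactSet K` by the unit cube -/
noncomputable def h7r_Psi (u : realSpace K) : realSpace K :=
  u w₀ • expMapBasis (fun i => if i = w₀ then 0 else u i)

theorem h7r_Psi_contDiff : ContDiff ℝ 1 (h7r_Psi K) := by
  unfold h7r_Psi
  have h1 : ContDiff ℝ 1 (fun u : realSpace K => (fun i => if i = w₀ then (0:ℝ) else u i)) := by
    rw [contDiff_pi]
    intro i
    split_ifs
    · exact contDiff_const
    · exact contDiff_apply ℝ ℝ i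
  have h2 : ContDiff ℝ 1 (fun y : realSpace K => (expMapBasis y : realSpace K)) := by
    rw [contDiff_pi]
    intro w
    have : (fun y : realSpace K => (expMapBasis y : realSpace K) w) =
        fun y => Real.exp ((w.mult : ℝ)⁻¹ * ((completeBasis K).equivFunL.symm y) w) := by
      ext y; rfl
    rw [this]
    apply Real.contDiff_exp.comp
    apply contDiff_const.mul
    exact (contDiff_apply ℝ ℝ w).comp (completeBasis K).equivFunL.symm.contDiff
  exact (contDiff_apply ℝ ℝ w₀).smul (h2.comp h1)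

theorem h7r_Psi_lipschitz :
    ∃ Kψ : NNReal, LipschitzOnWith Kψ (h7r_Psi K) (univ.pi fun _ => Icc (0:ℝ) 1) := by
  apply (h7r_Psi_contDiff K).contDiffOn.exists_lipschitzOnWith one_ne_zero
  · exact convex_pi fun _ _ => convex_Icc _ _
  · exact isCompact_univ_pi fun _ => isCompact_Icc

theorem h7r_compactSet_subset :
    compactSet K ⊆ h7r_Psi K '' (univ.pi fun _ => Icc (0:ℝ) 1) := by
  rintro x ⟨c, hc, _, ⟨y, hy, rfl⟩, rfl⟩
  refine ⟨fun i => if i = w₀ then c else y i, ?_, ?_⟩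
  · intro i _
    simp only
    split_ifs with h
    · exact hc
    · simpa [h] using hy i (mem_univ _)
  · unfold h7r_Psi
    simp only [if_true]
    congr 2
    ext i
    split_ifs with h
    · have := hy i (mem_univ _)
      simp [h] at this
      rw [h]; exact this.symm
    · rfl

theorem h7r_Psi_mem_interior (u : realSpace K) (hu : ∀ w, u w ∈ Ioo (0:ℝ) 1) :
    h7r_Psi K u ∈ expMapBasis '' interior (paramSet K) := by
  refine ⟨fun i => if i = w₀ then Real.log (u w₀) else u i, ?_, ?_⟩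
  · rw [interior_paramSet]
    intro i _
    simp only
    split_ifs with h
    · exact Real.log_neg (hu w₀).1 (hu w₀).2
    · exact hu i
  · rw [expMapBasis_apply'']
    simp only [if_true]
    rw [Real.exp_log (hu w₀).1]
    unfold h7r_Psi
    congr 2
    ext i
    split_ifs <;> rfl

/-- The face `u w = v` of the unit cube. -/
def h7r_face (w : InfinitePlace K) (v : ℝ) : Set (realSpace K) :=
  {u | (∀ i, u i ∈ Icc (0:ℝ) 1) ∧ u w = v}

theorem h7r_bdry_subset :
    compactSet K \ expMapBasis '' interior (paramSet K) ⊆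
      ⋃ w : InfinitePlace K, (h7r_Psi K '' h7r_face K w 0 ∪ h7r_Psi K '' h7r_face K w 1) := by
  rintro x ⟨hx1, hx2⟩
  obtain ⟨u, hu, rfl⟩ := h7r_compactSet_subset K hx1
  by_contra hcon
  apply hx2
  apply h7r_Psi_mem_interior
  intro w
  have huw := hu w (mem_univ _)
  refine ⟨lt_of_le_of_ne huw.1 ?_, lt_of_le_of_ne huw.2 ?_⟩
  · intro h0
    apply hcon
    exact mem_iUnion.mpr ⟨w, Or.inl ⟨u, ⟨fun i => hu i (mem_univ _), h0.symm⟩, rfl⟩⟩
  · intro h1
    apply hcon
    exact mem_iUnion.mpr ⟨w, Or.inr ⟨u, ⟨fun i => hu i (mem_univ _), h1⟩, rfl⟩⟩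

theorem h7r_frontier_subset :
    frontier (normLeOne K) ⊆ normAtAllPlaces ⁻¹'
      (⋃ w : InfinitePlace K, (h7r_Psi K '' h7r_face K w 0 ∪ h7r_Psi K '' h7r_face K w 1)) := by
  intro x hx
  have h1 : normAtAllPlaces x ∈ compactSet K := closure_normLeOne_subset K hx.1
  have h2 : normAtAllPlaces x ∉ expMapBasis '' interior (paramSet K) := fun h =>
    hx.2 (subset_interior_normLeOne K h)
  exact h7r_bdry_subset K ⟨h1, h2⟩

theorem h7r_normAtPlace_sub_le (w : InfinitePlace K) (x y : mixedSpace K) :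
    |normAtPlace w x - normAtPlace w y| ≤ ‖x - y‖ := by
  have hle : ∀ z : mixedSpace K, normAtPlace w z ≤ ‖z‖ := by
    intro z
    rw [norm_eq_sup'_normAtPlace]
    exact Finset.le_sup' (fun w => normAtPlace w z) (Finset.mem_univ w)
  have h1 : normAtPlace w x ≤ normAtPlace w (x - y) + normAtPlace w y := by
    have := normAtPlace_add_le w (x - y) y
    rwa [sub_add_cancel] at this
  have h2 : normAtPlace w y ≤ normAtPlace w (x - y) + normAtPlace w x := by
    have := normAtPlace_add_le w (y - x) x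
    rw [sub_add_cancel] at this
    rwa [← neg_sub, normAtPlace_neg] at this
  have := hle (x - y)
  rw [abs_le]; constructor <;> linarith

theorem h7r_dist_normAtAllPlaces_le (x y : mixedSpace K) :
    dist (normAtAllPlaces x) (normAtAllPlaces y) ≤ dist x y := by
  rw [dist_pi_le_iff dist_nonneg]
  intro w
  rw [Real.dist_eq, dist_eq_norm]
  exact h7r_normAtPlace_sub_le K w x y

theorem h7r_thickening_preimage_subset (ε : ℝ) (B : Set (realSpace K)) :
    thickening ε (normAtAllPlaces ⁻¹' B : Set (mixedSpace K)) ⊆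
      normAtAllPlaces ⁻¹' (thickening ε B) := by
  intro x hx
  rw [mem_thickening_iff] at hx
  obtain ⟨z, hz, hxz⟩ := hx
  rw [mem_preimage, mem_thickening_iff]
  exact ⟨normAtAllPlaces z, hz, lt_of_le_of_lt (h7r_dist_normAtAllPlaces_le K x z) hxz⟩

theorem h7r_volume_preimage_le (T : Set (realSpace K)) (hT : MeasurableSet T) (R : ℝ)
    (hR : ∀ x ∈ T, ∀ w, x w ≤ R) :
    volume (normAtAllPlaces ⁻¹' T : Set (mixedSpace K)) ≤
      2 ^ nrRealPlaces K * ENNReal.ofReal (2 * Real.pi) ^ nrComplexPlaces K *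
        (ENNReal.ofReal R ^ nrComplexPlaces K * volume T) := by
  rw [volume_eq_two_pow_mul_two_pi_pow_mul_integral Set.preimage_image_preimage
    (hT.preimage (continuous_normAtAllPlaces K).measurable)]
  gcongr
  calc ∫⁻ x in normAtAllPlaces '' (normAtAllPlaces ⁻¹' T : Set (mixedSpace K)),
        ∏ w : {w : InfinitePlace K // IsComplex w}, ENNReal.ofReal (x w.1)
      ≤ ∫⁻ x in T, ∏ w : {w : InfinitePlace K // IsComplex w}, ENNReal.ofReal (x w.1) :=
        lintegral_mono_set (image_preimage_subset _ _)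
    _ ≤ ∫⁻ _ in T, ENNReal.ofReal R ^ nrComplexPlaces K := by
        apply setLIntegral_mono measurable_const
        intro x hx
        calc ∏ w : {w : InfinitePlace K // IsComplex w}, ENNReal.ofReal (x w.1)
            ≤ ∏ _w : {w : InfinitePlace K // IsComplex w}, ENNReal.ofReal R := by
              apply Finset.prod_le_prod'
              intro w _
              exact ENNReal.ofReal_le_ofReal (hR x hx w.1)
          _ = ENNReal.ofReal R ^ nrComplexPlaces K := by
              rw [Finset.prod_const, Finset.card_univ]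
    _ = ENNReal.ofReal R ^ nrComplexPlaces K * volume T := by
        rw [setLIntegral_const]

theorem h7r_volume_thickening_bdry_le :
    ∃ C : ℝ, 0 ≤ C ∧ ∃ R : ℝ, 0 ≤ R ∧ ∀ ε : ℝ, 0 < ε → ε ≤ 1 →
      (∀ x ∈ thickening ε (⋃ w : InfinitePlace K,
          (h7r_Psi K '' h7r_face K w 0 ∪ h7r_Psi K '' h7r_face K w 1)), ∀ w, x w ≤ R) ∧
      volume (thickening ε (⋃ w : InfinitePlace K,
          (h7r_Psi K '' h7r_face K w 0 ∪ h7r_Psi K '' h7r_face K w 1))) ≤
        ENNReal.ofReal (C * ε) := by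
  obtain ⟨Kψ, hΨ⟩ := h7r_Psi_lipschitz K
  have hcpt : IsCompact (h7r_Psi K '' (univ.pi fun _ => Icc (0:ℝ) 1)) :=
    (isCompact_univ_pi fun _ => isCompact_Icc).image (h7r_Psi_contDiff K).continuous
  obtain ⟨R₀, hR₀⟩ := isBounded_iff_forall_norm_le.mp hcpt.isBounded
  set m := Fintype.card (InfinitePlace K) with hm
  set c : ℝ := 2 ^ (m - 1) * (2 * ((Kψ : ℝ) + 1)) ^ m with hc
  have hc0 : 0 ≤ c := by positivity
  have hR₀0 : 0 ≤ R₀ := by
    have h0 : (fun _ => (0:ℝ)) ∈ (univ.pi fun _ => Icc (0:ℝ) 1 : Set (realSpace K)) :=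
      fun i _ => ⟨le_refl _, zero_le_one⟩
    exact (norm_nonneg _).trans (hR₀ _ (mem_image_of_mem _ h0))
  refine ⟨m * (c + c), by positivity, R₀ + 1, by positivity, ?_⟩
  intro ε hε hε1
  have hface : ∀ (w : InfinitePlace K) (v : ℝ),
      h7r_face K w v ⊆ (univ.pi fun _ => Icc (0:ℝ) 1 : Set (realSpace K)) :=
    fun w v u hu i _ => hu.1 i
  constructor
  · intro x hx w
    rw [mem_thickening_iff] at hx
    obtain ⟨z, hz, hxz⟩ := hx
    have hz' : z ∈ h7r_Psi K '' (univ.pi fun _ => Icc (0:ℝ) 1) := by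
      obtain ⟨w', hw'⟩ := mem_iUnion.mp hz
      rcases hw' with h | h
      · exact image_mono (hface w' 0) h
      · exact image_mono (hface w' 1) h
    have h1 : ‖z‖ ≤ R₀ := hR₀ z hz'
    have h2 : ‖x‖ ≤ R₀ + 1 := by
      have : ‖x‖ ≤ ‖x - z‖ + ‖z‖ := by
        have := norm_add_le (x - z) z
        rwa [sub_add_cancel] at this
      rw [dist_eq_norm] at hxz
      linarith
    exact (le_abs_self _).trans ((norm_le_pi_norm x w).trans h2)
  · rw [thickening_iUnion]
    refine (measure_iUnion_le _).trans ?_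
    rw [tsum_fintype]
    have hterm : ∀ w : InfinitePlace K,
        volume (thickening ε (h7r_Psi K '' h7r_face K w 0 ∪ h7r_Psi K '' h7r_face K w 1)) ≤
          ENNReal.ofReal ((c + c) * ε) := by
      intro w
      rw [thickening_union]
      refine (measure_union_le _ _).trans ?_
      rw [add_mul, ENNReal.ofReal_add (by positivity) (by positivity)]
      gcongr
      · exact h7r_volume_thickening_face_le w 0 ⟨le_refl _, zero_le_one⟩ (h7r_Psi K) Kψ hΨ ε hε hε1
      · exact h7r_volume_thickening_face_le w 1 ⟨zero_le_one, le_refl _⟩ (h7r_Psi K) Kψ hΨ ε hε hε1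
    refine (Finset.sum_le_sum fun w _ => hterm w).trans ?_
    rw [Finset.sum_const, Finset.card_univ, nsmul_eq_mul, ← hm]
    rw [show ((m : ℕ) : ENNReal) = ENNReal.ofReal (m : ℝ) by rw [ENNReal.ofReal_natCast],
      ← ENNReal.ofReal_mul (by positivity)]
    apply ENNReal.ofReal_le_ofReal
    rw [mul_assoc]

theorem h7r_volume_thickening_frontier_normLeOne :
    ∃ C : ℝ, 0 ≤ C ∧ ∀ ε : ℝ, 0 < ε → ε ≤ 1 →
      volume (thickening ε (frontier (normLeOne K))) ≤ ENNReal.ofReal (C * ε) := by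
  obtain ⟨C₁, hC₁, R, hR0, h⟩ := h7r_volume_thickening_bdry_le K
  refine ⟨2 ^ nrRealPlaces K * (2 * Real.pi) ^ nrComplexPlaces K * (R ^ nrComplexPlaces K * C₁),
    by positivity, ?_⟩
  intro ε hε hε1
  obtain ⟨hbd, hvol⟩ := h ε hε hε1
  set B : Set (realSpace K) := ⋃ w : InfinitePlace K,
    (h7r_Psi K '' h7r_face K w 0 ∪ h7r_Psi K '' h7r_face K w 1) with hB
  have h1 : thickening ε (frontier (normLeOne K)) ⊆ normAtAllPlaces ⁻¹' (thickening ε B) :=
    (thickening_subset_of_subset ε (h7r_frontier_subset K)).trans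
      (h7r_thickening_preimage_subset K ε B)
  refine (measure_mono h1).trans ?_
  refine (h7r_volume_preimage_le K _ isOpen_thickening.measurableSet R hbd).trans ?_
  have hpi : (0:ℝ) ≤ 2 * Real.pi := by positivity
  have e : ENNReal.ofReal (2 ^ nrRealPlaces K * (2 * Real.pi) ^ nrComplexPlaces K *
      (R ^ nrComplexPlaces K * C₁) * ε) =
      2 ^ nrRealPlaces K * ENNReal.ofReal (2 * Real.pi) ^ nrComplexPlaces K *
        (ENNReal.ofReal R ^ nrComplexPlaces K * ENNReal.ofReal (C₁ * ε)) := by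
    rw [show (2:ℝ) ^ nrRealPlaces K * (2 * Real.pi) ^ nrComplexPlaces K *
        (R ^ nrComplexPlaces K * C₁) * ε =
        2 ^ nrRealPlaces K * ((2 * Real.pi) ^ nrComplexPlaces K *
          (R ^ nrComplexPlaces K * (C₁ * ε))) by ring,
      ENNReal.ofReal_mul (by positivity), ENNReal.ofReal_mul (by positivity),
      ENNReal.ofReal_mul (by positivity), ENNReal.ofReal_pow (by norm_num),
      ENNReal.ofReal_pow hpi, ENNReal.ofReal_pow hR0, ENNReal.ofReal_ofNat, mul_assoc]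
  rw [e]
  gcongr

end Fermat.Agent.Lib.S14
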