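/-
S14 analytic slab (helper7): number of integral ideals of norm ≤ x in a class, with error term
`O(x^(1-1/n))` and a leading constant independent of the class.
-/
import Fermat.Agent.Lib.S14.RateFrontier
import Fermat.Agent.Lib.S14.RateCount

open MeasureTheory Metric Set Submodule Module Bornology Ideal

open NumberField NumberField.mixedEmbedding NumberField.mixedEmbedding.fundamentalCone
  NumberField.InfinitePlace NumberField.Units

open scoped nonZeroDivisors

namespace Fermat.Agent.Lib.S14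

variable (K : Type*) [Field K] [NumberField K]

open scoped Classical

theorem h7r_card_class_eq {C : ClassGroup (𝓞 K)} {J : (Ideal (𝓞 K))⁰} {s : ℝ}
    (hJ : ClassGroup.mk0 J = C⁻¹) :
    Nat.card {I : (Ideal (𝓞 K))⁰ // absNorm (I : Ideal (𝓞 K)) ≤ s ∧ ClassGroup.mk0 I = C}
      = Nat.card {I : (Ideal (𝓞 K))⁰ // (J : Ideal (𝓞 K)) ∣ I ∧ IsPrincipal (I : Ideal (𝓞 K)) ∧
        absNorm (I : Ideal (𝓞 K)) ≤ s * absNorm (J : Ideal (𝓞 K))} := by
  simp_rw [← nonZeroDivisors_dvd_iff_dvd_coe]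
  refine Nat.card_congr ?_
  refine ((Equiv.dvd J).subtypeEquiv fun I ↦ ?_).trans
    (Equiv.subtypeSubtypeEquivSubtypeInter (fun I : (Ideal (𝓞 K))⁰ ↦ J ∣ I) _)
  rw [← ClassGroup.mk0_eq_one_iff (SetLike.coe_mem _)]
  simp_rw [Equiv.dvd_apply, Submonoid.coe_mul, ← Submonoid.mul_def, _root_.map_mul, hJ,
    inv_mul_eq_one, Nat.cast_mul, mul_comm s, eq_comm, and_comm, and_congr_left_iff]
  exact fun _ ↦
    (mul_le_mul_iff_of_pos_left (Nat.cast_pos.mpr (absNorm_pos_of_nonZeroDivisors J))).symm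

theorem h7r_card_idealSet_eq (J : (Ideal (𝓞 K))⁰) (s : ℝ) :
    Nat.card {a : idealSet K J // mixedEmbedding.norm (a : mixedSpace K) ≤ s} =
      Nat.card ({x | x ∈ fundamentalCone K ∧ mixedEmbedding.norm x ≤ s} ∩
        (mixedEmbedding.idealLattice K (FractionalIdeal.mk0 K J) : Set (mixedSpace K)) :
          Set (mixedSpace K)) := by
  refine Nat.card_congr ?_
  refine (Equiv.subtypeSubtypeEquivSubtypeInter (fun x => x ∈ idealSet K J)
    (fun x => mixedEmbedding.norm x ≤ s)).trans (Equiv.subtypeEquivRight fun x => ?_)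
  simp only [idealSet, Set.mem_inter_iff, Set.mem_ofPred_eq]
  tauto

/-- lattice point count with rate for `idealLattice` -/
theorem h7r_card_idealLattice_rate (J : (Ideal (𝓞 K))⁰) :
    ∃ A : ℝ, ∀ c : ℝ, 1 ≤ c →
      |(Nat.card ({x | x ∈ fundamentalCone K ∧ mixedEmbedding.norm x ≤ c} ∩
        (mixedEmbedding.idealLattice K (FractionalIdeal.mk0 K J) : Set (mixedSpace K)) :
          Set (mixedSpace K)) : ℝ) -
        c * volume.real (normLeOne K) /
          ZLattice.covolume (mixedEmbedding.idealLattice K (FractionalIdeal.mk0 K J))| ≤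
        A * c ^ (1 - 1 / (finrank ℚ K : ℝ)) := by
  have hfin : finrank ℝ (mixedSpace K) = finrank ℚ K := mixedEmbedding.finrank K
  have hD : {x | x ∈ fundamentalCone K ∧ mixedEmbedding.norm x ≤ 1} = normLeOne K := by
    ext; simp
  obtain ⟨C, _, hC⟩ := h7r_volume_thickening_frontier_normLeOne K
  have := h7r_card_le_rate (E := mixedSpace K) volume
    (mixedEmbedding.idealLattice K (FractionalIdeal.mk0 K J))
    (by rw [hfin]; exact finrank_pos) (X := fundamentalCone K)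
    (F := fun x => mixedEmbedding.norm x)
    (fun x r hx hr => smul_mem_of_mem hx hr.ne')
    (fun x r hr => by rw [mixedEmbedding.norm_smul, hfin, abs_of_nonneg hr])
    (by rw [hD]; exact isBounded_normLeOne K)
    ⟨C, by rw [hD]; exact hC⟩
  rw [hD, hfin] at this
  exact this

/-- the common leading constant -/
noncomputable def h7r_kappa : ℝ :=
  volume.real (normLeOne K) / ((2⁻¹) ^ nrComplexPlaces K * √|(discr K : ℝ)|) / torsionOrder K

theorem h7r_card_class_rate_aux (C : ClassGroup (𝓞 K)) :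
    ∃ A : ℝ, ∀ x : ℝ, 1 ≤ x →
      |(Nat.card {I : (Ideal (𝓞 K))⁰ // absNorm (I : Ideal (𝓞 K)) ≤ x ∧ ClassGroup.mk0 I = C} : ℝ)
          - h7r_kappa K * x| ≤ A * x ^ (1 - 1 / (finrank ℚ K : ℝ)) := by
  obtain ⟨J, hJ⟩ := ClassGroup.mk0_surjective C⁻¹
  obtain ⟨A, hA⟩ := h7r_card_idealLattice_rate K J
  set NJ : ℝ := (absNorm (J : Ideal (𝓞 K)) : ℝ) with hNJ
  have hNJ1 : 1 ≤ NJ := by
    have : 1 ≤ absNorm (J : Ideal (𝓞 K)) := absNorm_pos_of_nonZeroDivisors J
    rw [hNJ]; exact_mod_cast this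
  have hNJ0 : 0 < NJ := by linarith
  set w : ℝ := (torsionOrder K : ℝ) with hw
  have hw0 : 0 < w := by
    have : 0 < torsionOrder K := Nat.pos_of_ne_zero (torsionOrder_ne_zero K)
    rw [hw]; exact_mod_cast this
  set δ : ℝ := (2⁻¹) ^ nrComplexPlaces K * √|(discr K : ℝ)| with hδ
  have hδ0 : 0 < δ := by
    have : (discr K : ℝ) ≠ 0 := by exact_mod_cast discr_ne_zero K
    positivity
  have hcov : ZLattice.covolume (mixedEmbedding.idealLattice K (FractionalIdeal.mk0 K J)) =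
      NJ * δ := by
    rw [covolume_idealLattice, FractionalIdeal.coe_mk0, FractionalIdeal.coeIdeal_absNorm,
      Rat.cast_natCast, hδ, mul_assoc]
  set e : ℝ := 1 - 1 / (finrank ℚ K : ℝ) with he
  refine ⟨A * NJ ^ e / w, ?_⟩
  intro x hx
  have hx0 : 0 < x := by linarith
  have hc1 : 1 ≤ x * NJ := by nlinarith
  have h1 := hA (x * NJ) hc1
  rw [hcov] at h1
  have hcard : (Nat.card {I : (Ideal (𝓞 K))⁰ // absNorm (I : Ideal (𝓞 K)) ≤ x ∧
      ClassGroup.mk0 I = C} : ℝ) * w =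
      (Nat.card ({y | y ∈ fundamentalCone K ∧ mixedEmbedding.norm y ≤ x * NJ} ∩
        (mixedEmbedding.idealLattice K (FractionalIdeal.mk0 K J) : Set (mixedSpace K)) :
          Set (mixedSpace K)) : ℝ) := by
    rw [h7r_card_class_eq K hJ, ← h7r_card_idealSet_eq, ← card_isPrincipal_dvd_norm_le, hw]
    push_cast
    rfl
  rw [← hcard] at h1
  have e1 : x * NJ * volume.real (normLeOne K) / (NJ * δ) = h7r_kappa K * x * w := by
    unfold h7r_kappa
    rw [← hδ, ← hw]
    field_simp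
  rw [e1] at h1
  have e2 : (Nat.card {I : (Ideal (𝓞 K))⁰ // absNorm (I : Ideal (𝓞 K)) ≤ x ∧
      ClassGroup.mk0 I = C} : ℝ) - h7r_kappa K * x =
      ((Nat.card {I : (Ideal (𝓞 K))⁰ // absNorm (I : Ideal (𝓞 K)) ≤ x ∧
      ClassGroup.mk0 I = C} : ℝ) * w - h7r_kappa K * x * w) / w := by
    field_simp
  rw [e2, abs_div, abs_of_pos hw0, div_le_iff₀ hw0]
  refine h1.trans (le_of_eq ?_)
  rw [Real.mul_rpow hx0.le hNJ0.le]
  field_simp

theorem h7r_card_class_rate :
    ∃ A : ℝ, 0 ≤ A ∧ ∀ (C : ClassGroup (𝓞 K)) (x : ℝ), 1 ≤ x →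
      |(Nat.card {I : (Ideal (𝓞 K))⁰ // absNorm (I : Ideal (𝓞 K)) ≤ x ∧ ClassGroup.mk0 I = C} : ℝ)
          - h7r_kappa K * x| ≤ A * x ^ (1 - 1 / (finrank ℚ K : ℝ)) := by
  choose A hA using h7r_card_class_rate_aux K
  refine ⟨∑ C : ClassGroup (𝓞 K), |A C|, Finset.sum_nonneg fun _ _ => abs_nonneg _, ?_⟩
  intro C x hx
  refine (hA C x hx).trans ?_
  have hx0 : 0 ≤ x ^ (1 - 1 / (finrank ℚ K : ℝ)) := Real.rpow_nonneg (by linarith) _
  gcongr
  exact (le_abs_self _).trans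
    (Finset.single_le_sum (f := fun C => |A C|) (fun _ _ => abs_nonneg _) (Finset.mem_univ C))

end Fermat.Agent.Lib.S14
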