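/-
S14 analytic slab (helper7), (AN-c): the L-function of a nontrivial class group character is bounded
on (1,2] (Abel summation from the ideal count with error term).
-/
import Mathlib
import Fermat.Agent.Lib.S14.RateIdeal
import Fermat.Agent.Lib.S14.EulerNF
import Fermat.Agent.Lib.S14.NormClass

set_option autoImplicit false

namespace Fermat.Agent.Lib.S14

open NumberField Ideal IsDedekindDomain Filter Topology Asymptotics
open scoped nonZeroDivisors

variable (F : Type*) [Field F] [NumberField F]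

open Classical in
/-- The completely multiplicative function on ideals attached to a class group character
(`0` at the zero ideal). -/
noncomputable def h7a_chi (θ : ClassGroup (𝓞 F) →* ℂˣ) (I : Ideal (𝓞 F)) : ℂ :=
  if I = ⊥ then 0 else (θ (h4c_cl I) : ℂ)

variable {F}

theorem h7a_chi_bot (θ : ClassGroup (𝓞 F) →* ℂˣ) : h7a_chi F θ ⊥ = 0 := by
  simp [h7a_chi]

theorem h7a_chi_of_ne (θ : ClassGroup (𝓞 F) →* ℂˣ) {I : Ideal (𝓞 F)} (h : I ≠ ⊥) :
    h7a_chi F θ I = (θ (h4c_cl I) : ℂ) := by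
  simp [h7a_chi, h]

theorem h7a_chi_top (θ : ClassGroup (𝓞 F) →* ℂˣ) : h7a_chi F θ ⊤ = 1 := by
  rw [h7a_chi_of_ne θ (by simp), h4c_cl_top, map_one, Units.val_one]

theorem h7a_chi_mul (θ : ClassGroup (𝓞 F) →* ℂˣ) (I J : Ideal (𝓞 F)) :
    h7a_chi F θ (I * J) = h7a_chi F θ I * h7a_chi F θ J := by
  by_cases hI : I = ⊥
  · subst hI; simp [h7a_chi_bot]
  by_cases hJ : J = ⊥
  · subst hJ; simp [h7a_chi_bot]
  rw [h7a_chi_of_ne θ hI, h7a_chi_of_ne θ hJ, h7a_chi_of_ne θ (mul_ne_zero hI hJ),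
    h4c_cl_mul hI hJ, map_mul, Units.val_mul]

theorem h7a_norm_theta (θ : ClassGroup (𝓞 F) →* ℂˣ) (c : ClassGroup (𝓞 F)) :
    ‖(θ c : ℂ)‖ = 1 := by
  have h1 : (θ c : ℂ) ^ (orderOf c) = 1 := by
    rw [← Units.val_pow_eq_pow_val, ← map_pow, pow_orderOf_eq_one, map_one, Units.val_one]
  exact Complex.norm_eq_one_of_pow_eq_one h1 (orderOf_pos c).ne'

theorem h7a_norm_chi_le (θ : ClassGroup (𝓞 F) →* ℂˣ) (I : Ideal (𝓞 F)) :
    ‖h7a_chi F θ I‖ ≤ 1 := by
  by_cases hI : I = ⊥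
  · subst hI; simp [h7a_chi_bot]
  · rw [h7a_chi_of_ne θ hI, h7a_norm_theta]

theorem h7a_sum_theta (θ : ClassGroup (𝓞 F) →* ℂˣ) (hθ : θ ≠ 1) :
    ∑ c : ClassGroup (𝓞 F), (θ c : ℂ) = 0 := by
  have := sum_hom_units_eq_zero ((Units.coeHom ℂ).comp θ) (by
    intro h
    apply hθ
    ext c
    have := DFunLike.congr_fun h c
    simpa using this)
  simpa using this

variable (F)

/-- The `L`-value of a class group character at real `s` (sum over all ideals; the zero ideal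
contributes `0`). -/
noncomputable def h7a_L (θ : ClassGroup (𝓞 F) →* ℂˣ) (s : ℝ) : ℂ :=
  ∑' I : Ideal (𝓞 F), h9n_term (h7a_chi F θ) s I

/-- The Dirichlet coefficients of `h7a_L`. -/
noncomputable def h7a_coeff (θ : ClassGroup (𝓞 F) →* ℂˣ) (n : ℕ) : ℂ :=
  ∑' I : {I : Ideal (𝓞 F) // absNorm I = n}, h7a_chi F θ I.1

theorem h7a_L_eq_LSeries (θ : ClassGroup (𝓞 F) →* ℂˣ) {s : ℝ} (hs : 1 < s) :
    h7a_L F θ s = LSeries (h7a_coeff F θ) (s : ℂ) := by
  unfold h7a_L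
  have hsum : Summable (fun I : Ideal (𝓞 F) => h9n_term (h7a_chi F θ) s I) :=
    (h9n_summable_term (h7a_norm_chi_le θ) hs).of_norm
  rw [← (Equiv.sigmaFiberEquiv (fun I : Ideal (𝓞 F) => absNorm I)).tsum_eq]
  have hsum' : Summable (fun c : (Σ n : ℕ, {I : Ideal (𝓞 F) // absNorm I = n}) =>
      h9n_term (h7a_chi F θ) s ((Equiv.sigmaFiberEquiv (fun I : Ideal (𝓞 F) => absNorm I)) c)) :=
    (Equiv.sigmaFiberEquiv (fun I : Ideal (𝓞 F) => absNorm I)).summable_iff.mpr hsum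
  rw [Summable.tsum_sigma hsum']
  unfold LSeries
  refine tsum_congr fun n => ?_
  rw [LSeries.term]
  by_cases hn : n = 0
  · subst hn
    rw [if_pos rfl]
    have : ∀ I : {I : Ideal (𝓞 F) // absNorm I = 0},
        h9n_term (h7a_chi F θ) s ((Equiv.sigmaFiberEquiv
          (fun I : Ideal (𝓞 F) => absNorm I)) ⟨0, I⟩) = 0 := by
      intro I
      simp only [Equiv.sigmaFiberEquiv_apply]
      have hI : I.1 = ⊥ := Ideal.absNorm_eq_zero_iff.mp I.2
      rw [hI, h9n_term_bot (by linarith)]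
    simp only [this, tsum_zero]
  · rw [if_neg hn, h7a_coeff, div_eq_mul_inv, ← tsum_mul_right]
    refine tsum_congr fun I => ?_
    simp only [Equiv.sigmaFiberEquiv_apply, h9n_term]
    rw [I.2, Complex.ofReal_cpow (Nat.cast_nonneg _), Complex.ofReal_neg, Complex.cpow_neg]
    simp

theorem h7a_partial_sum (θ : ClassGroup (𝓞 F) →* ℂˣ) (n : ℕ) :
    ∑ k ∈ Finset.Icc 1 n, h7a_coeff F θ k =
      ∑ C : ClassGroup (𝓞 F), (θ C : ℂ) *
        (Nat.card {I : (Ideal (𝓞 F))⁰ // (absNorm (I : Ideal (𝓞 F)) : ℝ) ≤ (n : ℝ) ∧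
          ClassGroup.mk0 I = C} : ℂ) := by
  classical
  have hfin : {I : Ideal (𝓞 F) | absNorm I ∈ Set.Icc 1 n}.Finite :=
    (finite_setOfPred_absNorm_le n).subset (fun I hI => hI.2)
  set U := hfin.toFinset with hUdef
  have hU : ∀ I, I ∈ U ↔ 1 ≤ absNorm I ∧ absNorm I ≤ n := by
    intro I; rw [hUdef, Set.Finite.mem_toFinset]; rfl
  have hUne : ∀ I ∈ U, I ≠ ⊥ := by
    intro I hI hbot
    have := ((hU I).mp hI).1
    rw [hbot, Ideal.absNorm_bot] at this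
    omega
  have h1 : ∑ k ∈ Finset.Icc 1 n, h7a_coeff F θ k = ∑ I ∈ U, h7a_chi F θ I := by
    rw [← Finset.sum_fiberwise_of_maps_to (s := U) (t := Finset.Icc 1 n)
      (g := fun I => absNorm I) (fun I hI => by
        rw [Finset.mem_Icc]; exact (hU I).mp hI)]
    refine Finset.sum_congr rfl fun k hk => ?_
    rw [h7a_coeff]
    let _ : Fintype {I : Ideal (𝓞 F) // absNorm I = k} := Fintype.ofFinite _
    rw [tsum_fintype]
    symm
    apply Finset.sum_subtype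
    intro I
    rw [Finset.mem_filter, hU]
    rw [Finset.mem_Icc] at hk
    constructor
    · rintro ⟨_, h⟩; exact h
    · intro h; exact ⟨by rw [h]; exact hk, h⟩
  have h2 : ∑ I ∈ U, h7a_chi F θ I =
      ∑ C : ClassGroup (𝓞 F), ∑ I ∈ U with h4c_cl I = C, (θ C : ℂ) := by
    rw [← Finset.sum_fiberwise (s := U) (g := fun I => h4c_cl I)]
    refine Finset.sum_congr rfl fun C _ => Finset.sum_congr rfl fun I hI => ?_
    rw [Finset.mem_filter] at hI
    rw [h7a_chi_of_ne θ (hUne I hI.1), hI.2]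
  rw [h1, h2]
  refine Finset.sum_congr rfl fun C _ => ?_
  rw [Finset.sum_const, nsmul_eq_mul, mul_comm]
  congr 1
  have hcard : Nat.card {I : (Ideal (𝓞 F))⁰ // (absNorm (I : Ideal (𝓞 F)) : ℝ) ≤ (n : ℝ) ∧
      ClassGroup.mk0 I = C} = (U.filter (fun I => h4c_cl I = C)).card := by
    rw [← Fintype.card_coe, ← Nat.card_eq_fintype_card]
    refine Nat.card_congr ?_
    refine
      { toFun := fun I => ⟨I.1.1, ?_⟩
        invFun := fun J => ⟨⟨J.1, h4c_mem_nzd (hUne J.1 (Finset.mem_filter.mp J.2).1)⟩, ?_⟩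
        left_inv := fun I => by ext; rfl
        right_inv := fun J => by ext; rfl }
    · rw [Finset.mem_filter, hU]
      have hne : (I.1 : Ideal (𝓞 F)) ≠ ⊥ := by
        have := I.1.2
        rw [mem_nonZeroDivisors_iff_ne_zero] at this
        exact this
      refine ⟨⟨absNorm_pos_of_nonZeroDivisors I.1, by exact_mod_cast I.2.1⟩, ?_⟩
      rw [h4c_cl_of_ne hne]
      exact I.2.2
    · have hJ := Finset.mem_filter.mp J.2
      refine ⟨by exact_mod_cast ((hU J.1).mp hJ.1).2, ?_⟩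
      have := hJ.2
      rw [h4c_cl_of_ne (hUne J.1 hJ.1)] at this
      exact this
  rw [hcard]

theorem h7a_partial_sum_bound (θ : ClassGroup (𝓞 F) →* ℂˣ) (hθ : θ ≠ 1) :
    ∃ B : ℝ, 0 ≤ B ∧ ∀ n : ℕ, 1 ≤ n →
      ‖∑ k ∈ Finset.Icc 1 n, h7a_coeff F θ k‖ ≤
        B * (n : ℝ) ^ (1 - 1 / (Module.finrank ℚ F : ℝ)) := by
  obtain ⟨A, hA0, hA⟩ := h7r_card_class_rate F
  refine ⟨Fintype.card (ClassGroup (𝓞 F)) * A, by positivity, ?_⟩
  intro n hn
  have hn1 : (1:ℝ) ≤ n := by exact_mod_cast hn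
  rw [h7a_partial_sum]
  have hzero : ∑ C : ClassGroup (𝓞 F), (θ C : ℂ) * ((h7r_kappa F * n : ℝ) : ℂ) = 0 := by
    rw [← Finset.sum_mul, h7a_sum_theta θ hθ, zero_mul]
  have : ∑ C : ClassGroup (𝓞 F), (θ C : ℂ) *
        (Nat.card {I : (Ideal (𝓞 F))⁰ // (absNorm (I : Ideal (𝓞 F)) : ℝ) ≤ (n : ℝ) ∧
          ClassGroup.mk0 I = C} : ℂ) =
      ∑ C : ClassGroup (𝓞 F), (θ C : ℂ) *
        (((Nat.card {I : (Ideal (𝓞 F))⁰ // (absNorm (I : Ideal (𝓞 F)) : ℝ) ≤ (n : ℝ) ∧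
          ClassGroup.mk0 I = C} : ℝ) - h7r_kappa F * n : ℝ) : ℂ) := by
    rw [← sub_zero (∑ C : ClassGroup (𝓞 F), (θ C : ℂ) *
        (Nat.card {I : (Ideal (𝓞 F))⁰ // (absNorm (I : Ideal (𝓞 F)) : ℝ) ≤ (n : ℝ) ∧
          ClassGroup.mk0 I = C} : ℂ)), ← hzero, ← Finset.sum_sub_distrib]
    refine Finset.sum_congr rfl fun C _ => ?_
    push_cast
    ring
  rw [this]
  refine (norm_sum_le _ _).trans ?_
  calc ∑ C : ClassGroup (𝓞 F), ‖(θ C : ℂ) *
        (((Nat.card {I : (Ideal (𝓞 F))⁰ // (absNorm (I : Ideal (𝓞 F)) : ℝ) ≤ (n : ℝ) ∧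
          ClassGroup.mk0 I = C} : ℝ) - h7r_kappa F * n : ℝ) : ℂ)‖
      ≤ ∑ _C : ClassGroup (𝓞 F), A * (n : ℝ) ^ (1 - 1 / (Module.finrank ℚ F : ℝ)) := by
        refine Finset.sum_le_sum fun C _ => ?_
        rw [norm_mul, h7a_norm_theta, one_mul, Complex.norm_real, Real.norm_eq_abs]
        exact hA C n hn1
    _ = Fintype.card (ClassGroup (𝓞 F)) * A * (n : ℝ) ^ (1 - 1 / (Module.finrank ℚ F : ℝ)) := by
        rw [Finset.sum_const, Finset.card_univ, nsmul_eq_mul, mul_assoc]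

theorem h7a_LSeriesSummable (θ : ClassGroup (𝓞 F) →* ℂˣ) {s : ℝ} (hs : 1 < s) :
    LSeriesSummable (h7a_coeff F θ) (s : ℂ) := by
  have hsum : Summable (fun I : Ideal (𝓞 F) => h9n_term (h7a_chi F θ) s I) :=
    (h9n_summable_term (h7a_norm_chi_le θ) hs).of_norm
  have hsum' : Summable (fun c : (Σ n : ℕ, {I : Ideal (𝓞 F) // absNorm I = n}) =>
      h9n_term (h7a_chi F θ) s ((Equiv.sigmaFiberEquiv (fun I : Ideal (𝓞 F) => absNorm I)) c)) :=
    (Equiv.sigmaFiberEquiv (fun I : Ideal (𝓞 F) => absNorm I)).summable_iff.mpr hsum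
  have h := hsum'.sigma
  unfold LSeriesSummable
  refine h.congr fun n => ?_
  rw [LSeries.term]
  by_cases hn : n = 0
  · subst hn
    rw [if_pos rfl]
    have : ∀ I : {I : Ideal (𝓞 F) // absNorm I = 0},
        h9n_term (h7a_chi F θ) s ((Equiv.sigmaFiberEquiv
          (fun I : Ideal (𝓞 F) => absNorm I)) ⟨0, I⟩) = 0 := by
      intro I
      simp only [Equiv.sigmaFiberEquiv_apply]
      have hI : I.1 = ⊥ := Ideal.absNorm_eq_zero_iff.mp I.2
      rw [hI, h9n_term_bot (by linarith)]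
    simp only [this, tsum_zero]
  · rw [if_neg hn, h7a_coeff, div_eq_mul_inv, ← tsum_mul_right]
    refine tsum_congr fun I => ?_
    simp only [Equiv.sigmaFiberEquiv_apply, h9n_term]
    rw [I.2, Complex.ofReal_cpow (Nat.cast_nonneg _), Complex.ofReal_neg, Complex.cpow_neg]
    simp

/-- **(AN-c)** the `L`-function of a nontrivial class group character is bounded on `(1,2]`. -/
theorem h7a_L_bounded (θ : ClassGroup (𝓞 F) →* ℂˣ) (hθ : θ ≠ 1) :
    ∃ B : ℝ, ∀ s : ℝ, 1 < s → s ≤ 2 → ‖h7a_L F θ s‖ ≤ B := by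
  obtain ⟨B, hB0, hB⟩ := h7a_partial_sum_bound F θ hθ
  set r : ℝ := 1 - 1 / (Module.finrank ℚ F : ℝ) with hr
  have hnpos : (0:ℝ) < Module.finrank ℚ F := by exact_mod_cast Module.finrank_pos
  have hn1 : (1:ℝ) ≤ Module.finrank ℚ F := by
    have : 1 ≤ Module.finrank ℚ F := Module.finrank_pos
    exact_mod_cast this
  have hr0 : 0 ≤ r := by
    rw [hr, sub_nonneg, div_le_one hnpos]; exact hn1
  have hr1 : r < 1 := by
    rw [hr]; linarith [one_div_pos.mpr hnpos]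
  refine ⟨2 * (B / (1 - r)), ?_⟩
  intro s hs hs2
  have hsr : r < ((s : ℂ)).re := by simp; linarith
  have hO : (fun n : ℕ ↦ ∑ k ∈ Finset.Icc 1 n, h7a_coeff F θ k) =O[atTop]
      fun n ↦ (n : ℝ) ^ r := by
    refine IsBigO.of_bound B (eventually_atTop.mpr ⟨1, fun n hn => ?_⟩)
    rw [Real.norm_of_nonneg (Real.rpow_nonneg (Nat.cast_nonneg _) _)]
    exact hB n hn
  rw [h7a_L_eq_LSeries F θ hs,
    LSeries_eq_mul_integral (h7a_coeff F θ) hr0 hsr (h7a_LSeriesSummable F θ hs) hO, norm_mul]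
  have hsn : ‖(s : ℂ)‖ = s := by
    rw [Complex.norm_real, Real.norm_of_nonneg (by linarith)]
  rw [hsn]
  have ha : r - s - 1 < -1 := by linarith
  have hint : MeasureTheory.IntegrableOn (fun t : ℝ => B * t ^ (r - s - 1)) (Set.Ioi 1) :=
    (integrableOn_Ioi_rpow_of_lt ha one_pos).const_mul B
  have hle : ‖∫ t in Set.Ioi (1 : ℝ), (∑ k ∈ Finset.Icc 1 ⌊t⌋₊, h7a_coeff F θ k) *
      (t : ℂ) ^ (-((s : ℂ) + 1))‖ ≤ ∫ t in Set.Ioi (1 : ℝ), B * t ^ (r - s - 1) := by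
    refine MeasureTheory.norm_integral_le_of_norm_le hint ?_
    refine (MeasureTheory.ae_restrict_iff' measurableSet_Ioi).mpr (Filter.Eventually.of_forall ?_)
    intro t ht
    have ht1 : (1:ℝ) < t := ht
    have ht0 : 0 < t := by linarith
    have hfl : 1 ≤ ⌊t⌋₊ := Nat.one_le_iff_ne_zero.mpr (by
      rw [Ne, Nat.floor_eq_zero]; linarith)
    rw [norm_mul, Complex.norm_cpow_eq_rpow_re_of_pos ht0]
    have hre : (-((s : ℂ) + 1)).re = -(s + 1) := by simp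
    rw [hre]
    have h1 := hB ⌊t⌋₊ hfl
    have h2 : ((⌊t⌋₊ : ℕ) : ℝ) ^ r ≤ t ^ r :=
      Real.rpow_le_rpow (Nat.cast_nonneg _) (Nat.floor_le ht0.le) hr0
    have h3 : t ^ r * t ^ (-(s + 1)) = t ^ (r - s - 1) := by
      rw [← Real.rpow_add ht0]; congr 1; ring
    calc ‖∑ k ∈ Finset.Icc 1 ⌊t⌋₊, h7a_coeff F θ k‖ * t ^ (-(s + 1))
        ≤ (B * t ^ r) * t ^ (-(s + 1)) := by
          gcongr
          exact h1.trans (by gcongr)
      _ = B * t ^ (r - s - 1) := by rw [mul_assoc, h3]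
  have hval : ∫ t in Set.Ioi (1 : ℝ), B * t ^ (r - s - 1) = B / (s - r) := by
    rw [MeasureTheory.integral_const_mul, integral_Ioi_rpow_of_lt ha one_pos, Real.one_rpow]
    have : r - s - 1 + 1 = -(s - r) := by ring
    rw [this, div_neg, neg_div, neg_neg, mul_one_div]
  rw [hval] at hle
  have h1r : 0 < 1 - r := by linarith
  have hsr' : 0 < s - r := by linarith
  calc s * ‖∫ t in Set.Ioi (1 : ℝ), (∑ k ∈ Finset.Icc 1 ⌊t⌋₊, h7a_coeff F θ k) *
      (t : ℂ) ^ (-((s : ℂ) + 1))‖ ≤ s * (B / (s - r)) := by gcongr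
    _ ≤ 2 * (B / (1 - r)) := by
        have : B / (s - r) ≤ B / (1 - r) := by
          apply div_le_div_of_nonneg_left hB0 h1r; linarith
        have hq : 0 ≤ B / (s - r) := by positivity
        nlinarith

end Fermat.Agent.Lib.S14
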