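/-
S14 analytic slab (helper7), (A1): the first inequality of class field theory (modulus 1).
`h7a_index_le`: a set of primes of lower Dirichlet density ≥ 1/n generates a subgroup of the class
group of index ≤ n.  `h7a_A1`: for M/F Galois, (h4c_normSubgroup F M).index ≤ [M:F].
-/
import Mathlib
import Fermat.Agent.Lib.S14.LBound
import Fermat.Agent.Lib.S14.EulerLogBridge
import Fermat.Agent.Lib.S14.ZetaSplit

set_option autoImplicit false

namespace Fermat.Agent.Lib.S14

open NumberField Ideal IsDedekindDomain Filter Topology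
open scoped nonZeroDivisors

section Orthogonality

variable {A : Type*} [CommGroup A] [Finite A]

instance h7a_finite_char : Finite (A →* ℂˣ) := by
  have : NeZero (Monoid.exponent A) := ⟨Monoid.exponent_ne_zero_of_finite⟩
  exact Finite.of_equiv A
    (CommGroup.monoidHom_mulEquiv_of_hasEnoughRootsOfUnity A ℂ).some.symm.toEquiv

theorem h7a_card_char : Nat.card (A →* ℂˣ) = Nat.card A := by
  have : NeZero (Monoid.exponent A) := ⟨Monoid.exponent_ne_zero_of_finite⟩
  exact CommGroup.card_monoidHom_of_hasEnoughRootsOfUnity A ℂ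

theorem h7a_sum_char [Fintype (A →* ℂˣ)] (a : A) [Decidable (a = 1)] :
    ∑ φ : A →* ℂˣ, (φ a : ℂ) = if a = 1 then (Nat.card A : ℂ) else 0 := by
  split_ifs with ha
  · subst ha
    simp only [map_one, Units.val_one, Finset.sum_const, Finset.card_univ, nsmul_eq_mul, mul_one]
    rw [← h7a_card_char (A := A), Nat.card_eq_fintype_card]
  · have : NeZero (Monoid.exponent A) := ⟨Monoid.exponent_ne_zero_of_finite⟩
    obtain ⟨φ₀, hφ₀⟩ := CommGroup.exists_apply_ne_one_of_hasEnoughRootsOfUnity A ℂ ha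
    have h1 : ∑ φ : A →* ℂˣ, (φ a : ℂ) = (φ₀ a : ℂ) * ∑ φ : A →* ℂˣ, (φ a : ℂ) := by
      rw [Finset.mul_sum]
      have := Equiv.sum_comp (Equiv.mulLeft φ₀) (fun φ : A →* ℂˣ => (φ a : ℂ))
      rw [← this]
      refine Finset.sum_congr rfl fun φ _ => ?_
      simp
    have h2 : ((φ₀ a : ℂ) - 1) * ∑ φ : A →* ℂˣ, (φ a : ℂ) = 0 := by
      rw [sub_mul, one_mul, ← h1, sub_self]
    rcases mul_eq_zero.mp h2 with h | h
    · exfalso
      apply hφ₀
      ext
      simpa [sub_eq_zero] using h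
    · exact h

end Orthogonality

section FirstIneq

variable (F : Type*) [Field F] [NumberField F]

/-- `log ‖L(s,θ)‖` versus the prime sum (helper9's Euler product / log). -/
theorem h7a_log_L (θ : ClassGroup (𝓞 F) →* ℂˣ) {s : ℝ} (hs : 1 < s) :
    h7a_L F θ s ≠ 0 ∧
    |Real.log ‖h7a_L F θ s‖ - ∑' v : HeightOneSpectrum (𝓞 F),
      ((θ (h4c_cl v.asIdeal) : ℂˣ) : ℂ).re * (absNorm v.asIdeal : ℝ) ^ (-s)| ≤
      h9l_primeZeta F 2 := by
  have h1 := h9l_L_ne_zero (h7a_chi_top θ) (h7a_chi_mul θ) (h7a_norm_chi_le θ) hs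
  have h2 := h9l_abs_log_norm_L_sub_le (h7a_chi_top θ) (h7a_chi_mul θ) (h7a_norm_chi_le θ) hs
  refine ⟨h1, ?_⟩
  have e : ∀ v : HeightOneSpectrum (𝓞 F), h7a_chi F θ v.asIdeal =
      ((θ (h4c_cl v.asIdeal) : ℂˣ) : ℂ) := fun v => h7a_chi_of_ne θ v.ne_bot
  simp only [e] at h2
  exact h2

theorem h7a_summable_re (θ : ClassGroup (𝓞 F) →* ℂˣ) {s : ℝ} (hs : 1 < s) :
    Summable fun v : HeightOneSpectrum (𝓞 F) =>
      ((θ (h4c_cl v.asIdeal) : ℂˣ) : ℂ).re * (absNorm v.asIdeal : ℝ) ^ (-s) := by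
  refine Summable.of_norm_bounded (h9l_summable_prime_rpow F hs) fun v => ?_
  rw [norm_mul, Real.norm_of_nonneg (Real.rpow_nonneg (Nat.cast_nonneg _) _)]
  have : ‖((θ (h4c_cl v.asIdeal) : ℂˣ) : ℂ).re‖ ≤ 1 := by
    rw [Real.norm_eq_abs]
    exact (Complex.abs_re_le_norm _).trans (h7a_norm_theta θ _).le
  calc _ ≤ 1 * (absNorm v.asIdeal : ℝ) ^ (-s) := by gcongr
    _ = _ := one_mul _

/-- **First inequality, density form**: a set of primes of lower Dirichlet density `≥ 1/n`
generates a subgroup of the class group of index `≤ n`. -/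
theorem h7a_index_le (S : Set (HeightOneSpectrum (𝓞 F))) (n : ℕ) (hn : 0 < n) (C : ℝ)
    (hS : ∀ s : ℝ, 1 < s → s ≤ 2 →
      (1 / (n : ℝ)) * Real.log (1 / (s - 1)) - C ≤
        ∑' v : S, (absNorm (v : HeightOneSpectrum (𝓞 F)).asIdeal : ℝ) ^ (-s))
    (H : Subgroup (ClassGroup (𝓞 F))) (hH : ∀ v ∈ S, h4c_cl v.asIdeal ∈ H) :
    H.index ≤ n := by
  classical
  let _ : Fintype ((ClassGroup (𝓞 F) ⧸ H) →* ℂˣ) := Fintype.ofFinite _
  set h : ℕ := Nat.card (ClassGroup (𝓞 F) ⧸ H) with hh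
  have hidx : H.index = h := rfl
  have hhpos : 0 < h := Nat.card_pos
  set θ : ((ClassGroup (𝓞 F) ⧸ H) →* ℂˣ) → (ClassGroup (𝓞 F) →* ℂˣ) :=
    fun φ => φ.comp (QuotientGroup.mk' H) with hθ
  -- orthogonality
  have horth : ∀ c : ClassGroup (𝓞 F),
      ∑ φ : (ClassGroup (𝓞 F) ⧸ H) →* ℂˣ, ((θ φ c : ℂˣ) : ℂ).re =
        if c ∈ H then (h : ℝ) else 0 := by
    intro c
    have h2 := congrArg Complex.re (h7a_sum_char (A := ClassGroup (𝓞 F) ⧸ H)
      (QuotientGroup.mk' H c))
    rw [Complex.re_sum] at h2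
    simp only [hθ, MonoidHom.comp_apply]
    rw [h2]
    by_cases hc : c ∈ H
    · have e : (QuotientGroup.mk' H) c = 1 := (QuotientGroup.eq_one_iff c).mpr hc
      rw [if_pos hc, if_pos e]; simp [hh]
    · have e : ¬ (QuotientGroup.mk' H) c = 1 := fun h' => hc ((QuotientGroup.eq_one_iff c).mp h')
      rw [if_neg hc, if_neg e]; simp
  -- the contracts
  set C₂ := h9l_primeZeta F 2 with hC₂
  obtain ⟨hPsum, C₁, hC₁⟩ := h9e_primeLog F
  -- upper bounds for each character
  have hupper : ∀ φ : (ClassGroup (𝓞 F) ⧸ H) →* ℂˣ, ∃ K : ℝ, ∀ s : ℝ, 1 < s → s ≤ 2 →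
      Real.log ‖h7a_L F (θ φ) s‖ ≤ (if φ = 1 then Real.log (1 / (s - 1)) else 0) + K := by
    intro φ
    by_cases hφ : φ = 1
    · refine ⟨C₁ + C₂, fun s hs hs2 => ?_⟩
      rw [if_pos hφ]
      have h1 := (abs_le.mp (h7a_log_L F (θ φ) hs).2).2
      have h2 := (abs_le.mp (hC₁ s hs hs2)).2
      have e : ∑' v : HeightOneSpectrum (𝓞 F),
          ((θ φ (h4c_cl v.asIdeal) : ℂˣ) : ℂ).re * (absNorm v.asIdeal : ℝ) ^ (-s) =
          ∑' v : HeightOneSpectrum (𝓞 F), (absNorm v.asIdeal : ℝ) ^ (-s) := by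
        refine tsum_congr fun v => ?_
        simp [hθ, hφ]
      rw [e] at h1
      linarith
    · have hne : θ φ ≠ 1 := by
        intro h1
        apply hφ
        ext a
        have := DFunLike.congr_fun h1 a
        simpa [hθ] using this
      obtain ⟨B, hB⟩ := h7a_L_bounded F (θ φ) hne
      refine ⟨Real.log (max B 1), fun s hs hs2 => ?_⟩
      rw [if_neg hφ, zero_add]
      have hpos : 0 < ‖h7a_L F (θ φ) s‖ := norm_pos_iff.mpr (h7a_log_L F (θ φ) hs).1
      exact Real.log_le_log hpos ((hB s hs hs2).trans (le_max_left _ _))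
  choose K hK using hupper
  -- the key inequality for every s
  have hkey : ∀ s : ℝ, 1 < s → s ≤ 2 →
      (h : ℝ) * ((1 / (n : ℝ)) * Real.log (1 / (s - 1)) - C) - h * C₂ ≤
        Real.log (1 / (s - 1)) + ∑ φ, K φ := by
    intro s hs hs2
    -- lower bound
    have hlow : ∀ φ : (ClassGroup (𝓞 F) ⧸ H) →* ℂˣ,
        (∑' v : HeightOneSpectrum (𝓞 F),
          ((θ φ (h4c_cl v.asIdeal) : ℂˣ) : ℂ).re * (absNorm v.asIdeal : ℝ) ^ (-s)) - C₂ ≤
        Real.log ‖h7a_L F (θ φ) s‖ := by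
      intro φ
      have := (abs_le.mp (h7a_log_L F (θ φ) hs).2).1
      linarith
    have hsumlow := Finset.sum_le_sum (fun φ (_ : φ ∈ Finset.univ) => hlow φ)
    have hsumup := Finset.sum_le_sum (fun φ (_ : φ ∈ Finset.univ) => hK φ s hs hs2)
    rw [Finset.sum_sub_distrib, Finset.sum_const, Finset.card_univ, nsmul_eq_mul] at hsumlow
    rw [Finset.sum_add_distrib, Finset.sum_ite_eq' Finset.univ (1 : (ClassGroup (𝓞 F) ⧸ H) →* ℂˣ),
      if_pos (Finset.mem_univ _)] at hsumup
    have hcardX : (Fintype.card ((ClassGroup (𝓞 F) ⧸ H) →* ℂˣ) : ℝ) = h := by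
      rw [← Nat.card_eq_fintype_card, h7a_card_char]
    rw [hcardX] at hsumlow
    -- interchange sums
    have hinter : ∑ φ : (ClassGroup (𝓞 F) ⧸ H) →* ℂˣ, ∑' v : HeightOneSpectrum (𝓞 F),
        ((θ φ (h4c_cl v.asIdeal) : ℂˣ) : ℂ).re * (absNorm v.asIdeal : ℝ) ^ (-s) =
        ∑' v : HeightOneSpectrum (𝓞 F),
          (if h4c_cl v.asIdeal ∈ H then (h : ℝ) else 0) * (absNorm v.asIdeal : ℝ) ^ (-s) := by
      rw [← Summable.tsum_finsetSum (fun φ _ => h7a_summable_re F (θ φ) hs)]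
      refine tsum_congr fun v => ?_
      rw [← Finset.sum_mul, horth]
    -- compare with the sum over S
    have hcomp : (h : ℝ) * ∑' v : S, (absNorm (v : HeightOneSpectrum (𝓞 F)).asIdeal : ℝ) ^ (-s) ≤
        ∑' v : HeightOneSpectrum (𝓞 F),
          (if h4c_cl v.asIdeal ∈ H then (h : ℝ) else 0) * (absNorm v.asIdeal : ℝ) ^ (-s) := by
      rw [tsum_subtype S (fun v : HeightOneSpectrum (𝓞 F) => (absNorm v.asIdeal : ℝ) ^ (-s)),
        ← tsum_mul_left]
      have hs1 : Summable fun v : HeightOneSpectrum (𝓞 F) =>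
          (h : ℝ) * S.indicator (fun v => (absNorm v.asIdeal : ℝ) ^ (-s)) v :=
        ((hPsum s hs).indicator S).mul_left _
      have hs2' : Summable fun v : HeightOneSpectrum (𝓞 F) =>
          (if h4c_cl v.asIdeal ∈ H then (h : ℝ) else 0) * (absNorm v.asIdeal : ℝ) ^ (-s) := by
        refine Summable.of_nonneg_of_le (fun v => ?_) (fun v => ?_) ((hPsum s hs).mul_left (h : ℝ))
        · have := Real.rpow_nonneg (Nat.cast_nonneg (absNorm v.asIdeal)) (-s)
          split_ifs <;> positivity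
        · have := Real.rpow_nonneg (Nat.cast_nonneg (absNorm v.asIdeal)) (-s)
          split_ifs
          · exact le_refl _
          · rw [zero_mul]; positivity
      refine hs1.tsum_le_tsum (fun v => ?_) hs2'
      have hw := Real.rpow_nonneg (Nat.cast_nonneg (absNorm v.asIdeal)) (-s)
      by_cases hv : v ∈ S
      · rw [Set.indicator_of_mem hv, if_pos (hH v hv)]
      · rw [Set.indicator_of_notMem hv, mul_zero]
        split_ifs <;> positivity
    have hS' := hS s hs hs2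
    have : (h : ℝ) * ((1 / (n : ℝ)) * Real.log (1 / (s - 1)) - C) ≤
        (h : ℝ) * ∑' v : S, (absNorm (v : HeightOneSpectrum (𝓞 F)).asIdeal : ℝ) ^ (-s) := by
      gcongr
    rw [hinter] at hsumlow
    linarith
  -- conclude
  rw [hidx]
  by_contra hcon
  push Not at hcon
  have hnR : (0:ℝ) < n := by exact_mod_cast hn
  have hgt : (0:ℝ) < (h : ℝ) / n - 1 := by
    rw [sub_pos, one_lt_div hnR]; exact_mod_cast hcon
  set Kt : ℝ := ∑ φ, K φ + h * C + h * C₂ with hKt
  have hall : ∀ T : ℝ, 0 ≤ T → ((h : ℝ) / n - 1) * T ≤ Kt := by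
    intro T hT
    have hs : (1:ℝ) < 1 + Real.exp (-T) := by linarith [Real.exp_pos (-T)]
    have hs2 : 1 + Real.exp (-T) ≤ 2 := by
      have : Real.exp (-T) ≤ 1 := Real.exp_le_one_iff.mpr (by linarith)
      linarith
    have := hkey _ hs hs2
    have hlog : Real.log (1 / (1 + Real.exp (-T) - 1)) = T := by
      rw [add_sub_cancel_left, one_div, Real.log_inv, Real.log_exp, neg_neg]
    rw [hlog] at this
    have e : ((h : ℝ) / n - 1) * T = (h : ℝ) * ((1 / (n : ℝ)) * T) - T := by ring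
    rw [e, hKt]
    linarith
  have hT := hall (Kt / ((h : ℝ) / n - 1) + 1) (by
    have : 0 ≤ Kt := by
      have := hall 0 le_rfl
      simpa using this
    positivity)
  rw [mul_add, mul_div_cancel₀ _ hgt.ne'] at hT
  linarith

end FirstIneq

section A1

/-- **(A1) the first inequality**: for a Galois extension `M/F` of number fields, the norm class
subgroup `P_F · N_{M/F}(I_M) / P_F` has index at most `[M : F]` in the class group of `F`. -/
theorem h7a_A1 (F M : Type*) [Field F] [NumberField F] [Field M] [NumberField M] [Algebra F M]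
    [IsGalois F M] : (h4c_normSubgroup F M).index ≤ Module.finrank F M := by
  obtain ⟨C, hC⟩ := h1z_split_density_lower F M (h9e_primeLog F) (h9e_primeLog M)
  refine h7a_index_le F (h1z_splitSet F M) (Module.finrank F M) Module.finrank_pos C hC
    (h4c_normSubgroup F M) ?_
  intro v hv
  obtain ⟨𝔔, _, h𝔔0, _, hrel⟩ := h1z_split_exists_relNorm F M v hv
  rw [← hrel]
  exact h4c_cl_relNorm_mem F M h𝔔0

theorem h7a_A1_ne_zero (F M : Type*) [Field F] [NumberField F] [Field M] [NumberField M]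
    [Algebra F M] : (h4c_normSubgroup F M).index ≠ 0 :=
  Subgroup.index_ne_zero_of_finite

/-- The consumer form of (A1). -/
def h7a_A1Statement : Prop :=
  ∀ (F M : Type) [Field F] [NumberField F] [Field M] [NumberField M] [Algebra F M] [IsGalois F M],
    (h4c_normSubgroup F M).index ≤ Module.finrank F M

theorem h7a_A1Statement_holds : h7a_A1Statement := fun F M => h7a_A1 F M

end A1

end Fermat.Agent.Lib.S14
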