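/-
S14 project (speculative), helper5, sub-slab (C1) for helper6's crossing: every ideal class of a
Dedekind domain contains an integral ideal coprime to a given nonzero ideal `𝔪`.
-/
import Mathlib
import Fermat.Agent.Lib.S14.NormClass

set_option autoImplicit false

namespace Fermat.Agent.Lib.S14

open scoped nonZeroDivisors

variable {R : Type*} [CommRing R] [IsDedekindDomain R]

/-- Ideal form: for nonzero ideals `J`, `𝔪` there are `a ≠ 0` and `I` with `J * I = (a)` and `I`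
coprime to `𝔪`. -/
theorem h5c_exists_mul_eq_span_coprime (J 𝔪 : Ideal R) (hJ : J ≠ ⊥) (h𝔪 : 𝔪 ≠ ⊥) :
    ∃ (a : R) (I : Ideal R), a ≠ 0 ∧ I ≠ ⊥ ∧ J * I = Ideal.span {a} ∧ I ⊔ 𝔪 = ⊤ := by
  have hJ𝔪 : J * 𝔪 ≠ 0 := mul_ne_zero hJ h𝔪
  obtain ⟨a, ha⟩ := IsDedekindDomain.exists_sup_span_eq (Ideal.mul_le_left : J * 𝔪 ≤ J) hJ𝔪
  have haJ : Ideal.span {a} ≤ J := by rw [← ha]; exact le_sup_right
  obtain ⟨I, hI⟩ := Ideal.dvd_iff_le.mpr haJ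
  have hcop : I ⊔ 𝔪 = ⊤ := by
    have h1 : J * (𝔪 ⊔ I) = J * 1 := by
      rw [Ideal.mul_sup, ← hI, ha, mul_one]
    have h2 : 𝔪 ⊔ I = 1 := mul_left_cancel₀ hJ h1
    rw [sup_comm, h2, Ideal.one_eq_top]
  by_cases ha0 : a = 0
  · -- then `J * 𝔪 = J`, so `𝔪 = ⊤`; take `I = ⊤` and `a` any nonzero element of `J`
    subst ha0
    have h1 : J * 𝔪 = J * 1 := by
      rw [mul_one]
      have h0 : Ideal.span {(0 : R)} = ⊥ := Ideal.span_singleton_eq_bot.mpr rfl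
      rw [h0, sup_bot_eq] at ha
      exact ha
    have h2 : 𝔪 = 1 := mul_left_cancel₀ hJ h1
    obtain ⟨b, hbJ, hb0⟩ := Submodule.exists_mem_ne_zero_of_ne_bot hJ
    have hbJ' : Ideal.span {b} ≤ J := (Ideal.span_singleton_le_iff_mem J).mpr hbJ
    obtain ⟨I', hI'⟩ := Ideal.dvd_iff_le.mpr hbJ'
    refine ⟨b, I', hb0, ?_, hI'.symm, ?_⟩
    · rintro rfl
      rw [Ideal.mul_bot, Ideal.span_singleton_eq_bot] at hI'
      exact hb0 hI'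
    · rw [h2, Ideal.one_eq_top, sup_top_eq]
  · refine ⟨a, I, ha0, ?_, hI.symm, hcop⟩
    rintro rfl
    rw [Ideal.mul_bot, Ideal.span_singleton_eq_bot] at hI
    exact ha0 hI

/-- Every ideal class contains an integral ideal coprime to a given nonzero ideal. -/
theorem h5c_exists_coprime_rep (c : ClassGroup R) (𝔪 : Ideal R) (h𝔪 : 𝔪 ≠ ⊥) :
    ∃ I : (Ideal R)⁰, ClassGroup.mk0 I = c ∧ (I : Ideal R) ⊔ 𝔪 = ⊤ := by
  obtain ⟨J, hJ⟩ := ClassGroup.mk0_surjective c⁻¹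
  have hJ0 : (J : Ideal R) ≠ ⊥ := by
    have := J.2
    rw [mem_nonZeroDivisors_iff_ne_zero, Ne, Ideal.zero_eq_bot] at this
    exact this
  obtain ⟨a, I, ha0, hI0, hJI, hcop⟩ := h5c_exists_mul_eq_span_coprime (J : Ideal R) 𝔪 hJ0 h𝔪
  refine ⟨⟨I, h4c_mem_nzd hI0⟩, ?_, hcop⟩
  have h1 : ClassGroup.mk0 J * ClassGroup.mk0 ⟨I, h4c_mem_nzd hI0⟩ = 1 := by
    rw [← map_mul, ClassGroup.mk0_eq_one_iff]
    exact ⟨⟨a, hJI⟩⟩
  rw [hJ] at h1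
  exact (inv_mul_eq_one.mp h1).symm ▸ rfl

/-- The same in terms of `h4c_cl` and `IsCoprime`. -/
theorem h5c_exists_coprime_cl (c : ClassGroup R) (𝔪 : Ideal R) (h𝔪 : 𝔪 ≠ ⊥) :
    ∃ I : Ideal R, I ≠ ⊥ ∧ h4c_cl I = c ∧ IsCoprime I 𝔪 := by
  obtain ⟨I, hI, hcop⟩ := h5c_exists_coprime_rep c 𝔪 h𝔪
  have hI0 : (I : Ideal R) ≠ ⊥ := by
    have := I.2
    rw [mem_nonZeroDivisors_iff_ne_zero, Ne, Ideal.zero_eq_bot] at this
    exact this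
  refine ⟨I, hI0, ?_, Ideal.isCoprime_iff_sup_eq.mpr hcop⟩
  rw [h4c_cl_of_ne hI0, ← hI]

end Fermat.Agent.Lib.S14
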