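/-
S14 project (speculative), piece (C-c) of the crossing (helper1): the homomorphism-free counting
core.

`F` a number field, `𝔪 ≠ ⊥` an ideal ("good" ideals: those coprime to `𝔪`), `φ` a map from ideals
to a commutative group which is multiplicative on good ideals, trivial on good principal ideals
and killed by `p`.  If the good primes with `φ = 1` have lower Dirichlet density `≥ 1/p` and `φ`
is not identically `1` on good ideals, then the class of every good ideal `A` with `φ A = 1` lies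
in the subgroup of the class group generated by the classes of the good primes with `φ = 1`.
-/
import Mathlib
import Fermat.Agent.Lib.S14.FirstIneq
import Fermat.Agent.Lib.S14.H5Coprime
import Fermat.Agent.Lib.S14.ZetaZ3

set_option autoImplicit false
set_option linter.unusedSectionVars false
set_option linter.unusedVariables false

namespace Fermat.Agent.Lib.S14

open NumberField Ideal IsDedekindDomain

section core

variable {F : Type*} [Field F] [NumberField F] {D : Type*} [CommGroup D]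
  (𝔪 : Ideal (𝓞 F)) (φ : Ideal (𝓞 F) → D)

theorem h1c_isCoprime_top : IsCoprime (⊤ : Ideal (𝓞 F)) 𝔪 := by
  rw [Ideal.isCoprime_iff_sup_eq]; simp

theorem h1c_phi_top
    (hmul : ∀ I J : Ideal (𝓞 F), IsCoprime I 𝔪 → IsCoprime J 𝔪 → φ (I * J) = φ I * φ J) :
    φ ⊤ = 1 := by
  have h := hmul ⊤ ⊤ (h1c_isCoprime_top 𝔪) (h1c_isCoprime_top 𝔪)
  rw [Ideal.top_mul] at h
  exact (mul_eq_left.mp h.symm)

theorem h1c_isCoprime_pow {I : Ideal (𝓞 F)} (hI : IsCoprime I 𝔪) (n : ℕ) :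
    IsCoprime (I ^ n) 𝔪 := IsCoprime.pow_left hI

theorem h1c_phi_pow
    (hmul : ∀ I J : Ideal (𝓞 F), IsCoprime I 𝔪 → IsCoprime J 𝔪 → φ (I * J) = φ I * φ J)
    {I : Ideal (𝓞 F)} (hI : IsCoprime I 𝔪) (n : ℕ) : φ (I ^ n) = φ I ^ n := by
  induction n with
  | zero => rw [pow_zero, pow_zero, Ideal.one_eq_top]; exact h1c_phi_top 𝔪 φ hmul
  | succ n ih => rw [pow_succ, pow_succ, hmul _ _ (h1c_isCoprime_pow 𝔪 hI n) hI, ih]

/-- The classes of the good ideals with `φ = 1` form a subgroup. -/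
noncomputable def h1c_kerSubgroup
    (hmul : ∀ I J : Ideal (𝓞 F), IsCoprime I 𝔪 → IsCoprime J 𝔪 → φ (I * J) = φ I * φ J) :
    Subgroup (ClassGroup (𝓞 F)) where
  carrier := {c | ∃ I : Ideal (𝓞 F), I ≠ ⊥ ∧ IsCoprime I 𝔪 ∧ h4c_cl I = c ∧ φ I = 1}
  one_mem' := ⟨⊤, by simp, h1c_isCoprime_top 𝔪, h4c_cl_top, h1c_phi_top 𝔪 φ hmul⟩
  mul_mem' := by
    rintro _ _ ⟨I, hI0, hI, rfl, hφI⟩ ⟨J, hJ0, hJ, rfl, hφJ⟩
    exact ⟨I * J, mul_ne_zero hI0 hJ0, IsCoprime.mul_left hI hJ, h4c_cl_mul hI0 hJ0,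
      by rw [hmul I J hI hJ, hφI, hφJ, one_mul]⟩
  inv_mem' := by
    rintro _ ⟨I, hI0, hI, rfl, hφI⟩
    set h := Nat.card (ClassGroup (𝓞 F)) with hh
    have hpos : 0 < h := Nat.card_pos
    refine ⟨I ^ (h - 1), pow_ne_zero _ hI0, h1c_isCoprime_pow 𝔪 hI _, ?_, ?_⟩
    · rw [h4c_cl_pow hI0]
      have h1 : h4c_cl I * h4c_cl I ^ (h - 1) = 1 := by
        rw [← pow_succ', Nat.sub_add_cancel hpos, hh]
        exact pow_card_eq_one'
      exact (eq_inv_of_mul_eq_one_right h1)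
    · rw [h1c_phi_pow 𝔪 φ hmul hI, hφI, one_pow]

theorem h1c_mem_kerSubgroup
    (hmul : ∀ I J : Ideal (𝓞 F), IsCoprime I 𝔪 → IsCoprime J 𝔪 → φ (I * J) = φ I * φ J)
    (c : ClassGroup (𝓞 F)) :
    c ∈ h1c_kerSubgroup 𝔪 φ hmul ↔
      ∃ I : Ideal (𝓞 F), I ≠ ⊥ ∧ IsCoprime I 𝔪 ∧ h4c_cl I = c ∧ φ I = 1 := Iff.rfl


/-- **(C-c) The counting core of the crossing.** -/
theorem h1c_counting_core (p : ℕ) [hp : Fact p.Prime] (h𝔪' : 𝔪 ≠ ⊤)
    (hmul : ∀ I J : Ideal (𝓞 F), IsCoprime I 𝔪 → IsCoprime J 𝔪 → φ (I * J) = φ I * φ J)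
    (hprinc : ∀ β : 𝓞 F, IsCoprime (Ideal.span {β}) 𝔪 → φ (Ideal.span {β}) = 1)
    (C : ℝ)
    (hS : ∀ s : ℝ, 1 < s → s ≤ 2 → (1 / (p : ℝ)) * Real.log (1 / (s - 1)) - C ≤
      ∑' v : ↥{v : HeightOneSpectrum (𝓞 F) | IsCoprime v.asIdeal 𝔪 ∧ φ v.asIdeal = 1},
        (absNorm (v : HeightOneSpectrum (𝓞 F)).asIdeal : ℝ) ^ (-s))
    (I₁ : Ideal (𝓞 F)) (hI₁ : IsCoprime I₁ 𝔪) (hφ₁ : φ I₁ ≠ 1) (hpow₁ : φ I₁ ^ p = 1)
    (A : Ideal (𝓞 F)) (hA : IsCoprime A 𝔪) (hφA : φ A = 1) :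
    h4c_cl A ∈ Subgroup.closure {c : ClassGroup (𝓞 F) |
      ∃ v : HeightOneSpectrum (𝓞 F), IsCoprime v.asIdeal 𝔪 ∧ φ v.asIdeal = 1 ∧
        c = h4c_cl v.asIdeal} := by
  classical
  have hgood_ne : ∀ I : Ideal (𝓞 F), IsCoprime I 𝔪 → I ≠ ⊥ := by
    rintro I hI rfl
    rw [Ideal.isCoprime_iff_sup_eq, bot_sup_eq] at hI
    exact h𝔪' hI
  set HS : Subgroup (ClassGroup (𝓞 F)) := Subgroup.closure {c : ClassGroup (𝓞 F) |
      ∃ v : HeightOneSpectrum (𝓞 F), IsCoprime v.asIdeal 𝔪 ∧ φ v.asIdeal = 1 ∧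
        c = h4c_cl v.asIdeal} with hHS
  set H' := h1c_kerSubgroup 𝔪 φ hmul with hH'
  -- index of `HS`
  have hidx : HS.index ≤ p := by
    refine h7a_index_le F _ p hp.out.pos C hS HS ?_
    intro v hv
    exact Subgroup.subset_closure ⟨v, hv.1, hv.2, rfl⟩
  have hidx0 : HS.index ≠ 0 := Subgroup.index_ne_zero_of_finite
  -- `HS ≤ H'`
  have hle : HS ≤ H' := by
    rw [hHS, Subgroup.closure_le]
    rintro c ⟨v, hv1, hv2, rfl⟩
    exact ⟨v.asIdeal, v.ne_bot, hv1, rfl, hv2⟩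
  -- `[I₁] ∉ H'`
  have hI₁0 : I₁ ≠ ⊥ := hgood_ne I₁ hI₁
  have hnot : h4c_cl I₁ ∉ H' := by
    rintro ⟨A', hA'0, hA', hcl, hφA'⟩
    set h := Nat.card (ClassGroup (𝓞 F)) with hh
    have hpos : 0 < h := Nat.card_pos
    set J := I₁ * A' ^ (h - 1) with hJ
    have hJ0 : J ≠ ⊥ := mul_ne_zero hI₁0 (pow_ne_zero _ hA'0)
    have hJgood : IsCoprime J 𝔪 := IsCoprime.mul_left hI₁ (h1c_isCoprime_pow 𝔪 hA' _)
    have hclJ : h4c_cl J = 1 := by
      rw [hJ, h4c_cl_mul hI₁0 (pow_ne_zero _ hA'0), h4c_cl_pow hA'0, hcl, ← pow_succ',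
        Nat.sub_add_cancel hpos, hh]
      exact pow_card_eq_one'
    rw [h4c_cl_of_ne hJ0, ClassGroup.mk0_eq_one_iff] at hclJ
    obtain ⟨δ, hδ⟩ := hclJ.principal
    have hJδ : J = Ideal.span {δ} := hδ
    have h1 : φ J = 1 := by
      rw [hJδ]
      exact hprinc δ (hJδ ▸ hJgood)
    rw [hJ, hmul _ _ hI₁ (h1c_isCoprime_pow 𝔪 hA' _), h1c_phi_pow 𝔪 φ hmul hA', hφA', one_pow,
      mul_one] at h1
    exact hφ₁ h1
  -- `p ∣ H'.index`
  have hpdvd : p ∣ H'.index := by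
    set x : ClassGroup (𝓞 F) ⧸ H' := QuotientGroup.mk (h4c_cl I₁) with hx
    have hx1 : x ≠ 1 := by
      rw [hx, Ne, QuotientGroup.eq_one_iff]
      exact hnot
    have hxp : x ^ p = 1 := by
      rw [hx, ← QuotientGroup.mk_pow, QuotientGroup.eq_one_iff, ← h4c_cl_pow hI₁0]
      exact ⟨I₁ ^ p, pow_ne_zero _ hI₁0, h1c_isCoprime_pow 𝔪 hI₁ _, rfl,
        by rw [h1c_phi_pow 𝔪 φ hmul hI₁, hpow₁]⟩
    have hord : orderOf x = p := orderOf_eq_prime hxp hx1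
    rw [Subgroup.index, ← hord]
    exact orderOf_dvd_natCard x
  have hdvd : H'.index ∣ HS.index := Subgroup.index_dvd_of_le hle
  have hH'0 : H'.index ≠ 0 := Subgroup.index_ne_zero_of_finite
  have h1 : p ≤ H'.index := Nat.le_of_dvd (Nat.pos_of_ne_zero hH'0) hpdvd
  have h2 : H'.index ≤ HS.index := Nat.le_of_dvd (Nat.pos_of_ne_zero hidx0) hdvd
  have heq : H'.index = HS.index := by omega
  have hrel : HS.relIndex H' = 1 := by
    have := Subgroup.relIndex_mul_index hle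
    rw [heq] at this
    exact Nat.eq_of_mul_eq_mul_right (Nat.pos_of_ne_zero hidx0) (by rw [this, one_mul])
  have hge : H' ≤ HS := Subgroup.relIndex_eq_one.mp hrel
  exact hge ⟨A, hgood_ne A hA, hA, rfl, hφA⟩

end core


/-- Density input for `h1c_counting_core`: a set of primes of `F` containing all but finitely many
of the primes splitting completely in a Galois extension `M/F` has lower Dirichlet density
`≥ 1/[M:F]`. -/
theorem h1c_density_of_superset (F M : Type*) [Field F] [NumberField F] [Field M] [NumberField M]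
    [Algebra F M] [IsGalois F M] (S' T : Set (HeightOneSpectrum (𝓞 F))) (hT : T.Finite)
    (hsub : h1z_splitSet F M ⊆ S' ∪ T) :
    ∃ C : ℝ, ∀ s : ℝ, 1 < s → s ≤ 2 →
      (1 / (Module.finrank F M : ℝ)) * Real.log (1 / (s - 1)) - C ≤
        ∑' v : ↥S', (absNorm (v : HeightOneSpectrum (𝓞 F)).asIdeal : ℝ) ^ (-s) := by
  obtain ⟨C₀, hC₀⟩ := h1z_split_density_lower' F M
  refine ⟨C₀ + T.ncard, fun s hs1 hs2 => ?_⟩
  have hsum := (h9e_primeLog F).1 s hs1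
  have h1 := h1s_tsum_le_of_subset_union (fun v => h1s_pterm_nonneg F v s) hsum hsub
  have h2 : ∑' v : ↥T, (absNorm v.1.asIdeal : ℝ) ^ (-s) ≤ T.ncard :=
    NumberField.Set.primeIdealZetaSum_le_card_of_finite hT (by linarith)
  have h3 := hC₀ s hs1 hs2
  linarith


/-! ### The norm homomorphism on class groups and the norm-down step -/

section normHom

variable (K F : Type*) [Field K] [NumberField K] [Field F] [NumberField F] [Algebra K F]

/-- The relative norm is compatible with the class of an ideal. -/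
theorem h1c_cl_relNorm_congr {A B : Ideal (𝓞 F)} (hA : A ≠ ⊥) (hB : B ≠ ⊥)
    (h : h4c_cl A = h4c_cl B) :
    h4c_cl (Ideal.relNorm (𝓞 K) A) = h4c_cl (Ideal.relNorm (𝓞 K) B) := by
  rw [h4c_cl_of_ne hA, h4c_cl_of_ne hB, ClassGroup.mk0_eq_mk0_iff] at h
  obtain ⟨x, y, hx, hy, hxy⟩ := h
  rw [h4c_cl_of_ne (h4c_relNorm_ne_bot K F hA), h4c_cl_of_ne (h4c_relNorm_ne_bot K F hB),
    ClassGroup.mk0_eq_mk0_iff]
  refine ⟨Algebra.intNorm (𝓞 K) (𝓞 F) x, Algebra.intNorm (𝓞 K) (𝓞 F) y,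
    Algebra.intNorm_ne_zero.mpr hx, Algebra.intNorm_ne_zero.mpr hy, ?_⟩
  have := congrArg (Ideal.relNorm (𝓞 K)) hxy
  simpa [map_mul, Ideal.relNorm_singleton] using this

/-- The norm homomorphism `Cl_F → Cl_K`. -/
noncomputable def h1c_normHom : ClassGroup (𝓞 F) →* ClassGroup (𝓞 K) where
  toFun c := h4c_cl (Ideal.relNorm (𝓞 K) (Classical.choose (h4c_cl_surjective c)))
  map_one' := by
    have hs := Classical.choose_spec (h4c_cl_surjective (1 : ClassGroup (𝓞 F)))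
    have h1 : h4c_cl (Classical.choose (h4c_cl_surjective (1 : ClassGroup (𝓞 F)))) =
        h4c_cl (⊤ : Ideal (𝓞 F)) := by rw [hs.2, h4c_cl_top]
    rw [h1c_cl_relNorm_congr K F hs.1 (by simp) h1, Ideal.relNorm_top, h4c_cl_top]
  map_mul' c₁ c₂ := by
    have hs := Classical.choose_spec (h4c_cl_surjective (c₁ * c₂))
    have hs₁ := Classical.choose_spec (h4c_cl_surjective c₁)
    have hs₂ := Classical.choose_spec (h4c_cl_surjective c₂)
    have h1 : h4c_cl (Classical.choose (h4c_cl_surjective (c₁ * c₂))) =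
        h4c_cl (Classical.choose (h4c_cl_surjective c₁) *
          Classical.choose (h4c_cl_surjective c₂)) := by
      rw [hs.2, h4c_cl_mul hs₁.1 hs₂.1, hs₁.2, hs₂.2]
    rw [h1c_cl_relNorm_congr K F hs.1 (mul_ne_zero hs₁.1 hs₂.1) h1, map_mul,
      h4c_cl_mul (h4c_relNorm_ne_bot K F hs₁.1) (h4c_relNorm_ne_bot K F hs₂.1)]

theorem h1c_normHom_cl {A : Ideal (𝓞 F)} (hA : A ≠ ⊥) :
    h1c_normHom K F (h4c_cl A) = h4c_cl (Ideal.relNorm (𝓞 K) A) := by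
  have hs := Classical.choose_spec (h4c_cl_surjective (h4c_cl A))
  exact h1c_cl_relNorm_congr K F hs.1 hA hs.2

/-- **Norm-down.** If the norms of the generators lie in a subgroup `N` of `Cl_K`, so does the
norm of every ideal whose class is in the subgroup generated by them. -/
theorem h1c_norm_down (N : Subgroup (ClassGroup (𝓞 K))) (P : HeightOneSpectrum (𝓞 F) → Prop)
    (hgen : ∀ v : HeightOneSpectrum (𝓞 F), P v →
      h4c_cl (Ideal.relNorm (𝓞 K) v.asIdeal) ∈ N)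
    (A : Ideal (𝓞 F)) (hA0 : A ≠ ⊥)
    (hA : h4c_cl A ∈ Subgroup.closure {c : ClassGroup (𝓞 F) |
      ∃ v : HeightOneSpectrum (𝓞 F), P v ∧ c = h4c_cl v.asIdeal}) :
    h4c_cl (Ideal.relNorm (𝓞 K) A) ∈ N := by
  have hle : Subgroup.closure {c : ClassGroup (𝓞 F) |
      ∃ v : HeightOneSpectrum (𝓞 F), P v ∧ c = h4c_cl v.asIdeal} ≤
      N.comap (h1c_normHom K F) := by
    rw [Subgroup.closure_le]
    rintro c ⟨v, hv, rfl⟩
    rw [SetLike.mem_coe, Subgroup.mem_comap, h1c_normHom_cl K F v.ne_bot]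
    exact hgen v hv
  have := hle hA
  rwa [Subgroup.mem_comap, h1c_normHom_cl K F hA0] at this

end normHom


/-! ### The endgame of the crossing, in abstract form -/

section endgame

/-- **Crossing endgame (abstract).**  `K ⊂ F` number fields, `𝔪` a proper ideal of `𝓞 F`, `φ` as in
`h1c_counting_core`, `N` a subgroup of `Cl_K` containing the norms of all good primes of `F` with
`φ = 1`.  Then `N` contains the norm of every good ideal `A` of `F` with `φ A = 1`. -/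
theorem h1c_cross_endgame (K F : Type*) [Field K] [NumberField K] [Field F] [NumberField F]
    [Algebra K F] {D : Type*} [CommGroup D] (p : ℕ) [hp : Fact p.Prime]
    (𝔪 : Ideal (𝓞 F)) (h𝔪' : 𝔪 ≠ ⊤) (φ : Ideal (𝓞 F) → D)
    (hmul : ∀ I J : Ideal (𝓞 F), IsCoprime I 𝔪 → IsCoprime J 𝔪 → φ (I * J) = φ I * φ J)
    (hprinc : ∀ β : 𝓞 F, IsCoprime (Ideal.span {β}) 𝔪 → φ (Ideal.span {β}) = 1)
    (C : ℝ)
    (hS : ∀ s : ℝ, 1 < s → s ≤ 2 → (1 / (p : ℝ)) * Real.log (1 / (s - 1)) - C ≤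
      ∑' v : ↥{v : HeightOneSpectrum (𝓞 F) | IsCoprime v.asIdeal 𝔪 ∧ φ v.asIdeal = 1},
        (absNorm (v : HeightOneSpectrum (𝓞 F)).asIdeal : ℝ) ^ (-s))
    (N : Subgroup (ClassGroup (𝓞 K)))
    (hgen : ∀ v : HeightOneSpectrum (𝓞 F), IsCoprime v.asIdeal 𝔪 → φ v.asIdeal = 1 →
      h4c_cl (Ideal.relNorm (𝓞 K) v.asIdeal) ∈ N)
    (I₁ : Ideal (𝓞 F)) (hI₁ : IsCoprime I₁ 𝔪) (hφ₁ : φ I₁ ≠ 1) (hpow₁ : φ I₁ ^ p = 1)
    (A : Ideal (𝓞 F)) (hA : IsCoprime A 𝔪) (hφA : φ A = 1) :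
    h4c_cl (Ideal.relNorm (𝓞 K) A) ∈ N := by
  have hA0 : A ≠ ⊥ := by
    rintro rfl
    rw [Ideal.isCoprime_iff_sup_eq, bot_sup_eq] at hA
    exact h𝔪' hA
  have hcore := h1c_counting_core 𝔪 φ p h𝔪' hmul hprinc C hS I₁ hI₁ hφ₁ hpow₁ A hA hφA
  refine h1c_norm_down K F N (fun v => IsCoprime v.asIdeal 𝔪 ∧ φ v.asIdeal = 1)
    (fun v hv => hgen v hv.1 hv.2) A hA0 ?_
  convert hcore using 4
  simp only [and_assoc]

/-- The last algebraic step: from `[𝔮₂ 𝔮₁^{j(p-1)}] ∈ N(L/K)` to `[𝔮₂]/[𝔮₁]^j ∈ N(L/K)`, since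
`p`-th powers are norms. -/
theorem h1c_cross_final (K L : Type*) [Field K] [NumberField K] [Field L] [NumberField L]
    [Algebra K L] (p : ℕ) (hp : 0 < p) (hfr : Module.finrank (𝓞 K) (𝓞 L) = p)
    (𝔮₁ 𝔮₂ : Ideal (𝓞 K)) (h₁ : 𝔮₁ ≠ ⊥) (h₂ : 𝔮₂ ≠ ⊥) (j : ℕ)
    (h : h4c_cl (𝔮₂ * 𝔮₁ ^ (j * (p - 1))) ∈ h4c_normSubgroup K L) :
    h4c_cl 𝔮₂ / h4c_cl 𝔮₁ ^ j ∈ h4c_normSubgroup K L := by
  have hpw := h4c_cl_pow_finrank_mem K L h₁
  rw [hfr] at hpw
  rw [h4c_cl_mul h₂ (pow_ne_zero _ h₁), h4c_cl_pow h₁] at h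
  have h3 : (h4c_cl 𝔮₁ ^ p) ^ j ∈ h4c_normSubgroup K L := Subgroup.pow_mem _ hpw j
  have h4 := Subgroup.div_mem _ h h3
  have : h4c_cl 𝔮₂ * h4c_cl 𝔮₁ ^ (j * (p - 1)) / (h4c_cl 𝔮₁ ^ p) ^ j =
      h4c_cl 𝔮₂ / h4c_cl 𝔮₁ ^ j := by
    rw [← pow_mul, div_eq_div_iff_mul_eq_mul, mul_assoc, ← pow_add]
    congr 2
    have : p = (p - 1) + 1 := by omega
    rw [mul_comm p j]
    conv_rhs => rw [this]
    ring
  rwa [this] at h4

end endgame

end Fermat.Agent.Lib.S14
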