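/-
S14 project (speculative), (helper2), for stream (C): the "norm-down" step of the crossing.
* `h2c_cl_relNorm_congr`: the relative norm respects ideal classes
* `h2c_norm_down`: `N_{F/K}` maps norm classes of `Ω/F` to norm classes of `L/K`
-/
import Mathlib
import Fermat.Agent.Lib.S14.NormClass
import Fermat.Agent.Lib.S14.NTSetup

set_option autoImplicit false
set_option linter.unusedSectionVars false

open NumberField

namespace Fermat.Agent.Lib.S14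

section relnormclass

variable {F M : Type*} [Field F] [NumberField F] [Field M] [NumberField M] [Algebra F M]

/-- The relative norm respects ideal classes. -/
theorem h2c_cl_relNorm_congr {𝔇 𝔇' : Ideal (𝓞 M)} (h : 𝔇 ≠ ⊥) (h' : 𝔇' ≠ ⊥)
    (hcl : h4c_cl 𝔇 = h4c_cl 𝔇') :
    h4c_cl (Ideal.relNorm (𝓞 F) 𝔇) = h4c_cl (Ideal.relNorm (𝓞 F) 𝔇') := by
  rw [h4c_cl_of_ne h, h4c_cl_of_ne h', ClassGroup.mk0_eq_mk0_iff] at hcl
  obtain ⟨x, y, hx, hy, hxy⟩ := hcl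
  rw [h4c_cl_of_ne (h4c_relNorm_ne_bot F M h), h4c_cl_of_ne (h4c_relNorm_ne_bot F M h'),
    ClassGroup.mk0_eq_mk0_iff]
  refine ⟨Algebra.intNorm (𝓞 F) (𝓞 M) x, Algebra.intNorm (𝓞 F) (𝓞 M) y,
    Algebra.intNorm_ne_zero.mpr hx, Algebra.intNorm_ne_zero.mpr hy, ?_⟩
  have := congrArg (Ideal.relNorm (𝓞 F)) hxy
  rw [map_mul, map_mul, Ideal.relNorm_singleton, Ideal.relNorm_singleton] at this
  exact this

end relnormclass

section down

variable {K F L Ω : Type*} [Field K] [NumberField K] [Field F] [NumberField F]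
  [Field L] [NumberField L] [Field Ω] [NumberField Ω]
  [Algebra K F] [Algebra K L] [Algebra K Ω] [Algebra F Ω] [Algebra L Ω]
  [IsScalarTower K F Ω] [IsScalarTower K L Ω]

/-- NORM-DOWN: for towers `K ⊆ F ⊆ Ω`, `K ⊆ L ⊆ Ω`, the relative norm `N_{F/K}` maps norm classes
of `Ω/F` to norm classes of `L/K`. -/
theorem h2c_norm_down {𝔄 : Ideal (𝓞 F)} (h𝔄 : 𝔄 ≠ ⊥)
    (hmem : h4c_cl 𝔄 ∈ h4c_normSubgroup F Ω) :
    h4c_cl (Ideal.relNorm (𝓞 K) 𝔄) ∈ h4c_normSubgroup K L := by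
  obtain ⟨𝔇, h𝔇, he⟩ := (h4n_mem_normSubgroup_iff _).mp hmem
  have h1 := h2c_cl_relNorm_congr (F := K) h𝔄 (h4c_relNorm_ne_bot F Ω h𝔇) he
  rw [h1, Ideal.relNorm_relNorm, ← Ideal.relNorm_relNorm (𝓞 K) (𝓞 L)]
  exact h4c_cl_relNorm_mem K L (h4c_relNorm_ne_bot L Ω h𝔇)

end down

end Fermat.Agent.Lib.S14
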