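/-
S14 project (speculative), (helper2), for stream (C): the abstract ENDGAME of the crossing.
`F ⊆ Ω` Galois of prime degree `p`, `l` a prime.  If norms of principal ideals of `F` (hprinc, from
the tame norm computation) and norms of ideals of `Ω` prime to `l` (hnorm, from the cyclotomic
action, `h2c_hnorm_of_char`) are `p`-th powers mod `l`, and some ideal of `F` prime to `l` has norm
a non-`p`-th-power mod `l`, then every ideal `𝔄` of `F` prime to `l` whose norm is a `p`-th power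
mod `l` has its class in `h4c_normSubgroup F Ω` (uses the first inequality `h7a_A1`).
-/
import Mathlib
import Fermat.Agent.Lib.S14.NormClass
import Fermat.Agent.Lib.S14.H5Coprime
import Fermat.Agent.Lib.S14.FirstIneq
import Fermat.Agent.Lib.S14.CrossDown
import Fermat.Agent.Lib.S14.ArtinCyclo

set_option autoImplicit false
set_option linter.unusedSectionVars false

open NumberField

namespace Fermat.Agent.Lib.S14

section nu

variable {F : Type*} [Field F] [NumberField F] (l : ℕ) [Fact l.Prime]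

/-- The absolute norm of an ideal, modulo `l`. -/
noncomputable def h2c_nu (I : Ideal (𝓞 F)) : ZMod l := ((Ideal.absNorm I : ℕ) : ZMod l)

theorem h2c_nu_mul (I J : Ideal (𝓞 F)) : h2c_nu l (I * J) = h2c_nu l I * h2c_nu l J := by
  unfold h2c_nu
  rw [map_mul, Nat.cast_mul]

theorem h2c_nu_top : h2c_nu l (⊤ : Ideal (𝓞 F)) = 1 := by
  unfold h2c_nu
  rw [Ideal.absNorm_top, Nat.cast_one]

theorem h2c_nu_pow (I : Ideal (𝓞 F)) (n : ℕ) : h2c_nu l (I ^ n) = h2c_nu l I ^ n := by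
  unfold h2c_nu
  rw [map_pow, Nat.cast_pow]

theorem h2c_ne_bot_of_nu_ne_zero {I : Ideal (𝓞 F)} (h : h2c_nu l I ≠ 0) : I ≠ ⊥ := by
  rintro rfl
  apply h
  unfold h2c_nu
  rw [Ideal.absNorm_bot, Nat.cast_zero]

theorem h2c_nu_ne_zero_iff {I : Ideal (𝓞 F)} : h2c_nu l I ≠ 0 ↔ ¬ l ∣ Ideal.absNorm I := by
  unfold h2c_nu
  rw [Ne, ZMod.natCast_eq_zero_iff]

/-- An ideal coprime to `(l)` has absolute norm prime to `l`. -/
theorem h2c_nu_ne_zero_of_sup_eq_top {I : Ideal (𝓞 F)}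
    (h : I ⊔ Ideal.span {(l : 𝓞 F)} = ⊤) : h2c_nu l I ≠ 0 := by
  rw [h2c_nu_ne_zero_iff]
  intro hdvd
  obtain ⟨P, hPmax, hPu, hPI⟩ :=
    Ideal.exists_isMaximal_dvd_of_dvd_absNorm' (Fact.out : l.Prime) I hdvd
  have h1 : I ≤ P := Ideal.dvd_iff_le.mp hPI
  have h2 : (l : 𝓞 F) ∈ P := by
    have : ((l : ℤ)) ∈ P.under ℤ := by
      rw [hPu]; exact Ideal.mem_span_singleton_self _
    rw [Ideal.mem_comap] at this
    simpa using this
  have h3 : I ⊔ Ideal.span {(l : 𝓞 F)} ≤ P :=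
    sup_le h1 ((Ideal.span_singleton_le_iff_mem P).mpr h2)
  rw [h, top_le_iff] at h3
  exact hPmax.ne_top h3

theorem h2c_span_l_ne_bot : Ideal.span {(l : 𝓞 F)} ≠ ⊥ := by
  rw [Ne, Ideal.span_singleton_eq_bot]
  exact Nat.cast_ne_zero.mpr (Fact.out : l.Prime).ne_zero

end nu

section field

variable {l : ℕ} [Fact l.Prime]

/-- Field computation in `ZMod l`: if `A C = u ^ p`, `B C = v ^ p`, `A = a ^ p` and `A C ≠ 0`
then `B` is a `p`-th power. -/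
theorem h2c_pow_transfer {p : ℕ} (hp : p ≠ 0) {A B C u v a : ZMod l} (hA : A * C = u ^ p)
    (hB : B * C = v ^ p) (ha : A = a ^ p) (hAC : A * C ≠ 0) : ∃ b : ZMod l, B = b ^ p := by
  have hu : u ≠ 0 := by
    intro h
    rw [h, zero_pow hp] at hA
    exact hAC hA
  have hC : C ≠ 0 := right_ne_zero_of_mul hAC
  have hA0 : A ≠ 0 := left_ne_zero_of_mul hAC
  refine ⟨v * a / u, ?_⟩
  rw [div_pow, mul_pow, ← hB, ← ha, ← hA]
  field_simp

end field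

section endgame

variable {F Ω : Type*} [Field F] [NumberField F] [Field Ω] [NumberField Ω] [Algebra F Ω]
variable (l p : ℕ) [Fact l.Prime] [Fact p.Prime]

/-- (★) Two integral ideals prime to `l` in the same class: if the norm of one is a `p`-th power
mod `l` then so is the norm of the other (given that norms of principal ideals are). -/
theorem h2c_star
    (hprinc : ∀ x : 𝓞 F, x ≠ 0 → ∃ c : ZMod l, h2c_nu l (Ideal.span {x}) = c ^ p)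
    {X Y : Ideal (𝓞 F)} (hX : h2c_nu l X ≠ 0) (hY : h2c_nu l Y ≠ 0) (hcl : h4c_cl X = h4c_cl Y)
    (hXp : ∃ a : ZMod l, h2c_nu l X = a ^ p) : ∃ b : ZMod l, h2c_nu l Y = b ^ p := by
  have hp0 : p ≠ 0 := (Fact.out : p.Prime).ne_zero
  have X0 := h2c_ne_bot_of_nu_ne_zero l hX
  have Y0 := h2c_ne_bot_of_nu_ne_zero l hY
  obtain ⟨c, Z, hc0, hZ0, hYZ, hcop⟩ :=
    h5c_exists_mul_eq_span_coprime Y (Ideal.span {(l : 𝓞 F)}) Y0 (h2c_span_l_ne_bot l)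
  have hZν : h2c_nu l Z ≠ 0 := h2c_nu_ne_zero_of_sup_eq_top l hcop
  have hXZ0 : X * Z ≠ ⊥ := mul_ne_zero X0 hZ0
  have h1 : h4c_cl (X * Z) = 1 := by
    rw [h4c_cl_mul X0 hZ0, hcl, ← h4c_cl_mul Y0 hZ0, hYZ, h4c_cl_span hc0]
  rw [h4c_cl_of_ne hXZ0, ClassGroup.mk0_eq_one_iff] at h1
  obtain ⟨d, hd⟩ := h1.principal
  have hd' : X * Z = Ideal.span {d} := hd
  have hd0 : d ≠ 0 := by
    rintro rfl
    apply hXZ0
    rw [hd', Ideal.span_singleton_eq_bot]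
  obtain ⟨u, hu⟩ := hprinc d hd0
  obtain ⟨v, hv⟩ := hprinc c hc0
  obtain ⟨a, ha⟩ := hXp
  exact h2c_pow_transfer hp0 (A := h2c_nu l X) (B := h2c_nu l Y) (C := h2c_nu l Z)
    (by rw [← h2c_nu_mul, hd', hu]) (by rw [← h2c_nu_mul, hYZ, hv]) ha (mul_ne_zero hX hZν)

/-- The set of classes having an integral representative prime to `l` whose norm is a `p`-th
power modulo `l`. -/
def h2c_S : Set (ClassGroup (𝓞 F)) :=
  {c | ∃ I : Ideal (𝓞 F), h2c_nu l I ≠ 0 ∧ (∃ y : ZMod l, h2c_nu l I = y ^ p) ∧ h4c_cl I = c}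

theorem h2c_S_one : (1 : ClassGroup (𝓞 F)) ∈ h2c_S (F := F) l p :=
  ⟨⊤, by rw [h2c_nu_top]; exact one_ne_zero, ⟨1, by rw [h2c_nu_top, one_pow]⟩, h4c_cl_top⟩

theorem h2c_S_mul {c₁ c₂ : ClassGroup (𝓞 F)} (h₁ : c₁ ∈ h2c_S (F := F) l p)
    (h₂ : c₂ ∈ h2c_S (F := F) l p) : c₁ * c₂ ∈ h2c_S (F := F) l p := by
  obtain ⟨I₁, hn₁, ⟨y₁, hy₁⟩, rfl⟩ := h₁
  obtain ⟨I₂, hn₂, ⟨y₂, hy₂⟩, rfl⟩ := h₂
  refine ⟨I₁ * I₂, ?_, ⟨y₁ * y₂, ?_⟩, ?_⟩
  · rw [h2c_nu_mul]; exact mul_ne_zero hn₁ hn₂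
  · rw [h2c_nu_mul, hy₁, hy₂, mul_pow]
  · exact h4c_cl_mul (h2c_ne_bot_of_nu_ne_zero l hn₁) (h2c_ne_bot_of_nu_ne_zero l hn₂)

theorem h2c_S_pow {c : ClassGroup (𝓞 F)} (h : c ∈ h2c_S (F := F) l p) (n : ℕ) :
    c ^ n ∈ h2c_S (F := F) l p := by
  induction n with
  | zero => rw [pow_zero]; exact h2c_S_one l p
  | succ n ih => rw [pow_succ]; exact h2c_S_mul l p ih h

/-- The subgroup `H` of classes with a representative prime to `l` of norm a `p`-th power. -/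
def h2c_H : Subgroup (ClassGroup (𝓞 F)) where
  carrier := h2c_S (F := F) l p
  one_mem' := h2c_S_one l p
  mul_mem' := fun h₁ h₂ => h2c_S_mul l p h₁ h₂
  inv_mem' := by
    intro x hx
    have : x⁻¹ = x ^ (Nat.card (ClassGroup (𝓞 F)) - 1) := by
      rw [eq_comm, ← mul_eq_one_iff_eq_inv, ← pow_succ]
      have hpos : 0 < Nat.card (ClassGroup (𝓞 F)) := Nat.card_pos
      rw [Nat.sub_add_cancel hpos]
      exact pow_card_eq_one'
    rw [this]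
    exact h2c_S_pow l p hx _

theorem h2c_mem_H {c : ClassGroup (𝓞 F)} : c ∈ h2c_H (F := F) l p ↔ c ∈ h2c_S (F := F) l p :=
  Iff.rfl

/-- Norm classes lie in `H`. -/
theorem h2c_normSubgroup_le_H
    (hnorm : ∀ 𝔇 : Ideal (𝓞 Ω), h2c_nu l 𝔇 ≠ 0 → ∃ y : ZMod l, h2c_nu l 𝔇 = y ^ p) :
    h4c_normSubgroup F Ω ≤ h2c_H (F := F) l p := by
  unfold h4c_normSubgroup
  rw [Subgroup.closure_le]
  rintro c ⟨𝔇, h𝔇, rfl⟩
  obtain ⟨𝔇', h𝔇'0, hcl, hcop⟩ :=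
    h5c_exists_coprime_cl (h4c_cl 𝔇) (Ideal.span {(l : 𝓞 Ω)}) (h2c_span_l_ne_bot l)
  have hsup : 𝔇' ⊔ Ideal.span {(l : 𝓞 Ω)} = ⊤ := Ideal.isCoprime_iff_sup_eq.mp hcop
  have hν : h2c_nu l 𝔇' ≠ 0 := h2c_nu_ne_zero_of_sup_eq_top l hsup
  have hνeq : h2c_nu l (Ideal.relNorm (𝓞 F) 𝔇') = h2c_nu l 𝔇' := by
    unfold h2c_nu
    rw [Ideal.absNorm_relNorm]
  change h4c_cl (Ideal.relNorm (𝓞 F) 𝔇) ∈ h2c_S (F := F) l p
  refine ⟨Ideal.relNorm (𝓞 F) 𝔇', by rw [hνeq]; exact hν, ?_,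
    h2c_cl_relNorm_congr h𝔇'0 h𝔇 hcl⟩
  rw [hνeq]
  exact hnorm 𝔇' hν

/-- An ideal prime to `l` whose norm is not a `p`-th power mod `l` has its class outside `H`. -/
theorem h2c_not_mem_H
    (hprinc : ∀ x : 𝓞 F, x ≠ 0 → ∃ c : ZMod l, h2c_nu l (Ideal.span {x}) = c ^ p)
    {𝔔 : Ideal (𝓞 F)} (h𝔔 : h2c_nu l 𝔔 ≠ 0) (hnp : ¬ ∃ y : ZMod l, h2c_nu l 𝔔 = y ^ p) :
    h4c_cl 𝔔 ∉ h2c_H (F := F) l p := by
  rintro ⟨I, hI, hIp, hcl⟩
  exact hnp (h2c_star l p hprinc hI h𝔔 hcl hIp)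

/-- ENDGAME of the crossing: if norms of principal ideals of `F` and norms of ideals of `Ω` are
`p`-th powers mod `l`, `[Ω:F] = p`, and some ideal of `F` prime to `l` has norm a non-`p`-th-power,
then every ideal of `F` prime to `l` with norm a `p`-th power mod `l` is, up to principal ideals, a
norm from `Ω`. -/
theorem h2c_mem_normSubgroup_of_pow [IsGalois F Ω] (hdeg : Module.finrank F Ω = p)
    (hprinc : ∀ x : 𝓞 F, x ≠ 0 → ∃ c : ZMod l, h2c_nu l (Ideal.span {x}) = c ^ p)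
    (hnorm : ∀ 𝔇 : Ideal (𝓞 Ω), h2c_nu l 𝔇 ≠ 0 → ∃ y : ZMod l, h2c_nu l 𝔇 = y ^ p)
    {𝔔 : Ideal (𝓞 F)} (h𝔔 : h2c_nu l 𝔔 ≠ 0) (hnp : ¬ ∃ y : ZMod l, h2c_nu l 𝔔 = y ^ p)
    {𝔄 : Ideal (𝓞 F)} (h𝔄 : h2c_nu l 𝔄 ≠ 0) (h𝔄p : ∃ y : ZMod l, h2c_nu l 𝔄 = y ^ p) :
    h4c_cl 𝔄 ∈ h4c_normSubgroup F Ω := by
  have hpp : p.Prime := Fact.out
  have hle := h2c_normSubgroup_le_H (F := F) (Ω := Ω) l p hnorm
  have hA1 : (h4c_normSubgroup F Ω).index ≤ p := hdeg ▸ h7a_A1 F Ω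
  have hN0 : (h4c_normSubgroup F Ω).index ≠ 0 := h7a_A1_ne_zero F Ω
  have hdvd : (h2c_H (F := F) l p).index ∣ (h4c_normSubgroup F Ω).index :=
    Subgroup.index_dvd_of_le hle
  -- `p ∣ H.index`
  have hp_dvd : p ∣ (h2c_H (F := F) l p).index := by
    rw [Subgroup.index_eq_card]
    have hord : orderOf (QuotientGroup.mk (h4c_cl 𝔔) : ClassGroup (𝓞 F) ⧸ h2c_H (F := F) l p) = p := by
      apply orderOf_eq_prime
      · rw [← QuotientGroup.mk_pow, QuotientGroup.eq_one_iff]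
        exact ⟨𝔔 ^ p, by rw [h2c_nu_pow]; exact pow_ne_zero p h𝔔,
          ⟨h2c_nu l 𝔔, h2c_nu_pow l 𝔔 p⟩, h4c_cl_pow (h2c_ne_bot_of_nu_ne_zero l h𝔔) p⟩
      · rw [Ne, QuotientGroup.eq_one_iff]
        exact h2c_not_mem_H l p hprinc h𝔔 hnp
    have := orderOf_dvd_natCard
      (QuotientGroup.mk (h4c_cl 𝔔) : ClassGroup (𝓞 F) ⧸ h2c_H (F := F) l p)
    rwa [hord] at this
  have hH0 : (h2c_H (F := F) l p).index ≠ 0 := fun h => hN0 (by
    rw [h] at hdvd; exact Nat.eq_zero_of_zero_dvd hdvd)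
  have h1 : p ≤ (h2c_H (F := F) l p).index := Nat.le_of_dvd (Nat.pos_of_ne_zero hH0) hp_dvd
  have h2 : (h2c_H (F := F) l p).index ≤ (h4c_normSubgroup F Ω).index :=
    Nat.le_of_dvd (Nat.pos_of_ne_zero hN0) hdvd
  have heq : (h2c_H (F := F) l p).index = (h4c_normSubgroup F Ω).index := by omega
  have hrel := Subgroup.relIndex_mul_index hle
  rw [heq] at hrel
  have hrel1 : (h4c_normSubgroup F Ω).relIndex (h2c_H (F := F) l p) = 1 := by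
    have := Nat.eq_of_mul_eq_mul_right (Nat.pos_of_ne_zero hN0)
      (show (h4c_normSubgroup F Ω).relIndex (h2c_H (F := F) l p) * (h4c_normSubgroup F Ω).index =
        1 * (h4c_normSubgroup F Ω).index by rw [one_mul]; exact hrel)
    exact this
  have hHle : h2c_H (F := F) l p ≤ h4c_normSubgroup F Ω := Subgroup.relIndex_eq_one.mp hrel1
  exact hHle ⟨𝔄, h𝔄, h𝔄p, rfl⟩

end endgame

section adapter

variable {Ω Ω' : Type*} [Field Ω] [Field Ω'] [NumberField Ω] [NumberField Ω'] [Algebra Ω Ω']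
  [IsGalois Ω Ω'] (l p : ℕ) [Fact l.Prime]

/-- The hypothesis `hnorm` of `h2c_mem_normSubgroup_of_pow` from the cyclotomic action: if
`Gal(Ω'/Ω)` acts on a primitive `l`-th root of unity through `p`-th powers, then norms of ideals of
`Ω` prime to `l` are `p`-th powers mod `l`. -/
theorem h2c_hnorm_of_char {ζ : Ω'} (hζ : IsPrimitiveRoot ζ l)
    (hχ : ∀ σ : Gal(Ω'/Ω), ∃ c : ℕ, σ ζ = ζ ^ (c ^ p)) :
    ∀ 𝔇 : Ideal (𝓞 Ω), h2c_nu l 𝔇 ≠ 0 → ∃ y : ZMod l, h2c_nu l 𝔇 = y ^ p := by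
  intro 𝔇 hν
  have h𝔇 : 𝔇 ≠ ⊥ := h2c_ne_bot_of_nu_ne_zero l hν
  apply h2a_absNorm_pow_mod hζ hχ 𝔇 h𝔇
  intro 𝔔 hQ hle hmem
  rw [h2c_nu_ne_zero_iff] at hν
  apply hν
  have h1 : Ideal.absNorm 𝔔 ∣ Ideal.absNorm 𝔇 := Ideal.absNorm_dvd_absNorm_of_le hle
  refine dvd_trans ?_ h1
  by_contra hnd
  have hcop : Nat.Coprime l (Nat.card (𝓞 Ω ⧸ 𝔔)) := by
    rw [h2a_card_quot_eq_absNorm]
    exact ((Fact.out : l.Prime).coprime_iff_not_dvd).mpr hnd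
  exact h2a_natCast_not_mem 𝔔 hcop hmem

end adapter

end Fermat.Agent.Lib.S14
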