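/-
S14 project (speculative), helper4: **the crossing lemma** `h4x_crossStatement : h4n_CrossStatement`
(the shape consumed by `h4n_NT`), assembled from helper6's abstract crossing `h6c_abstract_cross`
with the concrete fields `h6c_F`, `h6c_M` (Cross6Fields), `claim2` (CrossClaim2), `I4` (CrossI4),
the degree one primes (CrossDeg1), the first inequality `h7a_A1` (FirstIneq) and the Artin map
(`h2a_artin`, norms are killed: `h2a_artin_relNorm`).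
-/
import Mathlib
import Fermat.Agent.Lib.S14.Cross6Fields
import Fermat.Agent.Lib.S14.Cross6Abstract
import Fermat.Agent.Lib.S14.CrossI4
import Fermat.Agent.Lib.S14.CrossDeg1
import Fermat.Agent.Lib.S14.CrossClaim2
import Fermat.Agent.Lib.S14.FirstIneq
import Fermat.Agent.Lib.S14.ArtinNorm
import Fermat.Agent.Lib.S14.NTFinal

set_option autoImplicit false
set_option linter.unusedSectionVars false
set_option linter.style.haveILetI false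

open NumberField
open scoped Pointwise

namespace Fermat.Agent.Lib.S14

/-- **The crossing lemma** (`h4n_CrossStatement`), assembled from helper6's abstract crossing. -/
theorem h4x_crossStatement : h4n_CrossStatement := by
  intro K L _ _ _ _ _ _ p _ hp3 _ hdeg hunr l hl hlmod 𝔓₁ 𝔓₂ _ _ h₁ h₂ hl₁ hl₂ j hg₁ hj h₃ h₄
  haveI : Fact l.Prime := ⟨hl⟩
  have hpp : p.Prime := Fact.out
  have hcard : Nat.card Gal(L/K) = p := by rw [IsGalois.card_aut_eq_finrank, hdeg]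
  haveI : IsCyclic Gal(L/K) := isCyclic_of_prime_card hcard
  haveI : IsMulCommutative Gal(L/K) := ⟨⟨fun a b => (IsCyclic.commGroup).mul_comm a b⟩⟩
  have hlp : l ≠ p := by
    rintro rfl
    rw [Nat.mod_self] at hlmod
    exact zero_ne_one hlmod
  have hpl : p ∣ l - 1 := by
    have := Nat.mod_add_div l p
    exact ⟨l / p, by omega⟩
  set g := h2a_frob K L 𝔓₁ h₁ with hgdef
  set q₁ := Ideal.absNorm (𝔓₁.under (𝓞 K)) with hq₁def
  have hcop₁ : Nat.Coprime q₁ l := ((Nat.Prime.coprime_iff_not_dvd hl).mpr hl₁).symm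
  set k : (ZMod l)ˣ := ZMod.unitOfCoprime q₁ hcop₁ with hkdef
  have hkval : ((k : (ZMod l)ˣ) : ZMod l) = (q₁ : ZMod l) := ZMod.coe_unitOfCoprime q₁ hcop₁
  have hk : k ∉ h6c_Pw l p := by
    intro hmem
    obtain ⟨v, hv⟩ := (h6c_mem_Pw l p k).mp hmem
    apply h₃
    refine ⟨(v : ZMod l), ?_⟩
    rw [← hkval, ← hv, Units.val_pow_eq_pow_val]
  have hunr' : ∀ 𝔓 : Ideal (𝓞 L), 𝔓.IsPrime → 𝔓 ≠ ⊥ → 𝔓.inertia Gal(L/K) = ⊥ :=
    fun 𝔓 h𝔓p h𝔓 => @hunr 𝔓 h𝔓p h𝔓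
  haveI hgalFM : IsGalois ↥(h6c_F K L l p g k) ↥(h6c_M K L l p) := h6c_isGalois_F_M hcard
  have hFMfield : Module.finrank ↥(h6c_F K L l p g k) ↥(h6c_M K L l p) = p :=
    h6c_finrank_F_M hunr hlp hpl hcard hg₁
  have hidx : (h4c_normSubgroup ↥(h6c_F K L l p g k) ↥(h6c_M K L l p)).index ≤ p := by
    have := h7a_A1 ↥(h6c_F K L l p g k) ↥(h6c_M K L l p)
    rwa [hFMfield] at this
  have hFM : Module.finrank (𝓞 ↥(h6c_F K L l p g k)) (𝓞 ↥(h6c_M K L l p)) = p := by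
    rw [← IsFractionRing.finrank_eq (𝓞 ↥(h6c_F K L l p g k)) ↥(h6c_F K L l p g k)
      (𝓞 ↥(h6c_M K L l p)) ↥(h6c_M K L l p), hFMfield]
  have hKL : Module.finrank (𝓞 K) (𝓞 L) = p := by
    rw [← IsFractionRing.finrank_eq (𝓞 K) K (𝓞 L) L, hdeg]
  have h𝔮₁ : 𝔓₁.under (𝓞 K) ≠ ⊥ := h2a_under_ne_bot 𝔓₁ h₁
  have h𝔮₂ : 𝔓₂.under (𝓞 K) ≠ ⊥ := h2a_under_ne_bot 𝔓₂ h₂
  obtain ⟨𝔔₁, h𝔔₁⟩ := h4d_exists_over K L l p g k hunr 𝔓₁ h₁ hl₁ 1 (by rw [pow_one])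
    ⟨1, by rw [hkval, pow_one, one_pow, mul_one]⟩
  obtain ⟨y, hy⟩ := h₄
  obtain ⟨𝔔₂, h𝔔₂⟩ := h4d_exists_over K L l p g k hunr 𝔓₂ h₂ hl₂ j hj
    ⟨y, by rw [hkval, hy]⟩
  exact h6c_abstract_cross (L := L) (M := ↥(h6c_M K L l p)) l p (h2a_artin K L)
    (fun I J hI hJ => h2a_artin_mul hI hJ) h2a_artin_top g k
    (fun 𝔄 _ => h2a_artin_relNorm hunr' 𝔄)
    (h4d_claim2 K L l p g k hunr (h2a_artin K L) (fun I J hI hJ => h2a_artin_mul hI hJ)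
      h2a_artin_top (fun 𝔓 _ h𝔓 => h2a_artin_under 𝔓 h𝔓))
    (h4i_I4 K L l p g k hunr hlp hlmod hp3 hcard hg₁)
    (h6c_orderOf_g hcard hg₁) hk hidx hFM hKL
    (𝔓₁.under (𝓞 K)) (𝔓₂.under (𝓞 K)) h𝔮₁ h𝔮₂ hl₁ hl₂ 𝔔₁ 𝔔₂ h𝔔₁ h𝔔₂ j
    (h2a_artin_under 𝔓₁ h₁) (by rw [h2a_artin_under 𝔓₂ h₂, hj])

end Fermat.Agent.Lib.S14
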