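/-
S14 (helper7), piece (C-d) of the crossing: the norm-down step.
`h7c_relNorm_class_mem`: N_{F/K} maps norm classes of Ω/F to norm classes of L/K (K ⊂ F, L ⊂ Ω).
`h7c_norm_down`: [𝔔₂][𝔔₁]^m norm class for Ω/F, N𝔔ᵢ = 𝔮ᵢ, [L:K] ∣ j + m ⇒ [𝔮₂]/[𝔮₁]^j norm class for L/K.
-/
import Mathlib
import Fermat.Agent.Lib.S14.NormClass
import Fermat.Agent.Lib.S14.NTSetup

set_option autoImplicit false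

namespace Fermat.Agent.Lib.S14

open NumberField Ideal

section NormDown

variable {K F L Ω : Type*} [Field K] [NumberField K] [Field F] [NumberField F]
  [Field L] [NumberField L] [Field Ω] [NumberField Ω]
  [Algebra K F] [Algebra K L] [Algebra K Ω] [Algebra F Ω] [Algebra L Ω]
  [IsScalarTower K F Ω] [IsScalarTower K L Ω]

/-- the relative norm maps norm classes of `Ω/F` to norm classes of `L/K` -/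
theorem h7c_relNorm_class_mem (𝔅 : Ideal (𝓞 F)) (h𝔅 : 𝔅 ≠ ⊥)
    (hmem : h4c_cl 𝔅 ∈ h4c_normSubgroup F Ω) :
    h4c_cl (relNorm (𝓞 K) 𝔅) ∈ h4c_normSubgroup K L := by
  obtain ⟨𝔇, h𝔇, he⟩ := (h4n_mem_normSubgroup_iff _).mp hmem
  rw [h4c_cl_of_ne h𝔅, h4c_cl_of_ne (h4c_relNorm_ne_bot F Ω h𝔇), ClassGroup.mk0_eq_mk0_iff] at he
  obtain ⟨x, y, hx, hy, hxy⟩ := he
  simp only at hxy
  -- apply the norm to K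
  have h1 := congrArg (relNorm (𝓞 K)) hxy
  have e : relNorm (𝓞 K) (relNorm (𝓞 L) 𝔇) = relNorm (𝓞 K) 𝔇 :=
    relNorm_relNorm (𝓞 K) (𝓞 L) 𝔇
  rw [map_mul, map_mul, relNorm_singleton, relNorm_singleton, relNorm_relNorm, ← e] at h1
  have hx' : Algebra.intNorm (𝓞 K) (𝓞 F) x ≠ 0 := by
    rwa [Ne, Algebra.intNorm_eq_zero]
  have hy' : Algebra.intNorm (𝓞 K) (𝓞 F) y ≠ 0 := by
    rwa [Ne, Algebra.intNorm_eq_zero]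
  have h𝔇' : relNorm (𝓞 L) 𝔇 ≠ ⊥ := h4c_relNorm_ne_bot L Ω h𝔇
  rw [(h4n_mem_normSubgroup_iff _)]
  refine ⟨relNorm (𝓞 L) 𝔇, h𝔇', ?_⟩
  rw [h4c_cl_of_ne (h4c_relNorm_ne_bot K F h𝔅), h4c_cl_of_ne (h4c_relNorm_ne_bot K L h𝔇'),
    ClassGroup.mk0_eq_mk0_iff]
  exact ⟨_, _, hx', hy', h1⟩

/-- **(C-d) norm-down**: if `[𝔔₂]·[𝔔₁]^m` is a norm class for `Ω/F`, the `𝔔ᵢ` have relative norms
`𝔮ᵢ` to `K`, and `[L:K] ∣ j + m`, then `[𝔮₂]/[𝔮₁]^j` is a norm class for `L/K`. -/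
theorem h7c_norm_down
    (𝔔₁ 𝔔₂ : Ideal (𝓞 F)) (h₁ : 𝔔₁ ≠ ⊥) (h₂ : 𝔔₂ ≠ ⊥) (𝔮₁ 𝔮₂ : Ideal (𝓞 K))
    (hN₁ : relNorm (𝓞 K) 𝔔₁ = 𝔮₁) (hN₂ : relNorm (𝓞 K) 𝔔₂ = 𝔮₂) (j m : ℕ)
    (hm : Module.finrank K L ∣ j + m)
    (hmem : h4c_cl 𝔔₂ * h4c_cl 𝔔₁ ^ m ∈ h4c_normSubgroup F Ω) :
    h4c_cl 𝔮₂ / h4c_cl 𝔮₁ ^ j ∈ h4c_normSubgroup K L := by
  have h𝔮₁ : 𝔮₁ ≠ ⊥ := hN₁ ▸ h4c_relNorm_ne_bot K F h₁
  have h𝔮₂ : 𝔮₂ ≠ ⊥ := hN₂ ▸ h4c_relNorm_ne_bot K F h₂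
  have hprod : 𝔔₂ * 𝔔₁ ^ m ≠ ⊥ := mul_ne_zero h₂ (pow_ne_zero m h₁)
  have h1 : h4c_cl (𝔔₂ * 𝔔₁ ^ m) ∈ h4c_normSubgroup F Ω := by
    rw [h4c_cl_mul h₂ (pow_ne_zero m h₁), h4c_cl_pow h₁]; exact hmem
  have h2 := h7c_relNorm_class_mem (K := K) (L := L) (𝔔₂ * 𝔔₁ ^ m) hprod h1
  rw [map_mul, map_pow, hN₁, hN₂, h4c_cl_mul h𝔮₂ (pow_ne_zero m h𝔮₁), h4c_cl_pow h𝔮₁] at h2
  have hfr : Module.finrank (𝓞 K) (𝓞 L) = Module.finrank K L :=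
    (IsFractionRing.finrank_eq (𝓞 K) K (𝓞 L) L).symm
  have h3 : h4c_cl 𝔮₁ ^ Module.finrank K L ∈ h4c_normSubgroup K L := by
    rw [← hfr]; exact h4c_cl_pow_finrank_mem K L h𝔮₁
  obtain ⟨k, hk⟩ := hm
  have h4 : h4c_cl 𝔮₁ ^ (j + m) ∈ h4c_normSubgroup K L := by
    rw [hk, pow_mul]; exact Subgroup.pow_mem _ h3 k
  have e : h4c_cl 𝔮₂ / h4c_cl 𝔮₁ ^ j =
      (h4c_cl 𝔮₂ * h4c_cl 𝔮₁ ^ m) / h4c_cl 𝔮₁ ^ (j + m) := by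
    rw [pow_add, div_eq_div_iff_mul_eq_mul]
    simp only [mul_comm, mul_assoc]
  rw [e]
  exact Subgroup.div_mem _ h2 h4

end NormDown

end Fermat.Agent.Lib.S14
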